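import Mathlib
import Fermat.Agent.S24.ModDefs
import Fermat.Agent.Lib.Analysis.NthRoot

/-!
# ESJ / JAC-TORS: shared definitions (no proofs)

"Kummer theory on the upper half plane".

* Part 1 (`Dict`): the S24 "analytic dictionary" definitions for an ARBITRARY coefficient field
  `K` with an embedding `ι : K →+* ℂ` (S24's `ModDefs` is the special case `K = ℚ̄`, `ι = iotaK`;
  the descent step of JAC-TORS needs `K = ℂ`, `ι = id`).
* Part 2: meromorphic functions on `U = {Im z > 0}` (as functions `ℂ → ℂ`, Mathlib's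
  `MeromorphicOn`), multiplier systems, parabolic-elliptic characters, the Kummer character.
-/

set_option autoImplicit false

open UpperHalfPlane ModularForm
open scoped MatrixGroups Manifold

noncomputable section

namespace Fermat.Agent.ESJ.Jac

open Fermat.Agent.S24

/-! ## Part 1: the dictionary definitions over `(K, ι)` -/

section Dict

variable (K : Type) [Field K] [Algebra ℚ K]

/-- `F_K = K(j(q^d) : d ∣ N) ⊆ K((q))`, the function field of `X₀(N)` over `K`. -/
abbrev FNK (N : ℕ) : Type := ↥(ModularCurve.laurentBaseChange K (ModularCurve.modularFunctionFieldFull N))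

/-- The formal generator `j(q^d) ∈ F_K`. -/
def jFormalK (N : ℕ) [NeZero N] (d : Dv N) : FNK K N :=
  haveI : NeZero d.1 := d.neZero
  ⟨ModularCurve.coeffEmb K (ModularCurve.qExpand ℚ d.1 ModularCurve.jq),
    ModularCurve.coeffEmb_mem_laurentBaseChange K (ModularCurve.jqd_mem_full N d.2)⟩

/-- `j ∈ F_K`. -/
def jBarK (N : ℕ) [NeZero N] : FNK K N := jFormalK K N ⟨1, one_dvd N⟩

/-- Formal evaluation of a polynomial in the generators. -/
def fmK (N : ℕ) [NeZero N] : MvPolynomial (Dv N) K →ₐ[K] FNK K N :=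
  MvPolynomial.aeval (jFormalK K N)

variable {K}

/-- Analytic evaluation of a polynomial in the generators: `X_d ↦ (z ↦ J(d z))`, coefficients
through `ι`. -/
def evK (ι : K →+* ℂ) (N : ℕ) : MvPolynomial (Dv N) K →+* (ℍ → ℂ) :=
  MvPolynomial.eval₂Hom ((Pi.constRingHom ℍ ℂ).comp ι) (fun d => Jabd d.1 0 1)

/-- `f = fm P / fm Q`. -/
def IsRepK (N : ℕ) [NeZero N] (f : FNK K N) (P Q : MvPolynomial (Dv N) K) : Prop :=
  fmK K N Q ≠ 0 ∧ f = fmK K N P / fmK K N Q

/-- The valuation of `F_K` at the point `τ ∈ ℍ` (order of the meromorphic function at `τ`). -/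
def valPtK (ι : K →+* ℂ) (N : ℕ) [NeZero N] (τ : ℍ) (f : FNK K N) : ℤ :=
  open scoped Classical in
  if h : ∃ P Q, IsRepK N f P Q then
    ordAt (evK ι N h.choose) τ - ordAt (evK ι N h.choose_spec.choose) τ
  else 0

/-- The valuation of `F_K` at the cusp `g⁻¹ ∞`: order at `i∞` of `f ∘ g⁻¹` in `q_N`. -/
def valCuspK (ι : K →+* ℂ) (N : ℕ) [NeZero N] (g : SL(2, ℤ)) (f : FNK K N) : ℤ :=
  open scoped Classical in
  if h : ∃ P Q, IsRepK N f P Q then
    ordInf N (trans g (evK ι N h.choose)) - ordInf N (trans g (evK ι N h.choose_spec.choose))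
  else 0

/-- The meromorphic function on `ℂ` (only its restriction to `U` matters) attached to `f ∈ F_K`:
`ev P / ev Q` for the SAME chosen representative as in `valPtK`. -/
def merK (ι : K →+* ℂ) (N : ℕ) [NeZero N] (f : FNK K N) : ℂ → ℂ :=
  open scoped Classical in
  if h : ∃ P Q, IsRepK N f P Q then
    fun z => evK ι N h.choose (ofComplex z) / evK ι N h.choose_spec.choose (ofComplex z)
  else 0

end Dict

/-! ### Consistency with S24 (`K = ℚ̄`, `ι = iotaK`): everything is definitional -/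

example (N : ℕ) [NeZero N] : FNK KQ N = FN N := rfl
example (N : ℕ) [NeZero N] : jFormalK KQ N = jFormal N := rfl
example (N : ℕ) [NeZero N] : fmK KQ N = fm N := rfl
example (N : ℕ) : evK iotaK N = ev N := rfl
example (N : ℕ) [NeZero N] : @IsRepK KQ _ _ N _ = IsRep N := rfl
example (N : ℕ) [NeZero N] : valPtK iotaK N = valPt N := rfl
example (N : ℕ) [NeZero N] : valCuspK iotaK N = valCusp N := rfl

/-! ## Part 2: meromorphic functions on `U`, multipliers, Kummer characters -/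

/-- The upper half plane as a subset of `ℂ`. -/
def U : Set ℂ := {z : ℂ | 0 < z.im}

/-- The Möbius map of `g ∈ SL(2, ℤ)` on `ℂ` (junk at the pole; on `U` it is the action on `ℍ`). -/
def mob (g : SL(2, ℤ)) (z : ℂ) : ℂ :=
  (((g 0 0 : ℤ) : ℂ) * z + ((g 0 1 : ℤ) : ℂ)) / (((g 1 0 : ℤ) : ℂ) * z + ((g 1 1 : ℤ) : ℂ))

/-- `h (γ z) = χ γ * h z` on `U` for all `γ ∈ Γ`. -/
def HasMultiplier (Γ : Subgroup SL(2, ℤ)) (h : ℂ → ℂ) (χ : Γ →* ℂˣ) : Prop :=
  ∀ γ : Γ, ∀ z ∈ U, h (mob (γ : SL(2, ℤ)) z) = (χ γ : ℂ) * h z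

/-- Parabolic-elliptic characters of exponent `n`: `χ ^ n = 1` and `χ γ = 1` whenever
`tr(γ)² ≤ 4` (i.e. `γ = ±1`, parabolic or elliptic). -/
def IsPEChar (Γ : Subgroup SL(2, ℤ)) (n : ℕ) (χ : Γ →* ℂˣ) : Prop :=
  (∀ γ : Γ, χ γ ^ n = 1) ∧
    ∀ γ : Γ, ((γ : SL(2, ℤ)) : Matrix (Fin 2) (Fin 2) ℤ).trace ^ 2 ≤ 4 → χ γ = 1

/-- `h` is meromorphic at all cusps: for every `g ∈ SL(2, ℤ)`, `h ∘ g` is analytic and of at most
exponential growth on some half plane `Im z > Y`. -/
def MerAtCusps (h : ℂ → ℂ) : Prop :=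
  ∀ g : SL(2, ℤ), ∃ Y M : ℝ, ∀ z : ℂ, Y < z.im →
    AnalyticAt ℂ (fun w => h (mob g w)) z ∧ ‖h (mob g z)‖ ≤ Real.exp (M * z.im)

/-- `χ` is the Kummer character of exponent `n` of `f ∈ F_K`: some meromorphic `n`-th root `h` of
(the meromorphic function of) `f` on `U` satisfies `h (γ z) = χ γ * h z` for `γ ∈ Γ₀(N)`. -/
def IsKummerChar {K : Type} [Field K] [Algebra ℚ K] (ι : K →+* ℂ) (N n : ℕ) [NeZero N]
    (f : FNK K N) (χ : CongruenceSubgroup.Gamma0 N →* ℂˣ) : Prop :=
  ∃ h : ℂ → ℂ, Fermat.Agent.Lib.Analysis.NthRoot.IsRootOn n (merK ι N f) h U ∧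
    HasMultiplier (CongruenceSubgroup.Gamma0 N) h χ

/-- The Kummer group of exponent `n` of a function field: the `f ≠ 0` all of whose orders are
divisible by `n` (as a predicate). -/
def IsKummerElt (K F : Type*) [Field K] [Field F] [Algebra K F] (n : ℕ) (f : F) : Prop :=
  f ≠ 0 ∧ ∀ v : AlgebraicCurve.Place K F, (n : ℤ) ∣ v.ord f

end Fermat.Agent.ESJ.Jac
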