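import Mathlib
import Fermat.Agent.ESJ.Jac.Defs
import Fermat.Agent.Lib.Analysis.NthRoot
import Fermat.Agent.Lib.Analysis.CuspMultiplier

/-!
# ESJ / JAC-TORS, JAC-B3 : `n`-th roots near a cusp

Mathlib-only analysis on a half plane `{z | Y < z.im}`; `q_w = Function.Periodic.qParam w`.

* `isRootOn_periodic` : if `φ = q_w ^ m · ψ(q_w)` near `i∞` (`ψ` analytic at `0`, `ψ 0 ≠ 0`) and
  `n ∣ m`, every `n`-th root of `φ` on the half plane is `w`-periodic.
* `dvd_of_isRootOn_periodic` : conversely a `w`-periodic `n`-th root forces `n ∣ m`.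
* `isRootOn_multiplier_eq_one_iff` : the common statement — the multiplier of `z ↦ z + w` on a
  root is trivial iff `n ∣ m`.
* `IsRootOn.exp_growth` : growth transfer from `φ` to its root.
-/

set_option autoImplicit false

open Complex Set Filter Topology
open scoped Real
open Fermat.Agent.Lib.Analysis.NthRoot

noncomputable section

namespace Fermat.Agent.ESJ.Jac

namespace MultCusp

/-- `q_w (a + b) = q_w a * q_w b`. -/
theorem qParam_add (w : ℝ) (a b : ℂ) :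
    Function.Periodic.qParam w (a + b)
      = Function.Periodic.qParam w a * Function.Periodic.qParam w b := by
  simp only [Function.Periodic.qParam]
  rw [← Complex.exp_add]
  congr 1
  ring

/-- `q_w (z + w) = q_w z`. -/
theorem qParam_add_period {w : ℝ} (hw : w ≠ 0) (z : ℂ) :
    Function.Periodic.qParam w (z + w) = Function.Periodic.qParam w z := by
  have hw' : (w : ℂ) ≠ 0 := ofReal_ne_zero.mpr hw
  simp only [Function.Periodic.qParam]
  have : 2 * π * I * (z + w) / w = 2 * π * I * z / w + 2 * π * I := by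
    field_simp
  rw [this, Complex.exp_add, Complex.exp_two_pi_mul_I, mul_one]

theorem analyticAt_qParam (w : ℝ) (z : ℂ) : AnalyticAt ℂ (Function.Periodic.qParam w) z := by
  unfold Function.Periodic.qParam
  fun_prop

/-- Near `i∞` a function of the shape `q_w ^ m · ψ(q_w)` (`ψ` analytic at `0`, `ψ 0 ≠ 0`) is
analytic and zero-free. -/
theorem exists_analyticAt_ne_zero {φ : ℂ → ℂ} {Y : ℝ} {w : ℝ} (hw : 0 < w) (m : ℤ)
    (ψ : ℂ → ℂ) (hψ : AnalyticAt ℂ ψ 0) (hψ0 : ψ 0 ≠ 0)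
    (hφ : ∀ z : ℂ, Y < z.im →
      φ z = Function.Periodic.qParam w z ^ m * ψ (Function.Periodic.qParam w z)) :
    ∃ Y₂ : ℝ, Y ≤ Y₂ ∧ ∀ z : ℂ, Y₂ < z.im → AnalyticAt ℂ φ z ∧ φ z ≠ 0 := by
  have h1 : ∀ᶠ u in 𝓝 (0 : ℂ), AnalyticAt ℂ ψ u ∧ ψ u ≠ 0 :=
    hψ.eventually_analyticAt.and (hψ.continuousAt.eventually_ne hψ0)
  have h2 : ∀ᶠ z in comap Complex.im atTop,
      AnalyticAt ℂ ψ (Function.Periodic.qParam w z) ∧ ψ (Function.Periodic.qParam w z) ≠ 0 :=
    ((Function.Periodic.qParam_tendsto hw).mono_right nhdsWithin_le_nhds).eventually h1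
  rw [Filter.eventually_comap] at h2
  obtain ⟨a, ha⟩ := eventually_atTop.mp h2
  refine ⟨max a Y, le_max_right _ _, fun z hz => ?_⟩
  have hzY : Y < z.im := lt_of_le_of_lt (le_max_right _ _) hz
  obtain ⟨hψz, hψz0⟩ := ha z.im ((le_max_left _ _).trans hz.le) z rfl
  have hq0 : Function.Periodic.qParam w z ≠ 0 := Function.Periodic.qParam_ne_zero z
  have hopen : IsOpen {z : ℂ | Y < z.im} := isOpen_lt continuous_const Complex.continuous_im
  have hev : φ =ᶠ[𝓝 z]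
      fun z => Function.Periodic.qParam w z ^ m * ψ (Function.Periodic.qParam w z) := by
    filter_upwards [hopen.mem_nhds hzY] with y hy using hφ y hy
  have han : AnalyticAt ℂ
      (fun z => Function.Periodic.qParam w z ^ m * ψ (Function.Periodic.qParam w z)) z :=
    ((analyticAt_qParam w z).zpow hq0).mul
      (AnalyticAt.comp (g := ψ) (f := Function.Periodic.qParam w) hψz (analyticAt_qParam w z))
  refine ⟨han.congr hev.symm, ?_⟩
  rw [hφ z hzY]
  exact mul_ne_zero (zpow_ne_zero m hq0) hψz0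

/-- The orders of `φ` on the half plane are finite. -/
theorem order_ne_top {n : ℕ} {φ h : ℂ → ℂ} {Y : ℝ} {w : ℝ} (hw : 0 < w)
    (hh : IsRootOn n φ h {z : ℂ | Y < z.im}) (m : ℤ)
    (ψ : ℂ → ℂ) (hψ : AnalyticAt ℂ ψ 0) (hψ0 : ψ 0 ≠ 0)
    (hφ : ∀ z : ℂ, Y < z.im →
      φ z = Function.Periodic.qParam w z ^ m * ψ (Function.Periodic.qParam w z)) :
    ∀ z ∈ {z : ℂ | Y < z.im}, meromorphicOrderAt φ z ≠ ⊤ := by
  obtain ⟨Y₂, hY₂, hY₂'⟩ := exists_analyticAt_ne_zero hw m ψ hψ hψ0 hφ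
  have hmer : MeromorphicOn φ {z : ℂ | Y < z.im} := fun z hz =>
    ((hh.1 hz).meromorphicAt.pow n).congr (hh.2 z hz)
  have hconn : IsConnected {z : ℂ | Y < z.im} :=
    ⟨⟨((Y + 1 : ℝ) : ℂ) * I, by simp⟩, (convex_halfSpace_im_gt Y).isPreconnected⟩
  have hex : ∃ u : {z : ℂ | Y < z.im}, meromorphicOrderAt φ u ≠ ⊤ := by
    refine ⟨⟨((Y₂ + 1 : ℝ) : ℂ) * I, ?_⟩, ?_⟩
    · simp only [Set.mem_ofPred_eq, mul_im, ofReal_re, I_im, mul_one, ofReal_im, I_re, mul_zero,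
        add_zero]
      linarith
    · have hz : Y₂ < (((Y₂ + 1 : ℝ) : ℂ) * I).im := by simp
      have h0 := (hY₂' _ hz)
      rw [h0.1.meromorphicOrderAt_eq, h0.1.analyticOrderAt_eq_zero.mpr h0.2]
      simp
  intro z hz
  exact (hmer.exists_meromorphicOrderAt_ne_top_iff_forall hconn).1 hex ⟨z, hz⟩

end MultCusp

open MultCusp

/-- **The multiplier of the translation at a cusp.** If `φ = q_w ^ m · ψ(q_w)` near `i∞` with
`ψ` analytic at `0`, `ψ 0 ≠ 0`, and an `n`-th root `h` of `φ` on the half plane satisfies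
`h (z + w) = ζ h z`, then `ζ = 1` iff `n ∣ m`. -/
theorem isRootOn_multiplier_eq_one_iff {n : ℕ} (hn : n ≠ 0) {φ h : ℂ → ℂ} {Y : ℝ} (w : ℕ)
    (hw : 0 < w) (hh : IsRootOn n φ h {z : ℂ | Y < z.im}) (m : ℤ)
    (ψ : ℂ → ℂ) (hψ : AnalyticAt ℂ ψ 0) (hψ0 : ψ 0 ≠ 0)
    (hφ : ∀ z : ℂ, Y < z.im →
      φ z = Function.Periodic.qParam (w : ℝ) z ^ m * ψ (Function.Periodic.qParam (w : ℝ) z))
    {ζ : ℂ} (hζn : ζ ^ n = 1) (hζ : ∀ z : ℂ, Y < z.im → h (z + w) = ζ * h z) :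
    ζ = 1 ↔ (n : ℤ) ∣ m := by
  have hwR : (0 : ℝ) < (w : ℝ) := by exact_mod_cast hw
  obtain ⟨Y₁, hY₁, hY₁'⟩ := exists_analyticAt_ne_zero hwR m ψ hψ hψ0 hφ
  -- shift the half plane `{Y₁ < im}` to the upper half plane
  set s : ℂ → ℂ := fun z => z + (Y₁ : ℂ) * I with hs
  have hsim : ∀ z : ℂ, (s z).im = z.im + Y₁ := fun z => by simp [hs]
  have hsan : ∀ z : ℂ, AnalyticAt ℂ s z := fun z => by
    simp only [hs]
    fun_prop
  have hsderiv : ∀ z : ℂ, deriv s z ≠ 0 := fun z => by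
    have : HasDerivAt s 1 z := by
      simpa [hs] using (hasDerivAt_id z).add_const ((Y₁ : ℂ) * I)
    rw [this.deriv]
    exact one_ne_zero
  have hmaps : MapsTo s {z : ℂ | 0 < z.im} {z : ℂ | Y < z.im} := fun z hz => by
    have hz' : (0 : ℝ) < z.im := hz
    show Y < (s z).im
    rw [hsim]
    linarith
  have hh' : IsRootOn n (φ ∘ s) (h ∘ s) {z : ℂ | 0 < z.im} :=
    hh.comp (fun z _ => hsan z) (fun z _ => hsderiv z) hmaps
  have hζ' : ∀ z : ℂ, 0 < z.im → (h ∘ s) (z + ((w : ℝ) : ℂ)) = ζ * (h ∘ s) z := by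
    intro z hz
    have e : s (z + ((w : ℝ) : ℂ)) = s z + (w : ℂ) := by
      simp only [hs, ofReal_natCast]
      ring
    simp only [Function.comp_apply]
    rw [e]
    exact hζ (s z) (hmaps hz)
  have hfan : ∀ z : ℂ, (0 : ℝ) < z.im → AnalyticAt ℂ (φ ∘ s) z := by
    intro z hz
    have hz' : Y₁ < (s z).im := by rw [hsim]; linarith
    exact AnalyticAt.comp (g := φ) (f := s) (hY₁' (s z) hz').1 (hsan z)
  -- the limit at `i∞`
  set ρ : ℂ := Function.Periodic.qParam (w : ℝ) ((Y₁ : ℂ) * I) with hρ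
  have hρ0 : ρ ≠ 0 := Function.Periodic.qParam_ne_zero _
  have hc : ρ ^ m * ψ 0 ≠ 0 := mul_ne_zero (zpow_ne_zero m hρ0) hψ0
  have hq0 : Tendsto (fun z : ℂ => Function.Periodic.qParam (w : ℝ) z * ρ)
      (comap Complex.im atTop) (𝓝 0) := by
    have h1 : Tendsto (Function.Periodic.qParam (w : ℝ)) (comap Complex.im atTop) (𝓝 0) :=
      (Function.Periodic.qParam_tendsto hwR).mono_right nhdsWithin_le_nhds
    simpa using h1.mul_const ρ
  have hlim0 : Tendsto (fun z : ℂ => ρ ^ m * ψ (Function.Periodic.qParam (w : ℝ) z * ρ))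
      (comap Complex.im atTop) (𝓝 (ρ ^ m * ψ 0)) :=
    (hψ.continuousAt.tendsto.comp hq0).const_mul (ρ ^ m)
  have hlim : Tendsto (fun z : ℂ => Function.Periodic.qParam (w : ℝ) z ^ (-m) * (φ ∘ s) z)
      (comap Complex.im atTop) (𝓝 (ρ ^ m * ψ 0)) := by
    refine hlim0.congr' ?_
    have hpos : ∀ᶠ z in comap Complex.im atTop, (0 : ℝ) < z.im :=
      tendsto_comap.eventually (eventually_gt_atTop 0)
    filter_upwards [hpos] with z hz
    have hqz : Function.Periodic.qParam (w : ℝ) z ≠ 0 := Function.Periodic.qParam_ne_zero z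
    have e1 : Function.Periodic.qParam (w : ℝ) (s z) = Function.Periodic.qParam (w : ℝ) z * ρ := by
      simp only [hs, hρ]
      exact qParam_add _ _ _
    simp only [Function.comp_apply]
    rw [hφ (s z) (hmaps hz), e1, mul_zpow, ← mul_assoc, ← mul_assoc, ← zpow_add₀ hqz]
    simp
  exact Fermat.Agent.Lib.Analysis.CuspMultiplier.cusp_multiplier_eq_one_iff hn hh' hwR hζn hζ'
    hc hfan hlim

/-- If `φ = q_w ^ m · ψ(q_w)` near `i∞` with `n ∣ m`, every `n`-th root of `φ` on the half plane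
is `w`-periodic. -/
theorem isRootOn_periodic {n : ℕ} (hn : n ≠ 0) {φ h : ℂ → ℂ} {Y : ℝ} (w : ℕ) (hw : 0 < w)
    (hh : IsRootOn n φ h {z : ℂ | Y < z.im}) (m : ℤ) (hm : (n : ℤ) ∣ m)
    (ψ : ℂ → ℂ) (hψ : AnalyticAt ℂ ψ 0) (hψ0 : ψ 0 ≠ 0)
    (hφ : ∀ z : ℂ, Y < z.im →
      φ z = Function.Periodic.qParam (w : ℝ) z ^ m * ψ (Function.Periodic.qParam (w : ℝ) z)) :
    ∀ z : ℂ, Y < z.im → h (z + w) = h z := by
  have hwR : (0 : ℝ) < (w : ℝ) := by exact_mod_cast hw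
  have hopen : IsOpen {z : ℂ | Y < z.im} := isOpen_lt continuous_const Complex.continuous_im
  have hfin := order_ne_top hwR hh m ψ hψ hψ0 hφ
  have hmaps : MapsTo (fun z : ℂ => z + (w : ℂ)) {z : ℂ | Y < z.im} {z : ℂ | Y < z.im} :=
    fun z hz => by
      have hz' : Y < z.im := hz
      show Y < (z + (w : ℂ)).im
      simpa using hz'
  have hper : ∀ z : ℂ, Y < z.im → φ (z + (w : ℂ)) = φ z := by
    intro z hz
    have e := qParam_add_period hwR.ne' z
    rw [ofReal_natCast] at e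
    rw [hφ z hz, hφ (z + (w : ℂ)) (hmaps hz), e]
  obtain ⟨ζ, hζn, hζ⟩ := hh.exists_const_comp hn hopen (convex_halfSpace_im_gt Y).isPreconnected
    hfin (γ := fun z : ℂ => z + (w : ℂ)) (fun z _ => by fun_prop)
    (fun z _ => by
      have : HasDerivAt (fun z : ℂ => z + (w : ℂ)) 1 z := (hasDerivAt_id z).add_const (w : ℂ)
      rw [this.deriv]
      exact one_ne_zero)
    hmaps
    (fun z hz => by
      filter_upwards [eventually_nhdsWithin_of_eventually_nhds (hopen.mem_nhds hz)] with y hy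
      exact hper y hy)
  have hζ1 : ζ = 1 :=
    (isRootOn_multiplier_eq_one_iff hn w hw hh m ψ hψ hψ0 hφ hζn (fun z hz => hζ z hz)).2 hm
  intro z hz
  rw [hζ z hz, hζ1, one_mul]

/-- Conversely, a `w`-periodic `n`-th root forces `n ∣ m`. -/
theorem dvd_of_isRootOn_periodic {n : ℕ} (hn : n ≠ 0) {φ h : ℂ → ℂ} {Y : ℝ} (w : ℕ) (hw : 0 < w)
    (hh : IsRootOn n φ h {z : ℂ | Y < z.im}) (m : ℤ)
    (ψ : ℂ → ℂ) (hψ : AnalyticAt ℂ ψ 0) (hψ0 : ψ 0 ≠ 0)
    (hφ : ∀ z : ℂ, Y < z.im →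
      φ z = Function.Periodic.qParam (w : ℝ) z ^ m * ψ (Function.Periodic.qParam (w : ℝ) z))
    (hper : ∀ z : ℂ, Y < z.im → h (z + w) = h z) : (n : ℤ) ∣ m :=
  (isRootOn_multiplier_eq_one_iff hn w hw hh m ψ hψ hψ0 hφ (ζ := 1) (one_pow n)
    (fun z hz => by rw [hper z hz, one_mul])).1 rfl

/-- Growth transfer: if `φ` is analytic and `O(exp (M · Im z))` on the half plane, its `n`-th
root is analytic and `O(exp (M / n · Im z))`. -/
theorem IsRootOn.exp_growth {n : ℕ} (hn : n ≠ 0) {φ h : ℂ → ℂ} {Y M : ℝ}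
    (hh : IsRootOn n φ h {z : ℂ | Y < z.im}) (han : ∀ z : ℂ, Y < z.im → AnalyticAt ℂ φ z)
    (hb : ∀ z : ℂ, Y < z.im → ‖φ z‖ ≤ Real.exp (M * z.im)) :
    ∀ z : ℂ, Y < z.im → AnalyticAt ℂ h z ∧ ‖h z‖ ≤ Real.exp (M / n * z.im) := by
  intro z hz
  refine ⟨hh.analyticAt hn hz (han z hz), ?_⟩
  have hpow : h z ^ n = φ z := hh.pow_eq hn hz (han z hz)
  by_contra hlt
  rw [not_le] at hlt
  have h1 : Real.exp (M / n * z.im) ^ n < ‖h z‖ ^ n :=
    pow_lt_pow_left₀ hlt (Real.exp_pos _).le hn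
  have h2 : Real.exp (M / n * z.im) ^ n = Real.exp (M * z.im) := by
    rw [← Real.exp_nat_mul]
    congr 1
    have hn' : (n : ℝ) ≠ 0 := Nat.cast_ne_zero.mpr hn
    field_simp
  rw [h2, ← norm_pow, hpow] at h1
  exact absurd (hb z hz) (not_le.mpr h1)

end Fermat.Agent.ESJ.Jac
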