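import Mathlib
import Fermat.Agent.ESJ.Jac.Defs
import Fermat.Agent.Lib.Analysis.NthRoot
import Fermat.Agent.S24.OrdH

/-!
# ESJ / JAC-B2: the multiplier of an `n`-th root at an elliptic fixed point

If `h` is a meromorphic `n`-th root on `U` with multiplier `χ` and `δ` fixes `τ`, then
`χ δ = (mob δ)'(τ) ^ ord_τ h`; the derivative at the fixed point of an element of exact order `e`
in `PSL₂(ℤ)` is a primitive `e`-th root of unity.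
-/

set_option autoImplicit false

open UpperHalfPlane Complex Filter Topology
open scoped MatrixGroups

noncomputable section

namespace Fermat.Agent.ESJ.Jac

open Fermat.Agent.Lib.Analysis.NthRoot

namespace MultFixed

theorem denom_eq (g : SL(2, ℤ)) (z : ℂ) :
    denom (g : GL (Fin 2) ℝ) z = ((g 1 0 : ℤ) : ℂ) * z + ((g 1 1 : ℤ) : ℂ) := by
  simp [denom]

theorem num_eq (g : SL(2, ℤ)) (z : ℂ) :
    num (g : GL (Fin 2) ℝ) z = ((g 0 0 : ℤ) : ℂ) * z + ((g 0 1 : ℤ) : ℂ) := by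
  simp [num]

theorem mob_eq_moeb (g : SL(2, ℤ)) : mob g = S24.OrdH.moeb (g : GL (Fin 2) ℝ) := by
  funext z
  rw [mob, S24.OrdH.moeb, denom_eq, num_eq]

theorem mob_coe' (g : SL(2, ℤ)) (τ : ℍ) : mob g (τ : ℂ) = ((g • τ : ℍ) : ℂ) := by
  rw [mob_eq_moeb, ModularGroup.sl_moeb, S24.OrdH.coe_smul_eq_moeb (S24.OrdH.det_pos_SL g)]

theorem hasDerivAt_mob (g : SL(2, ℤ)) {z : ℂ} (hz : 0 < z.im) :
    HasDerivAt (mob g) (1 / denom (g : GL (Fin 2) ℝ) z ^ 2) z := by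
  rw [mob_eq_moeb]
  have h := S24.OrdH.hasDerivAt_moeb (g : GL (Fin 2) ℝ) hz
  have hdet : (((g : GL (Fin 2) ℝ).det.val : ℝ) : ℂ) = 1 := by simp
  rwa [hdet] at h

theorem deriv_mob' (g : SL(2, ℤ)) {z : ℂ} (hz : 0 < z.im) :
    deriv (mob g) z = 1 / denom (g : GL (Fin 2) ℝ) z ^ 2 :=
  (hasDerivAt_mob g hz).deriv

theorem deriv_mob_ne_zero (g : SL(2, ℤ)) {z : ℂ} (hz : 0 < z.im) : deriv (mob g) z ≠ 0 := by
  rw [deriv_mob' g hz]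
  exact one_div_ne_zero (pow_ne_zero 2 (denom_ne_zero_of_im _ hz.ne'))

end MultFixed

open MultFixed

/-- at a fixed point the multiplier is the derivative raised to the order -/
theorem multiplier_fixed_point {Γ : Subgroup SL(2, ℤ)} {n : ℕ} (hn : n ≠ 0) {f h : ℂ → ℂ}
    (hfin : ∀ z ∈ U, meromorphicOrderAt f z ≠ ⊤) (hh : IsRootOn n f h U) {χ : Γ →* ℂˣ}
    (hχ : HasMultiplier Γ h χ) (δ : Γ) (τ : ℍ) (hδ : (δ : SL(2, ℤ)) • τ = τ) :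
    (χ δ : ℂ) = deriv (mob (δ : SL(2, ℤ))) (τ : ℂ) ^ (meromorphicOrderAt h (τ : ℂ)).untop₀ := by
  have hτU : (τ : ℂ) ∈ U := τ.im_pos
  have hUo : IsOpen U := isOpen_lt continuous_const Complex.continuous_im
  have hfix : mob (δ : SL(2, ℤ)) (τ : ℂ) = (τ : ℂ) := by rw [mob_coe', hδ]
  have hD := hasDerivAt_mob (δ : SL(2, ℤ)) τ.im_pos
  have hD0 : deriv (mob (δ : SL(2, ℤ))) (τ : ℂ) ≠ 0 := deriv_mob_ne_zero _ τ.im_pos
  -- the order of `h` at `τ` is finite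
  have hord : meromorphicOrderAt h (τ : ℂ) ≠ ⊤ := hh.order_ne_top hn hτU (hfin _ hτU)
  have hmer : MeromorphicAt h (τ : ℂ) := (hh.1 hτU).meromorphicAt
  obtain ⟨g, hg, hg0, hhg⟩ := (meromorphicOrderAt_ne_top_iff hmer).1 hord
  set m : ℤ := (meromorphicOrderAt h (τ : ℂ)).untop₀ with hm
  -- `mob δ` maps punctured neighbourhoods of `τ` to punctured neighbourhoods of `τ`
  have htend : Tendsto (mob (δ : SL(2, ℤ))) (𝓝[≠] (τ : ℂ)) (𝓝[≠] (τ : ℂ)) := by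
    have := hD.tendsto_nhdsNE (by rw [← hD.deriv]; exact hD0)
    rwa [hfix] at this
  have h1 : ∀ᶠ z in 𝓝[≠] (τ : ℂ), h (mob (δ : SL(2, ℤ)) z) =
      (mob (δ : SL(2, ℤ)) z - τ) ^ m • g (mob (δ : SL(2, ℤ)) z) := htend.eventually hhg
  have h2 : ∀ᶠ z in 𝓝[≠] (τ : ℂ), z ∈ U :=
    eventually_nhdsWithin_of_eventually_nhds (hUo.mem_nhds hτU)
  have h3 : ∀ᶠ z in 𝓝[≠] (τ : ℂ), z ≠ (τ : ℂ) := eventually_mem_nhdsWithin
  -- the key identity on a punctured neighbourhood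
  have key : ∀ᶠ z in 𝓝[≠] (τ : ℂ),
      slope (mob (δ : SL(2, ℤ))) (τ : ℂ) z ^ m * g (mob (δ : SL(2, ℤ)) z) = (χ δ : ℂ) * g z := by
    filter_upwards [h1, h2, h3, hhg] with z hz1 hz2 hz3 hz4
    have e1 := hχ δ z hz2
    rw [hz1, hz4] at e1
    simp only [smul_eq_mul] at e1
    have hne : z - (τ : ℂ) ≠ 0 := sub_ne_zero.mpr hz3
    have hslope : slope (mob (δ : SL(2, ℤ))) (τ : ℂ) z = (mob (δ : SL(2, ℤ)) z - τ) / (z - τ) := by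
      rw [slope_def_field, hfix]
    rw [hslope, div_zpow]
    field_simp
    linear_combination e1
  -- pass to the limit
  have hslope : Tendsto (slope (mob (δ : SL(2, ℤ))) (τ : ℂ)) (𝓝[≠] (τ : ℂ))
      (𝓝 (deriv (mob (δ : SL(2, ℤ))) (τ : ℂ))) := by
    rw [hD.deriv]
    exact hD.tendsto_slope
  have hgc : Tendsto g (𝓝[≠] (τ : ℂ)) (𝓝 (g τ)) :=
    hg.continuousAt.tendsto.mono_left nhdsWithin_le_nhds
  have hgc' : Tendsto (fun z => g (mob (δ : SL(2, ℤ)) z)) (𝓝[≠] (τ : ℂ)) (𝓝 (g τ)) :=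
    (hg.continuousAt.tendsto.mono_left nhdsWithin_le_nhds).comp htend
  have hL : Tendsto (fun z => slope (mob (δ : SL(2, ℤ))) (τ : ℂ) z ^ m * g (mob (δ : SL(2, ℤ)) z))
      (𝓝[≠] (τ : ℂ)) (𝓝 (deriv (mob (δ : SL(2, ℤ))) (τ : ℂ) ^ m * g τ)) :=
    (((continuousAt_zpow₀ _ m (Or.inl hD0)).tendsto).comp hslope).mul hgc'
  have hR : Tendsto (fun z => (χ δ : ℂ) * g z) (𝓝[≠] (τ : ℂ)) (𝓝 ((χ δ : ℂ) * g τ)) :=
    hgc.const_mul _
  have hlim := tendsto_nhds_unique (hL.congr' key) hR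
  exact (mul_right_cancel₀ hg0 hlim).symm

namespace MultFixed

theorem pow_smul_of_fixed (δ : SL(2, ℤ)) (τ : ℍ) (hδ : δ • τ = τ) (k : ℕ) : (δ ^ k) • τ = τ := by
  induction k with
  | zero => simp
  | succ k ih => rw [pow_succ, mul_smul, hδ, ih]

theorem eq_one_of_denom_eq_one (γ : SL(2, ℤ)) (τ : ℍ) (hfix : γ • τ = τ)
    (hμ : denom (γ : GL (Fin 2) ℝ) τ = 1) : γ = 1 := by
  have h1 : (-γ) • τ = τ := by rw [ModularGroup.SL_neg_smul, hfix]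
  have h2 : denom ((-γ : SL(2, ℤ)) : GL (Fin 2) ℝ) τ = -1 := by
    rw [ModularGroup.denom_apply] at hμ ⊢
    rw [← hμ]
    simp
    ring
  have h3 := S24.OrdH.eq_neg_one_of_denom_eq_neg_one (-γ) τ h1 h2
  exact neg_inj.mp h3

theorem deriv_mob_pow (δ : SL(2, ℤ)) (τ : ℍ) (hδ : δ • τ = τ) (k : ℕ) :
    deriv (mob δ) (τ : ℂ) ^ k = 1 / denom ((δ ^ k : SL(2, ℤ)) : GL (Fin 2) ℝ) τ ^ 2 := by
  rw [deriv_mob' δ τ.im_pos, S24.OrdH.denom_SL_pow_of_fixed δ τ hδ k, one_div_pow, ← pow_mul,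
    ← pow_mul, mul_comm]

/-- `(mob δ)'(τ) ^ k = 1` iff `δ ^ k = ± 1` (for `δ` fixing `τ`). -/
theorem deriv_mob_pow_eq_one_iff (δ : SL(2, ℤ)) (τ : ℍ) (hδ : δ • τ = τ) (k : ℕ) :
    deriv (mob δ) (τ : ℂ) ^ k = 1 ↔ (δ ^ k = 1 ∨ δ ^ k = -1) := by
  rw [deriv_mob_pow δ τ hδ k]
  constructor
  · intro h
    have hμ0 : denom ((δ ^ k : SL(2, ℤ)) : GL (Fin 2) ℝ) τ ≠ 0 :=
      denom_ne_zero_of_im _ τ.im_ne_zero
    have hsq : denom ((δ ^ k : SL(2, ℤ)) : GL (Fin 2) ℝ) τ ^ 2 = 1 := by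
      have h' := h
      rw [div_eq_iff (pow_ne_zero 2 hμ0), one_mul] at h'
      exact h'.symm
    have hfixk := pow_smul_of_fixed δ τ hδ k
    rcases sq_eq_one_iff.mp hsq with h1 | h1
    · exact Or.inl (eq_one_of_denom_eq_one _ τ hfixk h1)
    · exact Or.inr (S24.OrdH.eq_neg_one_of_denom_eq_neg_one _ τ hfixk h1)
  · rintro (h | h)
    · rw [h]
      simp [denom]
    · rw [h, S24.OrdH.denom_SL_neg_one]
      norm_num

end MultFixed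

/-- the derivative at a fixed point of an element of exact order `e` in `PSL₂(ℤ)` is a primitive
`e`-th root of unity -/
theorem deriv_mob_fixed_point (δ : SL(2, ℤ)) (τ : ℍ) (hδ : δ • τ = τ) (e : ℕ) (he : 0 < e)
    (hpow : δ ^ e = 1 ∨ δ ^ e = -1)
    (hmin : ∀ k : ℕ, 0 < k → k < e → δ ^ k ≠ 1 ∧ δ ^ k ≠ -1) :
    IsPrimitiveRoot (deriv (mob δ) (τ : ℂ)) e := by
  refine IsPrimitiveRoot.mk_of_lt _ he ((deriv_mob_pow_eq_one_iff δ τ hδ e).2 hpow) ?_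
  intro l hl hle hone
  rcases (deriv_mob_pow_eq_one_iff δ τ hδ l).1 hone with h | h
  · exact (hmin l hl hle).1 h
  · exact (hmin l hl hle).2 h

/-- Corollary (i): if the order of `h` at the fixed point is divisible by `e`, the multiplier of
`δ` is trivial. -/
theorem multiplier_eq_one_of_dvd {Γ : Subgroup SL(2, ℤ)} {n : ℕ} (hn : n ≠ 0) {f h : ℂ → ℂ}
    (hfin : ∀ z ∈ U, meromorphicOrderAt f z ≠ ⊤) (hh : IsRootOn n f h U) {χ : Γ →* ℂˣ}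
    (hχ : HasMultiplier Γ h χ) (δ : Γ) (τ : ℍ) (hδ : (δ : SL(2, ℤ)) • τ = τ) (e : ℕ) (he : 0 < e)
    (hpow : (δ : SL(2, ℤ)) ^ e = 1 ∨ (δ : SL(2, ℤ)) ^ e = -1)
    (hmin : ∀ k : ℕ, 0 < k → k < e → (δ : SL(2, ℤ)) ^ k ≠ 1 ∧ (δ : SL(2, ℤ)) ^ k ≠ -1)
    (hdvd : (e : ℤ) ∣ (meromorphicOrderAt h (τ : ℂ)).untop₀) : χ δ = 1 := by
  have hprim := deriv_mob_fixed_point (δ : SL(2, ℤ)) τ hδ e he hpow hmin
  have h1 := multiplier_fixed_point hn hfin hh hχ δ τ hδ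
  rw [(hprim.zpow_eq_one_iff_dvd _).2 hdvd] at h1
  exact Units.ext h1

/-- Corollary (ii): if the multiplier of `δ` is trivial, the order of `h` at the fixed point is
divisible by `e`. -/
theorem dvd_of_multiplier_eq_one {Γ : Subgroup SL(2, ℤ)} {n : ℕ} (hn : n ≠ 0) {f h : ℂ → ℂ}
    (hfin : ∀ z ∈ U, meromorphicOrderAt f z ≠ ⊤) (hh : IsRootOn n f h U) {χ : Γ →* ℂˣ}
    (hχ : HasMultiplier Γ h χ) (δ : Γ) (τ : ℍ) (hδ : (δ : SL(2, ℤ)) • τ = τ) (e : ℕ) (he : 0 < e)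
    (hpow : (δ : SL(2, ℤ)) ^ e = 1 ∨ (δ : SL(2, ℤ)) ^ e = -1)
    (hmin : ∀ k : ℕ, 0 < k → k < e → (δ : SL(2, ℤ)) ^ k ≠ 1 ∧ (δ : SL(2, ℤ)) ^ k ≠ -1)
    (hone : χ δ = 1) : (e : ℤ) ∣ (meromorphicOrderAt h (τ : ℂ)).untop₀ := by
  have hprim := deriv_mob_fixed_point (δ : SL(2, ℤ)) τ hδ e he hpow hmin
  have h1 := multiplier_fixed_point hn hfin hh hχ δ τ hδ
  rw [hone] at h1
  exact (hprim.zpow_eq_one_iff_dvd _).1 h1.symm

end Fermat.Agent.ESJ.Jac
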