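/-
ESJ / JAC-TORS, task JAC-B1 (helper79): the multiplier character of a meromorphic `n`-th root on
`U = {Im z > 0}` (on `Lib/Analysis/NthRoot.IsRootOn`).

  * `mob_*` : the Möbius maps `mob g` on `U`;
  * `exists_multiplier` : a root `h` of a `Γ`-invariant `f` has a multiplier character
    `χ : Γ →* ℂˣ` with `χ ^ n = 1`;
  * `HasMultiplier.unique`, `HasMultiplier.of_isRootOn` : the character only depends on `f`;
  * `exists_isRootOn_mul`, `exists_isRootOn_pow`, `exists_isRootOn_pow_root` :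
    multiplicativity, triviality on `n`-th powers, compatibility with powers.
-/
import Mathlib
import Fermat.Agent.ESJ.Jac.Defs
import Fermat.Agent.Lib.Analysis.NthRoot

set_option autoImplicit false

open Complex Filter Topology UpperHalfPlane Set
open scoped MatrixGroups

namespace Fermat.Agent.ESJ.Jac

open Fermat.Agent.Lib.Analysis.NthRoot

/-! ### The set `U` and the Möbius maps -/

theorem isOpen_U : IsOpen U := isOpen_lt continuous_const Complex.continuous_im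

theorem convex_U : Convex ℝ U := by
  intro x hx y hy a b ha hb hab
  simp only [U, Set.mem_ofPred_eq] at hx hy ⊢
  simp only [Complex.add_im, Complex.smul_im, smul_eq_mul]
  rcases eq_or_lt_of_le ha with rfl | ha'
  · have hb1 : b = 1 := by linarith
    subst hb1
    simpa using hy
  · have h1 : 0 < a * x.im := mul_pos ha' hx
    have h2 : 0 ≤ b * y.im := mul_nonneg hb hy.le
    linarith

theorem isPreconnected_U : IsPreconnected U := convex_U.isPreconnected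

theorem I_mem_U : Complex.I ∈ U := by
  show 0 < Complex.I.im
  simp

theorem coe_mem_U (τ : ℍ) : (τ : ℂ) ∈ U := τ.im_pos

theorem mob_coe (g : SL(2, ℤ)) (τ : ℍ) : mob g (τ : ℂ) = ((g • τ : ℍ) : ℂ) := by
  rw [UpperHalfPlane.coe_specialLinearGroup_apply]
  simp [mob]

theorem mob_mem_U (g : SL(2, ℤ)) {z : ℂ} (hz : z ∈ U) : mob g z ∈ U := by
  have h : mob g z = ((g • (⟨z, hz⟩ : ℍ) : ℍ) : ℂ) := mob_coe g ⟨z, hz⟩
  rw [h]
  exact coe_mem_U _

theorem mob_mul (g g' : SL(2, ℤ)) {z : ℂ} (hz : z ∈ U) : mob (g * g') z = mob g (mob g' z) := by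
  have h1 : mob (g * g') z = (((g * g') • (⟨z, hz⟩ : ℍ) : ℍ) : ℂ) := mob_coe (g * g') ⟨z, hz⟩
  have h2 : mob g' z = ((g' • (⟨z, hz⟩ : ℍ) : ℍ) : ℂ) := mob_coe g' ⟨z, hz⟩
  have h3 := mob_coe g (g' • ⟨z, hz⟩)
  rw [h1, h2, h3, mul_smul]

theorem mob_one (z : ℂ) : mob 1 z = z := by
  simp [mob]

theorem mob_neg_one (z : ℂ) : mob (-1) z = z := by
  simp [mob]

theorem mob_denom_ne_zero (g : SL(2, ℤ)) {z : ℂ} (hz : z ∈ U) :
    ((g 1 0 : ℤ) : ℂ) * z + ((g 1 1 : ℤ) : ℂ) ≠ 0 := by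
  have h := UpperHalfPlane.denom_ne_zero g ⟨z, hz⟩
  rw [ModularGroup.denom_apply] at h
  exact h

theorem mob_hasDerivAt (g : SL(2, ℤ)) {z : ℂ} (hz : z ∈ U) :
    HasDerivAt (mob g) (1 / (((g 1 0 : ℤ) : ℂ) * z + ((g 1 1 : ℤ) : ℂ)) ^ 2) z := by
  have hd := mob_denom_ne_zero g hz
  have h1 : HasDerivAt (fun w : ℂ => ((g 0 0 : ℤ) : ℂ) * w + ((g 0 1 : ℤ) : ℂ))
      ((g 0 0 : ℤ) : ℂ) z := by
    simpa using ((hasDerivAt_id z).const_mul ((g 0 0 : ℤ) : ℂ)).add_const ((g 0 1 : ℤ) : ℂ)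
  have h2 : HasDerivAt (fun w : ℂ => ((g 1 0 : ℤ) : ℂ) * w + ((g 1 1 : ℤ) : ℂ))
      ((g 1 0 : ℤ) : ℂ) z := by
    simpa using ((hasDerivAt_id z).const_mul ((g 1 0 : ℤ) : ℂ)).add_const ((g 1 1 : ℤ) : ℂ)
  have h3 := h1.div h2 hd
  have hdet : ((g 0 0 : ℤ) : ℂ) * ((g 1 1 : ℤ) : ℂ) - ((g 0 1 : ℤ) : ℂ) * ((g 1 0 : ℤ) : ℂ) = 1 := by
    have h := g.det_coe
    rw [Matrix.det_fin_two] at h
    exact_mod_cast h
  have hval : (((g 0 0 : ℤ) : ℂ) * (((g 1 0 : ℤ) : ℂ) * z + ((g 1 1 : ℤ) : ℂ)) -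
      (((g 0 0 : ℤ) : ℂ) * z + ((g 0 1 : ℤ) : ℂ)) * ((g 1 0 : ℤ) : ℂ)) /
      (((g 1 0 : ℤ) : ℂ) * z + ((g 1 1 : ℤ) : ℂ)) ^ 2 =
      1 / (((g 1 0 : ℤ) : ℂ) * z + ((g 1 1 : ℤ) : ℂ)) ^ 2 := by
    congr 1
    linear_combination hdet
  rw [hval] at h3
  exact h3

theorem analyticAt_mob (g : SL(2, ℤ)) {z : ℂ} (hz : z ∈ U) : AnalyticAt ℂ (mob g) z := by
  have hd := mob_denom_ne_zero g hz
  have h1 : AnalyticAt ℂ (fun w : ℂ => ((g 0 0 : ℤ) : ℂ) * w + ((g 0 1 : ℤ) : ℂ)) z := by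
    fun_prop
  have h2 : AnalyticAt ℂ (fun w : ℂ => ((g 1 0 : ℤ) : ℂ) * w + ((g 1 1 : ℤ) : ℂ)) z := by
    fun_prop
  exact h1.div h2 hd

theorem deriv_mob (g : SL(2, ℤ)) {z : ℂ} (hz : z ∈ U) :
    deriv (mob g) z = 1 / (((g 1 0 : ℤ) : ℂ) * z + ((g 1 1 : ℤ) : ℂ)) ^ 2 :=
  (mob_hasDerivAt g hz).deriv

theorem mob_deriv_ne_zero (g : SL(2, ℤ)) {z : ℂ} (hz : z ∈ U) : deriv (mob g) z ≠ 0 := by
  rw [deriv_mob g hz]
  exact one_div_ne_zero (pow_ne_zero 2 (mob_denom_ne_zero g hz))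

theorem mapsTo_mob (g : SL(2, ℤ)) : MapsTo (mob g) U U := fun _ hz => mob_mem_U g hz

/-- `mob g` maps punctured neighbourhoods to punctured neighbourhoods. -/
theorem tendsto_mob_nhdsNE (g : SL(2, ℤ)) {z : ℂ} (hz : z ∈ U) :
    Tendsto (mob g) (𝓝[≠] z) (𝓝[≠] (mob g z)) :=
  (mob_hasDerivAt g hz).tendsto_nhdsNE (by
    rw [← deriv_mob g hz]
    exact mob_deriv_ne_zero g hz)

/-! ### From relations off a discrete set to pointwise relations -/

/-- If `h` is in normal form on `U` and `h ∘ mob γ = c • h` holds in punctured neighbourhoods of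
all points of `U` (with `c ≠ 0`), then it holds pointwise on `U`. -/
theorem comp_mob_eq_of_eventuallyEq {h : ℂ → ℂ} (hNF : MeromorphicNFOn h U) (γ : SL(2, ℤ))
    {c : ℂ} (hc : c ≠ 0) (hev : ∀ z ∈ U, (h ∘ mob γ) =ᶠ[𝓝[≠] z] fun w => c * h w) :
    ∀ z ∈ U, h (mob γ z) = c * h z := by
  intro z hz
  have h1 : MeromorphicNFAt (h ∘ mob γ) z :=
    (hNF (mob_mem_U γ hz)).comp_analyticAt (analyticAt_mob γ hz)
  have h2 : MeromorphicNFAt (fun w => c * h w) z :=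
    (meromorphicNFAt_mul_iff_right (f := h) (g := fun _ => c) analyticAt_const hc).mpr (hNF hz)
  exact ((h1.eventuallyEq_nhdsNE_iff_eventuallyEq_nhds h2).mp (hev z hz)).eq_of_nhds

/-! ### The multiplier character -/

/-- **The multiplier character** of a meromorphic `n`-th root of a `Γ`-invariant function. -/
theorem exists_multiplier (Γ : Subgroup SL(2, ℤ)) {n : ℕ} (hn : n ≠ 0) {f h : ℂ → ℂ}
    (hfin : ∀ z ∈ U, meromorphicOrderAt f z ≠ ⊤) (hh : IsRootOn n f h U)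
    (hinv : ∀ γ ∈ Γ, ∀ z ∈ U, f (mob γ z) = f z) :
    ∃ χ : Γ →* ℂˣ, HasMultiplier Γ h χ ∧ ∀ γ, χ γ ^ n = 1 := by
  have hex : ∀ γ : Γ, ∃ ζ : ℂ, ζ ^ n = 1 ∧ ∀ z ∈ U, h (mob (γ : SL(2, ℤ)) z) = ζ * h z := by
    intro γ
    refine hh.exists_const_comp hn isOpen_U isPreconnected_U hfin
      (fun z hz => analyticAt_mob _ hz) (fun z hz => mob_deriv_ne_zero _ hz) (mapsTo_mob _) ?_
    intro z hz
    filter_upwards [eventually_nhdsWithin_of_eventually_nhds (isOpen_U.mem_nhds hz)] with w hw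
    exact hinv γ γ.2 w hw
  choose ζ hζn hζ using hex
  have hζ0 : ∀ γ, ζ γ ≠ 0 := by
    intro γ h0
    have := hζn γ
    rw [h0, zero_pow hn] at this
    exact zero_ne_one this
  have huniq : ∀ (γ : Γ) (c : ℂ), (∀ z ∈ U, h (mob (γ : SL(2, ℤ)) z) = c * h z) → ζ γ = c :=
    fun γ c hc => hh.const_unique hn isOpen_U I_mem_U (hfin _ I_mem_U) (hζ γ) hc
  refine ⟨{ toFun := fun γ => Units.mk0 (ζ γ) (hζ0 γ), map_one' := ?_, map_mul' := ?_ }, ?_, ?_⟩
  · apply Units.ext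
    simp only [Units.val_mk0, Units.val_one]
    refine huniq 1 1 (fun z _ => ?_)
    rw [Subgroup.coe_one, mob_one, one_mul]
  · intro γ₁ γ₂
    apply Units.ext
    simp only [Units.val_mk0, Units.val_mul]
    refine huniq (γ₁ * γ₂) (ζ γ₁ * ζ γ₂) (fun z hz => ?_)
    rw [Subgroup.coe_mul, mob_mul _ _ hz, hζ γ₁ _ (mob_mem_U _ hz), hζ γ₂ z hz, mul_assoc]
  · intro γ z hz
    exact hζ γ z hz
  · intro γ
    apply Units.ext
    simp only [Units.val_pow_eq_pow_val, Units.val_one]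
    exact hζn γ

/-- The multiplier character of a root is unique. -/
theorem HasMultiplier.unique {Γ : Subgroup SL(2, ℤ)} {n : ℕ} (hn : n ≠ 0) {f h : ℂ → ℂ}
    (hfin : ∀ z ∈ U, meromorphicOrderAt f z ≠ ⊤) (hh : IsRootOn n f h U) {χ χ' : Γ →* ℂˣ}
    (h1 : HasMultiplier Γ h χ) (h2 : HasMultiplier Γ h χ') : χ = χ' := by
  ext γ
  exact hh.const_unique hn isOpen_U I_mem_U (hfin _ I_mem_U) (γ := mob (γ : SL(2, ℤ)))
    (h1 γ) (h2 γ)

/-- All roots of the same function have the same multiplier character. -/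
theorem HasMultiplier.of_isRootOn {Γ : Subgroup SL(2, ℤ)} {n : ℕ} (hn : n ≠ 0) {f h h' : ℂ → ℂ}
    (hfin : ∀ z ∈ U, meromorphicOrderAt f z ≠ ⊤) (hh : IsRootOn n f h U)
    (hh' : IsRootOn n f h' U) {χ : Γ →* ℂˣ} (h1 : HasMultiplier Γ h χ) :
    HasMultiplier Γ h' χ := by
  obtain ⟨ζ, -, hζ⟩ := hh'.eq_const_mul hn isOpen_U isPreconnected_U hfin hh
  intro γ z hz
  rw [hζ _ (mob_mem_U _ hz), h1 γ z hz, hζ z hz]
  ring

/-- A product of roots (put in normal form) is a root of the product, with the product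
character. -/
theorem exists_isRootOn_mul (Γ : Subgroup SL(2, ℤ)) {n : ℕ} (hn : n ≠ 0)
    {f₁ f₂ h₁ h₂ : ℂ → ℂ} (hh₁ : IsRootOn n f₁ h₁ U) (hh₂ : IsRootOn n f₂ h₂ U) :
    ∃ h, IsRootOn n (fun z => f₁ z * f₂ z) h U ∧ ∀ χ₁ χ₂ : Γ →* ℂˣ,
      HasMultiplier Γ h₁ χ₁ → HasMultiplier Γ h₂ χ₂ → HasMultiplier Γ h (χ₁ * χ₂) := by
  have _ := hn
  have hmer : MeromorphicOn (h₁ * h₂) U := fun z hz =>
    (hh₁.1 hz).meromorphicAt.mul (hh₂.1 hz).meromorphicAt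
  have hNF : MeromorphicNFOn (toMeromorphicNFOn (h₁ * h₂) U) U :=
    meromorphicNFOn_toMeromorphicNFOn _ _
  refine ⟨toMeromorphicNFOn (h₁ * h₂) U, ⟨hNF, fun z hz => ?_⟩, ?_⟩
  · filter_upwards [hmer.toMeromorphicNFOn_eq_self_on_nhdsNE hz, hh₁.2 z hz, hh₂.2 z hz]
      with w hw e1 e2
    simp only [Pi.pow_apply, Pi.mul_apply] at hw e1 e2 ⊢
    rw [hw, mul_pow, e1, e2]
  · intro χ₁ χ₂ m₁ m₂ γ
    have hc : ((χ₁ γ : ℂˣ) : ℂ) * ((χ₂ γ : ℂˣ) : ℂ) ≠ 0 :=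
      mul_ne_zero (Units.ne_zero _) (Units.ne_zero _)
    have key := comp_mob_eq_of_eventuallyEq hNF (γ : SL(2, ℤ)) hc (fun z hz => by
      have e0 := hmer.toMeromorphicNFOn_eq_self_on_nhdsNE hz
      have e1 := (tendsto_mob_nhdsNE (γ : SL(2, ℤ)) hz).eventually
        (hmer.toMeromorphicNFOn_eq_self_on_nhdsNE (mob_mem_U (γ : SL(2, ℤ)) hz))
      filter_upwards [e0, e1, eventually_nhdsWithin_of_eventually_nhds (isOpen_U.mem_nhds hz)]
        with w hw0 hw1 hwU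
      simp only [Function.comp_apply, Pi.mul_apply] at hw0 hw1 ⊢
      rw [hw1, hw0, m₁ γ w hwU, m₂ γ w hwU]
      ring)
    intro z hz
    rw [MonoidHom.mul_apply, Units.val_mul]
    exact key z hz

/-- An `n`-th power `g ^ n` has the root `g` (put in normal form); if `g` is `Γ`-invariant the
multiplier character is trivial. -/
theorem exists_isRootOn_pow (Γ : Subgroup SL(2, ℤ)) {n : ℕ} (hn : n ≠ 0) {g : ℂ → ℂ}
    (hg : MeromorphicOn g U) :
    ∃ h, IsRootOn n (fun z => g z ^ n) h U ∧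
      ((∀ γ ∈ Γ, ∀ z ∈ U, g (mob γ z) = g z) → HasMultiplier Γ h 1) := by
  have _ := hn
  have hNF : MeromorphicNFOn (toMeromorphicNFOn g U) U := meromorphicNFOn_toMeromorphicNFOn _ _
  refine ⟨toMeromorphicNFOn g U, ⟨hNF, fun z hz => ?_⟩, ?_⟩
  · filter_upwards [hg.toMeromorphicNFOn_eq_self_on_nhdsNE hz] with w hw
    simp only [Pi.pow_apply]
    rw [hw]
  · intro hinv γ
    have key := comp_mob_eq_of_eventuallyEq hNF (γ : SL(2, ℤ)) (c := 1) one_ne_zero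
      (fun z hz => by
        have e0 := hg.toMeromorphicNFOn_eq_self_on_nhdsNE hz
        have e1 := (tendsto_mob_nhdsNE (γ : SL(2, ℤ)) hz).eventually
          (hg.toMeromorphicNFOn_eq_self_on_nhdsNE (mob_mem_U (γ : SL(2, ℤ)) hz))
        filter_upwards [e0, e1, eventually_nhdsWithin_of_eventually_nhds (isOpen_U.mem_nhds hz)]
          with w hw0 hw1 hwU
        simp only [Function.comp_apply] at hw0 hw1 ⊢
        rw [hw1, hw0, hinv γ γ.2 w hwU, one_mul])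
    intro z hz
    rw [MonoidHom.one_apply, Units.val_one]
    exact key z hz

/-- Compatibility with powers: if `h` is an `(n * m)`-th root of `f` with character `χ`, then
`h ^ m` is an `n`-th root of `f` with character `χ ^ m`. -/
theorem isRootOn_pow_root {n m : ℕ} {f h : ℂ → ℂ} (hh : IsRootOn (n * m) f h U) :
    IsRootOn n f (h ^ m) U := by
  refine ⟨fun z hz => ?_, fun z hz => ?_⟩
  · have h1 := (hh.1 hz).zpow (n := (m : ℤ))
    have h2 : h ^ (m : ℤ) = h ^ m := by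
      funext w
      simp
    rw [h2] at h1
    exact h1
  · filter_upwards [hh.2 z hz] with w hw
    simp only [Pi.pow_apply] at hw ⊢
    rw [← pow_mul, mul_comm m n, hw]

theorem HasMultiplier.pow_root {Γ : Subgroup SL(2, ℤ)} {h : ℂ → ℂ} {χ : Γ →* ℂˣ}
    (h1 : HasMultiplier Γ h χ) (m : ℕ) : HasMultiplier Γ (h ^ m) (χ ^ m) := by
  intro γ z hz
  simp only [Pi.pow_apply, MonoidHom.pow_apply, Units.val_pow_eq_pow_val]
  rw [h1 γ z hz, mul_pow]

end Fermat.Agent.ESJ.Jac
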