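import Mathlib
import Fermat.Agent.ESJ.Dict.Defs
import Fermat.Agent.ESJ.Jac.Multiplier
import Fermat.Agent.ESJ.Jac.MultFixed
import Fermat.Agent.ESJ.Jac.MultCusp
import Fermat.Agent.Lib.Analysis.CuspMultiplier
import Fermat.Agent.S21.Parabolic
import Fermat.Agent.ESJ.ParHom.Free

/-!
# ESJ / JAC-KUM: Kummer elements and parabolic-elliptic characters

For `f ∈ F_K = K(j(q^d) : d ∣ N)` (with the analytic dictionary `hD : Dict.IsDict ι N`):

* `exists_isKummerChar` : a Kummer element of exponent `n` (all orders divisible by `n`) has a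
  Kummer character (the multiplier of a meromorphic `n`-th root on the upper half plane);
* `IsKummerChar.unique`, `IsKummerChar.mul`, `isKummerChar_pow`, `IsKummerChar.pow_mul` :
  uniqueness and the algebra of Kummer characters;
* `IsKummerChar.isPEChar` : the Kummer character of a Kummer element is trivial on `±1`, on the
  elliptic and on the parabolic elements;
* `isKummerElt_of_isPEChar` : conversely, if the Kummer character of `f ≠ 0` is
  parabolic-elliptic, then `f` is a Kummer element.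
-/

set_option autoImplicit false

open UpperHalfPlane Complex Filter Topology CongruenceSubgroup
open scoped MatrixGroups

noncomputable section

namespace Fermat.Agent.ESJ.Jac

open Fermat.Agent.S24 Fermat.Agent.Lib.Analysis.NthRoot Fermat.Agent.ESJ.Dict

namespace Kummer

/-! ### Generalities -/

theorem isOpen_U : IsOpen U := isOpen_lt continuous_const Complex.continuous_im

theorem mem_U_iff {z : ℂ} : z ∈ U ↔ 0 < z.im := Iff.rfl

/-- Equality off a discrete subset of `U` gives equality on punctured neighbourhoods of the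
points of `U`. -/
theorem eventuallyEq_nhdsNE_of_codiscreteWithin {f g : ℂ → ℂ}
    (h : f =ᶠ[codiscreteWithin U] g) {z : ℂ} (hz : z ∈ U) : f =ᶠ[𝓝[≠] z] g := by
  have h1 : {x | f x = g x} ∈ codiscreteWithin U := h
  rw [mem_codiscreteWithin] at h1
  have h2 := h1 z hz
  rw [Filter.disjoint_principal_right] at h2
  have h3 : U ∈ 𝓝[≠] z := mem_nhdsWithin_of_mem_nhds (isOpen_U.mem_nhds hz)
  filter_upwards [h2, h3] with y hy hyU
  by_contra hne
  exact hy ⟨hyU, hne⟩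

section Dict

variable {K : Type} [Field K] [Algebra ℚ K] {ι : K →+* ℂ} {N : ℕ} [NeZero N]

/-- The orders of the meromorphic function of `f ≠ 0` are finite. -/
theorem order_ne_top (hD : IsDict ι N) {f : FNK K N} (hf : f ≠ 0) :
    ∀ z ∈ U, meromorphicOrderAt (merK ι N f) z ≠ ⊤ := by
  intro z hz
  have h : meromorphicOrderAt (merK ι N f) z = ((valPtK ι N ⟨z, hz⟩ f : ℤ) : WithTop ℤ) :=
    hD.meromorphicOrderAt_merK f hf ⟨z, hz⟩
  rw [h]
  exact WithTop.coe_ne_top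

/-- The order of the meromorphic function of `f ≠ 0` at `τ` is the point valuation. -/
theorem untop_order_eq (hD : IsDict ι N) {f : FNK K N} (hf : f ≠ 0) (τ : ℍ) :
    (meromorphicOrderAt (merK ι N f) (τ : ℂ)).untop₀ = valPtK ι N τ f := by
  rw [hD.meromorphicOrderAt_merK f hf τ]
  rfl

/-- The meromorphic function of a power. -/
theorem merK_pow (hD : IsDict ι N) (g : FNK K N) (n : ℕ) :
    merK ι N (g ^ n) =ᶠ[codiscreteWithin U] fun z => merK ι N g z ^ n := by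
  induction n with
  | zero =>
    have h := hD.merK_algebraMap 1
    rw [map_one] at h
    filter_upwards [h] with z hz
    rw [pow_zero, hz, pow_zero, map_one]
  | succ k ih =>
    rw [pow_succ]
    filter_upwards [hD.merK_mul (g ^ k) g, ih] with z hz hz'
    rw [hz, hz', pow_succ]

end Dict

/-! ### Möbius maps -/

theorem mob_mem_U' (g : SL(2, ℤ)) {z : ℂ} (hz : z ∈ U) : mob g z ∈ U := by
  have h := MultFixed.mob_coe' g ⟨z, hz⟩
  have h' : mob g z = ((g • (⟨z, hz⟩ : ℍ) : ℍ) : ℂ) := h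
  rw [h']
  exact (g • (⟨z, hz⟩ : ℍ)).im_pos

theorem mob_mul' (g g' : SL(2, ℤ)) {z : ℂ} (hz : z ∈ U) :
    mob (g * g') z = mob g (mob g' z) := by
  have h1 : mob (g * g') z = (((g * g') • (⟨z, hz⟩ : ℍ) : ℍ) : ℂ) :=
    MultFixed.mob_coe' (g * g') ⟨z, hz⟩
  have h2 : mob g' z = ((g' • (⟨z, hz⟩ : ℍ) : ℍ) : ℂ) := MultFixed.mob_coe' g' ⟨z, hz⟩
  rw [h1, h2, MultFixed.mob_coe', mul_smul]

theorem mob_neg_one' (z : ℂ) : mob (-1) z = z := by
  unfold mob
  simp only [Matrix.SpecialLinearGroup.coe_neg, Matrix.SpecialLinearGroup.coe_one,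
    Matrix.neg_apply, Matrix.one_apply_eq, ne_eq, zero_ne_one, not_false_eq_true,
    Matrix.one_apply_ne, one_ne_zero, neg_zero, Int.cast_neg, Int.cast_one, Int.cast_zero,
    zero_mul, zero_add, add_zero]
  rw [neg_one_mul, neg_div_neg_eq, div_one]

theorem mob_T_pow (w : ℕ) (z : ℂ) : mob (ModularGroup.T ^ w) z = z + w := by
  unfold mob
  rw [← zpow_natCast, ModularGroup.coe_T_zpow]
  simp

theorem analyticAt_mob' (g : SL(2, ℤ)) {z : ℂ} (hz : z ∈ U) : AnalyticAt ℂ (mob g) z := by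
  have hd : DifferentiableOn ℂ (mob g) U := fun y hy =>
    (MultFixed.hasDerivAt_mob g hy).differentiableAt.differentiableWithinAt
  exact hd.analyticAt (isOpen_U.mem_nhds hz)

/-- Pull-back of a root along a Möbius map. -/
theorem isRootOn_comp_mob {n : ℕ} {f h : ℂ → ℂ} (hh : IsRootOn n f h U) (g : SL(2, ℤ)) :
    IsRootOn n (fun z => f (mob g z)) (fun z => h (mob g z)) U :=
  hh.comp (γ := mob g) (fun _ hz => analyticAt_mob' g hz)
    (fun _ hz => MultFixed.deriv_mob_ne_zero g hz) (fun _ hz => mob_mem_U' g hz)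

/-! ### Multipliers -/

/-- An element acting trivially on the root has trivial multiplier. -/
theorem multiplier_eq_one_of_fix {n : ℕ} (hn : n ≠ 0) {f h : ℂ → ℂ}
    (hfin : ∀ z ∈ U, meromorphicOrderAt f z ≠ ⊤) (hh : IsRootOn n f h U)
    {Γ : Subgroup SL(2, ℤ)} {χ : Γ →* ℂˣ} (hχ : HasMultiplier Γ h χ) (γ : Γ)
    (hγ : ∀ z ∈ U, h (mob (γ : SL(2, ℤ)) z) = h z) : χ γ = 1 := by
  have hI : Complex.I ∈ U := by
    show 0 < Complex.I.im
    simp
  obtain ⟨y, hyU, hy0⟩ := hh.exists_ne_zero hn isOpen_U hI (hfin _ hI)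
  have h1 := hχ γ y hyU
  rw [hγ y hyU] at h1
  have h2 : ((χ γ : ℂˣ) : ℂ) = 1 := by
    have h3 : ((χ γ : ℂˣ) : ℂ) * h y = 1 * h y := by rw [one_mul]; exact h1.symm
    exact mul_right_cancel₀ hy0 h3
  exact Units.ext h2

/-- The multiplier takes values in the `n`-th roots of unity. -/
theorem multiplier_pow_eq_one {n : ℕ} (hn : n ≠ 0) {f h : ℂ → ℂ}
    (hfin : ∀ z ∈ U, meromorphicOrderAt f z ≠ ⊤) (hh : IsRootOn n f h U)
    {Γ : Subgroup SL(2, ℤ)} (hinv : ∀ γ ∈ Γ, ∀ z ∈ U, f (mob γ z) = f z)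
    {χ : Γ →* ℂˣ} (hχ : HasMultiplier Γ h χ) (γ : Γ) : χ γ ^ n = 1 := by
  obtain ⟨χ', hχ', hpow⟩ := exists_multiplier Γ hn hfin hh hinv
  rw [HasMultiplier.unique hn hfin hh hχ hχ']
  exact hpow γ

/-! ### Group theory in `SL(2, ℤ)` -/

section Group

open ModularGroup

/-- matrix of `g⁻¹ T^k g`: lower left entry -/
theorem conj_T_zpow_apply_one_zero (g : SL(2, ℤ)) (k : ℤ) :
    (g⁻¹ * T ^ k * g) 1 0 = -k * (g 1 0) ^ 2 := by
  have hdet : g 0 0 * g 1 1 - g 0 1 * g 1 0 = 1 := by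
    have := g.det_coe
    rw [Matrix.det_fin_two] at this
    exact this
  rw [Matrix.SpecialLinearGroup.coe_mul, Matrix.SpecialLinearGroup.coe_mul,
    Matrix.SpecialLinearGroup.coe_inv, coe_T_zpow, Matrix.adjugate_fin_two]
  simp only [Matrix.mul_apply, Fin.sum_univ_two, Matrix.of_apply, Matrix.cons_val',
    Matrix.cons_val_zero, Matrix.cons_val_one, Matrix.cons_val_fin_one]
  ring

theorem trace_conj_T_zpow (g : SL(2, ℤ)) (k : ℤ) :
    ((g⁻¹ * T ^ k * g : SL(2, ℤ)) : Matrix (Fin 2) (Fin 2) ℤ).trace = 2 := by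
  have hdet : g 0 0 * g 1 1 - g 0 1 * g 1 0 = 1 := by
    have := g.det_coe
    rw [Matrix.det_fin_two] at this
    exact this
  rw [Matrix.SpecialLinearGroup.coe_mul, Matrix.SpecialLinearGroup.coe_mul,
    Matrix.SpecialLinearGroup.coe_inv, coe_T_zpow, Matrix.adjugate_fin_two, Matrix.trace_fin_two]
  simp only [Matrix.mul_apply, Fin.sum_univ_two, Matrix.of_apply, Matrix.cons_val',
    Matrix.cons_val_zero, Matrix.cons_val_one, Matrix.cons_val_fin_one]
  linear_combination 2 * hdet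

theorem conj_T_zpow_mem_Gamma0_iff (N : ℕ) (g : SL(2, ℤ)) (k : ℤ) :
    g⁻¹ * T ^ k * g ∈ Gamma0 N ↔ (N : ℤ) ∣ k * (g 1 0) ^ 2 := by
  rw [Gamma0_mem, conj_T_zpow_apply_one_zero, ZMod.intCast_zmod_eq_zero_iff_dvd, neg_mul, dvd_neg]

theorem conj_T_pow_gcd_mem (N : ℕ) (g : SL(2, ℤ)) (k : ℕ)
    (h : g⁻¹ * T ^ k * g ∈ Gamma0 N) : g⁻¹ * T ^ (Nat.gcd k N) * g ∈ Gamma0 N := by
  rw [← zpow_natCast, conj_T_zpow_mem_Gamma0_iff] at h ⊢
  have h2 : (N : ℤ) ∣ (N : ℤ) * (g 1 0) ^ 2 := dvd_mul_right _ _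
  have h3 := dvd_gcd h h2
  rw [gcd_mul_right, Int.normalize_of_nonneg (sq_nonneg _)] at h3
  have h4 : gcd (k : ℤ) (N : ℤ) = ((Nat.gcd k N : ℕ) : ℤ) := by
    rw [← Int.coe_gcd]
    rfl
  rwa [h4] at h3

/-- an upper triangular element of trace `2` is a power of `T` -/
theorem eq_T_zpow_of_upper (g : SL(2, ℤ)) (hc : g 1 0 = 0)
    (ht : (g : Matrix (Fin 2) (Fin 2) ℤ).trace = 2) : g = T ^ (g 0 1) := by
  have hdet : g 0 0 * g 1 1 - g 0 1 * g 1 0 = 1 := by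
    have := g.det_coe
    rw [Matrix.det_fin_two] at this
    exact this
  rw [Matrix.trace_fin_two] at ht
  rw [hc, mul_zero, sub_zero] at hdet
  have ha : g 0 0 = 1 := by nlinarith [sq_nonneg (g 0 0 - g 1 1)]
  have hd : g 1 1 = 1 := by omega
  apply Subtype.ext
  rw [coe_T_zpow]
  ext i j
  fin_cases i <;> fin_cases j <;> simp [ha, hd, hc]


theorem denom_ne_zero_aux (c d : ℤ) (hcd : c ≠ 0 ∨ d ≠ 0) {z : ℂ} (hz : 0 < z.im) :
    (c : ℂ) * z + (d : ℂ) ≠ 0 := by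
  intro h
  have him := congrArg Complex.im h
  have hre := congrArg Complex.re h
  simp only [add_im, mul_im, intCast_re, intCast_im, zero_mul, add_zero, zero_im, add_re, mul_re,
    sub_zero, zero_re] at him hre
  have hc : (c : ℝ) = 0 := by
    rcases mul_eq_zero.mp him with h1 | h1
    · exact h1
    · exact absurd h1 hz.ne'
  rw [hc, zero_mul, zero_add] at hre
  rcases hcd with h1 | h1
  · exact h1 (by exact_mod_cast hc)
  · exact h1 (by exact_mod_cast hre)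

/-- arithmetic core: a fixed point in the upper half plane forces `tr² ≤ 4` -/
theorem trace_sq_le_four_aux (a b c d : ℤ) (hdet : a * d - b * c = 1) {z : ℂ} (hz : 0 < z.im)
    (h : (a : ℂ) * z + (b : ℂ) = z * ((c : ℂ) * z + (d : ℂ))) : (a + d) ^ 2 ≤ 4 := by
  have him := congrArg Complex.im h
  have hre := congrArg Complex.re h
  simp only [add_im, mul_im, intCast_re, intCast_im, zero_mul, add_zero, add_re, mul_re,
    sub_zero] at him hre
  set x := z.re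
  set y := z.im
  have hdet' : (a : ℝ) * d - b * c = 1 := by exact_mod_cast hdet
  have h1 : (a : ℝ) - d = 2 * c * x := by
    have h2 : y * ((a : ℝ) - d - 2 * c * x) = 0 := by linear_combination him
    rcases mul_eq_zero.mp h2 with h3 | h3
    · exact absurd h3 hz.ne'
    · linarith
  have h2 : (b : ℝ) = -c * (x ^ 2 + y ^ 2) := by
    linear_combination hre - x * h1
  have h3 : ((a : ℝ) + d) ^ 2 = 4 - 4 * (c * y) ^ 2 := by
    have e1 : ((a : ℝ) + d) ^ 2 = ((a : ℝ) - d) ^ 2 + 4 * (a * d) := by ring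
    have e2 : (a : ℝ) * d = 1 + b * c := by linarith
    rw [e1, e2, h1, h2]
    ring
  have h4 : ((a : ℝ) + d) ^ 2 ≤ 4 := by
    rw [h3]
    nlinarith [sq_nonneg ((c : ℝ) * y)]
  exact_mod_cast h4

/-- arithmetic core: `tr² < 4` gives a fixed point in the upper half plane -/
theorem exists_fixed_aux (a b c d : ℤ) (hdet : a * d - b * c = 1) (ht : (a + d) ^ 2 < 4) :
    ∃ z : ℂ, 0 < z.im ∧ (a : ℂ) * z + (b : ℂ) = z * ((c : ℂ) * z + (d : ℂ)) := by
  have hc : c ≠ 0 := by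
    rintro rfl
    rw [mul_zero, sub_zero] at hdet
    have h1 : a = 1 ∧ d = 1 ∨ a = -1 ∧ d = -1 := Int.eq_one_or_neg_one_of_mul_eq_one' hdet
    rcases h1 with ⟨rfl, rfl⟩ | ⟨rfl, rfl⟩ <;> norm_num at ht
  have hcR : (c : ℝ) ≠ 0 := by exact_mod_cast hc
  have hdet' : (a : ℝ) * d - b * c = 1 := by exact_mod_cast hdet
  have ht' : ((a : ℝ) + d) ^ 2 < 4 := by exact_mod_cast ht
  set D : ℝ := 4 - ((a : ℝ) + d) ^ 2 with hD
  have hDpos : 0 < D := by rw [hD]; linarith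
  set s : ℝ := Real.sqrt D with hs
  have hs2 : s ^ 2 = D := Real.sq_sqrt hDpos.le
  have hspos : 0 < s := Real.sqrt_pos.mpr hDpos
  refine ⟨⟨((a : ℝ) - d) / (2 * c), s / (2 * |(c : ℝ)|)⟩, ?_, ?_⟩
  · show 0 < s / (2 * |(c : ℝ)|)
    positivity
  · have habs : |(c : ℝ)| ^ 2 = (c : ℝ) ^ 2 := sq_abs _
    have habs0 : |(c : ℝ)| ≠ 0 := abs_ne_zero.mpr hcR
    apply Complex.ext
    · simp only [add_re, mul_re, intCast_re, intCast_im, zero_mul, sub_zero, add_im, mul_im,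
        add_zero]
      field_simp
      have e1 : (s ^ 2) = 4 - ((a : ℝ) + d) ^ 2 := by rw [hs2]
      have e2 : (b : ℝ) * c = a * d - 1 := by linarith
      nlinarith [e1, e2, habs]
    · simp only [add_re, mul_re, intCast_re, intCast_im, zero_mul, sub_zero, add_im, mul_im,
        add_zero]
      field_simp
      ring


/-- An element of `SL(2, ℤ)` with a fixed point in the upper half plane has `tr² ≤ 4`. -/
theorem trace_sq_le_four_of_fixed (δ : SL(2, ℤ)) (τ : ℍ) (h : δ • τ = τ) :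
    (δ : Matrix (Fin 2) (Fin 2) ℤ).trace ^ 2 ≤ 4 := by
  have hdet : δ 0 0 * δ 1 1 - δ 0 1 * δ 1 0 = 1 := by
    have := δ.det_coe
    rw [Matrix.det_fin_two] at this
    exact this
  have e : mob δ (τ : ℂ) = (τ : ℂ) := by rw [MultFixed.mob_coe', h]
  unfold mob at e
  have hcd : δ 1 0 ≠ 0 ∨ δ 1 1 ≠ 0 := by
    by_contra hcon
    push Not at hcon
    rw [hcon.1, hcon.2] at hdet
    simp at hdet
  have hden := denom_ne_zero_aux (δ 1 0) (δ 1 1) hcd τ.im_pos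
  rw [div_eq_iff hden] at e
  rw [Matrix.trace_fin_two]
  exact trace_sq_le_four_aux _ _ _ _ hdet τ.im_pos e

/-- An element of `SL(2, ℤ)` with `tr² < 4` has a fixed point in the upper half plane. -/
theorem exists_fixed_of_trace_sq_lt (δ : SL(2, ℤ))
    (h : (δ : Matrix (Fin 2) (Fin 2) ℤ).trace ^ 2 < 4) : ∃ τ : ℍ, δ • τ = τ := by
  have hdet : δ 0 0 * δ 1 1 - δ 0 1 * δ 1 0 = 1 := by
    have := δ.det_coe
    rw [Matrix.det_fin_two] at this
    exact this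
  rw [Matrix.trace_fin_two] at h
  obtain ⟨z, hz, e⟩ := exists_fixed_aux _ _ _ _ hdet h
  refine ⟨⟨z, hz⟩, ?_⟩
  apply UpperHalfPlane.ext
  rw [← MultFixed.mob_coe']
  have hcd : δ 1 0 ≠ 0 ∨ δ 1 1 ≠ 0 := by
    by_contra hcon
    push Not at hcon
    rw [hcon.1, hcon.2] at hdet
    simp at hdet
  have hden := denom_ne_zero_aux (δ 1 0) (δ 1 1) hcd hz
  show mob δ z = z
  unfold mob
  rw [div_eq_iff hden]
  exact e

/-- An element of trace `2` is conjugate to a power of `T`. -/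
theorem exists_eq_conj_T_zpow (γ : SL(2, ℤ))
    (h : (γ : Matrix (Fin 2) (Fin 2) ℤ).trace = 2) :
    ∃ (g : SL(2, ℤ)) (k : ℤ), γ = g⁻¹ * T ^ k * g := by
  obtain ⟨δ, g, hδ, hc⟩ := Fermat.Agent.S21.exists_conj_upperTriangular γ (by rw [h]; norm_num)
  have hg : g = δ⁻¹ * γ * δ := by rw [mul_assoc, hδ]; group
  have htr : (g : Matrix (Fin 2) (Fin 2) ℤ).trace = 2 := by
    rw [hg, Matrix.SpecialLinearGroup.coe_mul, Matrix.SpecialLinearGroup.coe_mul,
      Matrix.trace_mul_cycle, ← Matrix.SpecialLinearGroup.coe_mul, mul_inv_cancel,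
      Matrix.SpecialLinearGroup.coe_one, one_mul, h]
  have hT := eq_T_zpow_of_upper g hc htr
  refine ⟨δ⁻¹, g 0 1, ?_⟩
  rw [← hT, inv_inv, hg]
  group

/-- Cayley–Hamilton: trace `0` gives `γ² = -1`. -/
theorem sq_eq_neg_one_of_trace (γ : SL(2, ℤ))
    (h : (γ : Matrix (Fin 2) (Fin 2) ℤ).trace = 0) : γ ^ 2 = -1 := by
  have h2 := Fermat.Agent.ESJ.ParHom.sl2_mul_self γ
  rw [h, zero_smul, zero_sub] at h2
  apply Subtype.ext
  rw [Matrix.SpecialLinearGroup.coe_pow, pow_two, h2]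
  simp

/-- Cayley–Hamilton: trace `1` gives `γ³ = -1`. -/
theorem cube_eq_neg_one_of_trace (γ : SL(2, ℤ))
    (h : (γ : Matrix (Fin 2) (Fin 2) ℤ).trace = 1) : γ ^ 3 = -1 := by
  have h2 := Fermat.Agent.ESJ.ParHom.sl2_mul_self γ
  rw [h, one_smul] at h2
  apply Subtype.ext
  rw [Matrix.SpecialLinearGroup.coe_pow]
  set M : Matrix (Fin 2) (Fin 2) ℤ := (γ : Matrix (Fin 2) (Fin 2) ℤ) with hM
  have h3 : M ^ 3 = -1 := by
    calc M ^ 3 = M * (M * M) := by rw [pow_succ, pow_two, mul_assoc]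
      _ = M * M - M := by rw [h2, mul_sub, mul_one, h2]
      _ = -1 := by rw [h2]; abel
  rw [h3]
  simp

theorem trace_neg (γ : SL(2, ℤ)) :
    ((-γ : SL(2, ℤ)) : Matrix (Fin 2) (Fin 2) ℤ).trace
      = -(γ : Matrix (Fin 2) (Fin 2) ℤ).trace := by
  rw [Matrix.SpecialLinearGroup.coe_neg, Matrix.trace_neg]

theorem trace_one : ((1 : SL(2, ℤ)) : Matrix (Fin 2) (Fin 2) ℤ).trace = 2 := by
  rw [Matrix.SpecialLinearGroup.coe_one, Matrix.trace_fin_two]
  simp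

theorem one_ne_neg_one : (1 : SL(2, ℤ)) ≠ -1 := by
  intro h
  have h1 := congrArg (fun A : SL(2, ℤ) => A 0 0) h
  simp at h1

theorem trace_neg_one : ((-1 : SL(2, ℤ)) : Matrix (Fin 2) (Fin 2) ℤ).trace = -2 := by
  rw [trace_neg, trace_one]

/-- minimality of the order for an element with `δ² = -1` -/
theorem hmin_two (δ : SL(2, ℤ)) (h2 : δ ^ 2 = -1) :
    ∀ k : ℕ, 0 < k → k < 2 → δ ^ k ≠ 1 ∧ δ ^ k ≠ -1 := by
  intro k hk hk2
  obtain rfl : k = 1 := by omega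
  rw [pow_one]
  constructor
  · rintro rfl
    rw [one_pow] at h2
    exact one_ne_neg_one h2
  · rintro rfl
    rw [neg_one_sq] at h2
    exact one_ne_neg_one h2

/-- minimality of the order for an element with `δ³ = -1`, `δ ≠ -1` -/
theorem hmin_three (δ : SL(2, ℤ)) (h3 : δ ^ 3 = -1) (hne : δ ≠ -1) :
    ∀ k : ℕ, 0 < k → k < 3 → δ ^ k ≠ 1 ∧ δ ^ k ≠ -1 := by
  have h1 : δ ≠ 1 := by
    rintro rfl
    rw [one_pow] at h3
    exact one_ne_neg_one h3
  intro k hk hk3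
  obtain rfl | rfl : k = 1 ∨ k = 2 := by omega
  · rw [pow_one]
    exact ⟨h1, hne⟩
  · constructor
    · intro h2
      rw [pow_succ, h2, one_mul] at h3
      exact hne h3
    · intro h2
      rw [pow_succ, h2, neg_one_mul, neg_inj] at h3
      exact h1 h3

theorem conj_T_zpow_inv (g : SL(2, ℤ)) (k : ℤ) :
    (g⁻¹ * T ^ k * g)⁻¹ = g⁻¹ * T ^ (-k) * g := by
  rw [zpow_neg]
  group

theorem conj_T_pow_pow (g : SL(2, ℤ)) (w j : ℕ) :
    (g⁻¹ * T ^ w * g) ^ j = g⁻¹ * T ^ (w * j) * g := by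
  rw [pow_mul]
  induction j with
  | zero => simp
  | succ j ih => rw [pow_succ, ih, pow_succ]; group

theorem mob_neg (g : SL(2, ℤ)) (z : ℂ) : mob (-g) z = mob g z := by
  unfold mob
  simp only [Matrix.SpecialLinearGroup.coe_neg, Matrix.neg_apply, Int.cast_neg]
  rw [neg_mul, neg_mul, ← neg_add, ← neg_add, neg_div_neg_eq]

end Group

/-! ### The multiplier at elliptic points and at cusps -/

section Local

variable {K : Type} [Field K] [Algebra ℚ K] {ι : K →+* ℂ} {N : ℕ} [NeZero N]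

/-- `n * ord_τ h = valPt_τ f` for a root `h` of (the meromorphic function of) `f`. -/
theorem mul_order_root (hD : IsDict ι N) {n : ℕ} (hn : 0 < n) {f : FNK K N} (hf : f ≠ 0)
    {h : ℂ → ℂ} (hh : IsRootOn n (merK ι N f) h U) (τ : ℍ) :
    (n : ℤ) * (meromorphicOrderAt h (τ : ℂ)).untop₀ = valPtK ι N τ f := by
  rw [hh.untop₀_order_mul hn.ne' τ.im_pos (order_ne_top hD hf _ τ.im_pos), untop_order_eq hD hf]

/-- `q_w = q_N ^ e` when `e * w = N`. -/
theorem qParam_eq_pow {N w e : ℕ} (hN : N ≠ 0) (hw : 0 < w) (hew : e * w = N) (z : ℂ) :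
    Function.Periodic.qParam (w : ℝ) z = Function.Periodic.qParam (N : ℝ) z ^ e := by
  have hw' : (w : ℂ) ≠ 0 := Nat.cast_ne_zero.mpr hw.ne'
  have he : e ≠ 0 := by
    rintro rfl
    rw [zero_mul] at hew
    exact hN hew.symm
  have he' : (e : ℂ) ≠ 0 := Nat.cast_ne_zero.mpr he
  unfold Function.Periodic.qParam
  rw [← Complex.exp_nat_mul]
  congr 1
  rw [← hew]
  push_cast
  field_simp

/-- **The multiplier at a cusp.**  Let `w` be a width of the cusp `g⁻¹ ∞` (`g⁻¹ T ^ w g ∈ Γ₀(N)`),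
`e * w = N`, and let the order of `f` at the cusp be `m * e` in `q_N`, i.e. `m` in `q_w`.  Then
the multiplier of `g⁻¹ T ^ w g` on an `n`-th root of `f` is trivial iff `n ∣ m`. -/
theorem cusp_multiplier_iff (hD : IsDict ι N) {n : ℕ} (hn : 0 < n) {f : FNK K N} (hf : f ≠ 0)
    {h : ℂ → ℂ} (hh : IsRootOn n (merK ι N f) h U) {χ : Gamma0 N →* ℂˣ}
    (hχ : HasMultiplier (Gamma0 N) h χ) (g : SL(2, ℤ)) (w e : ℕ) (hw : 0 < w)
    (hew : e * w = N) (hmem : g⁻¹ * ModularGroup.T ^ w * g ∈ Gamma0 N) (m : ℤ)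
    (hm : valCuspK ι N g f = m * e) :
    χ ⟨g⁻¹ * ModularGroup.T ^ w * g, hmem⟩ = 1 ↔ (n : ℤ) ∣ m := by
  obtain ⟨ψ, hψ, hψ0, hshape⟩ := hD.merK_cusp_shape f hf g
  have hfin := order_ne_top hD hf
  have hNpos : (0 : ℝ) < (N : ℝ) := by exact_mod_cast Nat.pos_of_ne_zero (NeZero.ne N)
  have hwR : (0 : ℝ) < (w : ℝ) := by exact_mod_cast hw
  set γw : Gamma0 N := ⟨g⁻¹ * ModularGroup.T ^ w * g, hmem⟩ with hγw
  have hroot' : IsRootOn n (fun z => merK ι N f (mob g⁻¹ z)) (fun z => h (mob g⁻¹ z))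
      {z : ℂ | 0 < z.im} := isRootOn_comp_mob hh g⁻¹
  -- the multiplier of the translation
  have hζ : ∀ z : ℂ, 0 < z.im →
      (fun z => h (mob g⁻¹ z)) (z + ((w : ℝ) : ℂ)) = ((χ γw : ℂˣ) : ℂ) * (fun z => h (mob g⁻¹ z)) z := by
    intro z hz
    have hzU : z ∈ U := hz
    have e1 : mob g⁻¹ (z + (w : ℂ)) = mob (g⁻¹ * ModularGroup.T ^ w * g) (mob g⁻¹ z) := by
      rw [← mob_mul' _ _ hzU]
      have e2 : g⁻¹ * ModularGroup.T ^ w * g * g⁻¹ = g⁻¹ * ModularGroup.T ^ w := by group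
      rw [e2, mob_mul' _ _ hzU, mob_T_pow]
    show h (mob g⁻¹ (z + ((w : ℝ) : ℂ))) = ((χ γw : ℂˣ) : ℂ) * h (mob g⁻¹ z)
    rw [Complex.ofReal_natCast, e1]
    exact hχ γw (mob g⁻¹ z) (mob_mem_U' g⁻¹ hzU)
  have hζn : ((χ γw : ℂˣ) : ℂ) ^ n = 1 := by
    have h1 := multiplier_pow_eq_one hn.ne' hfin hh
      (fun γ hγ z hz => hD.merK_mob f γ hγ z hz) hχ γw
    rw [← Units.val_pow_eq_pow_val, h1, Units.val_one]
  -- analyticity near `i∞`
  obtain ⟨Y₂, -, hY₂'⟩ := MultCusp.exists_analyticAt_ne_zero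
    (φ := fun z => merK ι N f (mob g⁻¹ z)) (Y := 0) hNpos (valCuspK ι N g f) ψ hψ hψ0
    (fun z hz => hshape z hz)
  -- the limit at `i∞`
  have hlim : Tendsto (fun z : ℂ => Function.Periodic.qParam (w : ℝ) z ^ (-m) *
      (fun z => merK ι N f (mob g⁻¹ z)) z) (comap Complex.im atTop) (𝓝 (ψ 0)) := by
    have h1 : Tendsto (fun z : ℂ => ψ (Function.Periodic.qParam (N : ℝ) z))
        (comap Complex.im atTop) (𝓝 (ψ 0)) :=
      hψ.continuousAt.tendsto.comp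
        ((Function.Periodic.qParam_tendsto hNpos).mono_right nhdsWithin_le_nhds)
    refine h1.congr' ?_
    have h2 : ∀ᶠ z : ℂ in comap Complex.im atTop, 0 < z.im :=
      tendsto_comap.eventually (eventually_gt_atTop 0)
    filter_upwards [h2] with z hz
    have hq0 : Function.Periodic.qParam (N : ℝ) z ≠ 0 := Complex.exp_ne_zero _
    show ψ (Function.Periodic.qParam (N : ℝ) z) = Function.Periodic.qParam (w : ℝ) z ^ (-m) *
      merK ι N f (mob g⁻¹ z)
    rw [hshape z hz, qParam_eq_pow (NeZero.ne N) hw hew, hm, ← zpow_natCast, ← zpow_mul, ← mul_assoc,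
      ← zpow_add₀ hq0]
    have e3 : (e : ℤ) * -m + m * e = 0 := by ring
    rw [e3, zpow_zero, one_mul]
  have key := Fermat.Agent.Lib.Analysis.CuspMultiplier.cusp_multiplier_eq_one_iff hn.ne' hroot'
    hwR hζn hζ hψ0 (fun z hz => (hY₂' z hz).1) hlim
  rw [← key, ← Units.val_eq_one]

/-- The multiplier at an elliptic point of a root of a Kummer element is trivial. -/
theorem ell_multiplier_eq_one (hD : IsDict ι N) {n : ℕ} (hn : 0 < n) {f : FNK K N}
    (hf : IsKummerElt K (FNK K N) n f) {h : ℂ → ℂ} (hh : IsRootOn n (merK ι N f) h U)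
    {χ : Gamma0 N →* ℂˣ} (hχ : HasMultiplier (Gamma0 N) h χ) (δ : Gamma0 N) (τ : ℍ)
    (hfix : (δ : SL(2, ℤ)) • τ = τ) (e : ℕ) (he : 0 < e) (hell : EllType N τ e)
    (hpow : (δ : SL(2, ℤ)) ^ e = 1 ∨ (δ : SL(2, ℤ)) ^ e = -1)
    (hmin : ∀ k : ℕ, 0 < k → k < e → (δ : SL(2, ℤ)) ^ k ≠ 1 ∧ (δ : SL(2, ℤ)) ^ k ≠ -1) :
    χ δ = 1 := by
  obtain ⟨hf0, hdvd⟩ := hf
  have hfin := order_ne_top hD hf0
  have h1 := ((hD.forall_dvd_ord_iff n f hf0).1 hdvd).1 τ e hell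
  rw [← mul_order_root hD hn hf0 hh τ] at h1
  push_cast at h1
  have h2 : (e : ℤ) ∣ (meromorphicOrderAt h (τ : ℂ)).untop₀ :=
    (mul_dvd_mul_iff_left (by exact_mod_cast hn.ne' : (n : ℤ) ≠ 0)).mp h1
  exact multiplier_eq_one_of_dvd hn.ne' hfin hh hχ δ τ hfix e he hpow hmin h2

/-- Elements with the same Möbius action have the same multiplier. -/
theorem multiplier_congr {n : ℕ} (hn : n ≠ 0) {f h : ℂ → ℂ}
    (hfin : ∀ z ∈ U, meromorphicOrderAt f z ≠ ⊤) (hh : IsRootOn n f h U)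
    {Γ : Subgroup SL(2, ℤ)} {χ : Γ →* ℂˣ} (hχ : HasMultiplier Γ h χ) (γ γ' : Γ)
    (hγ : ∀ z ∈ U, mob (γ : SL(2, ℤ)) z = mob (γ' : SL(2, ℤ)) z) : χ γ = χ γ' := by
  have hI : Complex.I ∈ U := by
    show 0 < Complex.I.im
    simp
  obtain ⟨y, hyU, hy0⟩ := hh.exists_ne_zero hn isOpen_U hI (hfin _ hI)
  have h1 := hχ γ y hyU
  have h2 := hχ γ' y hyU
  rw [hγ y hyU, h2] at h1
  exact Units.ext (mul_right_cancel₀ hy0 h1).symm

/-- The multiplier of a parabolic element `g⁻¹ T ^ k g` on a root of a Kummer element is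
trivial. -/
theorem par_multiplier_eq_one (hD : IsDict ι N) {n : ℕ} (hn : 0 < n) {f : FNK K N}
    (hf : IsKummerElt K (FNK K N) n f) {h : ℂ → ℂ} (hh : IsRootOn n (merK ι N f) h U)
    {χ : Gamma0 N →* ℂˣ} (hχ : HasMultiplier (Gamma0 N) h χ) (γ : Gamma0 N) (g : SL(2, ℤ))
    (k : ℕ) (hγ : (γ : SL(2, ℤ)) = g⁻¹ * ModularGroup.T ^ k * g) : χ γ = 1 := by
  obtain ⟨hf0, hdvd⟩ := hf
  have hNpos : 0 < N := Nat.pos_of_ne_zero (NeZero.ne N)
  set w := Nat.gcd k N with hw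
  have hwpos : 0 < w := Nat.gcd_pos_of_pos_right k hNpos
  have hwN : w ∣ N := Nat.gcd_dvd_right k N
  have hwk : w ∣ k := Nat.gcd_dvd_left k N
  have hmem : g⁻¹ * ModularGroup.T ^ w * g ∈ Gamma0 N :=
    conj_T_pow_gcd_mem N g k (hγ ▸ γ.2)
  have h1 := ((hD.forall_dvd_ord_iff n f hf0).1 hdvd).2 g w hwpos hwN hmem
  obtain ⟨c, hc⟩ := h1
  have hew : N / w * w = N := Nat.div_mul_cancel hwN
  have hm : valCuspK ι N g f = ((n : ℤ) * c) * ((N / w : ℕ) : ℤ) := by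
    rw [hc]
    push_cast
    ring
  have h2 : χ ⟨g⁻¹ * ModularGroup.T ^ w * g, hmem⟩ = 1 :=
    (cusp_multiplier_iff hD hn hf0 hh hχ g w (N / w) hwpos hew hmem _ hm).2 (dvd_mul_right _ _)
  have h3 : γ = (⟨g⁻¹ * ModularGroup.T ^ w * g, hmem⟩ : Gamma0 N) ^ (k / w) := by
    apply Subtype.ext
    rw [Subgroup.coe_pow]
    show (γ : SL(2, ℤ)) = (g⁻¹ * ModularGroup.T ^ w * g) ^ (k / w)
    rw [conj_T_pow_pow, Nat.mul_div_cancel' hwk, hγ]
  rw [h3, map_pow, h2, one_pow]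

end Local

end Kummer

open Kummer

section Main

variable {K : Type} [Field K] [Algebra ℚ K] {ι : K →+* ℂ} {N : ℕ} [NeZero N]

/-! ### Existence, uniqueness, algebra -/

/-- A Kummer element of exponent `n` has a Kummer character. -/
theorem exists_isKummerChar (hD : IsDict ι N) {n : ℕ} (hn : 0 < n) {f : FNK K N}
    (hf : IsKummerElt K (FNK K N) n f) : ∃ χ, IsKummerChar ι N n f χ := by
  obtain ⟨hf0, hdvd⟩ := hf
  have hfin := order_ne_top hD hf0
  have hpt := ((hD.forall_dvd_ord_iff n f hf0).1 hdvd).1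
  have hdiv : ∀ z : ℂ, 0 < z.im → (n : ℤ) ∣ (meromorphicOrderAt (merK ι N f) z).untop₀ := by
    intro z hz
    have h1 := untop_order_eq hD hf0 ⟨z, hz⟩
    have h2 := hpt ⟨z, hz⟩ 1 (Or.inl rfl)
    rw [mul_one] at h2
    have h3 : (meromorphicOrderAt (merK ι N f) z).untop₀ = valPtK ι N ⟨z, hz⟩ f := h1
    rw [h3]
    exact h2
  obtain ⟨h, hh⟩ := exists_isRootOn_upperHalfPlane hn.ne' (hD.meromorphicOn_merK f)
    (fun z hz => hfin z hz) hdiv
  obtain ⟨χ, hχ, -⟩ := exists_multiplier (Gamma0 N) hn.ne' hfin hh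
    (fun γ hγ z hz => hD.merK_mob f γ hγ z hz)
  exact ⟨χ, h, hh, hχ⟩

/-- The Kummer character of `f ≠ 0` is unique. -/
theorem IsKummerChar.unique (hD : IsDict ι N) {n : ℕ} (hn : 0 < n) {f : FNK K N} (hf : f ≠ 0)
    {χ χ' : Gamma0 N →* ℂˣ} (h : IsKummerChar ι N n f χ) (h' : IsKummerChar ι N n f χ') :
    χ = χ' := by
  obtain ⟨h₁, hr₁, hm₁⟩ := h
  obtain ⟨h₂, hr₂, hm₂⟩ := h'
  have hfin := order_ne_top hD hf
  exact HasMultiplier.unique hn.ne' hfin hr₂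
    (HasMultiplier.of_isRootOn hn.ne' hfin hr₁ hr₂ hm₁) hm₂

/-- Kummer characters are multiplicative. -/
theorem IsKummerChar.mul (hD : IsDict ι N) {n : ℕ} (hn : 0 < n) {f f' : FNK K N}
    {χ χ' : Gamma0 N →* ℂˣ} (h : IsKummerChar ι N n f χ) (h' : IsKummerChar ι N n f' χ') :
    IsKummerChar ι N n (f * f') (χ * χ') := by
  obtain ⟨h₁, hr₁, hm₁⟩ := h
  obtain ⟨h₂, hr₂, hm₂⟩ := h'
  obtain ⟨h₃, hr₃, hm₃⟩ := exists_isRootOn_mul (Gamma0 N) hn.ne' hr₁ hr₂
  refine ⟨h₃, hr₃.congr (fun z hz => ?_), hm₃ χ χ' hm₁ hm₂⟩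
  exact (eventuallyEq_nhdsNE_of_codiscreteWithin (hD.merK_mul f f') hz).symm

/-- The Kummer character of an `n`-th power is trivial. -/
theorem isKummerChar_pow (hD : IsDict ι N) {n : ℕ} (hn : 0 < n) (g : FNK K N) :
    IsKummerChar ι N n (g ^ n) 1 := by
  obtain ⟨h, hr, hm⟩ := exists_isRootOn_pow (Gamma0 N) hn.ne' (hD.meromorphicOn_merK g)
  refine ⟨h, hr.congr (fun z hz => ?_), hm (fun γ hγ z hz => hD.merK_mob g γ hγ z hz)⟩
  exact (eventuallyEq_nhdsNE_of_codiscreteWithin (merK_pow hD g n) hz).symm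

/-- Compatibility with the exponent: the character of exponent `n` of `f` is the character of
exponent `n * m` of `f ^ m`. -/
theorem IsKummerChar.pow_mul (hD : IsDict ι N) {n m : ℕ} {f : FNK K N}
    {χ : Gamma0 N →* ℂˣ} (h : IsKummerChar ι N n f χ) :
    IsKummerChar ι N (n * m) (f ^ m) χ := by
  obtain ⟨h₁, hr₁, hm₁⟩ := h
  refine ⟨h₁, ⟨hr₁.1, fun z hz => ?_⟩, hm₁⟩
  have e1 := hr₁.2 z hz
  have e2 := eventuallyEq_nhdsNE_of_codiscreteWithin (merK_pow hD f m) hz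
  filter_upwards [e1, e2] with y hy hy2
  simp only [Pi.pow_apply] at hy ⊢
  rw [_root_.pow_mul, hy, hy2]

/-! ### Parabolic-elliptic characters -/

/-- The Kummer character of a Kummer element is trivial on `±1`, on the elliptic and on the
parabolic elements. -/
theorem IsKummerChar.isPEChar (hD : IsDict ι N) {n : ℕ} (hn : 0 < n) {f : FNK K N}
    (hf : IsKummerElt K (FNK K N) n f) {χ : Gamma0 N →* ℂˣ} (h : IsKummerChar ι N n f χ) :
    IsPEChar (Gamma0 N) n χ := by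
  obtain ⟨h₁, hr, hm⟩ := h
  have hf0 := hf.1
  have hfin := order_ne_top hD hf0
  have hinv : ∀ γ ∈ Gamma0 N, ∀ z ∈ U, merK ι N f (mob γ z) = merK ι N f z :=
    fun γ hγ z hz => hD.merK_mob f γ hγ z hz
  refine ⟨fun γ => multiplier_pow_eq_one hn.ne' hfin hr hinv hm γ, ?_⟩
  have hnegmem : ∀ γ : Gamma0 N, -(γ : SL(2, ℤ)) ∈ Gamma0 N := by
    intro γ
    have h1 : -(γ : SL(2, ℤ)) = (-1 : SL(2, ℤ)) * γ := by simp
    rw [h1]
    exact (Gamma0 N).mul_mem (Fermat.Agent.S20.Count.neg_one_mem_Gamma0 N) γ.2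
  -- `χ (-γ) = χ γ`
  have hneg : ∀ γ : Gamma0 N, χ ⟨-(γ : SL(2, ℤ)), hnegmem γ⟩ = χ γ := fun γ =>
    multiplier_congr hn.ne' hfin hr hm _ _ (fun z _ => mob_neg (γ : SL(2, ℤ)) z)
  -- elliptic elements of trace `0` or `1`
  have hell : ∀ γ : Gamma0 N, (((γ : SL(2, ℤ)) : Matrix (Fin 2) (Fin 2) ℤ).trace = 0 ∨
      ((γ : SL(2, ℤ)) : Matrix (Fin 2) (Fin 2) ℤ).trace = 1) → χ γ = 1 := by
    intro γ ht
    obtain ⟨τ, hτ⟩ := exists_fixed_of_trace_sq_lt (γ : SL(2, ℤ)) (by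
      rcases ht with ht | ht <;> rw [ht] <;> norm_num)
    rcases ht with ht | ht
    · have h2 := sq_eq_neg_one_of_trace _ ht
      exact ell_multiplier_eq_one hD hn hf hr hm γ τ hτ 2 two_pos
        (Or.inr (Or.inl ⟨rfl, γ, γ.2, h2, hτ⟩)) (Or.inr h2) (hmin_two _ h2)
    · have h3 := cube_eq_neg_one_of_trace _ ht
      have hne : (γ : SL(2, ℤ)) ≠ -1 := by
        intro hcon
        rw [hcon, trace_neg_one] at ht
        norm_num at ht
      exact ell_multiplier_eq_one hD hn hf hr hm γ τ hτ 3 three_pos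
        (Or.inr (Or.inr ⟨rfl, γ, γ.2, h3, hne, hτ⟩)) (Or.inr h3) (hmin_three _ h3 hne)
  -- elements of trace `2`
  have hpar : ∀ γ : Gamma0 N, ((γ : SL(2, ℤ)) : Matrix (Fin 2) (Fin 2) ℤ).trace = 2 →
      χ γ = 1 := by
    intro γ ht
    obtain ⟨g, k, hk⟩ := exists_eq_conj_T_zpow (γ : SL(2, ℤ)) ht
    rcases lt_or_ge k 0 with hk0 | hk0
    · -- `γ⁻¹ = g⁻¹ T^(-k) g`
      obtain ⟨k', hk'⟩ := Int.eq_ofNat_of_zero_le (by omega : 0 ≤ -k)
      have h1 : ((γ⁻¹ : Gamma0 N) : SL(2, ℤ)) = g⁻¹ * ModularGroup.T ^ k' * g := by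
        rw [Subgroup.coe_inv, hk, conj_T_zpow_inv, hk', zpow_natCast]
      have h2 := par_multiplier_eq_one hD hn hf hr hm γ⁻¹ g k' h1
      rwa [map_inv, inv_eq_one] at h2
    · obtain ⟨k', hk'⟩ := Int.eq_ofNat_of_zero_le hk0
      exact par_multiplier_eq_one hD hn hf hr hm γ g k' (by rw [hk, hk', zpow_natCast])
  intro γ ht
  set t := ((γ : SL(2, ℤ)) : Matrix (Fin 2) (Fin 2) ℤ).trace with htdef
  have htneg : (((⟨-(γ : SL(2, ℤ)), hnegmem γ⟩ : Gamma0 N) : SL(2, ℤ)) :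
      Matrix (Fin 2) (Fin 2) ℤ).trace = -t := trace_neg _
  have hcases : t = 0 ∨ t = 1 ∨ t = -1 ∨ t = 2 ∨ t = -2 := by
    have h1 : -2 ≤ t := by nlinarith
    have h2 : t ≤ 2 := by nlinarith
    omega
  rcases hcases with h0 | h0 | h0 | h0 | h0
  · exact hell γ (Or.inl h0)
  · exact hell γ (Or.inr h0)
  · rw [← hneg γ]
    exact hell _ (Or.inr (by rw [htneg, h0]; norm_num))
  · exact hpar γ h0
  · rw [← hneg γ]
    exact hpar _ (by rw [htneg, h0]; norm_num)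

/-- Conversely, if the Kummer character of exponent `n` of `f ≠ 0` is parabolic-elliptic, then
all orders of `f` are divisible by `n`. -/
theorem isKummerElt_of_isPEChar (hD : IsDict ι N) {n : ℕ} (hn : 0 < n) {f : FNK K N}
    (hf : f ≠ 0) {χ : Gamma0 N →* ℂˣ} (h : IsKummerChar ι N n f χ)
    (hχ : IsPEChar (Gamma0 N) n χ) : IsKummerElt K (FNK K N) n f := by
  obtain ⟨h₁, hr, hm⟩ := h
  have hfin := order_ne_top hD hf
  refine ⟨hf, (hD.forall_dvd_ord_iff n f hf).2 ⟨?_, ?_⟩⟩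
  · intro τ e hell
    rw [← mul_order_root hD hn hf hr τ]
    push_cast
    apply mul_dvd_mul_left
    rcases hell with rfl | ⟨rfl, δ, hδ, h2, hfix⟩ | ⟨rfl, δ, hδ, h3, hne, hfix⟩
    · simp
    · exact dvd_of_multiplier_eq_one hn.ne' hfin hr hm ⟨δ, hδ⟩ τ hfix 2 two_pos (Or.inr h2)
        (hmin_two δ h2) (hχ.2 ⟨δ, hδ⟩ (trace_sq_le_four_of_fixed δ τ hfix))
    · exact dvd_of_multiplier_eq_one hn.ne' hfin hr hm ⟨δ, hδ⟩ τ hfix 3 three_pos (Or.inr h3)
        (hmin_three δ h3 hne) (hχ.2 ⟨δ, hδ⟩ (trace_sq_le_four_of_fixed δ τ hfix))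
  · intro g w hw hwN hmem
    have h1 : χ ⟨g⁻¹ * ModularGroup.T ^ w * g, hmem⟩ = 1 := by
      apply hχ.2
      show ((g⁻¹ * ModularGroup.T ^ w * g : SL(2, ℤ)) : Matrix (Fin 2) (Fin 2) ℤ).trace ^ 2 ≤ 4
      rw [← zpow_natCast, trace_conj_T_zpow]
      norm_num
    obtain ⟨e, he⟩ := hwN
    have hNw : N / w = e := by
      rw [he]
      exact Nat.mul_div_cancel_left e hw
    have h2 := hD.dvd_valCuspK_mul g w hw hmem f hf
    obtain ⟨m, hm'⟩ : ∃ m : ℤ, valCuspK ι N g f = m * e := by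
      have h3 : ((e : ℤ) * w) ∣ valCuspK ι N g f * w := by
        have h4 : ((N : ℕ) : ℤ) = (e : ℤ) * w := by
          rw [he]
          push_cast
          ring
        rwa [h4] at h2
      obtain ⟨m, hm'⟩ := (mul_dvd_mul_iff_right (by exact_mod_cast hw.ne' : (w : ℤ) ≠ 0)).mp h3
      exact ⟨m, by rw [hm', mul_comm]⟩
    have h3 := (cusp_multiplier_iff hD hn hf hr hm g w e hw (by rw [he, mul_comm]) hmem m hm').1 h1
    rw [hNw, hm']
    push_cast
    exact mul_dvd_mul h3 (dvd_refl _)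

end Main

end Fermat.Agent.ESJ.Jac
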