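import Mathlib
import Fermat.Agent.S24.FundCor
import Fermat.Agent.ESJ.Jac.Kummer

/-!
# ESJ / JAC-TORS (JAC-CONST) : a function with trivial divisor is a constant

For a function field `F / K` of one variable over an algebraically closed field `K` of
characteristic zero (`x : F` transcendental, `F` finite over `K(x)`):

* `Const.isAlgebraic_of_forall_ord_nonpos` : an element without zeros is algebraic over `K`;
* `Const.exists_eq_algebraMap_of_forall_ord_eq_zero` : `u ≠ 0` with `ord_v u = 0` for all places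
  `v` is a nonzero constant;
* `Const.exists_eq_const_mul_pow` : `div f = n · div g` implies `f = c · g ^ n`;
* `Const.exists_pow_eq_of_ord_eq` : hence `f = g' ^ n` (`K` has `n`-th roots);
* `isKummerChar_one_of_ord_eq` : the field `pow` of the Kummer system for
  `R := IsKummerChar ι N n`: `div f = n · div g` implies that the Kummer character of `f` is
  trivial.
-/

set_option autoImplicit false

open AlgebraicCurve IntermediateField CongruenceSubgroup

namespace Fermat.Agent.ESJ.Jac

namespace Const

variable {K F : Type*} [Field K] [Field F] [Algebra K F]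

/-- An element without zeros is algebraic over the constants. -/
theorem isAlgebraic_of_forall_ord_nonpos [IsAlgClosed K] [CharZero K] (x : F)
    [FiniteDimensional K⟮x⟯ F] {u : F} (h : ∀ v : Place K F, v.ord u ≤ 0) :
    IsAlgebraic K u := by
  by_contra htr
  have htr' : Transcendental K u := htr
  have : FiniteDimensional K⟮u⟯ F := Fermat.Agent.S24.finiteDimensional_of_transcendental x htr'
  obtain ⟨hfin, hsum⟩ := Fermat.Agent.S24.zerosOf_finite_sum u htr'
  have hempty : hfin.toFinset = ∅ := by
    ext v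
    simp only [Set.Finite.mem_toFinset, Fermat.Agent.S24.mem_zerosOf, Finset.notMem_empty,
      iff_false, not_lt]
    exact h v
  rw [hempty, Finset.sum_empty] at hsum
  have hpos : 0 < Module.finrank K⟮u⟯ F := Module.finrank_pos
  omega

/-- A nonzero function with trivial divisor is a nonzero constant. -/
theorem exists_eq_algebraMap_of_forall_ord_eq_zero [IsAlgClosed K] [CharZero K] (x : F)
    [FiniteDimensional K⟮x⟯ F] {u : F} (hu : u ≠ 0) (h : ∀ v : Place K F, v.ord u = 0) :
    ∃ c : K, c ≠ 0 ∧ u = algebraMap K F c := by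
  have halg : IsAlgebraic K u := isAlgebraic_of_forall_ord_nonpos x (fun v => (h v).le)
  have hint : IsIntegral K u := halg.isIntegral
  have hdeg := IsAlgClosed.degree_eq_one_of_irreducible K (minpoly.irreducible hint)
  obtain ⟨c, hc⟩ := minpoly.mem_range_of_degree_eq_one K u hdeg
  refine ⟨c, ?_, hc.symm⟩
  rintro rfl
  rw [map_zero] at hc
  exact hu hc.symm

/-- `div f = n · div g` implies `f = c · g ^ n` for a nonzero constant `c`. -/
theorem exists_eq_const_mul_pow [IsAlgClosed K] [CharZero K] (x : F)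
    [FiniteDimensional K⟮x⟯ F] {n : ℕ} {f g : F} (hf : f ≠ 0) (hg : g ≠ 0)
    (h : ∀ v : Place K F, v.ord f = n * v.ord g) :
    ∃ c : K, c ≠ 0 ∧ f = algebraMap K F c * g ^ n := by
  have hgn : g ^ n ≠ 0 := pow_ne_zero n hg
  have hu : f * (g ^ n)⁻¹ ≠ 0 := mul_ne_zero hf (inv_ne_zero hgn)
  have hord : ∀ v : Place K F, v.ord (f * (g ^ n)⁻¹) = 0 := by
    intro v
    rw [v.ord_mul hf (inv_ne_zero hgn), v.ord_inv, ← zpow_natCast, v.ord_zpow, h v]
    ring
  obtain ⟨c, hc, hcu⟩ := exists_eq_algebraMap_of_forall_ord_eq_zero x hu hord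
  refine ⟨c, hc, ?_⟩
  rw [← hcu, mul_assoc, inv_mul_cancel₀ hgn, mul_one]

/-- `div f = n · div g` (`n > 0`) implies that `f` is an `n`-th power. -/
theorem exists_pow_eq_of_ord_eq [IsAlgClosed K] [CharZero K] (x : F)
    [FiniteDimensional K⟮x⟯ F] {n : ℕ} (hn : 0 < n) {f g : F} (hf : f ≠ 0) (hg : g ≠ 0)
    (h : ∀ v : Place K F, v.ord f = n * v.ord g) :
    ∃ g' : F, g' ≠ 0 ∧ f = g' ^ n := by
  obtain ⟨c, hc, hfc⟩ := exists_eq_const_mul_pow x hf hg h
  obtain ⟨c', hc'⟩ := IsAlgClosed.exists_pow_nat_eq c hn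
  have hc'0 : c' ≠ 0 := by
    rintro rfl
    rw [zero_pow hn.ne'] at hc'
    exact hc hc'.symm
  refine ⟨algebraMap K F c' * g, mul_ne_zero ?_ hg, ?_⟩
  · exact (map_ne_zero (algebraMap K F)).mpr hc'0
  · rw [hfc, mul_pow, ← map_pow, hc']

end Const

open Fermat.Agent.ESJ.Dict in
/-- **JAC-CONST** (field `pow` of the Kummer system for `R := IsKummerChar ι N n`): if
`div f = n · div g` then the Kummer character of exponent `n` of `f` is trivial. -/
theorem isKummerChar_one_of_ord_eq {K : Type} [Field K] [Algebra ℚ K] [IsAlgClosed K]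
    {ι : K →+* ℂ} {N : ℕ} [NeZero N] (hD : IsDict ι N) {n : ℕ} (hn : 0 < n) {f g : FNK K N}
    (hf : f ≠ 0) (hg : g ≠ 0) (h : ∀ v : Place K (FNK K N), v.ord f = n * v.ord g) :
    IsKummerChar ι N n f 1 := by
  have : CharZero K := charZero_of_injective_algebraMap (algebraMap ℚ K).injective
  have := hD.finiteDimensional_jBarK
  obtain ⟨g', -, rfl⟩ := Const.exists_pow_eq_of_ord_eq (jBarK K N) hn hf hg h
  exact isKummerChar_pow hD hn g'

end Fermat.Agent.ESJ.Jac
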