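import Mathlib
import Fermat.Prelude.Def_AlgebraicCurve_DivisorClassGroup

/-!
# JAC-A: the Kummer form of `Pic⁰[n]`

For a function field `F/K` (any fields; Prelude divisor class group), a class `x ∈ Pic⁰(F)` and
`f ∈ Fˣ`, `IsKummerPair n x f` says `x = [D]` with `n • D = div f`.

* every `n`-torsion class has a Kummer function (`exists_isKummerPair`), and conversely
  (`IsKummerPair.mem_torsion`);
* the Kummer function is unique up to `(functions with trivial divisor) * (n-th powers)`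
  (`IsKummerPair.exists_eq_mul_pow`) and determines the class (`IsKummerPair.eq_of_eq`);
  the class is zero iff the function is (trivial divisor) * (n-th power)
  (`IsKummerPair.eq_zero_of_eq_mul_pow`);
* additivity, compatibility in the level, equivariance under `F ≃ₐ[K] F`;
* with `HasPrincipalDivisors`: every `f` all of whose orders are divisible by `n` is a Kummer
  function (`exists_isKummerPair_of_dvd`).
-/

set_option autoImplicit false

namespace Fermat.Agent.ESJ.Jac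

open AlgebraicCurve

variable {K F : Type*} [Field K] [Field F] [Algebra K F]

/-- `x = [D]` with `n • D = div f`. -/
def IsKummerPair (n : ℕ) (x : Pic0 K F) (f : F) : Prop :=
  f ≠ 0 ∧ ∃ D : Divisor.degZero (K := K) (F := F), Pic0.mk D = x ∧
    ∀ v : Place K F, (n : ℤ) * (D : Divisor K F) v = v.ord f

theorem pic0_mk_eq_zero_iff (D : Divisor.degZero (K := K) (F := F)) :
    Pic0.mk D = 0 ↔ (D : Divisor K F) ∈ Divisor.principal (K := K) (F := F) := by
  unfold Pic0.mk
  rw [QuotientAddGroup.eq_zero_iff, AddSubgroup.mem_addSubgroupOf]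

theorem pic0_mk_eq_mk_iff (D D' : Divisor.degZero (K := K) (F := F)) :
    Pic0.mk D = Pic0.mk D' ↔
      (D' : Divisor K F) - (D : Divisor K F) ∈ Divisor.principal (K := K) (F := F) := by
  unfold Pic0.mk
  rw [QuotientAddGroup.eq, AddSubgroup.mem_addSubgroupOf]
  have h : ((-D + D' : Divisor.degZero (K := K) (F := F)) : Divisor K F) =
      (D' : Divisor K F) - (D : Divisor K F) := by
    push_cast
    abel
  rw [h]

theorem ord_pow (v : Place K F) (f : F) (m : ℕ) : v.ord (f ^ m) = m * v.ord f := by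
  have h := v.ord_zpow f (m : ℤ)
  rwa [zpow_natCast] at h

/-- Every `n`-torsion class has a Kummer function. -/
theorem exists_isKummerPair {n : ℕ} {x : Pic0 K F} (hx : x ∈ Pic0.torsion K F n) :
    ∃ f : F, IsKummerPair n x f := by
  obtain ⟨D, rfl⟩ := Pic0.mk_surjective x
  rw [Pic0.mem_torsion] at hx
  have h1 : Pic0.mk ((n : ℤ) • D) = 0 := hx
  rw [pic0_mk_eq_zero_iff] at h1
  obtain ⟨f, hf, hD⟩ := h1
  refine ⟨f, hf, D, rfl, fun v => ?_⟩
  rw [← hD v]
  simp

namespace IsKummerPair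

theorem ne_zero {n : ℕ} {x : Pic0 K F} {f : F} (h : IsKummerPair n x f) : f ≠ 0 := h.1

theorem mem_torsion {n : ℕ} {x : Pic0 K F} {f : F} (h : IsKummerPair n x f) :
    x ∈ Pic0.torsion K F n := by
  obtain ⟨hf, D, rfl, hD⟩ := h
  rw [Pic0.mem_torsion]
  show Pic0.mk ((n : ℤ) • D) = 0
  rw [pic0_mk_eq_zero_iff]
  refine ⟨f, hf, fun v => ?_⟩
  rw [← hD v]
  simp

theorem zero (n : ℕ) : IsKummerPair n (0 : Pic0 K F) (1 : F) :=
  ⟨one_ne_zero, 0, rfl, fun v => by simp⟩

theorem add {n : ℕ} {x x' : Pic0 K F} {f f' : F} (h : IsKummerPair n x f)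
    (h' : IsKummerPair n x' f') : IsKummerPair n (x + x') (f * f') := by
  obtain ⟨hf, D, rfl, hD⟩ := h
  obtain ⟨hf', D', rfl, hD'⟩ := h'
  refine ⟨mul_ne_zero hf hf', D + D', rfl, fun v => ?_⟩
  rw [v.ord_mul hf hf', ← hD v, ← hD' v, AddSubgroup.coe_add, Finsupp.add_apply, mul_add]

theorem neg {n : ℕ} {x : Pic0 K F} {f : F} (h : IsKummerPair n x f) :
    IsKummerPair n (-x) f⁻¹ := by
  obtain ⟨hf, D, rfl, hD⟩ := h
  refine ⟨inv_ne_zero hf, -D, rfl, fun v => ?_⟩
  rw [v.ord_inv, ← hD v, AddSubgroup.coe_neg, Finsupp.neg_apply, mul_neg]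

theorem nsmul {n : ℕ} {x : Pic0 K F} {f : F} (h : IsKummerPair n x f) (m : ℕ) :
    IsKummerPair n (m • x) (f ^ m) := by
  induction m with
  | zero => simpa using zero (K := K) (F := F) n
  | succ m ih =>
    rw [succ_nsmul, pow_succ]
    exact ih.add h

/-- The Kummer function determines the class. -/
theorem eq_of_eq {n : ℕ} (hn : n ≠ 0) {x x' : Pic0 K F} {f : F} (h : IsKummerPair n x f)
    (h' : IsKummerPair n x' f) : x = x' := by
  obtain ⟨-, D, rfl, hD⟩ := h
  obtain ⟨-, D', rfl, hD'⟩ := h'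
  have hn' : (n : ℤ) ≠ 0 := Int.natCast_ne_zero.mpr hn
  have hDD : D = D' := Subtype.ext (Finsupp.ext fun v =>
    mul_left_cancel₀ hn' ((hD v).trans (hD' v).symm))
  rw [hDD]

/-- The Kummer function of a class is unique up to functions with trivial divisor and `n`-th
powers. -/
theorem exists_eq_mul_pow {n : ℕ} {x : Pic0 K F} {f f' : F} (h : IsKummerPair n x f)
    (h' : IsKummerPair n x f') :
    ∃ c g : F, c ≠ 0 ∧ g ≠ 0 ∧ (∀ v : Place K F, v.ord c = 0) ∧ f' = c * f * g ^ n := by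
  obtain ⟨hf, D, rfl, hD⟩ := h
  obtain ⟨hf', D', hDD, hD'⟩ := h'
  obtain ⟨g, hg, hgD⟩ := (pic0_mk_eq_mk_iff D D').mp hDD.symm
  have hgn : g ^ n ≠ 0 := pow_ne_zero n hg
  refine ⟨f' * (f * g ^ n)⁻¹, g⁻¹⁻¹, mul_ne_zero hf' (inv_ne_zero (mul_ne_zero hf hgn)),
    by simpa using hg, fun v => ?_, ?_⟩
  · rw [v.ord_mul hf' (inv_ne_zero (mul_ne_zero hf hgn)), v.ord_inv, v.ord_mul hf hgn,
      ord_pow, ← hD v, ← hD' v, ← hgD v, Finsupp.sub_apply]
    ring
  · rw [inv_inv]
    field_simp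

/-- Injectivity of the Kummer class: a class whose Kummer function is an `n`-th power times a
function with trivial divisor is zero. -/
theorem eq_zero_of_eq_mul_pow {n : ℕ} (hn : n ≠ 0) {x : Pic0 K F} {c g : F}
    (h : IsKummerPair n x (c * g ^ n)) (hc : ∀ v : Place K F, v.ord c = 0) (hg : g ≠ 0) :
    x = 0 := by
  obtain ⟨hf, D, rfl, hD⟩ := h
  have hc0 : c ≠ 0 := left_ne_zero_of_mul hf
  have hn' : (n : ℤ) ≠ 0 := Int.natCast_ne_zero.mpr hn
  rw [pic0_mk_eq_zero_iff]
  refine ⟨g, hg, fun v => mul_left_cancel₀ hn' ?_⟩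
  rw [hD v, v.ord_mul hc0 (pow_ne_zero n hg), hc v, zero_add, ord_pow]

/-- Compatibility in the level, I. -/
theorem of_mul {n m : ℕ} {x : Pic0 K F} {f : F} (h : IsKummerPair (n * m) x f) :
    IsKummerPair n (m • x) f := by
  obtain ⟨hf, D, rfl, hD⟩ := h
  refine ⟨hf, m • D, rfl, fun v => ?_⟩
  rw [← hD v, AddSubgroup.coe_nsmul, Finsupp.smul_apply, nsmul_eq_mul]
  push_cast
  ring

/-- Compatibility in the level, II. -/
theorem pow_mul {n : ℕ} {x : Pic0 K F} {f : F} (h : IsKummerPair n x f) (m : ℕ) :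
    IsKummerPair (n * m) x (f ^ m) := by
  obtain ⟨hf, D, rfl, hD⟩ := h
  refine ⟨pow_ne_zero m hf, D, rfl, fun v => ?_⟩
  rw [ord_pow, ← hD v]
  push_cast
  ring

/-- Equivariance under `K`-automorphisms of `F`. -/
theorem smul {n : ℕ} {x : Pic0 K F} {f : F} (h : IsKummerPair n x f) (σ : F ≃ₐ[K] F) :
    IsKummerPair n (σ • x) (σ f) := by
  obtain ⟨hf, D, rfl, hD⟩ := h
  refine ⟨by simpa using hf, Pic0.degZeroSMulHom σ D, (Pic0.smul_mk σ D).symm, fun w => ?_⟩
  rw [Pic0.coe_degZeroSMulHom, Divisor.smul_apply, hD (σ⁻¹ • w)]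
  have h1 := Place.ord_smul σ (σ⁻¹ • w) f
  rw [smul_inv_smul] at h1
  exact h1.symm

end IsKummerPair

section Principal

variable [HasPrincipalDivisors K F]

/-- Multiplying a Kummer function by a function with trivial divisor and an `n`-th power gives
a Kummer function of the same class. -/
theorem IsKummerPair.mul_pow {n : ℕ} {x : Pic0 K F} {f : F} (h : IsKummerPair n x f) {c g : F}
    (hc0 : c ≠ 0) (hc : ∀ v : Place K F, v.ord c = 0) (hg : g ≠ 0) :
    IsKummerPair n x (c * f * g ^ n) := by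
  obtain ⟨hf, D, rfl, hD⟩ := h
  obtain ⟨E, hE, hdeg⟩ := HasPrincipalDivisors.exists_divisor (K := K) g hg
  have hgn : g ^ n ≠ 0 := pow_ne_zero n hg
  refine ⟨mul_ne_zero (mul_ne_zero hc0 hf) hgn, D + ⟨E, hdeg⟩, ?_, fun v => ?_⟩
  · rw [Pic0.mk_add]
    have h0 : Pic0.mk (⟨E, hdeg⟩ : Divisor.degZero (K := K) (F := F)) = 0 := by
      rw [pic0_mk_eq_zero_iff]
      exact ⟨g, hg, hE⟩
    rw [h0, add_zero]
  · rw [v.ord_mul (mul_ne_zero hc0 hf) hgn, v.ord_mul hc0 hf, hc v, zero_add, ord_pow, ← hD v,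
      ← hE v, AddSubgroup.coe_add, Finsupp.add_apply, mul_add]

/-- Surjectivity side: a function all of whose orders are divisible by `n` is the Kummer
function of a class. -/
theorem exists_isKummerPair_of_dvd {n : ℕ} (hn : n ≠ 0) {f : F} (hf : f ≠ 0)
    (h : ∀ v : Place K F, (n : ℤ) ∣ v.ord f) : ∃ x : Pic0 K F, IsKummerPair n x f := by
  obtain ⟨E, hE, hdeg⟩ := HasPrincipalDivisors.exists_divisor (K := K) f hf
  have hn' : (n : ℤ) ≠ 0 := Int.natCast_ne_zero.mpr hn
  have hmul : ∀ v : Place K F, (n : ℤ) * (E.mapRange (· / (n : ℤ)) (by simp)) v = v.ord f := by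
    intro v
    rw [Finsupp.mapRange_apply, hE v]
    exact Int.mul_ediv_cancel' (h v)
  have hsmul : (n : ℤ) • (E.mapRange (· / (n : ℤ)) (by simp)) = E := by
    ext v
    rw [Finsupp.smul_apply, smul_eq_mul, hmul v, hE v]
  have hdeg' : Divisor.degree (E.mapRange (· / (n : ℤ)) (by simp)) = 0 := by
    have h1 : (n : ℤ) • Divisor.degree (E.mapRange (· / (n : ℤ)) (by simp)) = 0 := by
      rw [← map_zsmul, hsmul, hdeg]
    rcases smul_eq_zero.mp h1 with h2 | h2
    · exact absurd h2 hn'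
    · exact h2
  exact ⟨Pic0.mk ⟨_, hdeg'⟩, hf, ⟨_, hdeg'⟩, rfl, hmul⟩

end Principal

end Fermat.Agent.ESJ.Jac
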