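import Mathlib

/-!
# ESJ / JAC-TORS : eigen-functionals of a commuting family on a lattice (pure algebra)

Let `H` be a finite free `ℤ`-module with a commuting family of endomorphisms `T i`, and assume
that the system of eigenvalues `(a i)` occurs in `ℂ ⊗ H` (there is `v ≠ 0` with
`T i v = a i • v`).  Then every `a i` is an algebraic integer, and for EVERY field `k` and EVERY
ring homomorphism `φ : ℤ̄ → k` the reduced system `(φ (a i))` occurs in `Hom(H, k)`:
there is a nonzero additive map `μ : H → k` with `μ (T i h) = φ (a i) * μ h`.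

Proof: `H` is a finitely generated module over the polynomial ring `P = ℤ[X_i]`, the character
`ψ = φ ∘ θ : P → k` (`θ (X i) = a i`) contains the annihilator of `H` in its kernel `𝔭`, so `𝔭`
is in the support of `H` and `κ(𝔭) ⊗_P H ≠ 0` (Nakayama); a nonzero `κ(𝔭)`-linear functional on
it, composed with `κ(𝔭) ↪ k`, is the required `μ`.
-/

set_option autoImplicit false

open scoped TensorProduct

noncomputable section

namespace Fermat.Agent.ESJ.Jac.EigenFunctional

section Eval

variable {H : Type*} [AddCommGroup H] {ι : Type*} (T : ι → Module.End ℤ H)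
  (hT : ∀ i j, T i * T j = T j * T i)

include hT in
theorem isMulCommutative_adjoin_range :
    IsMulCommutative (Algebra.adjoin ℤ (Set.range T)) :=
  Algebra.isMulCommutative_adjoin ℤ (by
    rintro _ ⟨i, rfl⟩ _ ⟨j, rfl⟩
    exact hT i j)

open scoped IsMulCommutative in
/-- Evaluation of polynomials at a commuting family of endomorphisms, with values in the
commutative subalgebra generated by the family. -/
def evAux : MvPolynomial ι ℤ →ₐ[ℤ]
    (Algebra.adjoin ℤ (Set.range T) : Subalgebra ℤ (Module.End ℤ H)) :=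
  haveI := isMulCommutative_adjoin_range T hT
  MvPolynomial.aeval fun i =>
    (⟨T i, Algebra.subset_adjoin (Set.mem_range_self i)⟩ : Algebra.adjoin ℤ (Set.range T))

/-- Evaluation of polynomials at a commuting family of endomorphisms. -/
def ev : MvPolynomial ι ℤ →ₐ[ℤ] Module.End ℤ H :=
  (Algebra.adjoin ℤ (Set.range T)).val.comp (evAux T hT)

open scoped IsMulCommutative in
theorem evAux_X (i : ι) :
    evAux T hT (MvPolynomial.X i) = ⟨T i, Algebra.subset_adjoin (Set.mem_range_self i)⟩ :=
  haveI := isMulCommutative_adjoin_range T hT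
  MvPolynomial.aeval_X _ i

theorem ev_X (i : ι) : ev T hT (MvPolynomial.X i) = T i := by
  show ((evAux T hT (MvPolynomial.X i) : Algebra.adjoin ℤ (Set.range T)) : Module.End ℤ H) = T i
  rw [evAux_X]

end Eval

/-- **Eigen-functionals.** If the eigenvalue system `(a i)` of a commuting family `T i` on a
finite free `ℤ`-module `H` occurs in `ℂ ⊗ H`, then for every ring homomorphism `φ` from the
ring of algebraic integers to a field `k`, the system `(φ (a i))` occurs in `Hom(H, k)`. -/
theorem exists_eigenfunctional {H : Type*} [AddCommGroup H] [Module.Free ℤ H] [Module.Finite ℤ H]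
    {ι : Type*} (T : ι → Module.End ℤ H) (hT : ∀ i j, T i * T j = T j * T i)
    (a : ι → ℂ) (v : ℂ ⊗[ℤ] H) (hv : v ≠ 0)
    (hva : ∀ i, (T i).baseChange ℂ v = a i • v)
    {k : Type*} [Field k] (φ : integralClosure ℤ ℂ →+* k) :
    ∃ μ : H →+ k, μ ≠ 0 ∧ ∀ i, ∃ b : integralClosure ℤ ℂ, (b : ℂ) = a i ∧
      ∀ h : H, μ (T i h) = φ b * μ h := by
  classical
  let E : MvPolynomial ι ℤ →ₐ[ℤ] Module.End ℤ H := ev T hT
  let θ : MvPolynomial ι ℤ →ₐ[ℤ] ℂ := MvPolynomial.aeval a
  have hEX : ∀ i, E (MvPolynomial.X i) = T i := ev_X T hT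
  have hθX : ∀ i, θ (MvPolynomial.X i) = a i := fun i => MvPolynomial.aeval_X a i
  -- the eigenvector is an eigenvector of all polynomials in the `T i`
  have F1 : ∀ f : MvPolynomial ι ℤ, (E f).baseChange ℂ v = θ f • v := by
    intro f
    induction f using MvPolynomial.induction_on with
    | C n =>
      rw [← MvPolynomial.algebraMap_eq, AlgHom.commutes, AlgHom.commutes,
        Algebra.algebraMap_eq_smul_one, LinearMap.baseChange_smul, LinearMap.baseChange_one,
        LinearMap.smul_apply, Module.End.one_apply, eq_intCast, Int.cast_smul_eq_zsmul]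
    | add f g hf hg =>
      rw [map_add, map_add, LinearMap.baseChange_add, LinearMap.add_apply, hf, hg, add_smul]
    | mul_X f i hf =>
      rw [map_mul, map_mul, hEX, hθX, LinearMap.baseChange_mul, Module.End.mul_apply, hva,
        map_smul, hf, smul_smul, mul_comm]
  have F2 : ∀ f : MvPolynomial ι ℤ, E f = 0 → θ f = 0 := by
    intro f hf
    have h1 := F1 f
    rw [hf, LinearMap.baseChange_zero, LinearMap.zero_apply] at h1
    exact (smul_eq_zero.mp h1.symm).resolve_right hv
  -- integrality of the eigenvalues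
  have F3 : ∀ f : MvPolynomial ι ℤ, IsIntegral ℤ (θ f) := by
    intro f
    obtain ⟨q, hq, hq0⟩ : IsIntegral ℤ (E f) := IsIntegral.of_finite ℤ (E f)
    refine ⟨q, hq, ?_⟩
    have h1 : E (Polynomial.aeval f q) = 0 := by
      rw [← Polynomial.aeval_algHom_apply]
      exact hq0
    have h2 := F2 _ h1
    rw [← Polynomial.aeval_algHom_apply] at h2
    exact h2
  let θ' : MvPolynomial ι ℤ →+* integralClosure ℤ ℂ :=
    (θ : MvPolynomial ι ℤ →+* ℂ).codRestrict (integralClosure ℤ ℂ) F3
  have hθ' : ∀ f, ((θ' f : integralClosure ℤ ℂ) : ℂ) = θ f := fun _ => rfl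
  let ψ : MvPolynomial ι ℤ →+* k := φ.comp θ'
  -- `H` as a module over the polynomial ring
  let instP : Module (MvPolynomial ι ℤ) H := Module.compHom H E.toRingHom
  have hsmul : ∀ (f : MvPolynomial ι ℤ) (h : H), f • h = E f h := fun _ _ => rfl
  have : IsScalarTower ℤ (MvPolynomial ι ℤ) H := ⟨fun n f h => by
    rw [hsmul, hsmul, map_zsmul]
    rfl⟩
  have : Module.Finite (MvPolynomial ι ℤ) H :=
    Module.Finite.of_restrictScalars_finite ℤ (MvPolynomial ι ℤ) H
  -- the kernel of `ψ` is in the support of `H`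
  have hprime : (RingHom.ker ψ).IsPrime := RingHom.ker_isPrime ψ
  have hann : Module.annihilator (MvPolynomial ι ℤ) H ≤ RingHom.ker ψ := by
    intro f hf
    rw [Module.mem_annihilator] at hf
    have hE : E f = 0 := LinearMap.ext fun h => by
      rw [← hsmul, hf h, LinearMap.zero_apply]
    have h0 : θ' f = 0 := Subtype.ext (by rw [hθ', F2 f hE]; rfl)
    show φ (θ' f) = 0
    rw [h0, map_zero]
  have hsupp : (⟨RingHom.ker ψ, hprime⟩ : PrimeSpectrum (MvPolynomial ι ℤ)) ∈
      Module.support (MvPolynomial ι ℤ) H := Module.mem_support_iff_of_finite.mpr hann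
  have hnt : Nontrivial ((RingHom.ker ψ).ResidueField ⊗[MvPolynomial ι ℤ] H) :=
    (Module.mem_support_iff_nontrivial_residueField_tensorProduct
      (⟨RingHom.ker ψ, hprime⟩ : PrimeSpectrum (MvPolynomial ι ℤ))).mp hsupp
  -- the embedding of the residue field into `k`
  let j : (RingHom.ker ψ).ResidueField →+* k :=
    Ideal.ResidueField.lift (RingHom.ker ψ) ψ le_rfl (by
      intro f hf
      have hf' : ψ f ≠ 0 := fun h0 => hf (RingHom.mem_ker.mpr h0)
      exact isUnit_iff_ne_zero.mpr hf')
  have hj : ∀ f, j (algebraMap (MvPolynomial ι ℤ) (RingHom.ker ψ).ResidueField f) = ψ f :=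
    fun f => Ideal.ResidueField.lift_algebraMap _ _ _ _ f
  -- a nonzero functional
  obtain ⟨w, hw⟩ : ∃ w : (RingHom.ker ψ).ResidueField ⊗[MvPolynomial ι ℤ] H, w ≠ 0 :=
    exists_ne 0
  obtain ⟨lam, hlam⟩ := Module.Projective.exists_dual_ne_zero (RingHom.ker ψ).ResidueField hw
  let ι₁ : H →+ (RingHom.ker ψ).ResidueField ⊗[MvPolynomial ι ℤ] H :=
    (TensorProduct.mk (MvPolynomial ι ℤ) (RingHom.ker ψ).ResidueField H 1).toAddMonoidHom
  let μ : H →+ k := (j : (RingHom.ker ψ).ResidueField →+ k).comp (lam.toAddMonoidHom.comp ι₁)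
  have hμ : ∀ h : H, μ h = j (lam ((1 : (RingHom.ker ψ).ResidueField) ⊗ₜ[MvPolynomial ι ℤ] h)) :=
    fun _ => rfl
  have hμsmul : ∀ (f : MvPolynomial ι ℤ) (h : H), μ (f • h) = ψ f * μ h := by
    intro f h
    rw [hμ, hμ, ← hj, ← map_mul]
    congr 1
    have e1 : (1 : (RingHom.ker ψ).ResidueField) ⊗ₜ[MvPolynomial ι ℤ] (f • h)
        = (algebraMap (MvPolynomial ι ℤ) (RingHom.ker ψ).ResidueField f) •
          ((1 : (RingHom.ker ψ).ResidueField) ⊗ₜ[MvPolynomial ι ℤ] h) := by
      rw [TensorProduct.smul_tmul', smul_eq_mul, mul_one, ← TensorProduct.smul_tmul,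
        Algebra.smul_def, mul_one]
    rw [e1, map_smul, smul_eq_mul]
  refine ⟨μ, ?_, fun i => ⟨θ' (MvPolynomial.X i), by rw [hθ', hθX], fun h => ?_⟩⟩
  · intro hμ0
    have hz : ∀ h : H, lam ((1 : (RingHom.ker ψ).ResidueField) ⊗ₜ[MvPolynomial ι ℤ] h) = 0 := by
      intro h
      have h1 : μ h = 0 := by rw [hμ0]; rfl
      rw [hμ] at h1
      exact (map_eq_zero j).mp h1
    have hall : ∀ x : (RingHom.ker ψ).ResidueField ⊗[MvPolynomial ι ℤ] H, lam x = 0 := by
      intro x
      induction x using TensorProduct.induction_on with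
      | zero => exact map_zero lam
      | tmul c h =>
        have e : c ⊗ₜ[MvPolynomial ι ℤ] h
            = c • ((1 : (RingHom.ker ψ).ResidueField) ⊗ₜ[MvPolynomial ι ℤ] h) := by
          rw [TensorProduct.smul_tmul', smul_eq_mul, mul_one]
        rw [e, map_smul, hz h, smul_zero]
      | add x y hx hy => rw [map_add, hx, hy, add_zero]
    exact hlam (hall w)
  · have h1 : T i h = (MvPolynomial.X i : MvPolynomial ι ℤ) • h := by
      rw [hsmul, hEX]
    rw [h1, hμsmul]
    rfl

end Fermat.Agent.ESJ.Jac.EigenFunctional
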