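import Mathlib
import Fermat.Agent.ESJ.Interfaces
import Fermat.Agent.ESJ.ParHom.Torsion
import Fermat.Agent.ESJ.Rep.EigChar
import Fermat.Agent.ESJ.Rep.TateCore
import Fermat.Agent.ESJ.Jac.EigenFunctional

/-!
# ESJ / JAC-TORS (J3) : `EigenFunctionalModP` from a Kummer comparison

Let `g` be a normalized eigenform of level `Γ₀(N)`.

* `exists_eigenvector` : the eigen-system `(a_ℓ(g))_ℓ` (all primes `ℓ`) occurs in
  `ℂ ⊗ Hom_PE(Γ₀(N), ℤ)` (Eichler–Shimura, `ParHom.cmpS2`).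
* `exists_eigenfunctional_int` : for every field `k` and `φ : ℤ̄ →+* k` there is a nonzero
  additive `μ : Hom_PE(Γ₀(N), ℤ) → k` with `μ ∘ T_ℓ = φ(a_ℓ) μ` for all primes `ℓ`.
* `exists_eigenfunctional_zmod` : the same on `Hom_PE(Γ₀(N), ℤ/m)` if `m = 0` in `k`.
* `eigenFunctionalModP_of_surjection` : `EigenFunctionalModP N p` from ANY additive surjection
  `κ : J₀(N)[p] → Hom_PE(Γ₀(N), ℤ/m)` (`p ∣ m`) which is Hecke-equivariant for the primes
  `ℓ ∤ N p` only (the "anemic" Kummer comparison at level `p`).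
* `eigenFunctionalModP_of_kummerCmp` : `EigenFunctionalModP N p` from `Rep.KummerCmp N p`.
-/

set_option autoImplicit false

open scoped TensorProduct MatrixGroups
open CongruenceSubgroup ModularCurve AlgebraicCurve ModularFormClass

noncomputable section

namespace Fermat.Agent.ESJ.Jac.EigenFunctional

open Fermat.Agent.ESJ.ParHom

variable {N : ℕ} [NeZero N]

/-- The eigen-system of a normalized eigenform occurs in `ℂ ⊗ Hom_PE(Γ₀(N), ℤ)`. -/
theorem exists_eigenvector {g : CuspForm (Gamma0 N) 2} (hg : g.IsNormalizedEigenform) :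
    ∃ v : ℂ ⊗[ℤ] HPE N, v ≠ 0 ∧
      ∀ ℓ : Nat.Primes, (heckePE N ℓ ℤ ℤ).baseChange ℂ v = qCoeff (⇑g) ℓ • v := by
  have hg0 : g ≠ 0 := by
    intro h0
    have h1 := hg.qCoeff_one
    rw [h0] at h1
    have h2 : qCoeff (⇑(0 : CuspForm (Gamma0 N) 2)) 1 = 0 := by
      have := Fermat.Agent.S49.qCoeff_smul (N := N) (k := 2) (0 : ℂ) (0 : CuspForm (Gamma0 N) 2) 1
      rw [zero_smul, zero_mul] at this
      exact this
    rw [h2] at h1
    exact zero_ne_one h1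
  refine ⟨(cmpS2 N).symm (g, 0), ?_, fun ℓ => ?_⟩
  · intro h0
    have h1 : (g, (0 : CuspForm (Gamma0 N) 2)) = 0 := by
      have := congrArg (cmpS2 N) h0
      rwa [LinearEquiv.apply_symm_apply, map_zero] at this
    exact hg0 (congrArg Prod.fst h1)
  · apply (cmpS2 N).injective
    rw [cmpS2_hecke, LinearEquiv.apply_symm_apply, map_smul, LinearEquiv.apply_symm_apply]
    have h1 : heckeS2 N ℓ g = qCoeff (⇑g) ℓ • g := by
      have := Fermat.Agent.ESJ.Rep.EigChar.apply_eq_chiC_smul hg (CuspForm.heckeFormsGen N 2 ℓ)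
      rw [Fermat.Agent.ESJ.Rep.EigChar.chiC_heckeFormsGen] at this
      exact this
    show (heckeS2 N ℓ g, heckeS2 N ℓ (0 : CuspForm (Gamma0 N) 2)) = qCoeff (⇑g) ℓ • (g, 0)
    rw [h1, map_zero, Prod.smul_mk, smul_zero]

/-- Eigen-functionals on the integral lattice `Hom_PE(Γ₀(N), ℤ)`. -/
theorem exists_eigenfunctional_int {g : CuspForm (Gamma0 N) 2} (hg : g.IsNormalizedEigenform)
    {k : Type*} [Field k] (φ : integralClosure ℤ ℂ →+* k) :
    ∃ μ : HPE N →+ k, μ ≠ 0 ∧ ∀ ℓ : Nat.Primes, ∃ a : integralClosure ℤ ℂ,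
      (a : ℂ) = qCoeff (⇑g) ℓ ∧ ∀ h : HPE N, μ (heckePE N ℓ ℤ ℤ h) = φ a * μ h := by
  obtain ⟨v, hv, hva⟩ := exists_eigenvector hg
  exact exists_eigenfunctional (fun ℓ : Nat.Primes => heckePE N ℓ ℤ ℤ)
    (fun ℓ ℓ' => (heckePE_comm_int N ℓ ℓ').eq) (fun ℓ => qCoeff (⇑g) ℓ) v hv hva φ

/-- Eigen-functionals on `Hom_PE(Γ₀(N), ℤ/m)`, for `m = 0` in `k`. -/
theorem exists_eigenfunctional_zmod {g : CuspForm (Gamma0 N) 2} (hg : g.IsNormalizedEigenform)
    {k : Type*} [Field k] (φ : integralClosure ℤ ℂ →+* k) (m : ℕ) (hm : (m : k) = 0) :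
    ∃ μ : peHoms (Gamma0 N) ℤ (ZMod m) →+ k, μ ≠ 0 ∧ ∀ ℓ : Nat.Primes,
      ∃ a : integralClosure ℤ ℂ, (a : ℂ) = qCoeff (⇑g) ℓ ∧
        ∀ x : peHoms (Gamma0 N) ℤ (ZMod m), μ (heckePE N ℓ ℤ (ZMod m) x) = φ a * μ x := by
  obtain ⟨μ₀, hμ₀, hμ₀T⟩ := exists_eigenfunctional_int hg φ
  let red : HPE N →+ peHoms (Gamma0 N) ℤ (ZMod m) :=
    mapPE (Gamma0 N) (Int.castAddHom (ZMod m))
  have hred : Function.Surjective red :=
    mapPE_surjective (ZMod.intCast_surjective (n := m))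
  have hker : ∀ h : HPE N, red h = 0 → μ₀ h = 0 := by
    intro h hh
    obtain ⟨ψ, rfl⟩ := (mapPE_intCast_eq_zero_iff (N := N) ℤ m h).mp hh
    rw [map_zsmul, zsmul_eq_mul, Int.cast_natCast, hm, zero_mul]
  have hredT : ∀ (ℓ : Nat.Primes) (h : HPE N),
      red (heckePE N ℓ ℤ ℤ h) = heckePE N ℓ ℤ (ZMod m) (red h) :=
    fun ℓ h => mapPE_heckePE ℓ _ h
  let μ : peHoms (Gamma0 N) ℤ (ZMod m) →+ k :=
    red.liftOfRightInverse (Function.surjInv hred) (Function.rightInverse_surjInv hred)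
      ⟨μ₀, fun h hh => hker h hh⟩
  have hμ : ∀ h : HPE N, μ (red h) = μ₀ h := fun h =>
    red.liftOfRightInverse_comp_apply (Function.surjInv hred)
      (Function.rightInverse_surjInv hred) ⟨μ₀, fun h hh => hker h hh⟩ h
  refine ⟨μ, ?_, fun ℓ => ?_⟩
  · intro h0
    apply hμ₀
    ext h
    rw [← hμ, h0]
    rfl
  · obtain ⟨a, ha, haT⟩ := hμ₀T ℓ
    refine ⟨a, ha, fun x => ?_⟩
    obtain ⟨h, rfl⟩ := hred x
    rw [← hredT, hμ, hμ, haT]

end Fermat.Agent.ESJ.Jac.EigenFunctional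

namespace Fermat.Agent.ESJ

open Fermat.Agent.ESJ.ParHom Fermat.Agent.ESJ.Jac.EigenFunctional

/-- **J3, anemic form.** `EigenFunctionalModP N p` follows from ANY additive surjection
`κ : J₀(N)[p] → Hom_PE(Γ₀(N), ℤ/m)` with `p ∣ m` which is Hecke-equivariant for the primes
`ℓ ∤ N p`. -/
theorem eigenFunctionalModP_of_surjection (N p : ℕ) [NeZero N] (m : ℕ) (hpm : p ∣ m)
    (κ : Pic0.torsion (AlgebraicClosure ℚ) (modularFunctionFieldBar N) p →+
      peHoms (Gamma0 N) ℤ (ZMod m))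
    (hκ : Function.Surjective κ)
    (hH : ∀ ℓ : Nat.Primes, ¬ (ℓ : ℕ) ∣ N * p →
      ∀ x y : Pic0.torsion (AlgebraicClosure ℚ) (modularFunctionFieldBar N) p,
        (y : JZero N) = heckeOperatorBar N ℓ (x : JZero N) →
          κ y = heckePE N ℓ ℤ (ZMod m) (κ x)) :
    EigenFunctionalModP N p := by
  intro g hg k _ _ φ
  have hm : (m : k) = 0 := (CharP.cast_eq_zero_iff k p m).mpr hpm
  obtain ⟨μ, hμ, hμT⟩ := exists_eigenfunctional_zmod hg φ m hm
  refine ⟨μ.comp κ, ?_, fun ℓ hℓ => ?_⟩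
  · intro h0
    apply hμ
    ext x
    obtain ⟨y, rfl⟩ := hκ x
    have := congrArg (fun f : Pic0.torsion (AlgebraicClosure ℚ) (modularFunctionFieldBar N) p →+ k
      => f y) h0
    exact this
  · obtain ⟨a, ha, haT⟩ := hμT ℓ
    refine ⟨a, ha, fun x y hxy => ?_⟩
    show μ (κ y) = φ a * μ (κ x)
    rw [hH ℓ hℓ x y hxy, haT]

/-- **J3.** `EigenFunctionalModP N p` follows from the Kummer comparison `Rep.KummerCmp N p`
(only its level `p¹` is used). -/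
theorem eigenFunctionalModP_of_kummerCmp (N p : ℕ) [NeZero N] (hK : Rep.KummerCmp N p) :
    EigenFunctionalModP N p := by
  obtain ⟨κ, -, hHecke⟩ := hK
  have hle : Pic0.torsion (AlgebraicClosure ℚ) (modularFunctionFieldBar N) p ≤
      Pic0.torsion (AlgebraicClosure ℚ) (modularFunctionFieldBar N) (p ^ 1) := by
    rw [pow_one]
  have hge : Pic0.torsion (AlgebraicClosure ℚ) (modularFunctionFieldBar N) (p ^ 1) ≤
      Pic0.torsion (AlgebraicClosure ℚ) (modularFunctionFieldBar N) p := by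
    rw [pow_one]
  refine eigenFunctionalModP_of_surjection N p (p ^ 1) (by rw [pow_one])
    ((κ 1).toAddMonoidHom.comp (AddSubgroup.inclusion hle)) ?_ ?_
  · intro ψ
    obtain ⟨x, rfl⟩ := (κ 1).surjective ψ
    exact ⟨⟨x.1, hge x.2⟩, rfl⟩
  · intro ℓ hℓ x y hxy
    have hℓN : ¬ (ℓ : ℕ) ∣ N := fun h => hℓ (Dvd.dvd.mul_right h p)
    show κ 1 ⟨(y : JZero N), hle y.2⟩ = heckePE N ℓ ℤ (ZMod (p ^ 1)) (κ 1 ⟨(x : JZero N), hle x.2⟩)
    rw [← hHecke 1 ℓ hℓN (x : JZero N) (hle x.2) (hxy ▸ hle y.2)]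
    congr 1
    exact Subtype.ext hxy

end Fermat.Agent.ESJ
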