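import Mathlib
import Fermat.Prelude.Def_ModularCurve_ArithmeticGalois

/-!
# ESJ / JAC-TORS : the Galois action on places, divisors and classes has finite level

Setting: `K = ℚ̄`, `F₀` a field of `q`-series with rational coefficients,
`F = laurentBaseChange K F₀ = K · F₀ ⊆ K((q))`, on which `G_ℚ` acts coefficientwise
(`ModularCurve.arithmeticGalois F₀`).

* `exists_level_elt`     : every `f ∈ F` is fixed by `Gal(ℚ̄ / L)` for some finite `L / ℚ`.
* `exists_level_place`   : every place of `F / K` is fixed by `Gal(ℚ̄ / L)` for some finite `L / ℚ`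
  (needs only that principal divisors have finite support).
* `exists_level_divisor`, `exists_level_pic0`, `exists_level_of_finite` : the same for
  divisors, divisor classes of degree `0`, and finite sets of such classes.

No analysis, no explicit description of the places.
-/

set_option autoImplicit false

noncomputable section

namespace Fermat.Agent.ESJ.Jac.FiniteLevel

open AlgebraicCurve ModularCurve IntermediateField

/-- A finite union of "finite level" statements has finite level. -/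
theorem exists_level_forall_mem {ι : Type*} (s : Set ι) (hs : s.Finite)
    (p : ι → (AlgebraicClosure ℚ ≃ₐ[ℚ] AlgebraicClosure ℚ) → Prop)
    (h : ∀ i ∈ s, ∃ L : IntermediateField ℚ (AlgebraicClosure ℚ), FiniteDimensional ℚ L ∧
      ∀ σ : AlgebraicClosure ℚ ≃ₐ[ℚ] AlgebraicClosure ℚ, (∀ x ∈ L, σ x = x) → p i σ) :
    ∃ L : IntermediateField ℚ (AlgebraicClosure ℚ), FiniteDimensional ℚ L ∧
      ∀ σ : AlgebraicClosure ℚ ≃ₐ[ℚ] AlgebraicClosure ℚ, (∀ x ∈ L, σ x = x) →
        ∀ i ∈ s, p i σ := by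
  classical
  choose! Lf hLf using h
  refine ⟨⨆ i ∈ hs.toFinset, Lf i, ?_, ?_⟩
  · exact IntermediateField.finiteDimensional_iSup_of_finset'
      (fun i hi => (hLf i (hs.mem_toFinset.1 hi)).1)
  · intro σ hσ i hi
    refine (hLf i hi).2 σ fun x hx => hσ x ?_
    exact (le_iSup₂_of_le (f := fun i _ => Lf i) i (hs.mem_toFinset.2 hi) le_rfl) hx

/-- `AlgebraicClosure ℚ / ℚ` is algebraic, for the algebra instance found by instance
search (`DivisionRing.toRatAlgebra`). -/
theorem isAlgebraic_rat_closure : Algebra.IsAlgebraic ℚ (AlgebraicClosure ℚ) := by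
  have h : (AlgebraicClosure.instAlgebra ℚ : Algebra ℚ (AlgebraicClosure ℚ)) =
      DivisionRing.toRatAlgebra := Subsingleton.elim _ _
  rw [← h]
  infer_instance

variable (F₀ : IntermediateField ℚ (LaurentSeries ℚ))

/-- Every element of `K · F₀` has its coefficients "in a finite extension of `ℚ`". -/
theorem exists_level_coeffMap {x : LaurentSeries (AlgebraicClosure ℚ)}
    (hx : x ∈ laurentBaseChange (AlgebraicClosure ℚ) F₀) :
    ∃ L : IntermediateField ℚ (AlgebraicClosure ℚ), FiniteDimensional ℚ L ∧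
      ∀ σ : AlgebraicClosure ℚ ≃ₐ[ℚ] AlgebraicClosure ℚ, (∀ a ∈ L, σ a = a) →
        coeffMap (σ : AlgebraicClosure ℚ →+* AlgebraicClosure ℚ) x = x := by
  rw [mem_laurentBaseChange_iff] at hx
  induction hx using Subfield.closure_induction with
  | mem y hy =>
      rcases hy with ⟨a, rfl⟩ | ⟨z, _, rfl⟩
      · have := isAlgebraic_rat_closure
        have ha : IsIntegral ℚ a := (Algebra.IsAlgebraic.isAlgebraic a).isIntegral
        refine ⟨ℚ⟮a⟯, IntermediateField.adjoin.finiteDimensional ha, fun σ hσ => ?_⟩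
        rw [coeffMap_algebraMap]
        exact congrArg _ (hσ a (IntermediateField.mem_adjoin_simple_self ℚ a))
      · exact ⟨⊥, inferInstance, fun σ _ => coeffMap_coeffEmb σ z⟩
  | one => exact ⟨⊥, inferInstance, fun σ _ => map_one _⟩
  | add x y _ _ hx hy =>
      obtain ⟨L₁, h₁, hL₁⟩ := hx
      obtain ⟨L₂, h₂, hL₂⟩ := hy
      refine ⟨L₁ ⊔ L₂, inferInstance, fun σ hσ => ?_⟩
      rw [map_add, hL₁ σ fun a ha => hσ a ((le_sup_left : L₁ ≤ L₁ ⊔ L₂) ha),
        hL₂ σ fun a ha => hσ a ((le_sup_right : L₂ ≤ L₁ ⊔ L₂) ha)]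
  | neg x _ hx =>
      obtain ⟨L₁, h₁, hL₁⟩ := hx
      exact ⟨L₁, h₁, fun σ hσ => by rw [map_neg, hL₁ σ hσ]⟩
  | inv x _ hx =>
      obtain ⟨L₁, h₁, hL₁⟩ := hx
      exact ⟨L₁, h₁, fun σ hσ => by rw [map_inv₀, hL₁ σ hσ]⟩
  | mul x y _ _ hx hy =>
      obtain ⟨L₁, h₁, hL₁⟩ := hx
      obtain ⟨L₂, h₂, hL₂⟩ := hy
      refine ⟨L₁ ⊔ L₂, inferInstance, fun σ hσ => ?_⟩
      rw [map_mul, hL₁ σ fun a ha => hσ a ((le_sup_left : L₁ ≤ L₁ ⊔ L₂) ha),
        hL₂ σ fun a ha => hσ a ((le_sup_right : L₂ ≤ L₁ ⊔ L₂) ha)]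

/-- Every element of `F = K · F₀` is fixed by an open subgroup of `G_ℚ`. -/
theorem exists_level_elt (f : laurentBaseChange (AlgebraicClosure ℚ) F₀) :
    ∃ L : IntermediateField ℚ (AlgebraicClosure ℚ), FiniteDimensional ℚ L ∧
      ∀ σ : AlgebraicClosure ℚ ≃ₐ[ℚ] AlgebraicClosure ℚ, (∀ a ∈ L, σ a = a) →
        arithmeticGalois F₀ σ • f = f := by
  obtain ⟨L, hL, h⟩ := exists_level_coeffMap F₀ f.2
  exact ⟨L, hL, fun σ hσ => Subtype.ext (h σ hσ)⟩

/-- Two distinct places are separated by a function: integral at the first, not at the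
second. -/
theorem exists_mem_notMem_of_ne {K F : Type*} [Field K] [Field F] [Algebra K F]
    {P Q : Place K F} (h : Q ≠ P) :
    ∃ f : F, f ∈ P.toValuationSubring ∧ f ∉ Q.toValuationSubring := by
  by_contra hcon
  apply h
  have hle : P.toValuationSubring ≤ Q.toValuationSubring := by
    intro f hf
    by_contra hfQ
    exact hcon ⟨f, hf, hfQ⟩
  exact (Place.ext (ValuationSubring.eq_of_le_of_ne_top _ hle Q.ne_top')).symm

set_option maxHeartbeats 800000 in
/-- **Every place of `F = ℚ̄ · F₀` is fixed by an open subgroup of `G_ℚ`.** -/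
theorem exists_level_place
    [HasPrincipalDivisors (AlgebraicClosure ℚ) (laurentBaseChange (AlgebraicClosure ℚ) F₀)]
    (P : Place (AlgebraicClosure ℚ) (laurentBaseChange (AlgebraicClosure ℚ) F₀)) :
    ∃ L : IntermediateField ℚ (AlgebraicClosure ℚ), FiniteDimensional ℚ L ∧
      ∀ σ : AlgebraicClosure ℚ ≃ₐ[ℚ] AlgebraicClosure ℚ, (∀ a ∈ L, σ a = a) →
        arithmeticGalois F₀ σ • P = P := by
  classical
  obtain ⟨π, hπ⟩ := IsDiscreteValuationRing.exists_irreducible P.toValuationSubring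
  have hπ1 : P.ord (π : laurentBaseChange (AlgebraicClosure ℚ) F₀) = 1 :=
    P.ord_coe_irreducible hπ
  have hπ0 : (π : laurentBaseChange (AlgebraicClosure ℚ) F₀) ≠ 0 := by
    intro h0
    rw [h0, Place.ord_zero] at hπ1
    exact zero_ne_one hπ1
  obtain ⟨D, hD, -⟩ := HasPrincipalDivisors.exists_divisor
    (K := AlgebraicClosure ℚ) (π : laurentBaseChange (AlgebraicClosure ℚ) F₀) hπ0
  -- level of the uniformiser
  obtain ⟨Lπ, hLπ, hπfix⟩ := exists_level_elt F₀ (π : laurentBaseChange (AlgebraicClosure ℚ) F₀)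
  -- level separating `P` from the other zeros of the uniformiser
  obtain ⟨LZ, hLZ, hZ⟩ := exists_level_forall_mem
    (D.support : Set (Place (AlgebraicClosure ℚ) (laurentBaseChange (AlgebraicClosure ℚ) F₀)))
    D.support.finite_toSet
    (fun Q σ => Q ≠ P → arithmeticGalois F₀ σ • P ≠ Q) (by
      intro Q _
      by_cases hQP : Q = P
      · exact ⟨⊥, inferInstance, fun σ _ h => absurd hQP h⟩
      · obtain ⟨f, hfP, hfQ⟩ := exists_mem_notMem_of_ne hQP
        obtain ⟨L, hL, hfix⟩ := exists_level_elt F₀ f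
        refine ⟨L, hL, fun σ hσ _ hPQ => hfQ ?_⟩
        have h1 : arithmeticGalois F₀ σ • f ∈
            (arithmeticGalois F₀ σ • P).toValuationSubring :=
          ValuationSubring.smul_mem_pointwise_smul (arithmeticGalois F₀ σ) f
            P.toValuationSubring hfP
        rw [hfix σ hσ, hPQ] at h1
        exact h1)
  refine ⟨Lπ ⊔ LZ, inferInstance, fun σ hσ => ?_⟩
  have hσπ : ∀ a ∈ Lπ, σ a = a := fun a ha => hσ a ((le_sup_left : Lπ ≤ Lπ ⊔ LZ) ha)
  have hσZ : ∀ a ∈ LZ, σ a = a := fun a ha => hσ a ((le_sup_right : LZ ≤ Lπ ⊔ LZ) ha)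
  have hord : (arithmeticGalois F₀ σ • P).ord
      (π : laurentBaseChange (AlgebraicClosure ℚ) F₀) = 1 := by
    have h := SemilinearAut.ord_smul (arithmeticGalois F₀ σ) P
      (π : laurentBaseChange (AlgebraicClosure ℚ) F₀)
    rw [hπfix σ hσπ] at h
    rw [h, hπ1]
  have hmem : arithmeticGalois F₀ σ • P ∈ D.support := by
    rw [Finsupp.mem_support_iff, hD, hord]
    exact one_ne_zero
  by_contra hne
  exact hZ σ hσZ _ hmem hne rfl

/-- Every divisor of `F = ℚ̄ · F₀` is fixed by an open subgroup of `G_ℚ`. -/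
theorem exists_level_divisor
    [HasPrincipalDivisors (AlgebraicClosure ℚ) (laurentBaseChange (AlgebraicClosure ℚ) F₀)]
    (D : Divisor (AlgebraicClosure ℚ) (laurentBaseChange (AlgebraicClosure ℚ) F₀)) :
    ∃ L : IntermediateField ℚ (AlgebraicClosure ℚ), FiniteDimensional ℚ L ∧
      ∀ σ : AlgebraicClosure ℚ ≃ₐ[ℚ] AlgebraicClosure ℚ, (∀ a ∈ L, σ a = a) →
        arithmeticGalois F₀ σ • D = D := by
  classical
  obtain ⟨L, hL, h⟩ := exists_level_forall_mem
    (D.support : Set (Place (AlgebraicClosure ℚ) (laurentBaseChange (AlgebraicClosure ℚ) F₀)))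
    D.support.finite_toSet
    (fun Q σ => arithmeticGalois F₀ σ • Q = Q) (fun Q _ => exists_level_place F₀ Q)
  refine ⟨L, hL, fun σ hσ => ?_⟩
  rw [SemilinearAut.divisor_smul_def]
  have h2 : Finsupp.mapDomain (arithmeticGalois F₀ σ • ·) D = Finsupp.mapDomain id D :=
    Finsupp.mapDomain_congr fun Q hQ => h σ hσ Q (Finset.mem_coe.2 hQ)
  rw [h2, Finsupp.mapDomain_id]

/-- Every degree-zero divisor class of `F = ℚ̄ · F₀` is fixed by an open subgroup of `G_ℚ`. -/
theorem exists_level_pic0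
    [HasPrincipalDivisors (AlgebraicClosure ℚ) (laurentBaseChange (AlgebraicClosure ℚ) F₀)]
    (z : Pic0 (AlgebraicClosure ℚ) (laurentBaseChange (AlgebraicClosure ℚ) F₀)) :
    ∃ L : IntermediateField ℚ (AlgebraicClosure ℚ), FiniteDimensional ℚ L ∧
      ∀ σ : AlgebraicClosure ℚ ≃ₐ[ℚ] AlgebraicClosure ℚ, (∀ a ∈ L, σ a = a) → σ • z = z := by
  obtain ⟨D, rfl⟩ := Pic0.mk_surjective z
  obtain ⟨L, hL, h⟩ := exists_level_divisor F₀
    (D : Divisor (AlgebraicClosure ℚ) (laurentBaseChange (AlgebraicClosure ℚ) F₀))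
  refine ⟨L, hL, fun σ hσ => ?_⟩
  rw [galois_smul_pic0_def, SemilinearAut.pic0_smul_mk]
  exact congrArg Pic0.mk (Subtype.ext (by rw [SemilinearAut.coe_degZeroSMulHom, h σ hσ]))

/-- **A finite set of degree-zero divisor classes of `F = ℚ̄ · F₀` is fixed pointwise by
`Gal(ℚ̄ / L)` for a finite extension `L / ℚ`.** -/
theorem exists_level_of_finite
    [HasPrincipalDivisors (AlgebraicClosure ℚ) (laurentBaseChange (AlgebraicClosure ℚ) F₀)]
    (S : Set (Pic0 (AlgebraicClosure ℚ) (laurentBaseChange (AlgebraicClosure ℚ) F₀)))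
    (hS : S.Finite) :
    ∃ L : IntermediateField ℚ (AlgebraicClosure ℚ), FiniteDimensional ℚ L ∧
      ∀ σ : AlgebraicClosure ℚ ≃ₐ[ℚ] AlgebraicClosure ℚ, (∀ a ∈ L, σ a = a) →
        ∀ z ∈ S, σ • z = z :=
  exists_level_forall_mem S hS (fun z σ => σ • z = z) (fun z _ => exists_level_pic0 F₀ z)

end Fermat.Agent.ESJ.Jac.FiniteLevel
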