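import Mathlib
import Fermat.Agent.ESJ.Interfaces
import Fermat.Agent.ESJ.HeckeInputs
import Fermat.Agent.ESJ.Jac.FiniteLevelCore

/-!
# ESJ / JAC-TORS, deliverable J2 : `TorsionFinite N n → TorsionFiniteLevel N n`

The Galois action on `J₀(N)[n]` factors through a finite extension of `ℚ` as soon as
`J₀(N)[n]` is finite: every place of `ℚ̄(X₀(N))` (hence every divisor, hence every class) is
fixed by an open subgroup of `G_ℚ` (`FiniteLevelCore`).
-/

set_option autoImplicit false

noncomputable section

namespace Fermat.Agent.ESJ.Jac.FiniteLevel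

open AlgebraicCurve ModularCurve

variable (N : ℕ) [NeZero N]

/-- Every place of `ℚ̄(X₀(N))` is fixed by `Gal(ℚ̄ / L)` for some finite extension `L / ℚ`. -/
theorem exists_finiteLevel_place
    (P : Place (AlgebraicClosure ℚ) (modularFunctionFieldBar N)) :
    ∃ L : IntermediateField ℚ (AlgebraicClosure ℚ), FiniteDimensional ℚ L ∧
      ∀ σ : GQ, (∀ x ∈ L, σ x = x) →
        arithmeticGalois (modularFunctionFieldFull N) σ • P = P :=
  haveI := Fermat.Agent.ESJ.HeckeInputs.hasPrincipalDivisors_bar N
  exists_level_place (modularFunctionFieldFull N) P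

/-- Every divisor of `ℚ̄(X₀(N))` is fixed by `Gal(ℚ̄ / L)` for some finite extension `L / ℚ`. -/
theorem exists_finiteLevel_divisor
    (D : Divisor (AlgebraicClosure ℚ) (modularFunctionFieldBar N)) :
    ∃ L : IntermediateField ℚ (AlgebraicClosure ℚ), FiniteDimensional ℚ L ∧
      ∀ σ : GQ, (∀ x ∈ L, σ x = x) →
        arithmeticGalois (modularFunctionFieldFull N) σ • D = D :=
  haveI := Fermat.Agent.ESJ.HeckeInputs.hasPrincipalDivisors_bar N
  exists_level_divisor (modularFunctionFieldFull N) D

/-- Every point of `J₀(N)(ℚ̄)` is fixed by `Gal(ℚ̄ / L)` for some finite extension `L / ℚ`. -/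
theorem exists_finiteLevel_jZero (z : JZero N) :
    ∃ L : IntermediateField ℚ (AlgebraicClosure ℚ), FiniteDimensional ℚ L ∧
      ∀ σ : GQ, (∀ x ∈ L, σ x = x) → σ • z = z :=
  haveI := Fermat.Agent.ESJ.HeckeInputs.hasPrincipalDivisors_bar N
  exists_level_pic0 (modularFunctionFieldFull N) z

/-- A finite subset of `J₀(N)(ℚ̄)` is fixed pointwise by `Gal(ℚ̄ / L)` for some finite
extension `L / ℚ`. -/
theorem exists_finiteLevel_of_finite (S : Set (JZero N)) (hS : S.Finite) :
    ∃ L : IntermediateField ℚ (AlgebraicClosure ℚ), FiniteDimensional ℚ L ∧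
      ∀ σ : GQ, (∀ x ∈ L, σ x = x) → ∀ z ∈ S, σ • z = z :=
  haveI := Fermat.Agent.ESJ.HeckeInputs.hasPrincipalDivisors_bar N
  exists_level_of_finite (modularFunctionFieldFull N) S hS

/-- **J2**: if `J₀(N)[n]` is finite, the Galois action on it factors through a finite
extension of `ℚ`. -/
theorem torsionFiniteLevel_of_torsionFinite (n : ℕ) (h : TorsionFinite N n) :
    TorsionFiniteLevel N n :=
  exists_finiteLevel_of_finite N _ h

end Fermat.Agent.ESJ.Jac.FiniteLevel
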