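import Mathlib
import Fermat.Agent.ESJ.Jac.FiniteLevel
import Fermat.Agent.ESJ.Jac.EigenFunctionalPE

/-!
# ESJ / JAC-TORS : the three JAC-TORS interface predicates from `Rep.KummerCmp`

From the Kummer comparison `Rep.KummerCmp N p` (`κ n : J₀(N)[pⁿ] ≃+ Hom_PE(Γ₀(N), ℤ/pⁿ)`,
compatible, Hecke-equivariant) we get, for `p ≠ 0`:

* `torsionFinite_pow_of_kummerCmp`, `torsionFinite_of_kummerCmp` : `TorsionFinite N (p ^ n)`,
  `TorsionFinite N p`;
* `torsionFiniteLevel_pow_of_kummerCmp`, `torsionFiniteLevel_of_kummerCmp` :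
  `TorsionFiniteLevel N (p ^ n)`, `TorsionFiniteLevel N p`  (J2);
* `eigenFunctionalModP_of_kummerCmp` (in `EigenFunctionalPE.lean`) : `EigenFunctionalModP N p`.
-/

set_option autoImplicit false

open scoped MatrixGroups
open CongruenceSubgroup ModularCurve AlgebraicCurve

namespace Fermat.Agent.ESJ

open Fermat.Agent.ESJ.ParHom

/-- `Hom_PE(Γ₀(N), ℤ/m)` is finite for `m ≠ 0`. -/
theorem finite_peHoms_zmod (N : ℕ) [NeZero N] (m : ℕ) [NeZero m] :
    Finite (peHoms (Gamma0 N) ℤ (ZMod m)) :=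
  Finite.of_equiv _ (evalEquiv N ℤ (ZMod m)).toEquiv.symm

/-- **TORS-FIN** at level `pⁿ` from the Kummer comparison. -/
theorem torsionFinite_pow_of_kummerCmp (N p : ℕ) [NeZero N] (hp : p ≠ 0)
    (hK : Rep.KummerCmp N p) (n : ℕ) : TorsionFinite N (p ^ n) := by
  obtain ⟨κ, -, -⟩ := hK
  have : NeZero (p ^ n) := ⟨pow_ne_zero n hp⟩
  have := finite_peHoms_zmod N (p ^ n)
  have : Finite (Pic0.torsion (AlgebraicClosure ℚ) (modularFunctionFieldBar N) (p ^ n)) :=
    Finite.of_equiv _ (κ n).toEquiv.symm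
  exact Set.toFinite _

/-- **TORS-FIN** at level `p` from the Kummer comparison. -/
theorem torsionFinite_of_kummerCmp (N p : ℕ) [NeZero N] (hp : p ≠ 0)
    (hK : Rep.KummerCmp N p) : TorsionFinite N p := by
  have h := torsionFinite_pow_of_kummerCmp N p hp hK 1
  rwa [pow_one] at h

/-- **TORS-LEVEL** at level `pⁿ` from the Kummer comparison. -/
theorem torsionFiniteLevel_pow_of_kummerCmp (N p : ℕ) [NeZero N] (hp : p ≠ 0)
    (hK : Rep.KummerCmp N p) (n : ℕ) : TorsionFiniteLevel N (p ^ n) :=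
  Jac.FiniteLevel.torsionFiniteLevel_of_torsionFinite N (p ^ n) (torsionFinite_pow_of_kummerCmp N p hp hK n)

/-- **TORS-LEVEL** at level `p` from the Kummer comparison. -/
theorem torsionFiniteLevel_of_kummerCmp (N p : ℕ) [NeZero N] (hp : p ≠ 0)
    (hK : Rep.KummerCmp N p) : TorsionFiniteLevel N p :=
  Jac.FiniteLevel.torsionFiniteLevel_of_torsionFinite N p (torsionFinite_of_kummerCmp N p hp hK)

end Fermat.Agent.ESJ
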