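import Mathlib
import Fermat.Prelude.Def_ModularCurve_LaurentCoeff
import Fermat.Prelude.Def_AlgebraicCurve_BaseChangeGalois
import Fermat.Agent.S24.Counting

/-!
# JAC-DESC, abstract core: the canonical representative of a Kummer class

`F` a function field over `K` (Prelude places), with a `K`-embedding `ι : F → K((q))`.
For `G ∈ F^×`, `j ∈ F` and `n, m : ℕ` the set of *admissible* `x ∈ F^×` is
`{x | ∀ v, n * v(x) + v(G) ≥ n * m * min(0, v(j))}` (= `L(div(G)/n + m (j)_∞) \ {0}` when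
`n ∣ div G`).  An element `y = x ^ n * G` with `x` admissible of maximal `q`-order and `y` of
leading coefficient `1` is *canonical*; it is unique, depends only on the class of `G` modulo
`n`-th powers and is equivariant under semilinear automorphisms acting coefficientwise.
-/

set_option autoImplicit false

namespace Fermat.Agent.ESJ.Jac.DescentCore

open AlgebraicCurve ModularCurve
open Fermat.Agent.S24.Counting

variable {K F : Type*} [Field K] [Field F] [Algebra K F]

/-! ### Order lemmas -/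

theorem ord_pow_nat (v : Place K F) {f : F} (hf : f ≠ 0) (k : ℕ) :
    v.ord (f ^ k) = k * v.ord f :=
  (isRawVal_ord v).map_pow hf k

theorem ord_const_smul (v : Place K F) {a : K} (ha : a ≠ 0) {f : F} (hf : f ≠ 0) :
    v.ord (a • f) = v.ord f := by
  rw [Algebra.smul_def, v.ord_mul ((map_ne_zero _).mpr ha) hf,
    (isRawVal_ord v).map_algebraMap a ha, zero_add]

theorem ord_prod (v : Place K F) {ι : Type*} (s : Finset ι) (f : ι → F)
    (hf : ∀ i ∈ s, f i ≠ 0) : v.ord (∏ i ∈ s, f i) = ∑ i ∈ s, v.ord (f i) := by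
  classical
  induction s using Finset.induction_on with
  | empty => simp
  | insert a s ha ih =>
    rw [Finset.prod_insert ha, Finset.sum_insert ha,
      v.ord_mul (hf a (Finset.mem_insert_self a s))
        (Finset.prod_ne_zero_iff.mpr fun i hi => hf i (Finset.mem_insert_of_mem hi)),
      ih fun i hi => hf i (Finset.mem_insert_of_mem hi)]

theorem ord_smul_eq (g : SemilinearAut K F) (w : Place K F) (f : F) :
    w.ord (g • f) = (g⁻¹ • w).ord f := by
  have h := SemilinearAut.ord_smul g (g⁻¹ • w) f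
  rwa [smul_inv_smul] at h

theorem ord_sub_const_of_neg (v : Place K F) {j : F} (hj : v.ord j < 0) (c : K) :
    v.ord (j - algebraMap K F c) = v.ord j := by
  have hj0 : j ≠ 0 := fun h => by rw [h, Place.ord_zero] at hj; exact lt_irrefl _ hj
  rcases eq_or_ne c 0 with rfl | hc
  · rw [map_zero, sub_zero]
  · have hc' : algebraMap K F c ≠ 0 := (map_ne_zero _).mpr hc
    rw [sub_eq_add_neg]
    refine (isRawVal_ord v).map_add_of_lt hj0 (neg_ne_zero.mpr hc') ?_
    rw [(isRawVal_ord v).map_neg hc', (isRawVal_ord v).map_algebraMap c hc]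
    exact hj

theorem ord_sub_const_nonneg (v : Place K F) {j : F} (hj : 0 ≤ v.ord j) (c : K)
    (hne : j - algebraMap K F c ≠ 0) : 0 ≤ v.ord (j - algebraMap K F c) := by
  rw [ord_nonneg_iff v hne]
  refine sub_mem ?_ (v.algebraMap_mem' c)
  rcases eq_or_ne j 0 with rfl | hj0
  · exact zero_mem _
  · exact (ord_nonneg_iff v hj0).mp hj

/-! ### Admissible elements -/

variable (K) in
/-- `x` is admissible for `(j, n, m, G)`. -/
def Adm (j : F) (n m : ℕ) (G x : F) : Prop :=
  x ≠ 0 ∧ ∀ v : Place K F, (n : ℤ) * m * min 0 (v.ord j) ≤ n * v.ord x + v.ord G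

namespace Adm

variable {j G x x' : F} {n m : ℕ}

theorem smul (g : SemilinearAut K F) (hj : g • j = j) (h : Adm K j n m G x) :
    Adm K j n m (g • G) (g • x) := by
  refine ⟨fun h0 => h.1 ?_, fun w => ?_⟩
  · have h1 : g⁻¹ • (g • x) = g⁻¹ • (0 : F) := by rw [h0]
    rwa [inv_smul_smul, smul_zero] at h1
  · have h1 := h.2 (g⁻¹ • w)
    have h2 := ord_smul_eq g w j
    rw [hj] at h2
    rw [ord_smul_eq, ord_smul_eq, h2]
    exact h1

theorem mul_pow (hG : G ≠ 0) {c : F} (hc : c ≠ 0) (h : Adm K j n m G x) :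
    Adm K j n m (c ^ n * G) (c⁻¹ * x) := by
  refine ⟨mul_ne_zero (inv_ne_zero hc) h.1, fun v => ?_⟩
  have h1 := h.2 v
  rw [v.ord_mul (inv_ne_zero hc) h.1, v.ord_inv, v.ord_mul (pow_ne_zero n hc) hG,
    ord_pow_nat v hc]
  linarith

theorem const_smul {a : K} (ha : a ≠ 0) (h : Adm K j n m G x) : Adm K j n m G (a • x) := by
  refine ⟨smul_ne_zero ha h.1, fun v => ?_⟩
  rw [ord_const_smul v ha h.1]
  exact h.2 v

theorem sub_smul (h : Adm K j n m G x) (h' : Adm K j n m G x') (a : K)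
    (hne : x' - a • x ≠ 0) : Adm K j n m G (x' - a • x) := by
  refine ⟨hne, fun v => ?_⟩
  rcases eq_or_ne a 0 with rfl | ha
  · rw [zero_smul, sub_zero]
    exact h'.2 v
  have hax : a • x ≠ 0 := smul_ne_zero ha h.1
  have h2 := (isRawVal_ord v).map_add x' (-(a • x)) h'.1 (neg_ne_zero.mpr hax)
    (by rwa [← sub_eq_add_neg])
  rw [(isRawVal_ord v).map_neg hax, ord_const_smul v ha h.1, ← sub_eq_add_neg] at h2
  have h3 := h.2 v
  have h4 := h'.2 v
  have hn : (0 : ℤ) ≤ n := Nat.cast_nonneg n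
  rcases min_le_iff.mp h2 with h5 | h5
  · have := mul_le_mul_of_nonneg_left h5 hn
    linarith
  · have := mul_le_mul_of_nonneg_left h5 hn
    linarith

end Adm

/-! ### Existence of admissible elements -/

theorem exists_adm [HasPrincipalDivisors K F] {j G : F} {n : ℕ} (hn : 0 < n) (hG : G ≠ 0)
    (hval : ∀ v : Place K F, 0 ≤ v.ord j → ∃ c : K, 0 < v.ord (j - algebraMap K F c)) :
    ∃ (m : ℕ) (x : F), Adm K j n m G x := by
  classical
  obtain ⟨D, hD, -⟩ := HasPrincipalDivisors.exists_divisor (K := K) G hG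
  choose! c hc using hval
  set P : Finset (Place K F) := D.support.filter (fun v => 0 ≤ v.ord j) with hP
  set k : ℕ := ∑ v ∈ D.support, (D v).natAbs with hk
  have hfac : ∀ v ∈ P, j - algebraMap K F (c v) ≠ 0 := fun v hv h0 => by
    have h1 := hc v (Finset.mem_filter.mp hv).2
    rw [h0, Place.ord_zero] at h1
    exact lt_irrefl _ h1
  set u : F := ∏ v ∈ P, (j - algebraMap K F (c v)) with hu
  have hu0 : u ≠ 0 := Finset.prod_ne_zero_iff.mpr hfac
  have hordu : ∀ w : Place K F, w.ord u = ∑ v ∈ P, w.ord (j - algebraMap K F (c v)) :=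
    fun w => ord_prod w P _ hfac
  have hkge : ∀ w : Place K F, |w.ord G| ≤ (k : ℤ) := by
    intro w
    rw [← hD w]
    by_cases hw : w ∈ D.support
    · have h1 : (D w).natAbs ≤ k :=
        Finset.single_le_sum (f := fun v => (D v).natAbs) (fun _ _ => Nat.zero_le _) hw
      rw [Int.abs_eq_natAbs]
      exact_mod_cast h1
    · rw [Finsupp.notMem_support_iff.mp hw, abs_zero]
      exact Nat.cast_nonneg k
  have hn1 : (1 : ℤ) ≤ n := by exact_mod_cast hn
  have hk0 : (0 : ℤ) ≤ k := Nat.cast_nonneg k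
  refine ⟨k * P.card + k, u ^ k, pow_ne_zero k hu0, fun w => ?_⟩
  rw [ord_pow_nat w hu0, hordu]
  have hGw := hkge w
  rw [abs_le] at hGw
  rcases lt_or_ge (w.ord j) 0 with hneg | hnn
  · have h1 : ∀ v ∈ P, w.ord (j - algebraMap K F (c v)) = w.ord j :=
      fun v _ => ord_sub_const_of_neg w hneg (c v)
    rw [Finset.sum_congr rfl h1, Finset.sum_const, min_eq_right hneg.le, nsmul_eq_mul]
    push_cast
    have h2 : (n : ℤ) * k * w.ord j ≤ -(k : ℤ) := by
      have h3 : (n : ℤ) * k * w.ord j ≤ (n : ℤ) * k * (-1) :=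
        mul_le_mul_of_nonneg_left (by omega) (mul_nonneg (by omega) hk0)
      have h4 : (1 : ℤ) * k ≤ (n : ℤ) * k := mul_le_mul_of_nonneg_right hn1 hk0
      linarith
    nlinarith [h2, hGw.1]
  · rw [min_eq_left hnn, mul_zero]
    have h1 : ∀ v ∈ P, 0 ≤ w.ord (j - algebraMap K F (c v)) :=
      fun v hv => ord_sub_const_nonneg w hnn (c v) (hfac v hv)
    have hsum : 0 ≤ ∑ v ∈ P, w.ord (j - algebraMap K F (c v)) := Finset.sum_nonneg h1
    by_cases hw : 0 ≤ w.ord G
    · have := mul_nonneg (Nat.cast_nonneg (α := ℤ) n) (mul_nonneg hk0 hsum)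
      linarith
    · have hwD : w ∈ D.support := by
        rw [Finsupp.mem_support_iff, hD w]
        intro h0
        exact hw h0.ge
      have hwP : w ∈ P := Finset.mem_filter.mpr ⟨hwD, hnn⟩
      have h2 : w.ord (j - algebraMap K F (c w)) ≤ ∑ v ∈ P, w.ord (j - algebraMap K F (c v)) :=
        Finset.single_le_sum (f := fun v => w.ord (j - algebraMap K F (c v))) h1 hwP
      have h3 : 1 ≤ ∑ v ∈ P, w.ord (j - algebraMap K F (c v)) := by
        have := hc w hnn
        omega
      have h4 : (k : ℤ) * 1 ≤ k * ∑ v ∈ P, w.ord (j - algebraMap K F (c v)) :=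
        mul_le_mul_of_nonneg_left h3 hk0
      have h5 : (1 : ℤ) * (k * ∑ v ∈ P, w.ord (j - algebraMap K F (c v)))
          ≤ n * (k * ∑ v ∈ P, w.ord (j - algebraMap K F (c v))) :=
        mul_le_mul_of_nonneg_right hn1 (mul_nonneg hk0 hsum)
      linarith [hGw.1]

/-! ### Boundedness of the order at a fixed place on admissible elements -/

theorem degree_eq_sum_of_deg (hdeg : ∀ v : Place K F, v.deg = 1) (D : Divisor K F) :
    Divisor.degree D = ∑ v ∈ D.support, D v := by
  rw [Divisor.degree, Finsupp.liftAddHom_apply, Finsupp.sum]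
  refine Finset.sum_congr rfl (fun v _ => ?_)
  rw [AddMonoidHom.coe_mulRight, hdeg v]
  simp

theorem exists_bound [HasPrincipalDivisors K F] (hdeg : ∀ v : Place K F, v.deg = 1)
    (o : F → ℤ) (v₀ : Place K F) (e : ℤ) (he : 0 ≤ e)
    (ho : ∀ f : F, f ≠ 0 → o f = e * v₀.ord f)
    {j G : F} (hj : j ≠ 0) (hG : G ≠ 0) {n : ℕ} (hn : 0 < n) (m : ℕ) :
    ∃ B : ℤ, ∀ x : F, Adm K j n m G x → o x ≤ B := by
  classical
  obtain ⟨DG, hDG, -⟩ := HasPrincipalDivisors.exists_divisor (K := K) G hG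
  obtain ⟨Dj, hDj, -⟩ := HasPrincipalDivisors.exists_divisor (K := K) j hj
  set β : Place K F → ℤ := fun v => n * m * |v.ord j| + |v.ord G| with hβ
  have hβ0 : ∀ v, 0 ≤ β v := fun v =>
    add_nonneg (mul_nonneg (mul_nonneg (Nat.cast_nonneg n) (Nat.cast_nonneg m)) (abs_nonneg _))
      (abs_nonneg _)
  set T : Finset (Place K F) := DG.support ∪ Dj.support with hT
  have hβT : ∀ v, β v ≠ 0 → v ∈ T := by
    intro v hv
    by_contra hvT
    rw [hT, Finset.mem_union, not_or, Finsupp.notMem_support_iff, Finsupp.notMem_support_iff,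
      hDG v, hDj v] at hvT
    apply hv
    simp only [hβ, hvT.1, hvT.2, abs_zero, mul_zero, add_zero]
  set C : ℤ := ∑ v ∈ T, β v with hC
  have hC0 : 0 ≤ C := Finset.sum_nonneg (fun v _ => hβ0 v)
  have hle : ∀ S : Finset (Place K F), ∑ v ∈ S, β v ≤ C := by
    intro S
    rw [← Finset.sum_filter_of_ne (p := fun v => v ∈ T) (fun v _ hv => hβT v hv)]
    exact Finset.sum_le_sum_of_subset_of_nonneg (fun v hv => (Finset.mem_filter.mp hv).2)
      (fun v _ _ => hβ0 v)
  have hn1 : (1 : ℤ) ≤ n := by exact_mod_cast hn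
  refine ⟨e * C, fun x hx => ?_⟩
  obtain ⟨Dx, hDx, hdegx⟩ := HasPrincipalDivisors.exists_divisor (K := K) x hx.1
  rw [degree_eq_sum_of_deg hdeg] at hdegx
  set S' : Finset (Place K F) := insert v₀ Dx.support with hS'
  have hsum' : ∑ v ∈ S', v.ord x = 0 := by
    rw [← hdegx]
    symm
    rw [Finset.sum_congr rfl (fun v _ => hDx v)]
    refine Finset.sum_subset (Finset.subset_insert _ _) (fun v _ hv => ?_)
    rw [← hDx v]
    exact Finsupp.notMem_support_iff.mp hv
  have h1 := Finset.add_sum_erase S' (fun v => v.ord x) (Finset.mem_insert_self v₀ _)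
  rw [hsum'] at h1
  have h2 : ∀ v : Place K F, -(β v) ≤ n * v.ord x := by
    intro v
    have h3 := hx.2 v
    have h4 : -|v.ord j| ≤ min 0 (v.ord j) := by
      rcases le_total 0 (v.ord j) with h | h
      · rw [min_eq_left h]; exact neg_nonpos.mpr (abs_nonneg _)
      · rw [min_eq_right h, abs_of_nonpos h, neg_neg]
    have h5 : (n : ℤ) * m * (-|v.ord j|) ≤ n * m * min 0 (v.ord j) :=
      mul_le_mul_of_nonneg_left h4 (mul_nonneg (Nat.cast_nonneg n) (Nat.cast_nonneg m))
    have h6 : v.ord G ≤ |v.ord G| := le_abs_self _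
    simp only [hβ]
    linarith
  have h3 : -((n : ℤ) * ∑ v ∈ S'.erase v₀, v.ord x) ≤ C := by
    rw [Finset.mul_sum, ← Finset.sum_neg_distrib]
    exact (Finset.sum_le_sum (fun v _ => by linarith [h2 v])).trans (hle _)
  have h4 : (n : ℤ) * v₀.ord x ≤ C := by
    have h5 : (n : ℤ) * v₀.ord x = -((n : ℤ) * ∑ v ∈ S'.erase v₀, v.ord x) := by
      have : v₀.ord x = -∑ v ∈ S'.erase v₀, v.ord x := by linarith
      rw [this]
      ring
    rw [h5]
    exact h3
  have h5 : v₀.ord x ≤ C := by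
    by_contra hlt
    push Not at hlt
    have h6 : (1 : ℤ) * v₀.ord x ≤ n * v₀.ord x :=
      mul_le_mul_of_nonneg_right hn1 (by linarith)
    linarith
  rw [ho x hx.1]
  exact mul_le_mul_of_nonneg_left h5 he

/-! ### Coefficientwise maps: order and leading coefficient -/

theorem order_coeffMap {K' : Type*} [Field K'] (φ : K →+* K') (x : LaurentSeries K) :
    (coeffMap φ x).order = x.order := by
  by_cases hx : x = 0
  · subst hx
    simp
  have hcoeff : (coeffMap φ x).coeff x.order ≠ 0 := by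
    rw [coeffMap_coeff]
    exact (map_ne_zero φ).mpr (HahnSeries.coeff_order_eq_zero.not.mpr hx)
  have hx' : coeffMap φ x ≠ 0 := fun h => hcoeff (by rw [h]; rfl)
  apply le_antisymm
  · exact HahnSeries.order_le_of_coeff_ne_zero hcoeff
  · apply HahnSeries.order_le_of_coeff_ne_zero
    intro h
    have := HahnSeries.coeff_order_eq_zero.not.mpr hx'
    rw [coeffMap_coeff, h, map_zero] at this
    exact this rfl

theorem leadingCoeff_coeffMap {K' : Type*} [Field K'] (φ : K →+* K') (x : LaurentSeries K) :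
    (coeffMap φ x).leadingCoeff = φ x.leadingCoeff := by
  rw [HahnSeries.leadingCoeff_eq, HahnSeries.leadingCoeff_eq, order_coeffMap, coeffMap_coeff]

theorem leadingCoeff_single_mul (a : K) (x : LaurentSeries K) :
    (HahnSeries.single (0 : ℤ) a * x).leadingCoeff = a * x.leadingCoeff := by
  rw [HahnSeries.leadingCoeff_mul, HahnSeries.leadingCoeff_of_single]

theorem order_single_mul {a : K} (ha : a ≠ 0) (x : LaurentSeries K) :
    (HahnSeries.single (0 : ℤ) a * x).order = x.order := by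
  by_cases hx : x = 0
  · subst hx
    simp
  rw [HahnSeries.order_mul (HahnSeries.single_ne_zero ha) hx, HahnSeries.order_single ha, zero_add]

theorem map_const_smul (ι : F →ₐ[K] LaurentSeries K) (a : K) (x : F) :
    ι (a • x) = HahnSeries.single (0 : ℤ) a * ι x := by
  rw [Algebra.smul_def, map_mul, AlgHom.commutes, algebraMap_laurentSeries_eq_single]

/-! ### Canonical elements -/

section Canon

variable (ι : F →ₐ[K] LaurentSeries K)

/-- `y` is the canonical representative of the class of `G` modulo `n`-th powers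
(with respect to `j`, `m` and the embedding `ι`). -/
def IsCanon (j : F) (n m : ℕ) (G y : F) : Prop :=
  ∃ x : F, Adm K j n m G x ∧ (∀ x' : F, Adm K j n m G x' → (ι x').order ≤ (ι x).order) ∧
    y = x ^ n * G ∧ (ι y).leadingCoeff = 1

variable {ι} {j G y y' : F} {n m : ℕ}

theorem IsCanon.unique (h : IsCanon ι j n m G y) (h' : IsCanon ι j n m G y') : y = y' := by
  obtain ⟨x, hx, hmax, rfl, hlc⟩ := h
  obtain ⟨x', hx', hmax', rfl, hlc'⟩ := h'
  have hord : (ι x').order = (ι x).order := le_antisymm (hmax x' hx') (hmax' x hx)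
  have hιx : ι x ≠ 0 := (map_ne_zero ι).mpr hx.1
  set a : K := (ι x').leadingCoeff / (ι x).leadingCoeff with ha
  have hz : x' - a • x = 0 := by
    by_contra hne
    have hle := hmax _ (hx.sub_smul hx' a hne)
    have hιz : ι (x' - a • x) ≠ 0 := (map_ne_zero ι).mpr hne
    have hcoeff := HahnSeries.coeff_order_eq_zero.not.mpr hιz
    apply hcoeff
    set o := (ι (x' - a • x)).order with ho
    rw [map_sub, map_const_smul, HahnSeries.coeff_sub, HahnSeries.coeff_single_mul, sub_zero]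
    rcases hle.lt_or_eq with hlt | heq
    · rw [HahnSeries.coeff_eq_zero_of_lt_order (hord ▸ hlt),
        HahnSeries.coeff_eq_zero_of_lt_order hlt, mul_zero, sub_zero]
    · have h1 : (ι x').coeff o = (ι x').leadingCoeff := by
        rw [HahnSeries.leadingCoeff_eq, hord, heq]
      have h2 : (ι x).coeff o = (ι x).leadingCoeff := by
        rw [HahnSeries.leadingCoeff_eq, heq]
      rw [h1, h2, ha,
        div_mul_cancel₀ _ (HahnSeries.leadingCoeff_ne_zero.mpr hιx), sub_self]
  have hx'eq : x' = a • x := sub_eq_zero.mp hz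
  have hy : x' ^ n * G = a ^ n • (x ^ n * G) := by
    rw [hx'eq, smul_pow, smul_mul_assoc]
  rw [hy, map_const_smul, leadingCoeff_single_mul, hlc, mul_one] at hlc'
  rw [hy, hlc', one_smul]

theorem IsCanon.smul (g : SemilinearAut K F) (φ φ' : K →+* K)
    (hφ : ∀ x : F, ι (g • x) = coeffMap φ (ι x))
    (hφ' : ∀ x : F, ι (g⁻¹ • x) = coeffMap φ' (ι x))
    (hj : g • j = j) (h : IsCanon ι j n m G y) : IsCanon ι j n m (g • G) (g • y) := by
  obtain ⟨x, hx, hmax, rfl, hlc⟩ := h
  have hj' : g⁻¹ • j = j := by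
    have h1 : g⁻¹ • (g • j) = g⁻¹ • j := by rw [hj]
    rw [inv_smul_smul] at h1
    exact h1.symm
  refine ⟨g • x, hx.smul g hj, fun x' hx' => ?_, ?_, ?_⟩
  · have h1 := hx'.smul g⁻¹ hj'
    rw [inv_smul_smul] at h1
    have h2 := hmax _ h1
    rw [hφ', order_coeffMap] at h2
    rw [hφ, order_coeffMap]
    exact h2
  · rw [smul_mul', smul_pow']
  · rw [hφ, leadingCoeff_coeffMap, hlc, map_one]

theorem IsCanon.mul_pow (hG : G ≠ 0) {c : F} (hc : c ≠ 0) (h : IsCanon ι j n m G y) :
    IsCanon ι j n m (c ^ n * G) y := by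
  obtain ⟨x, hx, hmax, rfl, hlc⟩ := h
  have hιc : ι c ≠ 0 := (map_ne_zero ι).mpr hc
  refine ⟨c⁻¹ * x, hx.mul_pow hG hc, fun x' hx' => ?_, ?_, hlc⟩
  · have h1 : Adm K j n m G (c * x') := by
      have h2 := hx'.mul_pow (mul_ne_zero (pow_ne_zero n hc) hG) (inv_ne_zero hc)
      rw [inv_inv, inv_pow, ← mul_assoc, inv_mul_cancel₀ (pow_ne_zero n hc), one_mul] at h2
      exact h2
    have h2 := hmax _ h1
    have hιx' : ι x' ≠ 0 := (map_ne_zero ι).mpr hx'.1
    have hιx : ι x ≠ 0 := (map_ne_zero ι).mpr hx.1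
    rw [map_mul, HahnSeries.order_mul hιc hιx'] at h2
    rw [map_mul, map_inv₀, HahnSeries.order_mul (inv_ne_zero hιc) hιx]
    have h3 := HahnSeries.order_mul (inv_ne_zero hιc) hιc
    rw [inv_mul_cancel₀ hιc, HahnSeries.order_one] at h3
    omega
  · rw [mul_pow, inv_pow]
    field_simp

theorem exists_isCanon [IsAlgClosed K] (hn : 0 < n) (hG : G ≠ 0)
    (hex : ∃ x : F, Adm K j n m G x)
    (hbdd : ∃ B : ℤ, ∀ x : F, Adm K j n m G x → (ι x).order ≤ B) :
    ∃ y : F, IsCanon ι j n m G y := by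
  obtain ⟨B, hB⟩ := hbdd
  obtain ⟨x₀, hx₀⟩ := hex
  obtain ⟨o, ⟨x, hx, rfl⟩, hmax⟩ := Int.exists_greatest_of_bdd
    (P := fun o => ∃ x : F, Adm K j n m G x ∧ (ι x).order = o)
    ⟨B, fun o ⟨x, hx, ho⟩ => ho ▸ hB x hx⟩ ⟨_, x₀, hx₀, rfl⟩
  have hy0 : x ^ n * G ≠ 0 := mul_ne_zero (pow_ne_zero n hx.1) hG
  have hl : (ι (x ^ n * G)).leadingCoeff ≠ 0 :=
    HahnSeries.leadingCoeff_ne_zero.mpr ((map_ne_zero ι).mpr hy0)
  obtain ⟨μ, hμ⟩ := IsAlgClosed.exists_pow_nat_eq ((ι (x ^ n * G)).leadingCoeff)⁻¹ hn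
  have hμ0 : μ ≠ 0 := by
    rintro rfl
    rw [zero_pow hn.ne'] at hμ
    exact inv_ne_zero hl hμ.symm
  refine ⟨(μ • x) ^ n * G, μ • x, hx.const_smul hμ0, fun x' hx' => ?_, rfl, ?_⟩
  · rw [map_const_smul, order_single_mul hμ0]
    exact hmax _ ⟨x', hx', rfl⟩
  · rw [smul_pow, smul_mul_assoc, map_const_smul, leadingCoeff_single_mul, hμ, inv_mul_cancel₀ hl]

end Canon

end Fermat.Agent.ESJ.Jac.DescentCore
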