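import Mathlib
import Fermat.Prelude.Def_ModularCurve_ArithmeticGalois
import Fermat.Agent.S24.Counting
import Fermat.Agent.S24.Differential
import Fermat.Agent.Lib.Descent.FiniteOrbit
import Fermat.Agent.ESJ.Jac.DescentCore

/-!
# JAC-DESC, general form

`L` algebraically closed of characteristic `0`, `F = L·F₀ ⊆ L((q))` (`F₀ ⊆ ℚ((q))`), with
principal divisors and trivial residue fields.  If the coefficientwise `Aut(L/ℚ)`-translates of
`G ∈ F^×` lie in finitely many classes modulo `n`-th powers, then some `x ^ n * G` (`x ≠ 0`) has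
all its `q`-coefficients algebraic over `ℚ`.
-/

set_option autoImplicit false

namespace Fermat.Agent.ESJ.Jac.DescentCore

open AlgebraicCurve ModularCurve
open Fermat.Agent.S24 Fermat.Agent.S24.Counting

/-- Every place with trivial residue field has degree one. -/
theorem deg_eq_one_of_residueTrivial {K F : Type*} [Field K] [Field F] [Algebra K F]
    {v : Place K F} (hv : Diff.ResidueTrivial v) : v.deg = 1 := by
  show Module.finrank K v.ResidueField = 1
  refine (finrank_eq_one_iff_of_nonzero' (1 : v.ResidueField) one_ne_zero).2 ?_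
  intro w
  obtain ⟨a, rfl⟩ := IsLocalRing.residue_surjective w
  obtain ⟨c, hc⟩ := hv a
  refine ⟨c, ?_⟩
  rw [Algebra.smul_def, mul_one]
  have h1 : algebraMap K v.ResidueField c
      = IsLocalRing.residue v.toValuationSubring (algebraMap K v.toValuationSubring c) := rfl
  rw [h1, eq_comm, ← sub_eq_zero, ← map_sub]
  exact (IsLocalRing.residue_eq_zero_iff _).2 hc

/-- A non-pole of `j` is a zero of `j - c` for some constant `c` (trivial residue field). -/
theorem exists_value_of_residueTrivial {K F : Type*} [Field K] [Field F] [Algebra K F]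
    {v : Place K F} (hv : Diff.ResidueTrivial v) {j : F}
    (hj : ∀ c : K, j - algebraMap K F c ≠ 0) (hnn : 0 ≤ v.ord j) :
    ∃ c : K, 0 < v.ord (j - algebraMap K F c) := by
  have hmem : j ∈ v.toValuationSubring := by
    have h0 : j ≠ 0 := by simpa using hj 0
    exact (ord_nonneg_iff v h0).mp hnn
  obtain ⟨c, hc⟩ := hv ⟨j, hmem⟩
  refine ⟨c, ?_⟩
  rw [ord_pos_iff v (hj c)]
  intro hinv
  have hunit : IsUnit ((⟨j, hmem⟩ : v.toValuationSubring) - algebraMap K v.toValuationSubring c) := by
    refine IsUnit.of_mul_eq_one (⟨(j - algebraMap K F c)⁻¹, hinv⟩ : v.toValuationSubring) ?_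
    apply Subtype.ext
    show (j - algebraMap K F c) * (j - algebraMap K F c)⁻¹ = 1
    exact mul_inv_cancel₀ (hj c)
  exact hc hunit

theorem isAlgebraic_rat_congr {L : Type*} [Field L] (a₁ a₂ : Algebra ℚ L) (x : L)
    (h : @IsAlgebraic ℚ L _ _ a₁ x) : @IsAlgebraic ℚ L _ _ a₂ x := by
  have h12 : a₁ = a₂ := Subsingleton.elim _ _
  subst h12
  exact h

section General

variable {L : Type*} [Field L] [Algebra ℚ L]
variable (F₀ : IntermediateField ℚ (LaurentSeries ℚ))

/-- The `q`-order on `L·F₀` is a positive multiple of the order at a place. -/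
theorem exists_place_qorder (j : laurentBaseChange L F₀)
    (hjord : (j : LaurentSeries L).order ≠ 0) :
    ∃ (v : Place L (laurentBaseChange L F₀)) (e : ℕ), 0 < e ∧
      ∀ f : laurentBaseChange L F₀, f ≠ 0 → (f : LaurentSeries L).order = e * v.ord f := by
  have hcoe : ∀ f : laurentBaseChange L F₀, f ≠ 0 → (f : LaurentSeries L) ≠ 0 :=
    fun f hf h => hf (Subtype.ext h)
  refine exists_place_of_val (K := L) (fun f : laurentBaseChange L F₀ => (f : LaurentSeries L).order)
    (fun f g hf hg => HahnSeries.order_mul (hcoe f hf) (hcoe g hg))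
    (fun f g _ _ hfg => HahnSeries.min_order_le_order_add (hcoe _ hfg))
    (fun c hc => ?_) ⟨j, fun h => hjord (by rw [h]; exact HahnSeries.order_zero), hjord⟩
  show (algebraMap L (LaurentSeries L) c).order = 0
  rw [algebraMap_laurentSeries_eq_single, HahnSeries.order_single hc]

variable [IsAlgClosed L] [CharZero L]

set_option maxHeartbeats 1000000 in
/-- **Descent, general form**: a canonical representative with algebraic coefficients. -/
theorem exists_pow_mul_isAlgebraic [HasPrincipalDivisors L (laurentBaseChange L F₀)]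
    (hres : ∀ v : Place L (laurentBaseChange L F₀), Diff.ResidueTrivial v)
    (j : laurentBaseChange L F₀) (hjord : (j : LaurentSeries L).order ≠ 0)
    (hjfix : ∀ σ : L ≃ₐ[ℚ] L, arithmeticGalois F₀ σ • j = j)
    {n : ℕ} (hn : 0 < n) (G : laurentBaseChange L F₀) (hG : G ≠ 0)
    (hfin : ∃ S : Finset (laurentBaseChange L F₀), ∀ σ : L ≃ₐ[ℚ] L, ∃ s ∈ S,
      ∃ c : laurentBaseChange L F₀, c ≠ 0 ∧ arithmeticGalois F₀ σ • G = c ^ n * s) :
    ∃ x : laurentBaseChange L F₀, x ≠ 0 ∧
      ∀ k : ℤ, IsAlgebraic ℚ (((x ^ n * G : laurentBaseChange L F₀) : LaurentSeries L).coeff k) := by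
  classical
  set ι : laurentBaseChange L F₀ →ₐ[L] LaurentSeries L := (laurentBaseChange L F₀).val with hι
  have hj0 : j ≠ 0 := fun h => hjord (by rw [h]; exact HahnSeries.order_zero)
  have hjc : ∀ c : L, j - algebraMap L (laurentBaseChange L F₀) c ≠ 0 := by
    intro c h
    apply hjord
    rw [sub_eq_zero.mp h]
    show (algebraMap L (LaurentSeries L) c).order = 0
    rw [algebraMap_laurentSeries_eq_single]
    by_cases hc : c = 0
    · rw [hc, HahnSeries.single_eq_zero, HahnSeries.order_zero]
    · exact HahnSeries.order_single hc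
  -- admissible elements exist
  obtain ⟨m, hex⟩ := exists_adm (K := L) (j := j) hn hG
    (fun v hv => exists_value_of_residueTrivial (hres v) hjc hv)
  -- the q-order is bounded on admissible elements
  obtain ⟨v₀, e, -, hv₀⟩ := exists_place_qorder F₀ j hjord
  have hbdd := exists_bound (K := L) (fun v => deg_eq_one_of_residueTrivial (hres v))
    (fun f : laurentBaseChange L F₀ => (f : LaurentSeries L).order) v₀ (e : ℤ)
    (Nat.cast_nonneg e) hv₀ hj0 hG hn m
  -- the canonical element
  obtain ⟨y, hy⟩ := exists_isCanon (ι := ι) hn hG hex hbdd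
  obtain ⟨S, hS⟩ := hfin
  -- its translates are canonical for the finitely many classes `s ∈ S`
  have htrans : ∀ σ : L ≃ₐ[ℚ] L, ∃ s ∈ S, IsCanon ι j n m s (arithmeticGalois F₀ σ • y) := by
    intro σ
    obtain ⟨s, hs, c, hc, hGc⟩ := hS σ
    refine ⟨s, hs, ?_⟩
    have h1 : IsCanon ι j n m (arithmeticGalois F₀ σ • G) (arithmeticGalois F₀ σ • y) := by
      refine hy.smul (arithmeticGalois F₀ σ) (σ : L →+* L) ((σ⁻¹ : L ≃ₐ[ℚ] L) : L →+* L)
        (fun x => rfl) (fun x => ?_) (hjfix σ)
      rw [← map_inv]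
      rfl
    rw [hGc] at h1
    have hne : c ^ n * s ≠ 0 := by
      rw [← hGc]
      intro h0
      apply hG
      have h2 : (arithmeticGalois F₀ σ)⁻¹ • (arithmeticGalois F₀ σ • G)
          = (arithmeticGalois F₀ σ)⁻¹ • (0 : laurentBaseChange L F₀) := by rw [h0]
      rwa [inv_smul_smul, smul_zero] at h2
    have h3 := h1.mul_pow hne (inv_ne_zero hc)
    rwa [inv_pow, ← mul_assoc, inv_mul_cancel₀ (pow_ne_zero n hc), one_mul] at h3
  -- hence the orbit of `y` is finite
  set Y : Set (laurentBaseChange L F₀) := ⋃ s ∈ S, {y' | IsCanon ι j n m s y'} with hY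
  have hYfin : Y.Finite := by
    refine Set.Finite.biUnion S.finite_toSet (fun s _ => Set.Subsingleton.finite ?_)
    intro a ha b hb
    exact IsCanon.unique ha hb
  have hmemY : ∀ σ : L ≃ₐ[ℚ] L, arithmeticGalois F₀ σ • y ∈ Y := by
    intro σ
    obtain ⟨s, hs, h⟩ := htrans σ
    exact Set.mem_biUnion hs h
  obtain ⟨x, hx, -, hyx, -⟩ := id hy
  have hx0 : x ≠ 0 := hx.1
  refine ⟨x, hx0, fun k => ?_⟩
  rw [← hyx]
  refine isAlgebraic_rat_congr _ _ _ (Fermat.Agent.Lib.Descent.isAlgebraic_of_finite_orbit _ ?_)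
  refine ((hYfin.image (fun y' : laurentBaseChange L F₀ => (y' : LaurentSeries L).coeff k))).subset ?_
  rintro _ ⟨τ, rfl⟩
  set σ : L ≃ₐ[ℚ] L := AlgEquiv.ofRingEquiv (f := τ) (fun r => by simp) with hσ
  refine ⟨arithmeticGalois F₀ σ • y, hmemY σ, ?_⟩
  show (coeffMap (σ : L →+* L) (y : LaurentSeries L)).coeff k = τ ((y : LaurentSeries L).coeff k)
  rw [coeffMap_coeff]
  rfl

end General

end Fermat.Agent.ESJ.Jac.DescentCore
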