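import Mathlib
import Fermat.Agent.ESJ.Jac.Defs
import Fermat.Agent.ESJ.Jac.DescentGen
import Fermat.Agent.S24.ResidueTrivial
import Fermat.Agent.Lib.FF.ExtPrincipal

/-!
# JAC-DESC: torsion of `Pic⁰(F_ℂ)` is defined over `ℚ̄` (hypothesis forms)

`descent_of`: for `G ∈ F_ℂ^×` whose coefficientwise `Aut(ℂ/ℚ)`-translates lie in finitely many
classes modulo `n`-th powers, some `x ^ n * G` is the coefficientwise image of an element of
`F_ℚ̄`.  Hypotheses: principal divisors and trivial residue fields for `F_ℂ` (both follow from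
`FiniteDimensional ℂ⟮j⟯ F_ℂ`, see `descent_of_finiteDimensional`), and the rationality lemma
`L·F₀ ∩ K((q)) = K·F₀` (`hF2`, = `Lib.LaurentDescent.mem_laurentBaseChange_of_coeffMap_mem`).
-/

set_option autoImplicit false

namespace Fermat.Agent.ESJ.Jac

open AlgebraicCurve ModularCurve
open Fermat.Agent.S24

/-- The `q`-order of `j` is negative. -/
theorem order_jBarK_ne_zero (K : Type) [Field K] [Algebra ℚ K] (N : ℕ) [NeZero N] :
    ((jBarK K N : FNK K N) : LaurentSeries K).order ≠ 0 := by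
  have h0 : ((jBarK K N : FNK K N) : LaurentSeries K) = coeffEmb K (qExpand ℚ 1 jq) := rfl
  rw [h0, qExpand_one_apply]
  have h1 : (coeffEmb K jq).order = jq.order := DescentCore.order_coeffMap (algebraMap ℚ K) jq
  rw [h1]
  have h2 : jq.order ≤ -1 :=
    HahnSeries.order_le_of_coeff_ne_zero (by rw [coeff_jq_neg_one]; exact one_ne_zero)
  omega

/-- `j` is fixed by the coefficientwise Galois action. -/
theorem arithmeticGalois_smul_jBarK {K : Type} [Field K] [Algebra ℚ K] (N : ℕ) [NeZero N]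
    (σ : K ≃ₐ[ℚ] K) :
    arithmeticGalois (modularFunctionFieldFull N) σ • jBarK K N = jBarK K N := by
  apply Subtype.ext
  show coeffMap (σ : K →+* K) (coeffEmb K (qExpand ℚ 1 jq)) = coeffEmb K (qExpand ℚ 1 jq)
  exact coeffMap_coeffEmb σ _

set_option maxHeartbeats 1000000 in
/-- **JAC-DESC, hypothesis form.** -/
theorem descent_of (N : ℕ) [NeZero N] [HasPrincipalDivisors ℂ (FNK ℂ N)]
    (hres : ∀ v : Place ℂ (FNK ℂ N), Diff.ResidueTrivial v)
    (hF2 : ∀ y : LaurentSeries KQ,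
      coeffMap iotaK y ∈ laurentBaseChange ℂ (modularFunctionFieldFull N) →
        y ∈ laurentBaseChange KQ (modularFunctionFieldFull N))
    {n : ℕ} (hn : 0 < n) (G : FNK ℂ N) (hG : G ≠ 0)
    (hfin : ∃ S : Finset (FNK ℂ N), ∀ σ : ℂ ≃ₐ[ℚ] ℂ, ∃ s ∈ S, ∃ c : FNK ℂ N, c ≠ 0 ∧
      arithmeticGalois (modularFunctionFieldFull N) σ • G = c ^ n * s) :
    ∃ x : FNK ℂ N, x ≠ 0 ∧ ∃ f : FN N,
      ((x ^ n * G : FNK ℂ N) : LaurentSeries ℂ) = coeffMap iotaK (f : LaurentSeries KQ) := by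
  obtain ⟨x, hx0, halg⟩ := DescentCore.exists_pow_mul_isAlgebraic (L := ℂ)
    (modularFunctionFieldFull N) hres (jBarK ℂ N) (order_jBarK_ne_zero ℂ N)
    (arithmeticGalois_smul_jBarK N) hn G hG hfin
  refine ⟨x, hx0, ?_⟩
  obtain ⟨y₀, hy₀⟩ := Fermat.Agent.Lib.Descent.exists_coeffMap_eq iotaK
    ((x ^ n * G : FNK ℂ N) : LaurentSeries ℂ)
    (fun k => Fermat.Agent.Lib.Descent.mem_range_of_isAlgebraic iotaK _
      (DescentCore.isAlgebraic_rat_congr _ _ _ (halg k)))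
  have hmem : y₀ ∈ laurentBaseChange KQ (modularFunctionFieldFull N) := by
    apply hF2
    rw [hy₀]
    exact (x ^ n * G : FNK ℂ N).2
  exact ⟨⟨y₀, hmem⟩, hy₀.symm⟩

/-- **JAC-DESC** from `FiniteDimensional ℂ⟮j⟯ F_ℂ` (and the rationality lemma `hF2`). -/
theorem descent_of_finiteDimensional (N : ℕ) [NeZero N]
    [FiniteDimensional (IntermediateField.adjoin ℂ {jBarK ℂ N}) (FNK ℂ N)]
    (hF2 : ∀ y : LaurentSeries KQ,
      coeffMap iotaK y ∈ laurentBaseChange ℂ (modularFunctionFieldFull N) →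
        y ∈ laurentBaseChange KQ (modularFunctionFieldFull N))
    {n : ℕ} (hn : 0 < n) (G : FNK ℂ N) (hG : G ≠ 0)
    (hfin : ∃ S : Finset (FNK ℂ N), ∀ σ : ℂ ≃ₐ[ℚ] ℂ, ∃ s ∈ S, ∃ c : FNK ℂ N, c ≠ 0 ∧
      arithmeticGalois (modularFunctionFieldFull N) σ • G = c ^ n * s) :
    ∃ x : FNK ℂ N, x ≠ 0 ∧ ∃ f : FN N,
      ((x ^ n * G : FNK ℂ N) : LaurentSeries ℂ) = coeffMap iotaK (f : LaurentSeries KQ) := by
  have hPD : HasPrincipalDivisors ℂ (FNK ℂ N) :=
    Fermat.Agent.Lib.FF.Ext.hasPrincipalDivisors (jBarK ℂ N)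
  have halg : Algebra.IsAlgebraic (IntermediateField.adjoin ℂ {jBarK ℂ N}) (FNK ℂ N) :=
    Algebra.IsAlgebraic.of_finite _ _
  exact descent_of N (fun v => Diff.residueTrivial_of_isAlgClosed (jBarK ℂ N) v) hF2 hn G hG hfin

end Fermat.Agent.ESJ.Jac
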