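import Mathlib
import Fermat.Agent.ESJ.Jac.Defs
import Fermat.Agent.S28.Integrality
import Fermat.Agent.S28.Char0Bridge
import Fermat.Agent.S28.ModEqX.Main
import Fermat.Agent.Lib.Red.Level
import Fermat.Agent.Lib.FF.ExtPrincipal
import Fermat.Agent.S24.ResidueTrivial
import Fermat.Agent.S24.DNeZero
import Fermat.Agent.ESJ.Jac.DescentOf

/-!
# `F_K` is finite over `K(j)` for every field `K ⊇ ℚ` (algebraic proof)

`FNK K N = K(J(q^d) : d ∣ N)` and each `J(q^d)` is integral over `ℤ[J(q)]` (modular equations,
S28).  Hence `FiniteDimensional K⟮jBarK K N⟯ (FNK K N)`; for algebraically closed `K` this gives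
`HasPrincipalDivisors`, trivial residue fields and `deg = 1` (S24 part A).
-/

set_option autoImplicit false

namespace Fermat.Agent.ESJ.Jac.FinDimK

open ModularCurve AlgebraicCurve Fermat.Agent.S28 Fermat.Agent.S24

/-- A field generated over `K` by finitely many elements integral over `ℤ[j]` is finite over
`K(j)`. -/
theorem finiteDimensional_adjoin_simple_of_isIntegral {K E : Type*} [Field K] [Field E]
    [Algebra K E] (F : IntermediateField K E) (S : Set E) (hS : S.Finite)
    (hF : F = IntermediateField.adjoin K S) (j : F)
    (hint : ∀ s ∈ S, IsIntegral (Subring.closure ({(j : E)} : Set E)) s) :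
    FiniteDimensional (IntermediateField.adjoin K ({j} : Set F)) F := by
  set C : IntermediateField K F := IntermediateField.adjoin K ({j} : Set F) with hC
  set S' : Set F := {x : F | (x : E) ∈ S} with hS'
  have hS'fin : S'.Finite := hS.preimage (Subtype.val_injective.injOn)
  have hSF : ∀ s ∈ S, s ∈ F := fun s hs => by
    rw [hF]
    exact IntermediateField.subset_adjoin K S hs
  -- integrality over `C`
  have hint' : ∀ x ∈ S', IsIntegral C x := by
    intro x hx
    have h1 : IsIntegral C (x : E) := by
      refine Integrality.isIntegral_of_forall_mem_range (B := Subring.closure ({(j : E)} : Set E))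
        (fun b hb => ?_) (hint _ hx)
      have hle : Subring.closure ({(j : E)} : Set E) ≤ (algebraMap C E).range := by
        rw [Subring.closure_le]
        rintro _ rfl
        exact ⟨⟨j, IntermediateField.mem_adjoin_simple_self K j⟩, rfl⟩
      exact hle hb
    exact (isIntegral_algHom_iff (IsScalarTower.toAlgHom C F E)
      (algebraMap F E).injective).mp h1
  -- generation
  have htop : IntermediateField.adjoin K S' = ⊤ := by
    apply IntermediateField.map_injective F.val
    rw [IntermediateField.adjoin_map, ← AlgHom.fieldRange_eq_map, IntermediateField.fieldRange_val]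
    have himg : (F.val '' S') = S := by
      ext s
      constructor
      · rintro ⟨x, hx, rfl⟩
        exact hx
      · intro hs
        exact ⟨⟨s, hSF s hs⟩, hs, rfl⟩
    rw [himg, ← hF]
  have htop' : IntermediateField.adjoin C S' = ⊤ :=
    IntermediateField.adjoin_eq_top_of_adjoin_eq_top K htop
  have : Finite S' := hS'fin.to_subtype
  have hfd : FiniteDimensional C (IntermediateField.adjoin C S') :=
    IntermediateField.finiteDimensional_adjoin hint'
  rw [htop'] at hfd
  exact Module.Finite.equiv (IntermediateField.topEquiv (F := C) (E := F)).toLinearEquiv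

/-- The modular equation of every prime level (S28). -/
theorem modEq_prime (r : ℕ) (hr : r.Prime) : Nonempty (TD.ModEq r) := by
  have : NeZero r := ⟨hr.ne_zero⟩
  obtain ⟨D⟩ := ModEqX.exists_modEqData r hr
  exact ⟨Char0Bridge.modEqDataToTD D⟩

variable (K : Type) [Field K] [Algebra ℚ K] (N : ℕ) [NeZero N]

theorem coe_jBarK : ((jBarK K N : FNK K N) : LaurentSeries K) = TD.Jd K 1 := by
  have h0 : ((jBarK K N : FNK K N) : LaurentSeries K) = coeffEmb K (qExpand ℚ 1 jq) := rfl
  rw [h0, ← TD.Jd_rat 1]
  exact TD.coeffMap_Jd (algebraMap ℚ K) 1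

/-- **`F_K` is finite over `K(j)`**, for every field `K ⊇ ℚ`. -/
theorem finiteDimensional_jBarK :
    FiniteDimensional (IntermediateField.adjoin K ({jBarK K N} : Set (FNK K N))) (FNK K N) := by
  refine finiteDimensional_adjoin_simple_of_isIntegral
    (laurentBaseChange K (modularFunctionFieldFull N))
    ((fun d => TD.Jd K (1 * d)) '' {d | d ∣ N}) ?_ ?_ (jBarK K N) ?_
  · refine Set.Finite.image _ ?_
    refine (Finset.range (N + 1)).finite_toSet.subset (fun d hd => ?_)
    exact Finset.mem_coe.mpr (Finset.mem_range.mpr
      (Nat.lt_succ_of_le (Nat.le_of_dvd (Nat.pos_of_ne_zero (NeZero.ne N)) hd)))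
  · exact Fermat.Agent.Lib.Red.laurentBaseChange_eq_FF K N
  · rintro _ ⟨d, hd, rfl⟩
    rw [coe_jBarK]
    exact (Integrality.isIntegral_Jd_dvd K N (NeZero.ne N)
      (fun r hr _ => modEq_prime r hr) 1 one_ne_zero hd).2

/-- `j` is transcendental over `K` (its `q`-order is `-1`). -/
theorem transcendental_jBarK : Transcendental K (jBarK K N) := by
  intro halg
  obtain ⟨v, e, -, hv⟩ := DescentCore.exists_place_qorder (L := K) (modularFunctionFieldFull N)
    (jBarK K N) (order_jBarK_ne_zero K N)
  have hj0 : jBarK K N ≠ 0 := fun h =>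
    order_jBarK_ne_zero K N (by rw [h]; exact HahnSeries.order_zero)
  apply order_jBarK_ne_zero K N
  rw [hv _ hj0, DNeZero.ord_eq_zero_of_isAlgebraic v halg, mul_zero]

/-- `F_K` is algebraic over `K(j)`. -/
theorem isAlgebraic_jBarK :
    Algebra.IsAlgebraic (IntermediateField.adjoin K ({jBarK K N} : Set (FNK K N))) (FNK K N) :=
  have := finiteDimensional_jBarK K N
  Algebra.IsAlgebraic.of_finite _ _

variable [IsAlgClosed K]

/-- `F_K` has principal divisors (`K` algebraically closed). -/
theorem hasPrincipalDivisors_FNK : HasPrincipalDivisors K (FNK K N) :=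
  have := finiteDimensional_jBarK K N
  have : CharZero K := algebraRat.charZero K
  Fermat.Agent.Lib.FF.Ext.hasPrincipalDivisors (jBarK K N)

/-- Every place of `F_K` has residue field `K` (`K` algebraically closed). -/
theorem residueTrivial_FNK (v : Place K (FNK K N)) : Diff.ResidueTrivial v :=
  have := isAlgebraic_jBarK K N
  Diff.residueTrivial_of_isAlgClosed (jBarK K N) v

/-- Every place of `F_K` has degree one (`K` algebraically closed). -/
theorem deg_eq_one_FNK (v : Place K (FNK K N)) : v.deg = 1 :=
  DescentCore.deg_eq_one_of_residueTrivial (residueTrivial_FNK K N v)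

end Fermat.Agent.ESJ.Jac.FinDimK
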