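import Mathlib
import Fermat.Agent.ESJ.Jac.DescentOf
import Fermat.Agent.Lib.LaurentDescent
import Fermat.Agent.ESJ.Jac.FinDimK

/-!
# JAC-DESC: torsion of `Pic⁰(F_ℂ)` is defined over `ℚ̄`

`descent` (unconditional): if the coefficientwise `Aut(ℂ/ℚ)`-translates of a Kummer element `G ∈ F_ℂ` lie in
finitely many classes modulo `n`-th powers, then `x ^ n * G` is the coefficientwise image of an
element of `F_ℚ̄` for some `x ≠ 0`.

Proof (files `DescentCore`, `DescentGen`, `DescentOf`): the canonical representative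
`y = x₀ ^ n * G`, `x₀` of maximal `q`-order in `L(div(G)/n + m (j)_∞)` and `y` of leading
coefficient `1`, depends only on the class of `G` and is equivariant, hence has a finite
`Aut(ℂ/ℚ)`-orbit; so its coefficients are algebraic, and `ℂ·F₀ ∩ ℚ̄((q)) = ℚ̄·F₀`.
-/

set_option autoImplicit false

namespace Fermat.Agent.ESJ.Jac

open AlgebraicCurve ModularCurve
open Fermat.Agent.S24

/-- **JAC-DESC** (the posted task signature, no extra hypothesis). -/
theorem descent (N : ℕ) [NeZero N] {n : ℕ} (hn : 0 < n) (G : FNK ℂ N)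
    (hG : IsKummerElt ℂ (FNK ℂ N) n G)
    (hfin : ∃ S : Finset (FNK ℂ N), ∀ σ : ℂ ≃ₐ[ℚ] ℂ, ∃ s ∈ S, ∃ c : FNK ℂ N, c ≠ 0 ∧
      arithmeticGalois (modularFunctionFieldFull N) σ • G = c ^ n * s) :
    ∃ x : FNK ℂ N, x ≠ 0 ∧ ∃ f : FN N,
      ((x ^ n * G : FNK ℂ N) : LaurentSeries ℂ) = coeffMap iotaK (f : LaurentSeries KQ) :=
  have := FinDimK.finiteDimensional_jBarK ℂ N
  descent_of_finiteDimensional N
    (fun y h => Fermat.Agent.Lib.LaurentDescent.mem_laurentBaseChange_of_coeffMap_mem iotaK _ y h)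
    hn G hG.1 hfin

/-- **JAC-DESC** for any nonzero `G` (the Kummer condition is not needed). -/
theorem descent_of_ne_zero (N : ℕ) [NeZero N] {n : ℕ} (hn : 0 < n) (G : FNK ℂ N) (hG : G ≠ 0)
    (hfin : ∃ S : Finset (FNK ℂ N), ∀ σ : ℂ ≃ₐ[ℚ] ℂ, ∃ s ∈ S, ∃ c : FNK ℂ N, c ≠ 0 ∧
      arithmeticGalois (modularFunctionFieldFull N) σ • G = c ^ n * s) :
    ∃ x : FNK ℂ N, x ≠ 0 ∧ ∃ f : FN N,
      ((x ^ n * G : FNK ℂ N) : LaurentSeries ℂ) = coeffMap iotaK (f : LaurentSeries KQ) :=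
  have := FinDimK.finiteDimensional_jBarK ℂ N
  descent_of_finiteDimensional N
    (fun y h => Fermat.Agent.Lib.LaurentDescent.mem_laurentBaseChange_of_coeffMap_mem iotaK _ y h)
    hn G hG hfin

/-- **JAC-DESC** with the hypotheses "principal divisors" and "residue fields are `ℂ`". -/
theorem descent_of_residueTrivial (N : ℕ) [NeZero N] [HasPrincipalDivisors ℂ (FNK ℂ N)]
    (hres : ∀ v : Place ℂ (FNK ℂ N), Diff.ResidueTrivial v)
    {n : ℕ} (hn : 0 < n) (G : FNK ℂ N) (hG : G ≠ 0)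
    (hfin : ∃ S : Finset (FNK ℂ N), ∀ σ : ℂ ≃ₐ[ℚ] ℂ, ∃ s ∈ S, ∃ c : FNK ℂ N, c ≠ 0 ∧
      arithmeticGalois (modularFunctionFieldFull N) σ • G = c ^ n * s) :
    ∃ x : FNK ℂ N, x ≠ 0 ∧ ∃ f : FN N,
      ((x ^ n * G : FNK ℂ N) : LaurentSeries ℂ) = coeffMap iotaK (f : LaurentSeries KQ) :=
  descent_of N hres
    (fun y h => Fermat.Agent.Lib.LaurentDescent.mem_laurentBaseChange_of_coeffMap_mem iotaK _ y h)
    hn G hG hfin

end Fermat.Agent.ESJ.Jac
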