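import Fermat.Agent.ESJ.Jac.Invariant
import Fermat.Agent.ESJ.Jac.Multiplier

/-!
# ESJ / JAC-GAL, core: `Γ₀(N)`-invariant meromorphic functions are rational in the `J(d z)`

Let `φ : ℂ → ℂ` be meromorphic on `U = {Im z > 0}`, `Γ₀(N)`-invariant and meromorphic at all
cusps (`MerAtCusps`).  Then `φ * ev Q = ev P` off a discrete subset of `U` for polynomials `P`,
`Q` in the functions `z ↦ J(d z)`, `d ∣ N`, with `ev Q ≠ 0`  (`exists_ev_eq`).

The proof is Lagrange interpolation over the cosets of `Γ₀(N)` against the conjugates of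
`t = J(N z)`, *without division*: the coefficients of
`∑ q, φ_q ∏_{r ≠ q} (X - t_r)` are `SL(2, ℤ)`-invariant, meromorphic on `U` and meromorphic at
the cusps, hence rational functions of `J` by the level-one statement `LevelOneStatement`
(proved in `Jac/LevelOneMer.lean`; here it is a hypothesis), and the value of this polynomial at
`t` is `φ * ∏_{r ≠ 1} (t - t_r)`.
-/

set_option autoImplicit false
set_option linter.unusedSectionVars false

open UpperHalfPlane ModularForm CongruenceSubgroup Filter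
open scoped MatrixGroups Manifold Topology

noncomputable section

namespace Fermat.Agent.ESJ.Jac.GalCore

open Fermat.Agent.S24 Fermat.Agent.S20 Polynomial Fermat.Agent.ESJ.Jac.Inv

/-- The level-one statement: an `SL(2, ℤ)`-invariant meromorphic function on `U` which is
meromorphic at the cusps is a rational function of `J` off a discrete set. -/
def LevelOneStatement : Prop :=
  ∀ ψ : ℂ → ℂ, MeromorphicOn ψ U → (∀ g : SL(2, ℤ), ∀ z ∈ U, ψ (mob g z) = ψ z) →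
    MerAtCusps ψ →
    ∃ A B : ℂ[X], B ≠ 0 ∧
      (fun z => ψ z * B.eval (Jfun (ofComplex z))) =ᶠ[codiscreteWithin U]
        fun z => A.eval (Jfun (ofComplex z))

/-! ### `MerAtCusps` -/

theorem merAtCusps_exists_ge {h : ℂ → ℂ} (hh : MerAtCusps h) (g : SL(2, ℤ)) (Y₀ M₀ : ℝ) :
    ∃ Y M : ℝ, Y₀ ≤ Y ∧ 0 ≤ Y ∧ M₀ ≤ M ∧ ∀ z : ℂ, Y < z.im →
      AnalyticAt ℂ (fun w => h (mob g w)) z ∧ ‖h (mob g z)‖ ≤ Real.exp (M * z.im) := by
  obtain ⟨Y, M, hYM⟩ := hh g
  refine ⟨max (max Y Y₀) 0, max M M₀, ?_, ?_, ?_, fun z hz => ?_⟩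
  · exact (le_max_right _ _).trans (le_max_left _ _)
  · exact le_max_right _ _
  · exact le_max_right _ _
  · have hzY : Y < z.im := lt_of_le_of_lt ((le_max_left _ _).trans (le_max_left _ _)) hz
    have hz0 : 0 < z.im := lt_of_le_of_lt (le_max_right _ _) hz
    refine ⟨(hYM z hzY).1, (hYM z hzY).2.trans ?_⟩
    exact Real.exp_le_exp.2 (mul_le_mul_of_nonneg_right (le_max_left _ _) hz0.le)

/-- Meromorphic functions on `U` which are meromorphic at all cusps. -/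
def MA : Subring (ℂ → ℂ) where
  carrier := {h | MeromorphicOn h U ∧ MerAtCusps h}
  mul_mem' := by
    rintro a b ⟨ha, ha'⟩ ⟨hb, hb'⟩
    refine ⟨ha.mul hb, fun g => ?_⟩
    obtain ⟨Y₁, M₁, -, -, -, h₁⟩ := merAtCusps_exists_ge ha' g 0 0
    obtain ⟨Y₂, M₂, hY₂, -, -, h₂⟩ := merAtCusps_exists_ge hb' g Y₁ 0
    refine ⟨Y₂, M₁ + M₂, fun z hz => ?_⟩
    obtain ⟨a1, a2⟩ := h₁ z (lt_of_le_of_lt hY₂ hz)
    obtain ⟨b1, b2⟩ := h₂ z hz
    refine ⟨a1.mul b1, ?_⟩
    rw [Pi.mul_apply, norm_mul, add_mul, Real.exp_add]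
    exact mul_le_mul a2 b2 (norm_nonneg _) (Real.exp_pos _).le
  one_mem' := by
    refine ⟨MeromorphicOn.const 1, fun g => ⟨0, 0, fun z _ => ⟨analyticAt_const, ?_⟩⟩⟩
    simp
  add_mem' := by
    rintro a b ⟨ha, ha'⟩ ⟨hb, hb'⟩
    refine ⟨ha.add hb, fun g => ?_⟩
    obtain ⟨Y₁, M₁, hY₁, -, -, h₁⟩ := merAtCusps_exists_ge ha' g 1 0
    obtain ⟨Y₂, M₂, hY₂, -, hM₂, h₂⟩ := merAtCusps_exists_ge hb' g Y₁ M₁
    refine ⟨Y₂, M₂ + 1, fun z hz => ?_⟩
    have hzY₁ : Y₁ < z.im := lt_of_le_of_lt hY₂ hz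
    have hz1 : 1 < z.im := lt_of_le_of_lt hY₁ hzY₁
    obtain ⟨a1, a2⟩ := h₁ z hzY₁
    obtain ⟨b1, b2⟩ := h₂ z hz
    refine ⟨a1.add b1, ?_⟩
    have a3 : ‖a (mob g z)‖ ≤ Real.exp (M₂ * z.im) :=
      a2.trans (Real.exp_le_exp.2 (mul_le_mul_of_nonneg_right hM₂ (by linarith)))
    have h2 : (2 : ℝ) ≤ Real.exp z.im := by
      have := Real.add_one_le_exp z.im
      linarith
    calc ‖(a + b) (mob g z)‖ ≤ ‖a (mob g z)‖ + ‖b (mob g z)‖ := norm_add_le _ _
      _ ≤ 2 * Real.exp (M₂ * z.im) := by linarith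
      _ ≤ Real.exp z.im * Real.exp (M₂ * z.im) :=
        mul_le_mul_of_nonneg_right h2 (Real.exp_pos _).le
      _ = Real.exp ((M₂ + 1) * z.im) := by
        rw [← Real.exp_add]
        ring_nf
  zero_mem' := by
    refine ⟨MeromorphicOn.const 0, fun g => ⟨0, 0, fun z _ => ⟨analyticAt_const, ?_⟩⟩⟩
    simp
  neg_mem' := by
    rintro a ⟨ha, ha'⟩
    refine ⟨ha.neg, fun g => ?_⟩
    obtain ⟨Y, M, hYM⟩ := ha' g
    refine ⟨Y, M, fun z hz => ⟨(hYM z hz).1.neg, ?_⟩⟩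
    rw [Pi.neg_apply, norm_neg]
    exact (hYM z hz).2

theorem mem_MA {h : ℂ → ℂ} : h ∈ MA ↔ MeromorphicOn h U ∧ MerAtCusps h := Iff.rfl

/-- `MA` is stable under composition with Möbius transformations. -/
theorem comp_mob_mem {h : ℂ → ℂ} (hh : h ∈ MA) (g : SL(2, ℤ)) : (fun z => h (mob g z)) ∈ MA := by
  refine ⟨fun z hz => ?_, fun g' => ?_⟩
  · exact (hh.1 _ (mob_mem_U g hz)).comp_analyticAt (analyticAt_mob g hz)
  · obtain ⟨Y, M, -, hY0, -, hYM⟩ := merAtCusps_exists_ge hh.2 (g * g') 0 0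
    refine ⟨Y, M, fun z hz => ?_⟩
    have hzU : z ∈ U := lt_of_le_of_lt hY0 hz
    obtain ⟨h1, h2⟩ := hYM z hz
    refine ⟨h1.congr ?_, ?_⟩
    · filter_upwards [isOpen_U.mem_nhds hzU] with w hw
      rw [mob_mul g g' hw]
    · show ‖h (mob g (mob g' z))‖ ≤ _
      rw [← mob_mul g g' hzU]
      exact h2

theorem coe_ofComplex {w : ℂ} (hw : w ∈ U) : ((ofComplex w : ℍ) : ℂ) = w := by
  rw [ofComplex_apply_of_im_pos hw]

theorem ofComplex_mob (g : SL(2, ℤ)) {w : ℂ} (hw : w ∈ U) :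
    ofComplex (mob g w) = g • ofComplex w := by
  have h : mob g w = ((g • ofComplex w : ℍ) : ℂ) := by
    rw [← mob_coe, coe_ofComplex hw]
  rw [h, ofComplex_apply]

/-- Growth at `i∞` of an element of `R0`. -/
theorem exists_exp_bound (G : R0) : ∃ Y M : ℝ, ∀ z : ℂ, Y < z.im →
    AnalyticAt ℂ (fun w => (G : ℍ → ℂ) (ofComplex w)) z ∧
      ‖(G : ℍ → ℂ) (ofComplex z)‖ ≤ Real.exp (M * z.im) := by
  obtain ⟨m, hm⟩ := G.2.2 1
  rw [Deg.trans_one] at hm
  have hb := QLaurent.bdd_qPow_of_bdd_discriminant_pow (h := 1) (f := (G : ℍ → ℂ)) (m := m) hm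
  rw [isBoundedAtImInfty_iff] at hb
  obtain ⟨C, A, hCA⟩ := hb
  refine ⟨max (max A C) 0, 2 * Real.pi * m + 1, fun z hz => ?_⟩
  have hz0 : 0 < z.im := lt_of_le_of_lt (le_max_right _ _) hz
  have hzA : A ≤ z.im := ((le_max_left _ _).trans (le_max_left _ _)).trans hz.le
  have hzC : C ≤ z.im := ((le_max_right _ _).trans (le_max_left _ _)).trans hz.le
  refine ⟨?_, ?_⟩
  · have hd : DifferentiableOn ℂ ((G : ℍ → ℂ) ∘ ofComplex) {z | 0 < z.im} :=
      UpperHalfPlane.mdifferentiable_iff.1 G.2.1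
    exact hd.analyticAt (isOpen_U.mem_nhds hz0)
  · set τ : ℍ := ofComplex z with hτ
    have hτim : τ.im = z.im := by
      rw [← UpperHalfPlane.coe_im, hτ, coe_ofComplex hz0]
    have h1 := hCA τ (by rw [hτim]; exact hzA)
    have hq : ‖QLaurent.qPow 1 (1 * m) τ‖ = Real.exp (-(2 * Real.pi * m * z.im)) := by
      rw [QLaurent.qPow_apply, norm_pow, Function.Periodic.norm_qParam, ← Real.exp_nat_mul,
        hτ, coe_ofComplex hz0]
      congr 1
      push_cast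
      ring
    have h2 : ‖(G : ℍ → ℂ) τ‖ * Real.exp (-(2 * Real.pi * m * z.im)) ≤ C := by
      rw [← hq, ← norm_mul, mul_comm]
      exact h1
    have h3 : ‖(G : ℍ → ℂ) τ‖ ≤ C * Real.exp (2 * Real.pi * m * z.im) := by
      have := mul_le_mul_of_nonneg_right h2 (Real.exp_pos (2 * Real.pi * m * z.im)).le
      rwa [mul_assoc, ← Real.exp_add, neg_add_cancel, Real.exp_zero, mul_one] at this
    have h4 : C ≤ Real.exp z.im := by
      have := Real.add_one_le_exp z.im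
      linarith
    calc ‖(G : ℍ → ℂ) τ‖ ≤ C * Real.exp (2 * Real.pi * m * z.im) := h3
      _ ≤ Real.exp z.im * Real.exp (2 * Real.pi * m * z.im) :=
        mul_le_mul_of_nonneg_right h4 (Real.exp_pos _).le
      _ = Real.exp ((2 * Real.pi * m + 1) * z.im) := by
        rw [← Real.exp_add]
        ring_nf

/-- Translation in `R0` and composition with `mob`. -/
theorem R0_apply_mob (G : R0) (g : SL(2, ℤ)) {w : ℂ} (hw : w ∈ U) :
    (G : ℍ → ℂ) (ofComplex (mob g w)) = ((transR g⁻¹ G : R0) : ℍ → ℂ) (ofComplex w) := by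
  rw [transR_coe, ofComplex_mob g hw]
  show _ = (G : ℍ → ℂ) (g⁻¹⁻¹ • ofComplex w)
  rw [inv_inv]

/-- Elements of `R0` give elements of `MA`. -/
theorem comp_ofComplex_mem (G : R0) : (fun z => (G : ℍ → ℂ) (ofComplex z)) ∈ MA := by
  refine ⟨fun z hz => ?_, fun g => ?_⟩
  · have hd : DifferentiableOn ℂ ((G : ℍ → ℂ) ∘ ofComplex) {z | 0 < z.im} :=
      UpperHalfPlane.mdifferentiable_iff.1 G.2.1
    exact (hd.analyticAt (isOpen_U.mem_nhds hz)).meromorphicAt
  · obtain ⟨Y, M, hYM⟩ := exists_exp_bound (transR g⁻¹ G)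
    refine ⟨max Y 0, M, fun z hz => ?_⟩
    have hz0 : z ∈ U := lt_of_le_of_lt (le_max_right _ _) hz
    have hzY : Y < z.im := lt_of_le_of_lt (le_max_left _ _) hz
    obtain ⟨h1, h2⟩ := hYM z hzY
    refine ⟨h1.congr ?_, ?_⟩
    · filter_upwards [isOpen_U.mem_nhds hz0] with w hw
      exact (R0_apply_mob G g hw).symm
    · show ‖(G : ℍ → ℂ) (ofComplex (mob g z))‖ ≤ _
      rw [R0_apply_mob G g hz0]
      exact h2

/-! ### The Lagrange numerator -/

section Lag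

variable {ι : Type*} [Fintype ι] [DecidableEq ι] {R : Type*} [CommRing R]

/-- `∑ i, a_i ∏_{k ≠ i} (X - t_k)`. -/
def lag (a t : ι → R) : R[X] := ∑ i, C (a i) * ∏ k ∈ Finset.univ.erase i, (X - C (t k))

theorem lag_map {S : Type*} [CommRing S] (f : R →+* S) (a t : ι → R) :
    (lag a t).map f = lag (fun i => f (a i)) (fun i => f (t i)) := by
  simp [lag, Polynomial.map_sum, Polynomial.map_prod]

theorem lag_comp_perm (σ : Equiv.Perm ι) (a t : ι → R) :
    lag (fun i => a (σ i)) (fun i => t (σ i)) = lag a t := by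
  unfold lag
  refine Fintype.sum_equiv σ _ _ (fun i => ?_)
  congr 1
  refine Finset.prod_equiv σ (fun k => ?_) (fun k _ => rfl)
  simp

theorem lag_eval (a t : ι → R) (i0 : ι) :
    (lag a t).eval (t i0) = a i0 * ∏ k ∈ Finset.univ.erase i0, (t i0 - t k) := by
  unfold lag
  rw [Polynomial.eval_finsetSum, Finset.sum_eq_single i0]
  · simp [Polynomial.eval_prod]
  · intro i _ hi
    rw [Polynomial.eval_mul, Polynomial.eval_prod, Finset.prod_eq_zero (i := i0), mul_zero]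
    · exact Finset.mem_erase.2 ⟨fun h => hi h.symm, Finset.mem_univ _⟩
    · simp
  · intro h
    exact absurd (Finset.mem_univ _) h

end Lag

/-! ### Conjugates -/

section Conj

variable (N : ℕ) [NeZero N]

attribute [local instance] Deg.fintypeXN

/-- The base coset. -/
abbrev q0 : XN N := ((1 : SL(2, ℤ)) : XN N)

theorem q0_out_inv_mem : ((q0 N).out)⁻¹ ∈ Gamma0 N := by
  have h : (((q0 N).out : SL(2, ℤ)) : XN N) = ((1 : SL(2, ℤ)) : XN N) := QuotientGroup.out_eq' _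
  rw [QuotientGroup.eq, mul_one] at h
  exact h

/-- The conjugates of `J(N z)` as elements of `MA`. -/
def tMA (q : XN N) : MA :=
  ⟨fun z => ((transR q.out (tN N) : R0) : ℍ → ℂ) (ofComplex z), comp_ofComplex_mem _⟩

/-- The conjugates of `φ ∈ MA`. -/
def aMA {φ : ℂ → ℂ} (hφ : φ ∈ MA) (q : XN N) : MA :=
  ⟨fun z => φ (mob q.out⁻¹ z), comp_mob_mem hφ _⟩

/-- Evaluation at a point as a ring homomorphism on `MA`. -/
def evalAt (z : ℂ) : MA →+* ℂ := (Pi.evalRingHom (fun _ : ℂ => ℂ) z).comp MA.subtype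

theorem evalAt_apply (z : ℂ) (h : MA) : evalAt z h = (h : ℂ → ℂ) z := rfl

variable {N}

/-- The action of `SL(2, ℤ)` permutes the conjugates of a `Γ₀(N)`-invariant function. -/
theorem apply_out_inv_mob {φ : ℂ → ℂ} (hinv : ∀ γ ∈ Gamma0 N, ∀ z ∈ U, φ (mob γ z) = φ z)
    (γ : SL(2, ℤ)) (q : XN N) {z : ℂ} (hz : z ∈ U) :
    φ (mob q.out⁻¹ (mob γ z)) = φ (mob ((γ⁻¹ • q).out)⁻¹ z) := by
  have hδ : ((γ⁻¹ • q).out)⁻¹ * (γ⁻¹ * q.out) ∈ Gamma0 N := by
    rw [← QuotientGroup.eq, QuotientGroup.out_eq']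
    conv_lhs => rw [← QuotientGroup.out_eq' q]
    rfl
  have e : q.out⁻¹ * γ = (((γ⁻¹ • q).out)⁻¹ * (γ⁻¹ * q.out))⁻¹ * ((γ⁻¹ • q).out)⁻¹ := by group
  rw [← mob_mul _ _ hz, e, mob_mul _ _ hz, hinv _ (inv_mem hδ) _ (mob_mem_U _ hz)]

theorem tMA_apply_mob (γ : SL(2, ℤ)) (q : XN N) {z : ℂ} (hz : z ∈ U) :
    (tMA N q : ℂ → ℂ) (mob γ z) = (tMA N (γ⁻¹ • q) : ℂ → ℂ) z := by
  show ((transR q.out (tN N) : R0) : ℍ → ℂ) (ofComplex (mob γ z)) =
    ((transR (γ⁻¹ • q).out (tN N) : R0) : ℍ → ℂ) (ofComplex z)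
  rw [R0_apply_mob _ γ hz, (isInv_tN N).transR_transR_out]

theorem tMA_q0_apply (z : ℂ) :
    (tMA N (q0 N) : ℂ → ℂ) z = ((tN N : R0) : ℍ → ℂ) (ofComplex z) := by
  show ((transR (q0 N).out (tN N) : R0) : ℍ → ℂ) (ofComplex z) = _
  rw [(isInv_tN N).transR_out_one]

open scoped Classical in
/-- Pointwise form of the coefficients of the Lagrange numerator. -/
theorem lag_coeff_apply {φ : ℂ → ℂ} (hφ : φ ∈ MA) (k : ℕ) (w : ℂ) :
    (((lag (aMA N hφ) (tMA N)).coeff k : MA) : ℂ → ℂ) w =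
      (lag (fun q => (aMA N hφ q : ℂ → ℂ) w) (fun q => (tMA N q : ℂ → ℂ) w)).coeff k := by
  have h1 := lag_map (evalAt w) (aMA N hφ) (tMA N)
  simp only [evalAt_apply] at h1
  rw [← h1, Polynomial.coeff_map, evalAt_apply]

open scoped Classical in
/-- The Lagrange numerator at `γ z` is the Lagrange numerator at `z`. -/
theorem lag_apply_mob {φ : ℂ → ℂ} (hφ : φ ∈ MA)
    (hinv : ∀ γ ∈ Gamma0 N, ∀ z ∈ U, φ (mob γ z) = φ z) (γ : SL(2, ℤ)) {z : ℂ}
    (hz : z ∈ U) :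
    lag (fun q => (aMA N hφ q : ℂ → ℂ) (mob γ z)) (fun q => (tMA N q : ℂ → ℂ) (mob γ z)) =
      lag (fun q => (aMA N hφ q : ℂ → ℂ) z) (fun q => (tMA N q : ℂ → ℂ) z) := by
  have ha : (fun q => (aMA N hφ q : ℂ → ℂ) (mob γ z)) =
      fun q => (aMA N hφ (γ⁻¹ • q) : ℂ → ℂ) z := by
    funext q
    exact apply_out_inv_mob hinv γ q hz
  have ht : (fun q => (tMA N q : ℂ → ℂ) (mob γ z)) = fun q => (tMA N (γ⁻¹ • q) : ℂ → ℂ) z := by
    funext q
    exact tMA_apply_mob γ q hz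
  rw [ha, ht]
  exact lag_comp_perm (MulAction.toPerm γ⁻¹) (fun q => (aMA N hφ q : ℂ → ℂ) z)
    (fun q => (tMA N q : ℂ → ℂ) z)

open scoped Classical in
/-- The coefficients of the Lagrange numerator are `SL(2, ℤ)`-invariant. -/
theorem lag_coeff_mob {φ : ℂ → ℂ} (hφ : φ ∈ MA)
    (hinv : ∀ γ ∈ Gamma0 N, ∀ z ∈ U, φ (mob γ z) = φ z) (k : ℕ) (γ : SL(2, ℤ)) {z : ℂ}
    (hz : z ∈ U) :
    (((lag (aMA N hφ) (tMA N)).coeff k : MA) : ℂ → ℂ) (mob γ z) =
      (((lag (aMA N hφ) (tMA N)).coeff k : MA) : ℂ → ℂ) z := by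
  rw [lag_coeff_apply hφ k (mob γ z), lag_coeff_apply hφ k z, lag_apply_mob hφ hinv γ hz]

open scoped Classical in
/-- The discriminant-type factor `∏_{r ≠ 1} (t - t_r)` is `ev` of a polynomial. -/
theorem exists_evC_eq_prod : ∃ PD : MvPolynomial (Dv N) ℂ, evC N PD ≠ 0 ∧ ∀ τ : ℍ,
    evC N PD τ = ∏ k ∈ Finset.univ.erase (q0 N),
      (((tN N : R0) : ℍ → ℂ) τ - ((transR k.out (tN N) : R0) : ℍ → ℂ) τ) := by
  have ht := isInv_tN N
  have h1inv : IsInv N (((1 : R0) : R0) : ℍ → ℂ) := fun γ _ z => rfl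
  obtain ⟨Q, hQ⟩ := exists_mv_of_invariant_poly (N := N) (denPoly N 1 (tN N))
    (map_denPoly h1inv ht)
  have hden := eval_denPoly (N := N) 1 (tN N)
  rw [ht.transR_out_one] at hden
  simp only [map_one, Finset.prod_const_one, one_mul] at hden
  set D : R0 := ∏ k ∈ Finset.univ.erase (q0 N), (tN N - transR k.out (tN N)) with hD
  have hD0 : D ≠ 0 := by
    rw [hD]
    refine Finset.prod_ne_zero_iff.2 fun k hk h => ?_
    have hk' : k ≠ q0 N := (Finset.mem_erase.1 hk).1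
    apply hk'
    have h1 : transR k.out (tN N) = transR (q0 N).out (tN N) := by
      rw [ht.transR_out_one]
      exact (sub_eq_zero.1 h).symm
    exact HNFMod.injective_trans_out N (congrArg Subtype.val h1)
  have hDcoe : ∀ τ : ℍ, (D : ℍ → ℂ) τ = ∏ k ∈ Finset.univ.erase (q0 N),
      (((tN N : R0) : ℍ → ℂ) τ - ((transR k.out (tN N) : R0) : ℍ → ℂ) τ) := by
    intro τ
    rw [hD, ← Subring.coe_subtype, map_prod, Finset.prod_apply]
    rfl
  refine ⟨Q, fun h0 => hD0 ?_, fun τ => ?_⟩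
  · apply Subtype.ext
    funext τ
    rw [← hden, ← hQ τ, h0]
    rfl
  · rw [hQ τ, hden, hDcoe]

end Conj

/-! ### The main theorem -/

section Main

variable (N : ℕ) [NeZero N]

attribute [local instance] Deg.fintypeXN

/-- **JAC-GAL, core.** A `Γ₀(N)`-invariant meromorphic function on `U` which is meromorphic at
the cusps is, off a discrete set, a quotient `ev P / ev Q` of polynomials in the functions
`z ↦ J(d z)`, `d ∣ N`. -/
theorem exists_ev_eq (L1 : LevelOneStatement) (φ : ℂ → ℂ) (hφ : MeromorphicOn φ U)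
    (hinv : ∀ γ ∈ Gamma0 N, ∀ z ∈ U, φ (mob γ z) = φ z) (hc : MerAtCusps φ) :
    ∃ P Q : MvPolynomial (Dv N) ℂ, evC N Q ≠ 0 ∧
      (fun z => φ z * evC N Q (ofComplex z)) =ᶠ[codiscreteWithin U]
        fun z => evC N P (ofComplex z) := by
  classical
  have hφM : φ ∈ MA := ⟨hφ, hc⟩
  set W : MA[X] := lag (aMA N hφM) (tMA N) with hW
  -- the level-one statement for each coefficient
  have hL : ∀ k : ℕ, ∃ A B : ℂ[X], B ≠ 0 ∧
      (fun z => ((W.coeff k : MA) : ℂ → ℂ) z * B.eval (Jfun (ofComplex z)))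
        =ᶠ[codiscreteWithin U] fun z => A.eval (Jfun (ofComplex z)) :=
    fun k => L1 _ (W.coeff k).2.1 (fun g z hz => lag_coeff_mob hφM hinv k g hz) (W.coeff k).2.2
  choose A B hB hAB using hL
  obtain ⟨PD, hPD0, hPD⟩ := exists_evC_eq_prod (N := N)
  set s : Finset ℕ := Finset.range (W.natDegree + 1) with hs
  set Bt : ℂ[X] := ∏ i ∈ s, B i with hBt
  have hBt0 : Bt ≠ 0 := Finset.prod_ne_zero_iff.2 (fun i _ => hB i)
  refine ⟨∑ k ∈ s, Polynomial.aeval (MvPolynomial.X (JPt.d1 N)) (A k * ∏ i ∈ s.erase k, B i) *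
      MvPolynomial.X (⟨N, dvd_rfl⟩ : Dv N) ^ k,
    PD * Polynomial.aeval (MvPolynomial.X (JPt.d1 N)) Bt, ?_, ?_⟩
  · -- the denominator is nonzero
    intro h0
    rw [map_mul] at h0
    rcases (UpperHalfPlane.mul_eq_zero_iff (evC_mem_R0 N PD).1 (evC_mem_R0 N _).1).1 h0 with h | h
    · exact hPD0 h
    · apply hBt0
      apply LevelOneInv.poly_eq_zero_of_forall_eval_J
      intro z
      have := congrFun h z
      rw [evC_aeval_d1] at this
      exact this
  · -- the identity off a discrete set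
    have hev : ∀ᶠ z in codiscreteWithin U, z ∈ U ∧ ∀ k ∈ s,
        ((W.coeff k : MA) : ℂ → ℂ) z * (B k).eval (Jfun (ofComplex z)) =
          (A k).eval (Jfun (ofComplex z)) := by
      refine (Filter.eventually_of_mem (Filter.self_mem_codiscreteWithin U) (fun z hz => hz)).and ?_
      rw [Filter.eventually_all_finset]
      exact fun k _ => hAB k
    filter_upwards [hev] with z ⟨hzU, hz⟩
    set τ : ℍ := ofComplex z with hτ
    -- pointwise Lagrange identity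
    have hlag : ∑ k ∈ s, ((W.coeff k : MA) : ℂ → ℂ) z * ((tN N : R0) : ℍ → ℂ) τ ^ k =
        φ z * evC N PD τ := by
      have h1 := lag_map (evalAt z) (aMA N hφM) (tMA N)
      have h2 := lag_eval (fun q => evalAt z (aMA N hφM q)) (fun q => evalAt z (tMA N q)) (q0 N)
      rw [← h1, Polynomial.eval_map, Polynomial.eval₂_eq_sum_range] at h2
      simp only [evalAt_apply, tMA_q0_apply] at h2
      rw [← hW] at h2
      rw [h2, hPD τ]
      congr 1
      · show φ (mob ((q0 N).out)⁻¹ z) = φ z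
        exact hinv _ (q0_out_inv_mem N) z hzU
    rw [map_mul, Pi.mul_apply, evC_aeval_d1, ← mul_assoc, ← hlag, map_sum, Finset.sum_apply,
      Finset.sum_mul]
    refine Finset.sum_congr rfl fun k hk => ?_
    rw [map_mul, map_pow, Pi.mul_apply, Pi.pow_apply, evC_aeval_d1, evC_X, Polynomial.eval_mul,
      hBt, Polynomial.eval_prod, Polynomial.eval_prod,
      ← Finset.mul_prod_erase s (fun i => (B i).eval (Jfun τ)) hk, ← hz k hk]
    show _ = _ * (Jabd N 0 1 τ) ^ k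
    rw [tN_coe]
    ring

end Main

end Fermat.Agent.ESJ.Jac.GalCore
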