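import Fermat.Agent.ESJ.Jac.Invariant
import Fermat.Agent.ESJ.Jac.Multiplier
import Fermat.Agent.ESJ.Jac.GalCore

/-!
# ESJ / JAC-GAL (L1): invariant meromorphic functions are rational functions of `J`

Meromorphic functions on `U = {Im z > 0}` (Mathlib's `MeromorphicOn`, functions `ℂ → ℂ`).

* `exists_denominator` : **clearing denominators.** If `ψ` is meromorphic on `U`, invariant under
  a subgroup `Γ` of finite index of `SL(2, ℤ)` and meromorphic at the cusps (`MerAtCusps`), then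
  for some polynomial `B ≠ 0` the function `ψ * B(J)` agrees off a discrete set with a holomorphic
  `Γ`-invariant function of moderate growth at all cusps (an element of `Inv.R0`).
  Proof: the translates `ψ ∘ g` are finitely many functions, all analytic above some height `Y`;
  the truncated fundamental domain is compact, so these translates have finitely many poles there,
  of bounded order; `B := ∏ (X - J(w)) ^ m` over these poles kills all poles of `ψ`.
* `exists_ratJ_of_invariant` (L1, `Γ = SL(2, ℤ)`) : `ψ * B(J) = A(J)` off a discrete set;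
  `levelOneStatement : GalCore.LevelOneStatement` is the same statement in the form consumed by
  `Jac/GalCore.lean`, and `exists_ev_eq` is the resulting unconditional form of
  `GalCore.exists_ev_eq`.
* `exists_evK_eq_of_invariant` (`Γ = Γ₀(N)`, a second, direct proof) : `φ * ev Q = ev P` off a
  discrete set, for polynomials `P`, `Q` in the functions `J(d z)`, `d ∣ N`, `ev Q ≠ 0` (from
  `exists_denominator` and the holomorphic Lagrange interpolation of `Jac/Invariant.lean`).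
-/

set_option autoImplicit false

open UpperHalfPlane ModularForm CongruenceSubgroup Filter Topology Set
open scoped MatrixGroups Manifold

noncomputable section

namespace Fermat.Agent.ESJ.Jac

open Fermat.Agent.S24 Fermat.Agent.S20 Polynomial

namespace LevelOneMer

/-- `J` as a function on `ℂ` (junk outside the upper half plane). -/
def Jc (z : ℂ) : ℂ := Jfun (ofComplex z)

theorem analyticAt_Jc {z : ℂ} (hz : z ∈ U) : AnalyticAt ℂ Jc z :=
  OrdAt.analyticAt_comp_ofComplex JPt.mdiff_Jfun ⟨z, hz⟩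

theorem Jc_mob (g : SL(2, ℤ)) {z : ℂ} (hz : z ∈ U) : Jc (mob g z) = Jc z := by
  have h' : mob g z = ((g • (⟨z, hz⟩ : ℍ) : ℍ) : ℂ) := mob_coe g ⟨z, hz⟩
  have e1 : ofComplex z = ⟨z, hz⟩ := ofComplex_apply_of_im_pos hz
  show Jfun (ofComplex (mob g z)) = Jfun (ofComplex z)
  rw [h', ofComplex_apply, e1, JPt.Jfun_smul]

theorem Jc_coe (τ : ℍ) : Jc (τ : ℂ) = Jfun τ := by
  show Jfun (ofComplex (τ : ℂ)) = Jfun τ
  rw [ofComplex_apply]

/-- A polynomial in `J` is analytic on `U`. -/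
theorem analyticAt_eval_Jc (B : ℂ[X]) {z : ℂ} (hz : z ∈ U) :
    AnalyticAt ℂ (fun u => B.eval (Jc u)) z := by
  induction B using Polynomial.induction_on' with
  | add p q hp hq =>
    simp only [Polynomial.eval_add]
    exact hp.add hq
  | monomial n c =>
    simp only [Polynomial.eval_monomial]
    exact analyticAt_const.mul ((analyticAt_Jc hz).pow n)

/-- If `(X - c) ^ m ∣ B` and `J z = c`, then `B ∘ J` vanishes to order at least `m` at `z`. -/
theorem le_order_eval_Jc {B : ℂ[X]} {c : ℂ} {m : ℕ} (h : (X - C c) ^ m ∣ B) {z : ℂ} (hz : z ∈ U)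
    (hc : Jc z = c) : ((m : ℤ) : WithTop ℤ) ≤ meromorphicOrderAt (fun u => B.eval (Jc u)) z := by
  obtain ⟨R, rfl⟩ := h
  have e : (fun u => ((X - C c) ^ m * R).eval (Jc u))
      = (fun u => (Jc u - c)) ^ m * (fun u => R.eval (Jc u)) := by
    funext u; simp
  rw [e]
  have h1 : AnalyticAt ℂ (fun u => Jc u - c) z := (analyticAt_Jc hz).sub analyticAt_const
  have h2 : AnalyticAt ℂ (fun u => R.eval (Jc u)) z := analyticAt_eval_Jc R hz
  rw [meromorphicOrderAt_mul (h1.pow m).meromorphicAt h2.meromorphicAt,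
    meromorphicOrderAt_pow h1.meromorphicAt]
  have h3 : (1 : WithTop ℤ) ≤ meromorphicOrderAt (fun u => Jc u - c) z := by
    rw [h1.meromorphicOrderAt_eq]
    have h0 : analyticOrderAt (fun u => Jc u - c) z ≠ 0 := by
      rw [h1.analyticOrderAt_ne_zero]; simp [hc]
    cases hn : analyticOrderAt (fun u => Jc u - c) z with
    | top => simp
    | coe n =>
      rw [hn] at h0
      have hn1 : 1 ≤ n := Nat.one_le_iff_ne_zero.mpr (by exact_mod_cast h0)
      simp only [ENat.map_natCast]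
      exact_mod_cast hn1
  have h4 : (0 : WithTop ℤ) ≤ meromorphicOrderAt (fun u => R.eval (Jc u)) z :=
    h2.meromorphicOrderAt_nonneg
  have h5 : ((m : ℤ) : WithTop ℤ) ≤ (m : WithTop ℤ) * meromorphicOrderAt (fun u => Jc u - c) z := by
    cases hn : meromorphicOrderAt (fun u => Jc u - c) z with
    | top =>
      rcases Nat.eq_zero_or_pos m with hm | hm
      · subst hm; simp
      · rw [WithTop.mul_top (by exact_mod_cast hm.ne')]
        exact le_top
    | coe n =>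
      rw [hn] at h3
      have hn1 : (1 : ℤ) ≤ n := by exact_mod_cast h3
      have : ((m : ℤ) : WithTop ℤ) * (n : WithTop ℤ) = ((m * n : ℤ) : WithTop ℤ) := by
        norm_cast
      have e2 : ((m : ℕ) : WithTop ℤ) = ((m : ℤ) : WithTop ℤ) := by norm_cast
      rw [e2, this]
      have : (m : ℤ) ≤ m * n := by nlinarith [Int.natCast_nonneg m]
      exact_mod_cast this
  calc ((m : ℤ) : WithTop ℤ) = ((m : ℤ) : WithTop ℤ) + 0 := by simp
    _ ≤ _ := add_le_add h5 h4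

/-- The fundamental domain truncated at height `Y`, enlarged to a compact rectangle of `ℂ`. -/
def rect (Y : ℝ) : Set ℂ := {z : ℂ | |z.re| ≤ 1 / 2 ∧ 1 / 2 ≤ z.im ∧ z.im ≤ Y}

theorem isCompact_rect (Y : ℝ) : IsCompact (rect Y) := by
  have e : rect Y = (Set.Icc (-(1 / 2) : ℝ) (1 / 2)) ×ℂ (Set.Icc (1 / 2 : ℝ) Y) := by
    ext z
    simp only [rect, Set.mem_ofPred_eq, Complex.mem_reProdIm, Set.mem_Icc, abs_le]
  rw [e]
  exact isCompact_Icc.reProdIm isCompact_Icc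

theorem rect_subset_U (Y : ℝ) : rect Y ⊆ U := fun z hz =>
  lt_of_lt_of_le (by norm_num) hz.2.1

/-- Every point of `ℍ` can be moved into the (enlarged) fundamental domain. -/
theorem exists_smul_fd (τ : ℍ) : ∃ g : SL(2, ℤ), |(g • τ).re| ≤ 1 / 2 ∧ 1 / 2 ≤ (g • τ).im := by
  obtain ⟨g, hg⟩ := ModularGroup.exists_smul_mem_fd τ
  refine ⟨g, hg.2, ?_⟩
  have h1 := hg.1
  rw [Complex.normSq_apply] at h1
  have h2 := abs_le.mp hg.2
  have hpos := (g • τ).im_pos
  have hre : (g • τ).re = ((g • τ : ℍ) : ℂ).re := rfl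
  have him : (g • τ).im = ((g • τ : ℍ) : ℂ).im := rfl
  rw [← hre, ← him] at h1
  by_contra hlt
  push Not at hlt
  nlinarith

/-- `ψ ∘ g` only depends on the coset `Γ g`: it equals `ψ ∘ r` for the chosen representative `r`
of that coset. -/
theorem comp_mob_coset (Γ : Subgroup SL(2, ℤ)) {ψ : ℂ → ℂ}
    (hinv : ∀ γ ∈ Γ, ∀ z ∈ U, ψ (mob γ z) = ψ z) (g : SL(2, ℤ)) :
    ∀ w ∈ U, ψ (mob g w)
      = ψ (mob (Quotient.out (QuotientGroup.mk g⁻¹ : SL(2, ℤ) ⧸ Γ))⁻¹ w) := by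
  intro w hw
  set q : SL(2, ℤ) ⧸ Γ := QuotientGroup.mk g⁻¹ with hq
  have hmem : g * Quotient.out q ∈ Γ := by
    have h1 : (QuotientGroup.mk (Quotient.out q) : SL(2, ℤ) ⧸ Γ) = QuotientGroup.mk g⁻¹ := by
      rw [hq]; exact QuotientGroup.out_eq' _
    have h2 := QuotientGroup.eq.mp h1
    have h3 := Γ.inv_mem h2
    simpa [mul_inv_rev] using h3
  have e : g = (g * Quotient.out q) * (Quotient.out q)⁻¹ := by simp
  conv_lhs => rw [e]
  rw [mob_mul _ _ hw]
  exact hinv _ hmem _ (mob_mem_U _ hw)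

/-- Uniform version of `MerAtCusps` for a function invariant under a subgroup of finite index. -/
theorem exists_uniform (Γ : Subgroup SL(2, ℤ)) [Γ.FiniteIndex] {ψ : ℂ → ℂ}
    (hinv : ∀ γ ∈ Γ, ∀ z ∈ U, ψ (mob γ z) = ψ z) (hc : MerAtCusps ψ) :
    ∃ Y M : ℝ, 0 ≤ Y ∧ 0 ≤ M ∧ ∀ g : SL(2, ℤ), ∀ z : ℂ, Y < z.im →
      AnalyticAt ℂ (fun w => ψ (mob g w)) z ∧ ‖ψ (mob g z)‖ ≤ Real.exp (M * z.im) := by
  classical
  have : Finite (SL(2, ℤ) ⧸ Γ) := Subgroup.finite_quotient_of_finiteIndex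
  choose Yf Mf hYM using hc
  let r : SL(2, ℤ) ⧸ Γ → SL(2, ℤ) := fun q => (Quotient.out q)⁻¹
  obtain ⟨Y, hY⟩ := (Set.finite_range (fun q => Yf (r q))).bddAbove
  obtain ⟨M, hM⟩ := (Set.finite_range (fun q => Mf (r q))).bddAbove
  refine ⟨max Y 0, max M 0, le_max_right _ _, le_max_right _ _, fun g z hz => ?_⟩
  set q : SL(2, ℤ) ⧸ Γ := QuotientGroup.mk g⁻¹ with hq
  have hzU : z ∈ U := lt_of_le_of_lt (le_max_right Y 0) hz
  have hcomp : ∀ w ∈ U, ψ (mob g w) = ψ (mob (r q) w) := comp_mob_coset Γ hinv g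
  have hYq : Yf (r q) < z.im := lt_of_le_of_lt ((hY ⟨q, rfl⟩).trans (le_max_left _ _)) hz
  obtain ⟨han, hbd⟩ := hYM (r q) z hYq
  refine ⟨han.congr ?_, ?_⟩
  · filter_upwards [isOpen_U.mem_nhds hzU] with w hw
    exact (hcomp w hw).symm
  · rw [hcomp z hzU]
    refine hbd.trans (Real.exp_le_exp.mpr ?_)
    exact mul_le_mul_of_nonneg_right ((hM ⟨q, rfl⟩).trans (le_max_left _ _)) hzU.le

/-- On a compact set, a meromorphic function has only finitely many points of negative order, and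
its orders are bounded below. -/
theorem exists_finset_order {f : ℂ → ℂ} {K : Set ℂ} (hK : IsCompact K) (hf : MeromorphicOn f K) :
    ∃ (P : Finset ℂ) (m : ℕ), ∀ w ∈ K, (w ∉ P → 0 ≤ meromorphicOrderAt f w) ∧
      ((-(m : ℤ) : ℤ) : WithTop ℤ) ≤ meromorphicOrderAt f w := by
  classical
  have hfin : (MeromorphicOn.divisor f K).support.Finite :=
    (MeromorphicOn.divisor f K).finiteSupport hK
  have key : ∀ w ∈ K, w ∉ hfin.toFinset → 0 ≤ meromorphicOrderAt f w := by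
    intro w hw hwP
    have h0 : MeromorphicOn.divisor f K w = 0 := by
      by_contra h
      exact hwP (hfin.mem_toFinset.mpr h)
    rw [MeromorphicOn.divisor_apply hf hw] at h0
    rcases WithTop.untop₀_eq_zero.mp h0 with h | h
    · rw [h]
    · rw [h]; exact le_top
  refine ⟨hfin.toFinset, ∑ w ∈ hfin.toFinset, (MeromorphicOn.divisor f K w).natAbs,
    fun w hw => ⟨key w hw, ?_⟩⟩
  by_cases hwP : w ∈ hfin.toFinset
  · have h1 : (MeromorphicOn.divisor f K w).natAbs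
        ≤ ∑ w ∈ hfin.toFinset, (MeromorphicOn.divisor f K w).natAbs :=
      Finset.single_le_sum (f := fun w => (MeromorphicOn.divisor f K w).natAbs)
        (fun _ _ => Nat.zero_le _) hwP
    rw [MeromorphicOn.divisor_apply hf hw] at h1
    generalize (∑ w ∈ hfin.toFinset, (MeromorphicOn.divisor f K w).natAbs) = m at h1 ⊢
    cases h : meromorphicOrderAt f w with
    | top => exact le_top
    | coe n =>
      rw [h] at h1
      simp only [WithTop.untop₀_coe] at h1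
      exact_mod_cast (by omega : -(m : ℤ) ≤ n)
  · refine le_trans ?_ (key w hw hwP)
    exact_mod_cast (by omega : -((∑ w ∈ hfin.toFinset, (MeromorphicOn.divisor f K w).natAbs : ℕ) : ℤ) ≤ 0)

/-- **Clearing the poles by a polynomial in `J`**: if the translates `ψ ∘ g`, `g ∈ SL(2, ℤ)`, of a
meromorphic function on `U` are finitely many functions, all analytic above height `Y`, then
`ψ * B(J)` has no poles on `U` for a suitable polynomial `B ≠ 0`. -/
theorem exists_poly_order_nonneg {ψ : ℂ → ℂ} (hψ : MeromorphicOn ψ U) {ι : Type} [Finite ι]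
    (r : ι → SL(2, ℤ)) (hr : ∀ g : SL(2, ℤ), ∃ i, ∀ w ∈ U, ψ (mob g w) = ψ (mob (r i) w))
    {Y : ℝ} (hY : ∀ i, ∀ z : ℂ, Y < z.im → AnalyticAt ℂ (fun w => ψ (mob (r i) w)) z) :
    ∃ B : ℂ[X], B ≠ 0 ∧ ∀ z ∈ U, 0 ≤ meromorphicOrderAt (fun u => ψ u * B.eval (Jc u)) z := by
  classical
  have : Fintype ι := Fintype.ofFinite ι
  have hmer : ∀ i, MeromorphicOn (fun w => ψ (mob (r i) w)) U := fun i w hw =>
    (hψ _ (mob_mem_U (r i) hw)).comp_analyticAt (analyticAt_mob (r i) hw)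
  have hex := fun i => exists_finset_order (isCompact_rect Y) ((hmer i).mono_set (rect_subset_U Y))
  choose P m hPm using hex
  let B : ℂ[X] := ∏ i, ∏ w ∈ P i, (X - C (Jc w)) ^ m i
  have hB0 : B ≠ 0 := Finset.prod_ne_zero_iff.mpr fun i _ =>
    Finset.prod_ne_zero_iff.mpr fun w _ => pow_ne_zero _ (X_sub_C_ne_zero _)
  refine ⟨B, hB0, fun z hz => ?_⟩
  obtain ⟨g, hg1, hg2⟩ := exists_smul_fd ⟨z, hz⟩
  set w : ℂ := mob g z with hw
  have hwc : w = ((g • (⟨z, hz⟩ : ℍ) : ℍ) : ℂ) := mob_coe g ⟨z, hz⟩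
  have hwU : w ∈ U := mob_mem_U g hz
  obtain ⟨i, hi⟩ := hr g⁻¹
  have hord : meromorphicOrderAt ψ z = meromorphicOrderAt (fun u => ψ (mob (r i) u)) w := by
    rw [hw, ← meromorphicOrderAt_comp_of_deriv_ne_zero (analyticAt_mob g hz)
      (mob_deriv_ne_zero g hz)]
    apply meromorphicOrderAt_congr
    apply Filter.EventuallyEq.filter_mono _ nhdsWithin_le_nhds
    filter_upwards [isOpen_U.mem_nhds hz] with u hu
    show ψ u = ψ (mob (r i) (mob g u))
    rw [← hi _ (mob_mem_U g hu), ← mob_mul _ _ hu, inv_mul_cancel, mob_one]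
  have hBan : AnalyticAt ℂ (fun u => B.eval (Jc u)) z := analyticAt_eval_Jc B hz
  have hmul : meromorphicOrderAt (fun u => ψ u * B.eval (Jc u)) z
      = meromorphicOrderAt ψ z + meromorphicOrderAt (fun u => B.eval (Jc u)) z :=
    meromorphicOrderAt_mul (hψ z hz) hBan.meromorphicAt
  rw [hmul, hord]
  have hB_nonneg := hBan.meromorphicOrderAt_nonneg
  by_cases hwY : Y < w.im
  · exact add_nonneg (hY i w hwY).meromorphicOrderAt_nonneg hB_nonneg
  · have hwK : w ∈ rect Y := ⟨by rw [hwc]; exact hg1, by rw [hwc]; exact hg2, not_lt.mp hwY⟩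
    obtain ⟨h1, h2⟩ := hPm i w hwK
    by_cases hwP : w ∈ P i
    · have hdvd : (X - C (Jc w)) ^ m i ∣ B :=
        (Finset.dvd_prod_of_mem (fun w => (X - C (Jc w)) ^ m i) hwP).trans
          (Finset.dvd_prod_of_mem (fun i => ∏ w ∈ P i, (X - C (Jc w)) ^ m i) (Finset.mem_univ i))
      have h3 := le_order_eval_Jc hdvd hz (by rw [hw, Jc_mob g hz])
      calc (0 : WithTop ℤ) = ((-(m i : ℤ) : ℤ) : WithTop ℤ) + ((m i : ℤ) : WithTop ℤ) := by
            norm_cast; simp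
        _ ≤ _ := add_le_add h2 h3
    · exact add_nonneg (h1 hwP) hB_nonneg

/-- Exponential decay of `Δ` at `i∞`, in explicit form. -/
theorem exists_Δf_bound : ∃ C A : ℝ, 0 ≤ C ∧
    ∀ z : ℍ, A ≤ z.im → ‖Δf z‖ ≤ C * Real.exp (-(2 * Real.pi) * z.im) := by
  have h := CuspFormClass.exp_decay_atImInfty (h := 1) CuspForm.discriminant one_pos
    one_mem_strictPeriods_SL
  rw [Asymptotics.isBigO_iff'] at h
  obtain ⟨c, hc, hev⟩ := h
  obtain ⟨A, hA⟩ := (atImInfty_mem _).mp hev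
  refine ⟨c, A, hc.le, fun z hz => ?_⟩
  have h1 := hA z hz
  simp only [Set.mem_ofPred_eq, Real.norm_eq_abs, Real.abs_exp, div_one] at h1
  have e : -2 * Real.pi * z.im = -(2 * Real.pi) * z.im := by ring
  rw [e] at h1
  exact h1

/-- Moderate growth from an exponential bound. -/
theorem exists_isBounded_of_exp_growth {G H : ℍ → ℂ} {Y M : ℝ} (m₁ : ℕ)
    (hH : IsBoundedAtImInfty (Δf ^ m₁ * H))
    (hG : ∀ τ : ℍ, Y < τ.im → ‖G τ‖ ≤ Real.exp (M * τ.im) * ‖H τ‖) :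
    ∃ m : ℕ, IsBoundedAtImInfty (Δf ^ m * G) := by
  obtain ⟨C, A, hC, hΔ⟩ := exists_Δf_bound
  obtain ⟨m₂, hm₂⟩ := exists_nat_ge (M / (2 * Real.pi))
  obtain ⟨M₁, A₁, h₁⟩ := isBoundedAtImInfty_iff.mp hH
  have hpi : 0 < 2 * Real.pi := by positivity
  have hM : M ≤ 2 * Real.pi * m₂ := by
    have := (div_le_iff₀ hpi).mp hm₂
    linarith
  refine ⟨m₂ + m₁, isBoundedAtImInfty_iff.mpr ⟨C ^ m₂ * M₁, max (max A A₁) (Y + 1), fun z hz => ?_⟩⟩
  have hzA : A ≤ z.im := le_trans (le_trans (le_max_left _ _) (le_max_left _ _)) hz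
  have hzA₁ : A₁ ≤ z.im := le_trans (le_trans (le_max_right _ _) (le_max_left _ _)) hz
  have hzY : Y < z.im := lt_of_lt_of_le (by linarith) (le_trans (le_max_right _ _) hz)
  have e1 : ‖(Δf ^ (m₂ + m₁) * G) z‖ = ‖Δf z‖ ^ m₂ * (‖Δf z‖ ^ m₁ * ‖G z‖) := by
    simp only [Pi.mul_apply, Pi.pow_apply, norm_mul, norm_pow, pow_add, mul_assoc]
  have e2 : ‖Δf z‖ ^ m₁ * ‖H z‖ ≤ M₁ := by
    have := h₁ z hzA₁
    simpa only [Pi.mul_apply, Pi.pow_apply, norm_mul, norm_pow] using this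
  have hM₁ : 0 ≤ M₁ := le_trans (by positivity) e2
  have e3 : ‖Δf z‖ ^ m₂ ≤ C ^ m₂ * Real.exp (-(2 * Real.pi) * z.im) ^ m₂ := by
    rw [← mul_pow]
    exact pow_le_pow_left₀ (norm_nonneg _) (hΔ z hzA) m₂
  have e4 : Real.exp (-(2 * Real.pi) * z.im) ^ m₂ * Real.exp (M * z.im) ≤ 1 := by
    rw [← Real.exp_nat_mul, ← Real.exp_add, Real.exp_le_one_iff]
    have hy := z.im_pos
    nlinarith
  calc ‖(Δf ^ (m₂ + m₁) * G) z‖ = ‖Δf z‖ ^ m₂ * (‖Δf z‖ ^ m₁ * ‖G z‖) := e1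
    _ ≤ ‖Δf z‖ ^ m₂ * (‖Δf z‖ ^ m₁ * (Real.exp (M * z.im) * ‖H z‖)) := by
        gcongr
        exact hG z hzY
    _ = (‖Δf z‖ ^ m₂ * Real.exp (M * z.im)) * (‖Δf z‖ ^ m₁ * ‖H z‖) := by ring
    _ ≤ (C ^ m₂ * Real.exp (-(2 * Real.pi) * z.im) ^ m₂ * Real.exp (M * z.im)) * M₁ := by
        gcongr
    _ = C ^ m₂ * (Real.exp (-(2 * Real.pi) * z.im) ^ m₂ * Real.exp (M * z.im)) * M₁ := by ring
    _ ≤ C ^ m₂ * 1 * M₁ := by gcongr
    _ = C ^ m₂ * M₁ := by ring

/-- Polynomials in `J` are in `Inv.R0`. -/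
theorem eval_Jfun_mem_R0 (B : ℂ[X]) : (fun z : ℍ => B.eval (Jfun z)) ∈ Inv.R0 := by
  have h := Inv.evC_mem_R0 1 (Polynomial.aeval (MvPolynomial.X (JPt.d1 1)) B)
  have e : Inv.evC 1 (Polynomial.aeval (MvPolynomial.X (JPt.d1 1)) B)
      = fun z : ℍ => B.eval (Jfun z) := funext fun z => Inv.evC_aeval_d1 1 B z
  rwa [e] at h

/-- A nonzero polynomial in `J` is nonzero off a discrete subset of `U`. -/
theorem eventually_eval_Jc_ne_zero {B : ℂ[X]} (hB0 : B ≠ 0) :
    ∀ᶠ z in Filter.codiscreteWithin U, B.eval (Jfun (ofComplex z)) ≠ 0 := by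
  have han : AnalyticOnNhd ℂ (fun u => B.eval (Jc u)) U := fun z hz => analyticAt_eval_Jc B hz
  rcases han.eqOn_zero_or_eventually_ne_zero_of_preconnected isPreconnected_U with h | h
  · exfalso
    refine hB0 (LevelOneInv.poly_eq_zero_of_forall_eval_J B fun z => ?_)
    have := h (coe_mem_U z)
    simp only [Pi.zero_apply] at this
    rw [Jc_coe] at this
    exact this
  · exact h

end LevelOneMer

open LevelOneMer

/-- **Clearing denominators.** A meromorphic function on `U`, invariant under a subgroup `Γ` of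
finite index of `SL(2, ℤ)` and meromorphic at the cusps, becomes, after multiplication by a
nonzero polynomial in `J`, a holomorphic `Γ`-invariant function of moderate growth at all cusps
(an element of `Inv.R0`). -/
theorem exists_denominator (Γ : Subgroup SL(2, ℤ)) [Γ.FiniteIndex] (ψ : ℂ → ℂ)
    (hψ : MeromorphicOn ψ U) (hinv : ∀ γ ∈ Γ, ∀ z ∈ U, ψ (mob γ z) = ψ z) (hc : MerAtCusps ψ) :
    ∃ B : ℂ[X], B ≠ 0 ∧ ∃ A : ℍ → ℂ, A ∈ Inv.R0 ∧ (∀ γ ∈ Γ, ∀ z : ℍ, A (γ • z) = A z) ∧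
      (fun z => ψ z * B.eval (Jfun (ofComplex z))) =ᶠ[Filter.codiscreteWithin U]
        fun z => A (ofComplex z) := by
  classical
  have : Finite (SL(2, ℤ) ⧸ Γ) := Subgroup.finite_quotient_of_finiteIndex
  obtain ⟨Y, M, hY0, hM0, hYM⟩ := exists_uniform Γ hinv hc
  obtain ⟨B, hB0, hBord⟩ := exists_poly_order_nonneg hψ (ι := SL(2, ℤ) ⧸ Γ)
    (fun q => (Quotient.out q)⁻¹) (fun g => ⟨_, comp_mob_coset Γ hinv g⟩)
    (Y := Y) (fun q z hz => (hYM _ z hz).1)
  refine ⟨B, hB0, ?_⟩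
  set f : ℂ → ℂ := fun u => ψ u * B.eval (Jc u) with hf_def
  have hBan : ∀ z ∈ U, AnalyticAt ℂ (fun u => B.eval (Jc u)) z :=
    fun z hz => analyticAt_eval_Jc B hz
  have hf : MeromorphicOn f U := fun z hz => (hψ z hz).mul (hBan z hz).meromorphicAt
  set A₀ : ℂ → ℂ := toMeromorphicNFOn f U with hA₀
  have hNF : MeromorphicNFOn A₀ U := meromorphicNFOn_toMeromorphicNFOn f U
  have hAan : ∀ z ∈ U, AnalyticAt ℂ A₀ z := fun z hz =>
    (hNF hz).meromorphicOrderAt_nonneg_iff_analyticAt.mp (by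
      rw [hA₀, meromorphicOrderAt_toMeromorphicNFOn hf hz]; exact hBord z hz)
  have heq' : ∀ z ∈ U, A₀ =ᶠ[𝓝[≠] z] f :=
    fun z hz => hf.toMeromorphicNFOn_eq_self_on_nhdsNE hz
  have hfinv : ∀ γ ∈ Γ, ∀ z ∈ U, f (mob γ z) = f z := by
    intro γ hγ z hz
    simp only [hf_def]
    rw [hinv γ hγ z hz, Jc_mob γ hz]
  have hAinv : ∀ γ ∈ Γ, ∀ z ∈ U, A₀ (mob γ z) = A₀ z := by
    intro γ hγ z hz
    have := comp_mob_eq_of_eventuallyEq hNF γ one_ne_zero (fun z hz => ?_) z hz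
    · rwa [one_mul] at this
    · have h2 := (tendsto_mob_nhdsNE γ hz).eventually (heq' _ (mob_mem_U γ hz))
      have h4 : ∀ᶠ w in 𝓝[≠] z, w ∈ U := nhdsWithin_le_nhds (isOpen_U.mem_nhds hz)
      filter_upwards [h2, heq' z hz, h4] with w a b c
      simp only [Function.comp_apply, one_mul]
      rw [a, b, hfinv γ hγ w c]
  have hAf : ∀ z ∈ U, AnalyticAt ℂ ψ z → A₀ z = f z := by
    intro z hz hψz
    have hfan : AnalyticAt ℂ f z := hψz.mul (hBan z hz)
    rw [hA₀, toMeromorphicNFOn_eq_toMeromorphicNFAt hf hz,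
      toMeromorphicNFAt_eq_self.2 hfan.meromorphicNFAt]
  let A : ℍ → ℂ := fun τ => A₀ (τ : ℂ)
  have hAcomp : ∀ z ∈ U, A (ofComplex z) = A₀ z := by
    intro z hz
    show A₀ ((ofComplex z : ℍ) : ℂ) = A₀ z
    rw [ofComplex_apply_of_im_pos hz]
  have hAmd : MDiff A := by
    rw [UpperHalfPlane.mdifferentiable_iff]
    intro z hz
    have : (A ∘ ofComplex) =ᶠ[𝓝 z] A₀ := by
      filter_upwards [isOpen_U.mem_nhds hz] with u hu
      exact hAcomp u hu
    exact ((hAan z hz).differentiableAt.congr_of_eventuallyEq this).differentiableWithinAt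
  have hAΓ : ∀ γ ∈ Γ, ∀ z : ℍ, A (γ • z) = A z := by
    intro γ hγ z
    show A₀ ((γ • z : ℍ) : ℂ) = A₀ (z : ℂ)
    rw [← mob_coe γ z]
    exact hAinv γ hγ _ (coe_mem_U z)
  have hBR : (fun z : ℍ => B.eval (Jfun z)) ∈ Inv.R0 := eval_Jfun_mem_R0 B
  have hgrowth : ∀ g : SL(2, ℤ), ∃ m : ℕ, IsBoundedAtImInfty (Δf ^ m * trans g A) := by
    intro g
    obtain ⟨m₁, hm₁⟩ := hBR.2 1
    rw [Deg.trans_one] at hm₁
    refine exists_isBounded_of_exp_growth (Y := Y) (M := M) m₁ hm₁ (fun τ hτ => ?_)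
    obtain ⟨han, hbd⟩ := hYM g⁻¹ (τ : ℂ) hτ
    have hp : mob g⁻¹ (τ : ℂ) ∈ U := mob_mem_U g⁻¹ (coe_mem_U τ)
    have hψan : AnalyticAt ℂ ψ (mob g⁻¹ (τ : ℂ)) := by
      have h1 : AnalyticAt ℂ ((fun w => ψ (mob g⁻¹ w)) ∘ mob g) (mob g⁻¹ (τ : ℂ)) := by
        refine AnalyticAt.comp_of_eq han (analyticAt_mob g hp) ?_
        rw [← mob_mul _ _ (coe_mem_U τ), mul_inv_cancel, mob_one]
      refine h1.congr ?_
      filter_upwards [isOpen_U.mem_nhds hp] with u hu
      show ψ (mob g⁻¹ (mob g u)) = ψ u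
      rw [← mob_mul _ _ hu, inv_mul_cancel, mob_one]
    have hval : trans g A τ = ψ (mob g⁻¹ (τ : ℂ)) * B.eval (Jfun τ) := by
      show A₀ ((g⁻¹ • τ : ℍ) : ℂ) = _
      rw [← mob_coe g⁻¹ τ, hAf _ hp hψan]
      simp only [hf_def]
      rw [Jc_mob g⁻¹ (coe_mem_U τ), Jc_coe]
    rw [hval, norm_mul]
    gcongr
    exact hbd
  refine ⟨A, ⟨hAmd, hgrowth⟩, hAΓ, ?_⟩
  have heq : f =ᶠ[Filter.codiscreteWithin U] A₀ := toMeromorphicNFOn_eqOn_codiscrete hf
  filter_upwards [heq, Filter.self_mem_codiscreteWithin U] with z h1 h2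
  rw [hAcomp z h2, ← h1]
  rfl


/-- **(L1) Level one.** A meromorphic function on `U` which is `SL(2, ℤ)`-invariant and
meromorphic at the cusp is a rational function of `J` (off a discrete set). -/
theorem exists_ratJ_of_invariant (ψ : ℂ → ℂ) (hψ : MeromorphicOn ψ U)
    (hinv : ∀ g : SL(2, ℤ), ∀ z ∈ U, ψ (mob g z) = ψ z) (hc : MerAtCusps ψ) :
    ∃ A B : Polynomial ℂ, B ≠ 0 ∧
      (fun z => ψ z * B.eval (S24.Jfun (ofComplex z))) =ᶠ[Filter.codiscreteWithin U]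
        fun z => A.eval (S24.Jfun (ofComplex z)) := by
  obtain ⟨B, hB0, A, hA, hAinv, heq⟩ := exists_denominator ⊤ ψ hψ (fun γ _ => hinv γ) hc
  have hfix : ∀ γ : SL(2, ℤ), Inv.transR γ ⟨A, hA⟩ = ⟨A, hA⟩ := by
    intro γ
    apply Subtype.ext
    funext z
    show A (γ⁻¹ • z) = A z
    exact hAinv γ⁻¹ (Subgroup.mem_top _) z
  obtain ⟨p, hp⟩ := Inv.exists_poly_of_transR_fixed ⟨A, hA⟩ hfix
  refine ⟨p, B, hB0, ?_⟩
  filter_upwards [heq] with z hz
  rw [hz]
  exact hp _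

/-- (L1) in the form consumed by `Jac/GalCore.lean`. -/
theorem levelOneStatement : GalCore.LevelOneStatement :=
  fun ψ hψ hinv hc => exists_ratJ_of_invariant ψ hψ hinv hc

/-- **JAC-GAL, core, unconditional**: `GalCore.exists_ev_eq` with the level-one statement
discharged. -/
theorem exists_ev_eq (N : ℕ) [NeZero N] (φ : ℂ → ℂ) (hφ : MeromorphicOn φ U)
    (hinv : ∀ γ ∈ Gamma0 N, ∀ z ∈ U, φ (mob γ z) = φ z) (hc : MerAtCusps φ) :
    ∃ P Q : MvPolynomial (Dv N) ℂ, Inv.evC N Q ≠ 0 ∧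
      (fun z => φ z * Inv.evC N Q (ofComplex z)) =ᶠ[Filter.codiscreteWithin U]
        fun z => Inv.evC N P (ofComplex z) :=
  GalCore.exists_ev_eq N levelOneStatement φ hφ hinv hc

/-- **(L2) Level `N`.** A meromorphic function on `U` which is `Γ₀(N)`-invariant and meromorphic at
the cusps is a rational function of the `J(d z)`, `d ∣ N` (off a discrete set):
"`M(Γ₀(N)) = ℂ(j(d z) : d ∣ N)`". -/
theorem exists_evK_eq_of_invariant (N : ℕ) [NeZero N] (φ : ℂ → ℂ) (hφ : MeromorphicOn φ U)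
    (hinv : ∀ γ ∈ Gamma0 N, ∀ z ∈ U, φ (mob γ z) = φ z) (hc : MerAtCusps φ) :
    ∃ P Q : MvPolynomial (Dv N) ℂ, evK (RingHom.id ℂ) N Q ≠ 0 ∧
      (fun z => φ z * evK (RingHom.id ℂ) N Q (ofComplex z)) =ᶠ[Filter.codiscreteWithin U]
        fun z => evK (RingHom.id ℂ) N P (ofComplex z) := by
  obtain ⟨B, hB0, A, hA, hAinv, heq⟩ := exists_denominator (Gamma0 N) φ hφ hinv hc
  have hBR := eval_Jfun_mem_R0 B
  have hBne : (fun z : ℍ => B.eval (Jfun z)) ≠ 0 := fun h =>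
    hB0 (LevelOneInv.poly_eq_zero_of_forall_eval_J B fun z => congrFun h z)
  obtain ⟨P, Q, hQ, hPQ⟩ := Inv.exists_poly_of_invariant_Gamma0 (N := N) A
    (fun z => B.eval (Jfun z)) hA.1 hBR.1 hBne hAinv (fun γ _ z => by rw [JPt.Jfun_smul])
    hA.2 hBR.2
  refine ⟨P, Q, hQ, ?_⟩
  filter_upwards [heq, eventually_eval_Jc_ne_zero hB0] with z h1 h2
  have h4 := hPQ (ofComplex z)
  apply mul_right_cancel₀ h2
  calc φ z * evK (RingHom.id ℂ) N Q (ofComplex z) * B.eval (Jfun (ofComplex z))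
      = evK (RingHom.id ℂ) N Q (ofComplex z) * (φ z * B.eval (Jfun (ofComplex z))) := by ring
    _ = evK (RingHom.id ℂ) N Q (ofComplex z) * A (ofComplex z) := by rw [h1]
    _ = evK (RingHom.id ℂ) N P (ofComplex z) * B.eval (Jfun (ofComplex z)) := h4.symm

end Fermat.Agent.ESJ.Jac
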