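import Fermat.Agent.ESJ.Jac.GalOf
import Fermat.Agent.ESJ.Jac.LevelOneMer
import Fermat.Agent.ESJ.Dict.Bc

/-!
# ESJ / JAC-GAL: the three statements, against the analytic dictionary over `ℂ`

The level-one statement (`Jac/LevelOneMer.lean`) and the base change `ℚ̄ → ℂ` (`Dict/Bc.lean`)
are discharged; the only remaining hypothesis is the dictionary `Dict.IsDict (RingHom.id ℂ) N`
over `ℂ`.

* `exists_merK_eq_of_isDict`: every `Γ₀(N)`-invariant meromorphic function on `U` which is
  meromorphic at the cusps is the function of an element of `F_ℂ`;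
* `exists_pow_eq_of_isKummerChar_one_complex_of_isDict`: injectivity of the Kummer map over `ℂ`;
* `exists_pow_eq_of_isKummerChar_one_of_isDict`: injectivity of the Kummer map over `ℚ̄`.
-/

set_option autoImplicit false

open UpperHalfPlane ModularForm CongruenceSubgroup Filter
open scoped MatrixGroups Manifold Topology

noncomputable section

namespace Fermat.Agent.ESJ.Jac

open Fermat.Agent.S24 Fermat.Agent.ESJ.Dict

/-- **(Gal)** every `Γ₀(N)`-invariant meromorphic function on `U` which is meromorphic at the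
cusps is the function of an element of `F_ℂ`. -/
theorem exists_merK_eq_of_isDict (N : ℕ) [NeZero N] (hD : IsDict (RingHom.id ℂ) N) (φ : ℂ → ℂ)
    (hφ : MeromorphicOn φ U) (hinv : ∀ γ ∈ Gamma0 N, ∀ z ∈ U, φ (mob γ z) = φ z)
    (hc : MerAtCusps φ) :
    ∃ G : FNK ℂ N, merK (RingHom.id ℂ) N G =ᶠ[Filter.codiscreteWithin U] φ :=
  GalOf.exists_merK_eq_of N hD levelOneStatement φ hφ hinv hc

/-- **Injectivity of the Kummer map over `ℂ`.** -/
theorem exists_pow_eq_of_isKummerChar_one_complex_of_isDict {N : ℕ} [NeZero N]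
    (hD : IsDict (RingHom.id ℂ) N) {n : ℕ} (hn : 0 < n) {G : FNK ℂ N}
    (h : IsKummerChar (RingHom.id ℂ) N n G 1) : ∃ g : FNK ℂ N, G = g ^ n :=
  GalOf.exists_pow_eq_of_isKummerChar_one_complex_of hD levelOneStatement hn h

/-- **Injectivity of the Kummer map over `ℚ̄`.** -/
theorem exists_pow_eq_of_isKummerChar_one_of_isDict {N : ℕ} [NeZero N]
    (hD : IsDict (RingHom.id ℂ) N) {n : ℕ} (hn : 0 < n) {f : FN N}
    (h : IsKummerChar iotaK N n f 1) : ∃ g : FN N, f = g ^ n :=
  GalOf.exists_pow_eq_of_isKummerChar_one_of hD levelOneStatement (exists_bc N) hn h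

end Fermat.Agent.ESJ.Jac
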