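import Mathlib
import Fermat.Agent.ESJ.Jac.Kummer
import Fermat.Agent.ESJ.Jac.Gal
import Fermat.Agent.ESJ.Jac.Descent
import Fermat.Agent.ESJ.ParHom.Quot

/-!
# JAC-HFIN: the finiteness hypothesis of `descent`

For a Kummer element `G` of exponent `n` of `F_ℂ = ℂ(X₀(N))`, the coefficientwise
`Aut(ℂ/ℚ)`-translates of `G` lie in finitely many classes modulo `n`-th powers
(`HFin.hfin`), because

* a translate of a Kummer element is a Kummer element (`HFin.isKummerElt_smul`: a semilinear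
  automorphism permutes the places),
* the class of a Kummer element modulo `n`-th powers is determined by its Kummer character
  (injectivity of the Kummer map over `ℂ`), and
* the Kummer characters are characters of exponent `n` of the finitely generated group `Γ₀(N)`,
  of which there are only finitely many (`HFin.finite_torsionChars`).

Consequently (`HFin.descent_of_isDict`) every Kummer element of `F_ℂ` is, up to an `n`-th power,
defined over `ℚ̄`.  Everything is conditional on the analytic dictionary over `ℂ`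
(`Dict.IsDict (RingHom.id ℂ) N`) only.
-/

set_option autoImplicit false

open UpperHalfPlane ModularForm CongruenceSubgroup
open scoped MatrixGroups

noncomputable section

namespace Fermat.Agent.ESJ.Jac.HFin

open AlgebraicCurve ModularCurve
open Fermat.Agent.S24 Fermat.Agent.ESJ.Dict Fermat.Agent.ESJ.Jac

/-! ### Semilinear automorphisms preserve Kummer elements -/

/-- A semilinear automorphism maps Kummer elements to Kummer elements. -/
theorem isKummerElt_semilinear_smul {K F : Type*} [Field K] [Field F] [Algebra K F]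
    (g : SemilinearAut K F) {n : ℕ} {f : F} (hf : IsKummerElt K F n f) :
    IsKummerElt K F n (g • f) := by
  refine ⟨?_, fun w => ?_⟩
  · intro h
    apply hf.1
    have h2 : g⁻¹ • (g • f) = g⁻¹ • (0 : F) := by rw [h]
    rwa [inv_smul_smul, smul_zero] at h2
  · have h := SemilinearAut.ord_smul g (g⁻¹ • w) f
    rw [smul_inv_smul] at h
    rw [h]
    exact hf.2 _

/-- The coefficientwise Galois translates of a Kummer element are Kummer elements. -/
theorem isKummerElt_smul {L : Type} [Field L] [Algebra ℚ L] (N : ℕ) {n : ℕ} {G : FNK L N}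
    (hG : IsKummerElt L (FNK L N) n G) (σ : L ≃ₐ[ℚ] L) :
    IsKummerElt L (FNK L N) n (arithmeticGalois (modularFunctionFieldFull N) σ • G) :=
  isKummerElt_semilinear_smul _ hG

/-! ### Finitely many characters of exponent `n` -/

/-- A finitely generated group has only finitely many characters of exponent `n > 0`. -/
theorem finite_torsionChars {Γ : Type*} [Group Γ] (hfg : Group.FG Γ) {n : ℕ} (hn : 0 < n) :
    {χ : Γ →* ℂˣ | ∀ γ : Γ, χ γ ^ n = 1}.Finite := by
  obtain ⟨S, hS, hSfin⟩ := Group.fg_iff.mp hfg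
  have : NeZero n := ⟨hn.ne'⟩
  have : Finite S := hSfin
  have : Finite (S → rootsOfUnity n ℂ) := Pi.finite
  rw [← Set.finite_coe_iff]
  let Φ : {χ : Γ →* ℂˣ | ∀ γ : Γ, χ γ ^ n = 1} → (S → rootsOfUnity n ℂ) :=
    fun χ s => ⟨χ.1 s, (mem_rootsOfUnity _ _).2 (χ.2 s)⟩
  refine Finite.of_injective Φ ?_
  intro χ χ' h
  apply Subtype.ext
  apply MonoidHom.eq_of_eqOn_dense hS
  intro s hs
  have h2 := congrFun h ⟨s, hs⟩
  exact congrArg Subtype.val h2

/-- `Γ₀(N)` is finitely generated. -/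
theorem fg_Gamma0 (N : ℕ) [NeZero N] : Group.FG (Gamma0 N) := by
  have : Group.FG SL(2, ℤ) := Fermat.Agent.ESJ.ParHom.fg_SL2Z
  exact Subgroup.fg_of_index_ne_zero (Gamma0 N)

/-! ### Algebra of Kummer characters -/

section Char

variable {K : Type} [Field K] [Algebra ℚ K] {ι : K →+* ℂ} {N : ℕ} [NeZero N]

/-- The Kummer character of `1` is trivial. -/
theorem isKummerChar_one (hD : IsDict ι N) {n : ℕ} (hn : 0 < n) :
    IsKummerChar ι N n (1 : FNK K N) 1 := by
  have h := isKummerChar_pow hD hn (1 : FNK K N)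
  rwa [one_pow] at h

/-- Kummer characters of powers. -/
theorem isKummerChar_npow (hD : IsDict ι N) {n : ℕ} (hn : 0 < n) {f : FNK K N}
    {χ : Gamma0 N →* ℂˣ} (h : IsKummerChar ι N n f χ) (m : ℕ) :
    IsKummerChar ι N n (f ^ m) (χ ^ m) := by
  induction m with
  | zero =>
    rw [pow_zero f, pow_zero χ]
    exact isKummerChar_one hD hn
  | succ m ih =>
    rw [pow_succ f m, pow_succ χ m]
    exact IsKummerChar.mul hD hn ih h

end Char

/-! ### The finiteness statement -/

/-- **JAC-HFIN, general form**: there is a finite set `S ⊆ F_ℂ` such that EVERY Kummer element of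
exponent `n` of `F_ℂ` is of the form `c ^ n * s` with `s ∈ S`, `c ≠ 0`. -/
theorem exists_finset_classes (N : ℕ) [NeZero N] (hD : IsDict (RingHom.id ℂ) N) {n : ℕ}
    (hn : 0 < n) :
    ∃ S : Finset (FNK ℂ N), ∀ G : FNK ℂ N, IsKummerElt ℂ (FNK ℂ N) n G →
      ∃ s ∈ S, ∃ c : FNK ℂ N, c ≠ 0 ∧ G = c ^ n * s := by
  classical
  -- the characters which occur
  set C : Set (Gamma0 N →* ℂˣ) := {χ | ∃ s : FNK ℂ N, IsKummerElt ℂ (FNK ℂ N) n s ∧
    IsKummerChar (RingHom.id ℂ) N n s χ} with hC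
  have hCfin : C.Finite := by
    refine (finite_torsionChars (fg_Gamma0 N) hn).subset ?_
    rintro χ ⟨s, hs, hχ⟩
    exact (IsKummerChar.isPEChar hD hn hs hχ).1
  have hchoice : ∀ χ : C, ∃ s : FNK ℂ N, IsKummerElt ℂ (FNK ℂ N) n s ∧
      IsKummerChar (RingHom.id ℂ) N n s χ.1 := fun χ => χ.2
  choose rep hrepK hrepχ using hchoice
  have : Fintype C := hCfin.fintype
  refine ⟨Finset.univ.image rep, fun G hG => ?_⟩
  obtain ⟨χ, hχ⟩ := exists_isKummerChar hD hn hG
  have hχC : χ ∈ C := ⟨G, hG, hχ⟩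
  set s := rep ⟨χ, hχC⟩ with hs
  have hsK : IsKummerElt ℂ (FNK ℂ N) n s := hrepK ⟨χ, hχC⟩
  have hsχ : IsKummerChar (RingHom.id ℂ) N n s χ := hrepχ ⟨χ, hχC⟩
  have hs0 : s ≠ 0 := hsK.1
  refine ⟨s, Finset.mem_image.2 ⟨⟨χ, hχC⟩, Finset.mem_univ _, rfl⟩, ?_⟩
  -- `G * s ^ (n - 1)` has trivial Kummer character
  have hχn : χ ^ n = 1 := by
    ext γ
    have := (IsKummerChar.isPEChar hD hn hG hχ).1 γ
    simp [this]
  have h1 : IsKummerChar (RingHom.id ℂ) N n (G * s ^ (n - 1)) 1 := by
    have h2 := IsKummerChar.mul hD hn hχ (isKummerChar_npow hD hn hsχ (n - 1))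
    have h3 : χ * χ ^ (n - 1) = 1 := by
      rw [← pow_succ' χ (n - 1), Nat.sub_add_cancel hn, hχn]
    rwa [h3] at h2
  obtain ⟨g, hg⟩ := exists_pow_eq_of_isKummerChar_one_complex_of_isDict hD hn h1
  have hg0 : g ≠ 0 := by
    intro h0
    rw [h0, zero_pow hn.ne'] at hg
    exact mul_ne_zero hG.1 (pow_ne_zero _ hs0) hg
  refine ⟨g / s, div_ne_zero hg0 hs0, ?_⟩
  have h4 : s ^ n = s ^ (n - 1) * s := by
    rw [← pow_succ, Nat.sub_add_cancel hn]
  rw [div_pow, ← hg, h4]
  field_simp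

/-- **JAC-HFIN**: the finiteness hypothesis `hfin` of `descent`: the coefficientwise
`Aut(ℂ/ℚ)`-translates of a Kummer element of `F_ℂ` lie in finitely many classes modulo `n`-th
powers. -/
theorem hfin (N : ℕ) [NeZero N] (hD : IsDict (RingHom.id ℂ) N) {n : ℕ} (hn : 0 < n)
    (G : FNK ℂ N) (hG : IsKummerElt ℂ (FNK ℂ N) n G) :
    ∃ S : Finset (FNK ℂ N), ∀ σ : ℂ ≃ₐ[ℚ] ℂ, ∃ s ∈ S, ∃ c : FNK ℂ N, c ≠ 0 ∧
      arithmeticGalois (modularFunctionFieldFull N) σ • G = c ^ n * s := by
  obtain ⟨S, hS⟩ := exists_finset_classes N hD hn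
  exact ⟨S, fun σ => hS _ (isKummerElt_smul N hG σ)⟩

/-- **Descent of Kummer elements**: every Kummer element of exponent `n` of `F_ℂ` is, up to an
`n`-th power, the coefficientwise image of an element of `F_ℚ̄`. -/
theorem descent_of_isDict (N : ℕ) [NeZero N] (hD : IsDict (RingHom.id ℂ) N) {n : ℕ} (hn : 0 < n)
    (G : FNK ℂ N) (hG : IsKummerElt ℂ (FNK ℂ N) n G) :
    ∃ x : FNK ℂ N, x ≠ 0 ∧ ∃ f : FN N,
      ((x ^ n * G : FNK ℂ N) : LaurentSeries ℂ) = coeffMap iotaK (f : LaurentSeries KQ) :=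
  descent N hn G hG (hfin N hD hn G hG)

end Fermat.Agent.ESJ.Jac.HFin
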