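import Mathlib
import Fermat.Agent.ESJ.Jac.Defs
import Fermat.Agent.ESJ.Jac.Multiplier
import Fermat.Agent.Lib.Analysis.EisensteinChar

/-!
# ESJ / JAC-TORS, JAC-E : a holomorphic function on `U` with a given PE character

For a parabolic-elliptic character `χ` of `Γ₀(N)` of finite order, the function
`u = E_{χ,12} / Δ` (Eisenstein series of weight `12` with character `χ`, helper93's
`Lib/Analysis/EisensteinChar`, divided by the discriminant) is holomorphic on the upper half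
plane, not identically zero, satisfies `u (γ z) = χ γ · u z` for `γ ∈ Γ₀(N)` and is meromorphic
at all cusps.

* `exists_resolvent` : the statement of task JAC-E.
* `exists_resolvent_analytic` : the same with `u` analytic on `U`.
-/

set_option autoImplicit false

open Complex Filter Topology UpperHalfPlane Set ModularForm
open scoped MatrixGroups Manifold Real

noncomputable section

namespace Fermat.Agent.ESJ.Jac

namespace Resolvent

open Fermat.Agent.Lib.Analysis.EisensteinChar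

/-- The discriminant transforms with weight `12` under `SL(2, ℤ)`. -/
theorem discriminant_smul (g : SL(2, ℤ)) (τ : ℍ) :
    ModularForm.discriminant (g • τ) = denom g τ ^ (12 : ℤ) * ModularForm.discriminant τ := by
  have h1 := congrFun (SlashInvariantForm.slash_action_generators_SL2Z
    discriminant_S_invariant discriminant_T_invariant g) τ
  rw [SL_slash_apply] at h1
  have h3 : denom g τ ≠ 0 := denom_ne_zero _ τ
  have h4 : ModularForm.discriminant (g • τ)
      = ModularForm.discriminant (g • τ) * denom g τ ^ (-(12 : ℤ)) * denom g τ ^ (12 : ℤ) := by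
    rw [mul_assoc, ← zpow_add₀ h3]
    simp
  rw [h4, h1]
  ring

/-- A function on `ℍ` in terms of its slash. -/
theorem apply_smul_eq_slash (G : ℍ → ℂ) (k : ℤ) (g : SL(2, ℤ)) (τ : ℍ) :
    G (g • τ) = (G ∣[k] g) τ * denom g τ ^ k := by
  rw [SL_slash_apply]
  have h3 : denom g τ ≠ 0 := denom_ne_zero _ τ
  rw [mul_assoc, ← zpow_add₀ h3]
  simp

/-- `G ∘ ofComplex` is analytic on `U` for a holomorphic `G` on `ℍ`. -/
theorem analyticAt_comp_ofComplex {G : ℍ → ℂ} (hG : MDiff G) {z : ℂ} (hz : z ∈ U) :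
    AnalyticAt ℂ (G ∘ ofComplex) z :=
  (UpperHalfPlane.mdifferentiable_iff.mp hG).analyticAt (isOpen_U.mem_nhds hz)

theorem mdiff_discriminant : MDiff ModularForm.discriminant :=
  CuspForm.discriminant.holo'

/-- The quotient of a holomorphic function on `ℍ` by the discriminant, as a function on `ℂ`. -/
def quot (G : ℍ → ℂ) (z : ℂ) : ℂ := G (ofComplex z) / ModularForm.discriminant (ofComplex z)

theorem analyticAt_quot {G : ℍ → ℂ} (hG : MDiff G) {z : ℂ} (hz : z ∈ U) :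
    AnalyticAt ℂ (quot G) z :=
  (analyticAt_comp_ofComplex hG hz).div (analyticAt_comp_ofComplex mdiff_discriminant hz)
    (discriminant_ne_zero _)

theorem quot_coe (G : ℍ → ℂ) (τ : ℍ) : quot G (τ : ℂ) = G τ / ModularForm.discriminant τ := by
  simp [quot, ofComplex_apply]

theorem quot_mob (G : ℍ → ℂ) (g : SL(2, ℤ)) {z : ℂ} (hz : z ∈ U) :
    quot G (mob g z) = (G ∣[(12 : ℤ)] g) ⟨z, hz⟩ / ModularForm.discriminant ⟨z, hz⟩ := by
  have h1 : mob g z = ((g • (⟨z, hz⟩ : ℍ) : ℍ) : ℂ) := mob_coe g ⟨z, hz⟩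
  rw [h1, quot_coe, apply_smul_eq_slash G 12 g, discriminant_smul]
  have h3 : denom g (⟨z, hz⟩ : ℍ) ^ (12 : ℤ) ≠ 0 := zpow_ne_zero _ (denom_ne_zero _ _)
  have h4 : ModularForm.discriminant (⟨z, hz⟩ : ℍ) ≠ 0 := discriminant_ne_zero _
  generalize denom g (⟨z, hz⟩ : ℍ) ^ (12 : ℤ) = D at h3 ⊢
  generalize ModularForm.discriminant (⟨z, hz⟩ : ℍ) = E at h4 ⊢
  field_simp

/-- Growth of `1 / Δ`: `‖Δ τ‖⁻¹ ≤ C · exp (2π Im τ)` for `Im τ ≥ A`. -/
theorem exists_discriminant_lower_bound :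
    ∃ C A : ℝ, ∀ τ : ℍ, A ≤ τ.im →
      Real.exp (-2 * π * τ.im) ≤ C * ‖ModularForm.discriminant τ‖ := by
  obtain ⟨C, hC⟩ := exp_isBigO_discriminant.bound
  obtain ⟨A, hA⟩ := (UpperHalfPlane.atImInfty_mem _).mp hC
  refine ⟨C, A, fun τ hτ => ?_⟩
  have := hA τ hτ
  simp only [Set.mem_ofPred_eq] at this
  rwa [Real.norm_of_nonneg (Real.exp_pos _).le] at this

/-- If all slashes of `G` (weight `12`) are bounded at `i∞`, then `G / Δ` is meromorphic at all
cusps. -/
theorem merAtCusps_quot {G : ℍ → ℂ} (hG : MDiff G)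
    (hb : ∀ g : SL(2, ℤ), IsBoundedAtImInfty (G ∣[(12 : ℤ)] g)) : MerAtCusps (quot G) := by
  intro g
  obtain ⟨B, A, hBA⟩ := UpperHalfPlane.isBoundedAtImInfty_iff.mp (hb g)
  obtain ⟨C, A', hCA⟩ := exists_discriminant_lower_bound
  refine ⟨max (max A A') (max 0 (B * C)), 2 * π + 1, fun z hz => ?_⟩
  have hzA : A < z.im := lt_of_le_of_lt ((le_max_left _ _).trans (le_max_left _ _)) hz
  have hzA' : A' < z.im := lt_of_le_of_lt ((le_max_right _ _).trans (le_max_left _ _)) hz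
  have hz0 : 0 < z.im := lt_of_le_of_lt ((le_max_left _ _).trans (le_max_right _ _)) hz
  have hzBC : B * C < z.im := lt_of_le_of_lt ((le_max_right _ _).trans (le_max_right _ _)) hz
  have hzU : z ∈ U := hz0
  refine ⟨?_, ?_⟩
  · exact AnalyticAt.comp (g := quot G) (f := mob g) (analyticAt_quot hG (mob_mem_U g hzU))
      (analyticAt_mob g hzU)
  · rw [quot_mob G g hzU, norm_div]
    set τ : ℍ := ⟨z, hzU⟩ with hτ
    have him : τ.im = z.im := rfl
    have h1 : ‖(G ∣[(12 : ℤ)] g) τ‖ ≤ B := hBA τ (by rw [him]; exact hzA.le)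
    have h2 : Real.exp (-2 * π * z.im) ≤ C * ‖ModularForm.discriminant τ‖ := by
      have := hCA τ (by rw [him]; exact hzA'.le)
      rwa [him] at this
    have hΔpos : 0 < ‖ModularForm.discriminant τ‖ := norm_pos_iff.mpr (discriminant_ne_zero τ)
    have hCpos : 0 < C := by
      by_contra hC
      have : C * ‖ModularForm.discriminant τ‖ ≤ 0 :=
        mul_nonpos_of_nonpos_of_nonneg (not_lt.mp hC) hΔpos.le
      exact absurd (lt_of_lt_of_le (Real.exp_pos _) (h2.trans this)) (lt_irrefl _)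
    have hB0 : 0 ≤ B := (norm_nonneg _).trans h1
    rw [div_le_iff₀ hΔpos]
    have h3 : Real.exp ((2 * π + 1) * z.im) = Real.exp z.im * Real.exp (2 * π * z.im) := by
      rw [← Real.exp_add]
      congr 1
      ring
    have h4 : B * C ≤ Real.exp z.im := by
      have := Real.add_one_le_exp z.im
      linarith
    have h5 : Real.exp (2 * π * z.im) * Real.exp (-2 * π * z.im) = 1 := by
      rw [← Real.exp_add]
      have : 2 * π * z.im + -2 * π * z.im = 0 := by ring
      rw [this, Real.exp_zero]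
    calc ‖(G ∣[(12 : ℤ)] g) τ‖ ≤ B := h1
      _ = B * (Real.exp (2 * π * z.im) * Real.exp (-2 * π * z.im)) := by rw [h5, mul_one]
      _ ≤ B * (Real.exp (2 * π * z.im) * (C * ‖ModularForm.discriminant τ‖)) := by
          exact mul_le_mul_of_nonneg_left
            (mul_le_mul_of_nonneg_left h2 (Real.exp_pos _).le) hB0
      _ = (B * C) * (Real.exp (2 * π * z.im) * ‖ModularForm.discriminant τ‖) := by ring
      _ ≤ Real.exp z.im * (Real.exp (2 * π * z.im) * ‖ModularForm.discriminant τ‖) :=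
          mul_le_mul_of_nonneg_right h4 (mul_nonneg (Real.exp_pos _).le hΔpos.le)
      _ = Real.exp ((2 * π + 1) * z.im) * ‖ModularForm.discriminant τ‖ := by rw [h3]; ring

/-- A quotient `G / Δ` with `G ≠ 0` holomorphic has finite orders on `U`. -/
theorem order_quot_ne_top {G : ℍ → ℂ} (hG : MDiff G) (hG0 : G ≠ 0) :
    ∀ z ∈ U, meromorphicOrderAt (quot G) z ≠ ⊤ := by
  have hmer : MeromorphicOn (quot G) U := fun z hz => (analyticAt_quot hG hz).meromorphicAt
  have hconn : IsConnected U := ⟨⟨Complex.I, I_mem_U⟩, isPreconnected_U⟩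
  obtain ⟨τ, hτ⟩ : ∃ τ : ℍ, G τ ≠ 0 := by
    by_contra hcon
    exact hG0 (funext fun τ => by_contra fun h => hcon ⟨τ, h⟩)
  have hex : ∃ u : U, meromorphicOrderAt (quot G) u ≠ ⊤ := by
    refine ⟨⟨(τ : ℂ), coe_mem_U τ⟩, ?_⟩
    have han := analyticAt_quot hG (coe_mem_U τ)
    have hne : quot G (τ : ℂ) ≠ 0 := by
      rw [quot_coe]
      exact div_ne_zero hτ (discriminant_ne_zero τ)
    rw [han.meromorphicOrderAt_eq, han.analyticOrderAt_eq_zero.mpr hne]
    simp
  intro z hz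
  exact (hmer.exists_meromorphicOrderAt_ne_top_iff_forall hconn).1 hex ⟨z, hz⟩

end Resolvent

open Resolvent Fermat.Agent.Lib.Analysis.EisensteinChar

/-- **JAC-E, analytic form**: for a PE character `χ` of `Γ₀(N)` of exponent `n > 0` there is a
function `u`, ANALYTIC on `U`, not locally zero, with `u (γ z) = χ γ · u z` for `γ ∈ Γ₀(N)` and
meromorphic at all cusps. -/
theorem exists_resolvent_analytic (N n : ℕ) [NeZero N] (hn : 0 < n)
    (χ : CongruenceSubgroup.Gamma0 N →* ℂˣ) (hχ : IsPEChar (CongruenceSubgroup.Gamma0 N) n χ) :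
    ∃ u : ℂ → ℂ, (∀ z ∈ U, AnalyticAt ℂ u z) ∧ (∀ z ∈ U, meromorphicOrderAt u z ≠ ⊤) ∧
      HasMultiplier (CongruenceSubgroup.Gamma0 N) u χ ∧ MerAtCusps u := by
  have hχn : ∀ δ, χ δ ^ n = 1 := hχ.1
  have hT : χ ⟨ModularGroup.T, T_mem_Gamma0 N⟩ = 1 := by
    apply hχ.2
    simp [ModularGroup.coe_T, Matrix.trace_fin_two]
  have hneg : χ ⟨-1, neg_one_mem_Gamma0 N⟩ = 1 := by
    apply hχ.2
    simp
  have hχ1 := norm_eq_one_of_pow_eq_one χ hn.ne' hχn
  have h12 : Even (12 : ℤ) := ⟨6, by norm_num⟩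
  obtain ⟨hG, hsmul, -, hbdd⟩ := eisChar_spec χ hT hneg hχ1 (k := 12) (by norm_num) h12
  have hG0 := eisChar_ne_zero χ hT hneg hχ1 (k := 12) (by norm_num) h12
  refine ⟨quot (eisChar χ 12), fun z hz => analyticAt_quot hG hz, order_quot_ne_top hG hG0,
    ?_, merAtCusps_quot hG hbdd⟩
  intro γ z hz
  have h1 : mob (γ : SL(2, ℤ)) z = (((γ : SL(2, ℤ)) • (⟨z, hz⟩ : ℍ) : ℍ) : ℂ) :=
    mob_coe _ ⟨z, hz⟩
  have h2 : quot (eisChar χ 12) z
      = eisChar χ 12 ⟨z, hz⟩ / ModularForm.discriminant ⟨z, hz⟩ :=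
    quot_coe _ ⟨z, hz⟩
  rw [h1, quot_coe, h2, hsmul γ ⟨z, hz⟩, discriminant_smul]
  have h3 : denom (γ : SL(2, ℤ)) (⟨z, hz⟩ : ℍ) ^ (12 : ℤ) ≠ 0 :=
    zpow_ne_zero _ (denom_ne_zero _ _)
  have h4 : ModularForm.discriminant (⟨z, hz⟩ : ℍ) ≠ 0 := discriminant_ne_zero _
  generalize denom (γ : SL(2, ℤ)) (⟨z, hz⟩ : ℍ) ^ (12 : ℤ) = D at h3 ⊢
  generalize ModularForm.discriminant (⟨z, hz⟩ : ℍ) = E at h4 ⊢
  field_simp

/-- **JAC-E** (task 181): existence of a nonzero meromorphic function on `U` with a given PE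
character. -/
theorem exists_resolvent (N n : ℕ) [NeZero N] (hn : 0 < n)
    (χ : CongruenceSubgroup.Gamma0 N →* ℂˣ) (hχ : IsPEChar (CongruenceSubgroup.Gamma0 N) n χ) :
    ∃ u : ℂ → ℂ, MeromorphicNFOn u U ∧ (∀ z ∈ U, meromorphicOrderAt u z ≠ ⊤) ∧
      HasMultiplier (CongruenceSubgroup.Gamma0 N) u χ ∧ MerAtCusps u := by
  obtain ⟨u, han, hfin, hmult, hcusp⟩ := exists_resolvent_analytic N n hn χ hχ
  exact ⟨u, fun z hz => (han z hz).meromorphicNFAt, hfin, hmult, hcusp⟩

end Fermat.Agent.ESJ.Jac
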