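import Mathlib
import Fermat.Agent.ESJ.Jac.Resolvent
import Fermat.Agent.ESJ.Jac.Gal
import Fermat.Agent.ESJ.Jac.Kummer
import Fermat.Agent.ESJ.Dict.Bc

/-!
# JAC-SURJ over `ℂ`: every PE character is the Kummer character of a Kummer element of `F_ℂ`

* `exists_isKummerChar_of_isPEChar_complex` : for a parabolic-elliptic character `χ` of `Γ₀(N)`
  of exponent `n > 0` there is a Kummer element `G ∈ F_ℂ` with Kummer character `χ`
  (resolvent `u` with multiplier `χ`; `u ^ n` is invariant, hence the function of some `G`).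
* `isKummerChar_bc_iff` : the Kummer character does not see the base change `ℚ̄ → ℂ`.

Everything is conditional on the analytic dictionary over `ℂ`.
-/

set_option autoImplicit false

open UpperHalfPlane ModularForm CongruenceSubgroup Filter
open scoped MatrixGroups Manifold Topology

noncomputable section

namespace Fermat.Agent.ESJ.Jac

open Fermat.Agent.S24 Fermat.Agent.ESJ.Dict Fermat.Agent.Lib.Analysis.NthRoot

/-- **Surjectivity of the Kummer map over `ℂ`.** -/
theorem exists_isKummerChar_of_isPEChar_complex (N : ℕ) [NeZero N]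
    (hD : IsDict (RingHom.id ℂ) N) {n : ℕ} (hn : 0 < n) (χ : Gamma0 N →* ℂˣ)
    (hχ : IsPEChar (Gamma0 N) n χ) :
    ∃ G : FNK ℂ N, IsKummerElt ℂ (FNK ℂ N) n G ∧ IsKummerChar (RingHom.id ℂ) N n G χ := by
  obtain ⟨u, han, hfin, hmult, hcusp⟩ := exists_resolvent_analytic N n hn χ hχ
  -- `u ^ n` is meromorphic on `U`, meromorphic at the cusps and `Γ₀(N)`-invariant
  have huMA : u ∈ GalCore.MA := ⟨fun z hz => (han z hz).meromorphicAt, hcusp⟩
  have hφMA : u ^ n ∈ GalCore.MA := pow_mem huMA n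
  have hinv : ∀ γ ∈ Gamma0 N, ∀ z ∈ U, (u ^ n) (mob γ z) = (u ^ n) z := by
    intro γ hγ z hz
    have h1 := hmult ⟨γ, hγ⟩ z hz
    have h2 : ((χ ⟨γ, hγ⟩ : ℂˣ) : ℂ) ^ n = 1 := by
      have := hχ.1 ⟨γ, hγ⟩
      rw [← Units.val_pow_eq_pow_val, this, Units.val_one]
    simp only [Pi.pow_apply]
    rw [h1, mul_pow, h2, one_mul]
  obtain ⟨G, hG⟩ := exists_merK_eq_of_isDict N hD (u ^ n) hφMA.1 hinv hφMA.2
  -- `u` is an `n`-th root of the function of `G`
  have hroot : IsRootOn n (merK (RingHom.id ℂ) N G) u U :=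
    ⟨fun z hz => (han z hz).meromorphicNFAt,
      fun z hz => (GalOf.eventuallyEq_nhdsNE_of_codiscreteWithin hG hz).symm⟩
  have hchar : IsKummerChar (RingHom.id ℂ) N n G χ := ⟨u, hroot, hmult⟩
  -- `G ≠ 0`
  have hG0 : G ≠ 0 := by
    rintro rfl
    have h0 := (hD.merK_eq_zero_iff (0 : FNK ℂ N)).2 rfl
    have hI : (Complex.I : ℂ) ∈ U := by simp [U]
    have h1 : u ^ n =ᶠ[𝓝[≠] Complex.I] fun _ => (0 : ℂ) :=
      (GalOf.eventuallyEq_nhdsNE_of_codiscreteWithin hG hI).symm.trans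
        (GalOf.eventuallyEq_nhdsNE_of_codiscreteWithin h0 hI)
    have h2 : meromorphicOrderAt (u ^ n) Complex.I = ⊤ :=
      meromorphicOrderAt_eq_top_iff.2 (by filter_upwards [h1] with x hx using hx)
    have h3 := meromorphicOrderAt_pow (han _ hI).meromorphicAt (n := n)
    rw [h2] at h3
    have h4 : meromorphicOrderAt u Complex.I ≠ ⊤ := hfin _ hI
    lift meromorphicOrderAt u Complex.I to ℤ using h4 with k hk
    have : ((n • k : ℤ) : WithTop ℤ) = ⊤ := by
      rw [h3]
      push_cast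
      rfl
    exact WithTop.coe_ne_top this
  exact ⟨G, isKummerElt_of_isPEChar hD hn hG0 hchar hχ, hchar⟩

/-- The Kummer character does not see the base change `ℚ̄ → ℂ`. -/
theorem isKummerChar_bc_iff (N n : ℕ) [NeZero N] (f : FN N) (χ : Gamma0 N →* ℂˣ) :
    IsKummerChar (RingHom.id ℂ) N n (Dict.bc N f) χ ↔ IsKummerChar iotaK N n f χ := by
  have hbc := Dict.merK_bc N f
  constructor
  · rintro ⟨h, hr, hm⟩
    exact ⟨h, hr.congr (fun z hz => GalOf.eventuallyEq_nhdsNE_of_codiscreteWithin hbc hz), hm⟩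
  · rintro ⟨h, hr, hm⟩
    exact ⟨h, hr.congr (fun z hz => (GalOf.eventuallyEq_nhdsNE_of_codiscreteWithin hbc hz).symm),
      hm⟩

end Fermat.Agent.ESJ.Jac
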