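import Mathlib
import Fermat.Agent.ESJ.Jac.SurjC
import Fermat.Agent.ESJ.Jac.Descent
import Fermat.Agent.S24.DictFull
import Fermat.Agent.S24C.Cx
import Fermat.Agent.ESJ.Jac.HFin

/-!
# JAC-SURJ: every PE character is the Kummer character of a Kummer element of `F = ℚ̄(X₀(N))`

`exists_isKummerChar_of_isPEChar_of` : over `ℂ` the character `χ` is the Kummer character of a
Kummer element `G ∈ F_ℂ` (`SurjC`); by descent (`Jac.descent`) `x ^ n * G` is the base change of
some `f ∈ F`, which has the same Kummer character, and is therefore a Kummer element.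

In `exists_isKummerChar_of_isPEChar_of` the hypotheses are the dictionary over `ℂ` and `hfin`
(finitely many classes modulo `n`-th powers among the Galois translates of a Kummer element of
`F_ℂ`); both are discharged in `exists_isKummerChar_of_isPEChar` (`S24C.Cx.isDict_id`,
`HFin.hfin`).
-/

set_option autoImplicit false

open UpperHalfPlane ModularForm CongruenceSubgroup Filter AlgebraicCurve ModularCurve
open scoped MatrixGroups Manifold Topology

noncomputable section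

namespace Fermat.Agent.ESJ.Jac

open Fermat.Agent.S24 Fermat.Agent.ESJ.Dict Fermat.Agent.Lib.Analysis.NthRoot

/-- **Surjectivity of the Kummer map over `ℚ̄`**, conditional on the dictionary over `ℂ` and on
the finiteness hypothesis of the descent. -/
theorem exists_isKummerChar_of_isPEChar_of (N : ℕ) [NeZero N]
    (hD : IsDict (RingHom.id ℂ) N) {n : ℕ} (hn : 0 < n)
    (hfin : ∀ G : FNK ℂ N, IsKummerElt ℂ (FNK ℂ N) n G →
      ∃ S : Finset (FNK ℂ N), ∀ σ : ℂ ≃ₐ[ℚ] ℂ, ∃ s ∈ S, ∃ c : FNK ℂ N, c ≠ 0 ∧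
        arithmeticGalois (modularFunctionFieldFull N) σ • G = c ^ n * s)
    (χ : Gamma0 N →* ℂˣ) (hχ : IsPEChar (Gamma0 N) n χ) :
    ∃ f : FN N, IsKummerElt KQ (FN N) n f ∧ IsKummerChar iotaK N n f χ := by
  obtain ⟨G, hG, hGχ⟩ := exists_isKummerChar_of_isPEChar_complex N hD hn χ hχ
  obtain ⟨x, hx, f, hf⟩ := descent N hn G hG (hfin G hG)
  have hbc : Dict.bc N f = x ^ n * G := Subtype.ext ((Dict.coe_bc N f).trans hf.symm)
  have hxG : IsKummerChar (RingHom.id ℂ) N n (x ^ n * G) χ := by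
    have h := IsKummerChar.mul hD hn (isKummerChar_pow hD hn x) hGχ
    have e : (1 : Gamma0 N →* ℂˣ) * χ = χ := one_mul χ
    rwa [e] at h
  have hfχ : IsKummerChar iotaK N n f χ := by
    rw [← isKummerChar_bc_iff, hbc]
    exact hxG
  have hf0 : f ≠ 0 := by
    rintro rfl
    rw [map_zero] at hbc
    exact mul_ne_zero (pow_ne_zero n hx) hG.1 hbc.symm
  exact ⟨f, isKummerElt_of_isPEChar (DictInst.isDict N) hn hf0 hfχ hχ, hfχ⟩

/-- The same with the dictionary over `ℂ` discharged (`S24C.Cx.isDict_id`). -/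
theorem exists_isKummerChar_of_isPEChar_of_hfin (N : ℕ) [NeZero N] {n : ℕ} (hn : 0 < n)
    (hfin : ∀ G : FNK ℂ N, IsKummerElt ℂ (FNK ℂ N) n G →
      ∃ S : Finset (FNK ℂ N), ∀ σ : ℂ ≃ₐ[ℚ] ℂ, ∃ s ∈ S, ∃ c : FNK ℂ N, c ≠ 0 ∧
        arithmeticGalois (modularFunctionFieldFull N) σ • G = c ^ n * s)
    (χ : Gamma0 N →* ℂˣ) (hχ : IsPEChar (Gamma0 N) n χ) :
    ∃ f : FN N, IsKummerElt KQ (FN N) n f ∧ IsKummerChar iotaK N n f χ :=
  exists_isKummerChar_of_isPEChar_of N (Fermat.Agent.S24C.Cx.isDict_id N) hn hfin χ hχ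

/-- Surjectivity over `ℂ`, hypothesis-free. -/
theorem exists_isKummerChar_of_isPEChar_complex' (N : ℕ) [NeZero N] {n : ℕ} (hn : 0 < n)
    (χ : Gamma0 N →* ℂˣ) (hχ : IsPEChar (Gamma0 N) n χ) :
    ∃ G : FNK ℂ N, IsKummerElt ℂ (FNK ℂ N) n G ∧ IsKummerChar (RingHom.id ℂ) N n G χ :=
  exists_isKummerChar_of_isPEChar_complex N (Fermat.Agent.S24C.Cx.isDict_id N) hn χ hχ

/-- **JAC-SURJ** (hypothesis-free): every parabolic-elliptic character of `Γ₀(N)` of exponent
`n > 0` is the Kummer character of a Kummer element of `F = ℚ̄(X₀(N))`. -/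
theorem exists_isKummerChar_of_isPEChar (N : ℕ) [NeZero N] {n : ℕ} (hn : 0 < n)
    (χ : Gamma0 N →* ℂˣ) (hχ : IsPEChar (Gamma0 N) n χ) :
    ∃ f : FN N, IsKummerElt KQ (FN N) n f ∧ IsKummerChar iotaK N n f χ :=
  exists_isKummerChar_of_isPEChar_of N (Fermat.Agent.S24C.Cx.isDict_id N) hn
    (fun G hG => HFin.hfin N (Fermat.Agent.S24C.Cx.isDict_id N) hn G hG) χ hχ

end Fermat.Agent.ESJ.Jac
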