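import Mathlib
import Fermat.Prelude.Def_ModularCurve_HeckeModule
import Fermat.Agent.ESJ.Jac.KummerPair
import Fermat.Agent.ESJ.HeckeInputs

/-!
# JAC-G(a): the Hecke correspondence on Kummer classes is the norm

For a correspondence `ψ_* ∘ φ^*` on `Pic⁰(F)` (`φ, ψ : F →ₐ[K] F'`, Prelude
`Pic0.correspondence`) and a Kummer pair `(x, f)` (`x = [D]`, `n • D = div f`), the pair
`(ψ_* φ^* x, Nm_ψ (φ f))` is again a Kummer pair, where `Nm_ψ : F' → F` is the field norm
of `F'` over `ψ F`.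

* `normAlong ψ` : the norm `F' →* F` along `ψ`.
* `isKummerPair_correspondence` : the general statement.
* `isKummerPair_heckeOperatorAlong`, `isKummerPair_heckeOperatorBar` : for the Hecke operator
  `T_ℓ = α_* ∘ β^*` on `JZero N`: `(T_ℓ x, Nm_α (β f))`.
* `heckeOperatorAlong_mem_torsion`, `heckeOperatorBar_mem_torsion` : torsion is stable.
-/

set_option autoImplicit false

noncomputable section

namespace Fermat.Agent.ESJ.Jac.HeckeKummer

open AlgebraicCurve ModularCurve
open Fermat.Agent.ESJ.Jac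

section General

variable {K F F' : Type*} [Field K] [Field F] [Field F'] [Algebra K F] [Algebra K F']

/-- The field norm of `F'` over `ψ F`, as a map `F' →* F`. -/
def normAlong (ψ : F →ₐ[K] F') : F' →* F :=
  letI := algebraAlong ψ
  Algebra.norm F

theorem normAlong_apply (ψ : F →ₐ[K] F') (g : F') :
    normAlong ψ g = (letI := algebraAlong ψ; Algebra.norm F g) :=
  rfl

theorem normAlong_ne_zero (ψ : F →ₐ[K] F') (hfin : FiniteAlong K ψ) {g : F'} (hg : g ≠ 0) :
    normAlong ψ g ≠ 0 := by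
  letI := algebraAlong ψ
  haveI : Module.Finite F F' := hfin
  exact Algebra.norm_ne_zero_iff.2 hg

variable [HasPrincipalDivisors K F']
variable (φ ψ : F →ₐ[K] F') (hφ : φ.toRingHom.IsIntegral) (hψ : ψ.toRingHom.IsIntegral)
variable (hFI : FundamentalIdentityAlong K φ hφ)
variable (hfin : FiniteAlong K ψ) (hN : NormFormulaAlong K ψ hfin)

include hN in
/-- The divisor of `Nm_ψ (φ f)` is `ψ_* φ^* (div f)`; more generally for `n • D = div f`. -/
theorem ord_normAlong_eq {n : ℕ} {f : F} (hf : f ≠ 0) (D : Divisor K F)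
    (hD : ∀ v : Place K F, (n : ℤ) * D v = v.ord f) (v : Place K F) :
    (n : ℤ) * Divisor.correspondence φ ψ hφ hψ D v = v.ord (normAlong ψ (φ f)) := by
  have hφf : φ f ≠ 0 := (map_ne_zero φ).2 hf
  have hpull : ∀ w : Place K F', ((n : ℤ) • Divisor.pullbackAlong φ hφ D) w = w.ord (φ f) := by
    intro w
    rw [Finsupp.smul_apply, Divisor.pullbackAlong_apply, Place.ord_restrictAlong φ hφ, ← hD,
      smul_eq_mul]
    ring
  rw [Divisor.correspondence_apply]
  letI := algebraAlong ψ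
  haveI := isScalarTower_along ψ
  haveI := isIntegral_along ψ hψ
  haveI : Module.Finite F F' := hfin
  have key : Divisor.pushforward F ((n : ℤ) • Divisor.pullbackAlong φ hφ D) v
      = v.ord (Algebra.norm F (φ f)) :=
    hN (φ f) hφf ((n : ℤ) • Divisor.pullbackAlong φ hφ D) hpull v
  rw [map_zsmul, Finsupp.smul_apply, smul_eq_mul] at key
  exact key

/-- **The correspondence on Kummer pairs**: if `x = [D]` with `n • D = div f`, then
`ψ_* φ^* x = [D']` with `n • D' = div (Nm_ψ (φ f))`. -/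
theorem isKummerPair_correspondence {n : ℕ} {x : Pic0 K F} {f : F} (h : IsKummerPair n x f) :
    IsKummerPair n (Pic0.correspondence φ ψ hφ hψ hFI hfin hN x) (normAlong ψ (φ f)) := by
  obtain ⟨hf, D, rfl, hD⟩ := h
  have hφf : φ f ≠ 0 := (map_ne_zero φ).2 hf
  refine ⟨normAlong_ne_zero ψ hfin hφf, Pic0.degZeroCorrespondence φ ψ hφ hψ hFI D,
    (Pic0.correspondence_mk φ ψ hφ hψ hFI hfin hN D).symm, fun v => ?_⟩
  rw [Pic0.coe_degZeroCorrespondence]
  exact ord_normAlong_eq φ ψ hφ hψ hfin hN hf (D : Divisor K F) hD v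

/-- Torsion is stable under a correspondence. -/
theorem correspondence_mem_torsion {n : ℕ} {x : Pic0 K F} (hx : x ∈ Pic0.torsion K F n) :
    Pic0.correspondence φ ψ hφ hψ hFI hfin hN x ∈ Pic0.torsion K F n := by
  obtain ⟨f, hf⟩ := exists_isKummerPair hx
  exact (isKummerPair_correspondence φ ψ hφ hψ hFI hfin hN hf).mem_torsion

end General

section Modular

open Fermat.Agent.ESJ.HeckeInputs

variable (N ℓ : ℕ) [NeZero N] [NeZero ℓ]

/-- The Hecke operator `heckeOperatorAlong ℚ̄ N ℓ` is the Prelude correspondence `α_* ∘ β^*`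
for the inputs of `Fermat.Agent.ESJ.HeckeInputs`. -/
theorem heckeOperatorAlong_eq_correspondence :
    haveI := hasPrincipalDivisors_bar (N * ℓ)
    ∃ (hFI : FundamentalIdentityAlong (AlgebraicClosure ℚ) (heckeBetaBar (AlgebraicClosure ℚ) N ℓ)
        (heckeBetaBarIntegral N ℓ))
      (hN : NormFormulaAlong (AlgebraicClosure ℚ) (heckeAlphaBar (AlgebraicClosure ℚ) N ℓ)
        (finiteAlong_heckeAlphaBar N ℓ)),
      heckeOperatorAlong (AlgebraicClosure ℚ) N ℓ =
        Pic0.correspondence (heckeBetaBar (AlgebraicClosure ℚ) N ℓ)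
          (heckeAlphaBar (AlgebraicClosure ℚ) N ℓ) (heckeBetaBarIntegral N ℓ)
          (heckeAlphaBarIntegral N ℓ) hFI (finiteAlong_heckeAlphaBar N ℓ) hN := by
  haveI := isAlgebraic_bar N
  haveI := isAlgebraic_bar (N * ℓ)
  haveI := hasPrincipalDivisors_bar (N * ℓ)
  have hFI : FundamentalIdentityAlong (AlgebraicClosure ℚ) (heckeBetaBar (AlgebraicClosure ℚ) N ℓ)
      (heckeBetaBarIntegral N ℓ) :=
    fundamentalIdentityAlong _ _ (finiteAlong_heckeBetaBar N ℓ) (Fermat.Agent.S24.jBar N)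
      (Fermat.Agent.S24.jBar (N * ℓ))
  have hN : NormFormulaAlong (AlgebraicClosure ℚ) (heckeAlphaBar (AlgebraicClosure ℚ) N ℓ)
      (finiteAlong_heckeAlphaBar N ℓ) :=
    normFormulaAlong _ _ (Fermat.Agent.S24.jBar N) (Fermat.Agent.S24.jBar (N * ℓ))
  exact ⟨hFI, hN, heckeOperatorAlong_eq (heckeAlphaBarIntegral N ℓ) (heckeBetaBarIntegral N ℓ)
    hFI (finiteAlong_heckeAlphaBar N ℓ) hN⟩

/-- `T_ℓ` on the class of a divisor `D` of degree zero is the class of `α_* β^* D`. -/
theorem heckeOperatorAlong_mk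
    (D : Divisor.degZero (K := AlgebraicClosure ℚ) (F := modularFunctionFieldBar N)) :
    haveI := hasPrincipalDivisors_bar (N * ℓ)
    ∃ D' : Divisor.degZero (K := AlgebraicClosure ℚ) (F := modularFunctionFieldBar N),
      heckeOperatorAlong (AlgebraicClosure ℚ) N ℓ (Pic0.mk D) = Pic0.mk D' ∧
      (D' : Divisor (AlgebraicClosure ℚ) (modularFunctionFieldBar N)) =
        Divisor.correspondence (heckeBetaBar (AlgebraicClosure ℚ) N ℓ)
          (heckeAlphaBar (AlgebraicClosure ℚ) N ℓ) (heckeBetaBarIntegral N ℓ)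
          (heckeAlphaBarIntegral N ℓ)
          (D : Divisor (AlgebraicClosure ℚ) (modularFunctionFieldBar N)) := by
  haveI := hasPrincipalDivisors_bar (N * ℓ)
  obtain ⟨hFI, hN, heq⟩ := heckeOperatorAlong_eq_correspondence N ℓ
  refine ⟨Pic0.degZeroCorrespondence (heckeBetaBar (AlgebraicClosure ℚ) N ℓ)
    (heckeAlphaBar (AlgebraicClosure ℚ) N ℓ) (heckeBetaBarIntegral N ℓ)
    (heckeAlphaBarIntegral N ℓ) hFI D, ?_, rfl⟩
  rw [heq]
  rfl

/-- **`T_ℓ` on Kummer pairs**: if `x = [D]` with `n • D = div f` then `T_ℓ x = [D']` with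
`n • D' = div (Nm_α (β f))`, the norm from level `N ℓ` to level `N` of `f(q^ℓ)`. -/
theorem isKummerPair_heckeOperatorAlong {n : ℕ} {x : JZero N} {f : modularFunctionFieldBar N}
    (h : IsKummerPair n x f) :
    IsKummerPair n (heckeOperatorAlong (AlgebraicClosure ℚ) N ℓ x)
      (normAlong (heckeAlphaBar (AlgebraicClosure ℚ) N ℓ)
        (heckeBetaBar (AlgebraicClosure ℚ) N ℓ f)) := by
  haveI := hasPrincipalDivisors_bar (N * ℓ)
  obtain ⟨hFI, hN, heq⟩ := heckeOperatorAlong_eq_correspondence N ℓ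
  rw [heq]
  exact isKummerPair_correspondence _ _ _ _ hFI _ hN h

/-- The `n`-torsion of `JZero N` is stable under `heckeOperatorAlong`. -/
theorem heckeOperatorAlong_mem_torsion {n : ℕ} {x : JZero N}
    (hx : x ∈ Pic0.torsion (AlgebraicClosure ℚ) (modularFunctionFieldBar N) n) :
    heckeOperatorAlong (AlgebraicClosure ℚ) N ℓ x ∈
      Pic0.torsion (AlgebraicClosure ℚ) (modularFunctionFieldBar N) n := by
  obtain ⟨f, hf⟩ := exists_isKummerPair hx
  exact (isKummerPair_heckeOperatorAlong N ℓ hf).mem_torsion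

omit [NeZero ℓ] in
/-- `T_ℓ` on Kummer pairs, for the Prelude operator `heckeOperatorBar N ℓ`. -/
theorem isKummerPair_heckeOperatorBar (ℓ : Nat.Primes) {n : ℕ} {x : JZero N}
    {f : modularFunctionFieldBar N} (h : IsKummerPair n x f) :
    haveI : NeZero (ℓ : ℕ) := ⟨ℓ.2.ne_zero⟩
    IsKummerPair n (heckeOperatorBar N ℓ x)
      (normAlong (heckeAlphaBar (AlgebraicClosure ℚ) N ℓ)
        (heckeBetaBar (AlgebraicClosure ℚ) N ℓ f)) := by
  haveI : NeZero (ℓ : ℕ) := ⟨ℓ.2.ne_zero⟩
  rw [heckeOperatorBar_apply]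
  exact isKummerPair_heckeOperatorAlong N ℓ h

omit [NeZero ℓ] in
/-- The `n`-torsion of `JZero N` is stable under `heckeOperatorBar`. -/
theorem heckeOperatorBar_mem_torsion (ℓ : Nat.Primes) {n : ℕ} {x : JZero N}
    (hx : x ∈ Pic0.torsion (AlgebraicClosure ℚ) (modularFunctionFieldBar N) n) :
    heckeOperatorBar N ℓ x ∈ Pic0.torsion (AlgebraicClosure ℚ) (modularFunctionFieldBar N) n := by
  obtain ⟨f, hf⟩ := exists_isKummerPair hx
  exact (isKummerPair_heckeOperatorBar N ℓ hf).mem_torsion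

end Modular

end Fermat.Agent.ESJ.Jac.HeckeKummer
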