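import Mathlib
import Fermat.Agent.ESJ.Cong.ConjNormAnalytic
import Fermat.Agent.ESJ.Jac.HeckeKummer
import Fermat.Agent.ESJ.Jac.Multiplier
import Fermat.Agent.ESJ.ParHom.HeckeGamma0
import Fermat.Agent.S24.QExpCusp

/-!
# JAC-G(b): the Hecke norm on the upper half plane

For a prime `ℓ ∤ N` and `f ∈ F_N`, let `M_ℓ f := Nm_α (β f) ∈ F_N` (the norm from `F_{Nℓ}` down to
`F_N` along `α` of `β f = f(q^ℓ)`); by JAC-G(a) (`HeckeKummer`) this is the function whose Kummer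
class is `T_ℓ` of the Kummer class of `f`.

* `ev_norm_identity` : for representatives `f = fm P / fm Q`, `M_ℓ f = fm P' / fm Q'`, the
  cross-multiplied identity `ev P'(τ) ∏ ev Q(α_x τ) = ev Q'(τ) ∏ ev P(α_x τ)` on `ℍ`, where
  `α_∞ τ = ℓ τ`, `α_b τ = (τ + b) / ℓ`.
* `merK_norm_eventuallyEq` : `Φ(M_ℓ f)(z) = Φ f(ℓ z) ∏_{b<ℓ} Φ f((z + b)/ℓ)` off a discrete set.
* `heckeChar` : the multiplicative form of the Hecke operator of `ParHom` on characters.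
* `isKummerChar_norm` : the Kummer character of `M_ℓ f` is `T_ℓ` of the Kummer character of `f`.
-/

set_option autoImplicit false

open UpperHalfPlane Filter Topology
open scoped MatrixGroups Manifold

noncomputable section

namespace Fermat.Agent.ESJ.Jac.HeckeMer

open ModularCurve Fermat.Agent.S24 Fermat.Agent.S24.QExp Fermat.Agent.S28.Chain
open Fermat.Agent.ESJ.Cong.ConjAnalytic Fermat.Agent.ESJ.Jac Fermat.Agent.ESJ.Jac.HeckeKummer
open Fermat.Agent.Lib.Analysis.NthRoot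

/-! ### Expansions in `q_ℓ` of the three kinds of conjugates -/

section Expansions

variable (N ℓ : ℕ) [NeZero N] [NeZero ℓ]

/-- `ev P` itself, expanded in `q_ℓ`. -/
theorem hasQExp_ev_level (P : MvPolynomial (Dv N) KQ) :
    HasQExp ℓ (ev N P)
      (qExpand ℂ ℓ (coeffMap iotaK ((fm N P : FN N) : LaurentSeries KQ))) := by
  have h := (hasQExp_ev N P).level ℓ
  rwa [one_mul] at h

/-- `τ ↦ ev P (ℓ τ)`, expanded in `q_ℓ`. -/
theorem hasQExp_ev_scale (P : MvPolynomial (Dv N) KQ) :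
    HasQExp ℓ (fun τ : ℍ => ev N P (ofComplex ((ℓ : ℂ) * τ)))
      (qExpand ℂ (ℓ * ℓ) (coeffMap iotaK ((fm N P : FN N) : LaurentSeries KQ))) := by
  have h := (hasQExp_ev N P).comp_affine (ℓ * ℓ) ℓ 0
  rw [one_mul] at h
  have hz : zetaU ℓ (0 : ℤ) = 1 := by
    ext
    simp [zetaU]
  rw [hz, rot_one_apply] at h
  refine h.congr_fun' (fun τ => ?_)
  have hℓ : (ℓ : ℂ) ≠ 0 := by exact_mod_cast NeZero.ne ℓ
  have e : (((ℓ * ℓ : ℕ) : ℂ) * (τ : ℂ) + ((0 : ℤ) : ℂ)) / (ℓ : ℂ) = (ℓ : ℂ) * τ := by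
    push_cast
    field_simp
    ring
  show ev N P (ofComplex ((((ℓ * ℓ : ℕ) : ℂ) * (τ : ℂ) + ((0 : ℤ) : ℂ)) / (ℓ : ℂ))) = _
  rw [e]

/-- `τ ↦ ev P ((τ + b) / ℓ)`, expanded in `q_ℓ`. -/
theorem hasQExp_ev_twist (P : MvPolynomial (Dv N) KQ) (b : ℕ) :
    HasQExp ℓ (fun τ : ℍ => ev N P (ofComplex (((τ : ℂ) + b) / ℓ)))
      (rot (zetaU ℓ b) (coeffMap iotaK ((fm N P : FN N) : LaurentSeries KQ))) := by
  have h := (hasQExp_ev N P).comp_affine 1 ℓ (b : ℤ)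
  rw [one_mul, qExpand_one_apply] at h
  refine h.congr_fun' (fun τ => ?_)
  have e : (((1 : ℕ) : ℂ) * (τ : ℂ) + ((b : ℤ) : ℂ)) / (ℓ : ℂ) = ((τ : ℂ) + b) / ℓ := by
    push_cast
    ring
  show ev N P (ofComplex ((((1 : ℕ) : ℂ) * (τ : ℂ) + ((b : ℤ) : ℂ)) / (ℓ : ℂ))) = _
  rw [e]

end Expansions

/-! ### The cross-multiplied norm identity on `ℍ` -/

section Identity

variable (N ℓ : ℕ) [NeZero N] [NeZero ℓ]

/-- A primitive `ℓ`-th root of unity of `ℚ̄` mapping to `exp (2πi/ℓ)`. -/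
theorem exists_primitiveRoot_iotaK :
    ∃ ζ : KQˣ, IsPrimitiveRoot ζ ℓ ∧ Units.map (iotaK : KQ →* ℂ) ζ = zetaU ℓ 1 := by
  obtain ⟨ζ, -, hζ⟩ := exists_unit_map_iotaK_eq_zetaU ℓ 1
  refine ⟨ζ, ?_, hζ⟩
  have hprim : IsPrimitiveRoot (zetaU ℓ 1) ℓ := by
    rw [← IsPrimitiveRoot.coe_units_iff]
    have h := Complex.isPrimitiveRoot_exp ℓ (NeZero.ne ℓ)
    have e : ((zetaU ℓ 1 : ℂˣ) : ℂ) = Complex.exp (2 * Real.pi * Complex.I / ℓ) := by
      simp [zetaU]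
    rw [e]
    exact h
  rw [← hζ] at hprim
  exact IsPrimitiveRoot.of_map_of_injective hprim (Units.map_injective iotaK.injective)

theorem coe_fm_ne_zero {Q : MvPolynomial (Dv N) KQ} (hQ : fm N Q ≠ 0) :
    ((fm N Q : FN N) : LaurentSeries KQ) ≠ 0 := fun h => hQ (Subtype.ext h)

/-- **The norm identity on `ℍ`**, cross-multiplied: for `y = fm P / fm Q` and
`Nm_α (β y) = fm P' / fm Q'`,
`ev P'(τ) · ev Q(ℓτ) ∏_b ev Q((τ+b)/ℓ) = ev Q'(τ) · ev P(ℓτ) ∏_b ev P((τ+b)/ℓ)`. -/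
theorem ev_norm_identity (hℓ : ℓ.Prime) (hℓN : ¬ ℓ ∣ N) (y : FN N)
    (P Q P' Q' : MvPolynomial (Dv N) KQ) (hy : IsRep N y P Q)
    (hY : IsRep N (normAlong (heckeAlphaBar KQ N ℓ) (heckeBetaBar KQ N ℓ y)) P' Q') (τ : ℍ) :
    ev N P' τ * (ev N Q (ofComplex ((ℓ : ℂ) * τ)) *
        ∏ b ∈ Finset.range ℓ, ev N Q (ofComplex (((τ : ℂ) + b) / ℓ))) =
      ev N Q' τ * (ev N P (ofComplex ((ℓ : ℂ) * τ)) *
        ∏ b ∈ Finset.range ℓ, ev N P (ofComplex (((τ : ℂ) + b) / ℓ))) := by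
  obtain ⟨ζ, hζ, hζι⟩ := exists_primitiveRoot_iotaK ℓ
  have key := qExpand_norm_heckeBeta N ℓ hℓ hℓN ζ hζ y
  change qExpand KQ ℓ ((normAlong (heckeAlphaBar KQ N ℓ) (heckeBetaBar KQ N ℓ y) : FN N) :
    LaurentSeries KQ) = _ at key
  set p : LaurentSeries KQ := ((fm N P : FN N) : LaurentSeries KQ) with hp
  set q : LaurentSeries KQ := ((fm N Q : FN N) : LaurentSeries KQ) with hq
  set p' : LaurentSeries KQ := ((fm N P' : FN N) : LaurentSeries KQ) with hp'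
  set q' : LaurentSeries KQ := ((fm N Q' : FN N) : LaurentSeries KQ) with hq'
  have hq0 : q ≠ 0 := coe_fm_ne_zero N hy.1
  have hq'0 : q' ≠ 0 := coe_fm_ne_zero N hY.1
  have hyc : (y : LaurentSeries KQ) = p / q := by
    rw [hy.2]
    rfl
  have hYc : ((normAlong (heckeAlphaBar KQ N ℓ) (heckeBetaBar KQ N ℓ y) : FN N) :
      LaurentSeries KQ) = p' / q' := by
    rw [hY.2]
    rfl
  rw [hYc, hyc] at key
  simp only [map_div₀, Finset.prod_div_distrib] at key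
  rw [div_mul_div_comm, div_eq_div_iff ((map_ne_zero _).2 hq'0)
    (mul_ne_zero ((map_ne_zero _).2 hq0)
      (Finset.prod_ne_zero_iff.2 fun b _ => (map_ne_zero _).2 hq0))] at key
  -- transport to `ℂ`
  have keyC := congrArg (coeffMap iotaK) key
  simp only [map_mul, map_prod, coeffMap_qExpand, coeffMap_rot, map_pow, hζι] at keyC
  have hz : ∀ b : ℕ, zetaU ℓ 1 ^ b = zetaU ℓ (b : ℤ) := by
    intro b
    rw [zetaU_pow]
    congr 1
    ring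
  simp only [hz] at keyC
  -- both sides are `q_ℓ`-expansions
  have hL := (hasQExp_ev_level N ℓ P').mul ((hasQExp_ev_scale N ℓ Q).mul
    (HasQExp.prod (Finset.range ℓ) (fun b (τ : ℍ) => ev N Q (ofComplex (((τ : ℂ) + b) / ℓ)))
      (fun b => rot (zetaU ℓ b) (coeffMap iotaK q)) (fun b _ => hasQExp_ev_twist N ℓ Q b)))
  have hR := (hasQExp_ev_level N ℓ Q').mul ((hasQExp_ev_scale N ℓ P).mul
    (HasQExp.prod (Finset.range ℓ) (fun b (τ : ℍ) => ev N P (ofComplex (((τ : ℂ) + b) / ℓ)))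
      (fun b => rot (zetaU ℓ b) (coeffMap iotaK p)) (fun b _ => hasQExp_ev_twist N ℓ P b)))
  rw [keyC] at hL
  have hR' : HasQExp ℓ (ev N Q' * ((fun τ : ℍ => ev N P (ofComplex ((ℓ : ℂ) * τ))) *
      ∏ b ∈ Finset.range ℓ, fun τ : ℍ => ev N P (ofComplex (((τ : ℂ) + b) / ℓ))))
      (qExpand ℂ (ℓ * ℓ) (coeffMap iotaK p) * (∏ b ∈ Finset.range ℓ,
        rot (zetaU ℓ b) (coeffMap iotaK p)) * qExpand ℂ ℓ (coeffMap iotaK q')) := by
    convert hR using 1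
    ring
  have h := (hL τ).unique (hR' τ)
  simpa only [Pi.mul_apply, Finset.prod_apply] using h

end Identity

/-! ### The meromorphic function of the norm -/

section MerK

variable (N : ℕ) [NeZero N]

/-- `merK` is the quotient `ev P / ev Q` for a representative. -/
theorem merK_eq (f : FN N) : ∃ P Q, IsRep N f P Q ∧
    merK iotaK N f = fun z => ev N P (ofComplex z) / ev N Q (ofComplex z) := by
  have h : ∃ P Q, IsRepK N f P Q := exists_isRep N f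
  refine ⟨h.choose, h.choose_spec.choose, h.choose_spec.choose_spec, ?_⟩
  unfold merK
  rw [dif_pos h]
  rfl

/-- Off a discrete subset of `U`, `ev Q ∘ φ` does not vanish (`φ` a holomorphic self-map of `U`
with nowhere vanishing derivative, `fm Q ≠ 0`). -/
theorem eventually_ev_comp_ne_zero {Q : MvPolynomial (Dv N) KQ} (hQ : fm N Q ≠ 0) (φ : ℂ → ℂ)
    (c : ℂ) (hc : c ≠ 0) (hφ : ∀ z ∈ U, HasDerivAt φ c z) (hmaps : ∀ z ∈ U, φ z ∈ U) :
    ∀ᶠ z in codiscreteWithin U, ev N Q (ofComplex (φ z)) ≠ 0 := by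
  rw [Filter.eventually_iff, mem_codiscreteWithin_iff_forall_mem_nhdsNE]
  intro x hx
  have hG : MDiff (ev N Q) := PtInv.mdiff_ev N Q
  have hG0 : ev N Q ≠ 0 := fun h => hQ ((ev_eq_zero_iff N Q).1 h)
  have hord := OrdH.order_ne_top hG hG0 ⟨φ x, hmaps x hx⟩
  have han := OrdH.analyticAt hG ⟨φ x, hmaps x hx⟩
  have h1 : ∀ᶠ w in 𝓝[≠] (φ x), (ev N Q ∘ ofComplex) w ≠ 0 := by
    rcases han.eventually_eq_zero_or_eventually_ne_zero with h | h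
    · exact absurd (analyticOrderAt_eq_top.2 h) hord
    · exact h
  have ht : Tendsto φ (𝓝[≠] x) (𝓝[≠] (φ x)) := (hφ x hx).tendsto_nhdsNE hc
  filter_upwards [ht.eventually h1] with z hz
  exact Or.inl hz

theorem scale_mem_U {ℓ : ℕ} (hℓ : 0 < ℓ) {z : ℂ} (hz : z ∈ U) : (ℓ : ℂ) * z ∈ U := by
  show 0 < ((ℓ : ℂ) * z).im
  have h1 : ((ℓ : ℂ) * z).im = ℓ * z.im := by simp
  rw [h1]
  have hz' : 0 < z.im := hz
  positivity

theorem twist_mem_U {ℓ : ℕ} (hℓ : 0 < ℓ) (b : ℕ) {z : ℂ} (hz : z ∈ U) : (z + b) / ℓ ∈ U := by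
  show 0 < ((z + b) / (ℓ : ℂ)).im
  have h1 : ((z + b) / (ℓ : ℂ)).im = z.im / ℓ := by
    simp [Complex.div_natCast_im]
  rw [h1]
  have hz' : 0 < z.im := hz
  positivity

theorem hasDerivAt_scale (ℓ : ℕ) (z : ℂ) : HasDerivAt (fun w : ℂ => (ℓ : ℂ) * w) (ℓ : ℂ) z := by
  simpa using (hasDerivAt_id z).const_mul (ℓ : ℂ)

theorem hasDerivAt_twist (ℓ b : ℕ) (z : ℂ) :
    HasDerivAt (fun w : ℂ => (w + b) / (ℓ : ℂ)) (1 / (ℓ : ℂ)) z := by
  simpa using ((hasDerivAt_id z).add_const (b : ℂ)).div_const (ℓ : ℂ)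

/-- **JAC-G(b1).** The meromorphic function of the Hecke norm `Nm_α (β f)` is, off a discrete
subset of `U`, the product of the `ℓ + 1` conjugates `z ↦ Φ f (ℓ z)`, `z ↦ Φ f ((z + b)/ℓ)`. -/
theorem merK_norm_eventuallyEq (ℓ : ℕ) [NeZero ℓ] (hℓ : ℓ.Prime) (hℓN : ¬ ℓ ∣ N) (f : FN N) :
    merK iotaK N (normAlong (heckeAlphaBar KQ N ℓ) (heckeBetaBar KQ N ℓ f))
      =ᶠ[codiscreteWithin U] fun z => merK iotaK N f ((ℓ : ℂ) * z) *
        ∏ b ∈ Finset.range ℓ, merK iotaK N f ((z + b) / ℓ) := by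
  obtain ⟨P, Q, hy, hm⟩ := merK_eq N f
  obtain ⟨P', Q', hY, hM⟩ := merK_eq N (normAlong (heckeAlphaBar KQ N ℓ) (heckeBetaBar KQ N ℓ f))
  have hℓ0 : (ℓ : ℂ) ≠ 0 := by exact_mod_cast hℓ.ne_zero
  have e0 : ∀ᶠ z in codiscreteWithin U, z ∈ U := Filter.self_mem_codiscreteWithin U
  have e1 := eventually_ev_comp_ne_zero N hY.1 id 1 one_ne_zero (fun z _ => hasDerivAt_id z)
    (fun z hz => hz)
  have e2 := eventually_ev_comp_ne_zero N hy.1 (fun w : ℂ => (ℓ : ℂ) * w) ℓ hℓ0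
    (fun z _ => hasDerivAt_scale ℓ z) (fun z hz => scale_mem_U hℓ.pos hz)
  have e3 : ∀ᶠ z in codiscreteWithin U, ∀ b ∈ Finset.range ℓ,
      ev N Q (ofComplex ((z + b) / ℓ)) ≠ 0 := by
    rw [Filter.eventually_all_finset]
    intro b _
    exact eventually_ev_comp_ne_zero N hy.1 (fun w : ℂ => (w + b) / (ℓ : ℂ)) (1 / (ℓ : ℂ))
      (one_div_ne_zero hℓ0) (fun z _ => hasDerivAt_twist ℓ b z)
      (fun z hz => twist_mem_U hℓ.pos b hz)
  filter_upwards [e0, e1, e2, e3] with z hzU h1 h2 h3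
  have hid := ev_norm_identity N ℓ hℓ hℓN f P Q P' Q' hy hY ⟨z, hzU⟩
  have hτ : ofComplex z = ⟨z, hzU⟩ := ofComplex_apply_of_im_pos hzU
  rw [hM, hm]
  simp only [id] at h1
  beta_reduce
  rw [hτ] at h1 ⊢
  rw [Finset.prod_div_distrib, div_mul_div_comm,
    div_eq_div_iff h1 (mul_ne_zero h2 (Finset.prod_ne_zero_iff.2 h3))]
  rw [mul_comm _ (ev N Q' _)]
  exact hid

end MerK

/-! ### The multiplicative Hecke operator on characters -/

section Character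

open Fermat.Agent.ESJ.ParHom CongruenceSubgroup ModularForm

/-- The multiplicative form of the Hecke operator `ParHom.heckeCoh` on characters
`Γ₀(N) → ℂˣ`: `(T_ℓ χ)(γ) = ∏_x χ(γ'_x)` where `a_x γ = γ'_x a_{π x}`. -/
def heckeChar (N : ℕ) (ℓ : Nat.Primes) (χ : Gamma0 N →* ℂˣ) : Gamma0 N →* ℂˣ :=
  MonoidHom.toAdditive.symm (heckeCoh N ℓ (MonoidHom.toAdditive χ))

theorem toAdditive_heckeChar (N : ℕ) (ℓ : Nat.Primes) (χ : Gamma0 N →* ℂˣ) :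
    MonoidHom.toAdditive (heckeChar N ℓ χ) = heckeCoh N ℓ (MonoidHom.toAdditive χ) := by
  simp [heckeChar]

theorem heckeChar_apply (N : ℕ) (ℓ : Nat.Primes) (χ : Gamma0 N →* ℂˣ) (γ : Gamma0 N) :
    heckeChar N ℓ χ γ
      = Additive.toMul (heckeCoh N ℓ (MonoidHom.toAdditive χ) (Additive.ofMul γ)) := rfl

/-- The formula for `T_ℓ χ` (`ℓ ∤ N`) in terms of the Hecke system of `ParHom`. -/
theorem heckeChar_apply_T (N : ℕ) (ℓ : Nat.Primes) (h : ¬ (ℓ : ℕ) ∣ N) (χ : Gamma0 N →* ℂˣ)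
    (γ : Gamma0 N) :
    haveI : Fact (ℓ : ℕ).Prime := ⟨ℓ.2⟩
    heckeChar N ℓ χ γ = ∏ x, χ ((isHeckeSystem_T N h).coc γ x) := by
  have : Fact (ℓ : ℕ).Prime := ⟨ℓ.2⟩
  show Additive.toMul (heckeCoh N ℓ (MonoidHom.toAdditive χ) (Additive.ofMul γ)) = _
  unfold heckeCoh
  rw [dif_neg h, IsHeckeSystem.hecke_apply, toMul_sum]
  rfl

end Character

/-! ### The Kummer character of the norm -/

section Kummer

open Fermat.Agent.ESJ.ParHom CongruenceSubgroup ModularForm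

/-- The action on `ℂ` of the representatives of `T_ℓ`: `∞ ↦ (z ↦ ℓ z)`, `j ↦ (z ↦ (z + j)/ℓ)`. -/
def actT (ℓ : ℕ) (x : OnePoint (ZMod ℓ)) (z : ℂ) : ℂ :=
  x.elim ((ℓ : ℂ) * z) (fun j => (z + (j.val : ℂ)) / ℓ)

@[simp] theorem actT_infty (ℓ : ℕ) (z : ℂ) : actT ℓ OnePoint.infty z = (ℓ : ℂ) * z := rfl

@[simp] theorem actT_coe (ℓ : ℕ) (j : ZMod ℓ) (z : ℂ) :
    actT ℓ (j : OnePoint (ZMod ℓ)) z = (z + (j.val : ℂ)) / ℓ := rfl

theorem coe_tRep_smul {ℓ : ℕ} (hℓ : ℓ ≠ 0) (x : OnePoint (ZMod ℓ)) (τ : ℍ) :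
    ((tRep ℓ x • τ : ℍ) : ℂ) = actT ℓ x τ := by
  induction x using OnePoint.rec with
  | infty => rw [tRep_infty, coe_heckeDiagMatrix_smul hℓ, actT_infty]
  | coe j => rw [tRep_coe, coe_heckeMatrix_smul hℓ, actT_coe]

theorem actT_mem_U {ℓ : ℕ} (hℓ : 0 < ℓ) (x : OnePoint (ZMod ℓ)) {z : ℂ} (hz : z ∈ U) :
    actT ℓ x z ∈ U := by
  induction x using OnePoint.rec with
  | infty => exact scale_mem_U hℓ hz
  | coe j => exact twist_mem_U hℓ j.val hz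

theorem exists_hasDerivAt_actT {ℓ : ℕ} (hℓ : ℓ ≠ 0) (x : OnePoint (ZMod ℓ)) :
    ∃ c : ℂ, c ≠ 0 ∧ ∀ z : ℂ, HasDerivAt (actT ℓ x) c z := by
  have hℓ0 : (ℓ : ℂ) ≠ 0 := by exact_mod_cast hℓ
  induction x using OnePoint.rec with
  | infty => exact ⟨ℓ, hℓ0, fun z => hasDerivAt_scale ℓ z⟩
  | coe j => exact ⟨1 / (ℓ : ℂ), one_div_ne_zero hℓ0, fun z => hasDerivAt_twist ℓ j.val z⟩

theorem prod_zmod_val {ℓ : ℕ} [NeZero ℓ] (F : ℕ → ℂ) :
    ∏ j : ZMod ℓ, F j.val = ∏ b ∈ Finset.range ℓ, F b := by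
  refine Finset.prod_bij (fun j _ => j.val) (fun j _ => Finset.mem_range.2 (ZMod.val_lt j))
    (fun j _ j' _ hjj => ZMod.val_injective ℓ hjj) (fun b hb => ?_) (fun j _ => rfl)
  exact ⟨(b : ZMod ℓ), Finset.mem_univ _, ZMod.val_natCast_of_lt (Finset.mem_range.1 hb)⟩

theorem prod_actT {ℓ : ℕ} [NeZero ℓ] (g : ℂ → ℂ) (z : ℂ) :
    ∏ x : OnePoint (ZMod ℓ), g (actT ℓ x z)
      = g ((ℓ : ℂ) * z) * ∏ b ∈ Finset.range ℓ, g ((z + b) / ℓ) := by
  have h1 : (∏ x : OnePoint (ZMod ℓ), g (actT ℓ x z))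
      = g (actT ℓ OnePoint.infty z) * ∏ j : ZMod ℓ, g (actT ℓ (j : OnePoint (ZMod ℓ)) z) :=
    Fintype.prod_option (fun x : Option (ZMod ℓ) => g (actT ℓ x z))
  rw [h1, actT_infty]
  congr 1
  exact prod_zmod_val (fun b => g ((z + b) / ℓ))

theorem eventuallyEq_nhdsNE_of_codiscreteWithin_U {f g : ℂ → ℂ}
    (h : f =ᶠ[codiscreteWithin U] g) {z : ℂ} (hz : z ∈ U) : f =ᶠ[𝓝[≠] z] g := by
  have h1 := mem_codiscreteWithin_iff_forall_mem_nhdsNE.1 h z hz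
  have h2 : U ∈ 𝓝[≠] z := mem_nhdsWithin_of_mem_nhds (isOpen_U.mem_nhds hz)
  filter_upwards [h1, h2] with w hw hwU
  rcases hw with hw | hw
  · exact hw
  · exact absurd hwU hw

/-- **JAC-G(b2).** For a prime `ℓ ∤ N`: if `χ` is the Kummer character of `f`, then `T_ℓ χ`
(`heckeChar`) is the Kummer character of the Hecke norm `Nm_α (β f)`. -/
theorem isKummerChar_norm (N : ℕ) [NeZero N] (ℓ : Nat.Primes) (hℓN : ¬ (ℓ : ℕ) ∣ N) {n : ℕ}
    {f : FN N} {χ : Gamma0 N →* ℂˣ} (h : IsKummerChar iotaK N n f χ) :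
    haveI : NeZero (ℓ : ℕ) := ⟨ℓ.2.ne_zero⟩
    IsKummerChar iotaK N n
      (normAlong (heckeAlphaBar KQ N ℓ) (heckeBetaBar KQ N ℓ f)) (heckeChar N ℓ χ) := by
  have : NeZero (ℓ : ℕ) := ⟨ℓ.2.ne_zero⟩
  have : Fact (ℓ : ℕ).Prime := ⟨ℓ.2⟩
  obtain ⟨h0, hroot, hmult⟩ := h
  have hℓpos : 0 < (ℓ : ℕ) := ℓ.2.pos
  have hT := isHeckeSystem_T N hℓN
  set H : ℂ → ℂ := fun z => ∏ x : OnePoint (ZMod ℓ), h0 (actT ℓ x z) with hH
  -- each factor is a root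
  have hfac : ∀ x : OnePoint (ZMod ℓ),
      IsRootOn n (merK iotaK N f ∘ actT ℓ x) (h0 ∘ actT ℓ x) U := by
    intro x
    obtain ⟨c, hc, hd⟩ := exists_hasDerivAt_actT ℓ.2.ne_zero x
    refine hroot.comp (fun z _ => ?_) (fun z _ => ?_) (fun z hz => actT_mem_U hℓpos x hz)
    · induction x using OnePoint.rec with
      | infty =>
        have e : actT (ℓ : ℕ) OnePoint.infty = fun z : ℂ => ((ℓ : ℕ) : ℂ) * z := rfl
        rw [e]
        fun_prop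
      | coe j =>
        have e : actT (ℓ : ℕ) (j : OnePoint (ZMod ℓ))
            = fun z : ℂ => (z + (j.val : ℂ)) / ((ℓ : ℕ) : ℂ) := rfl
        rw [e]
        fun_prop
    · rw [(hd z).deriv]
      exact hc
  have hmer : MeromorphicOn H U := fun z hz =>
    MeromorphicAt.fun_prod (fun x _ => ((hfac x).1 hz).meromorphicAt)
  have hNF : MeromorphicNFOn (toMeromorphicNFOn H U) U := meromorphicNFOn_toMeromorphicNFOn H U
  have hself : ∀ z ∈ U, toMeromorphicNFOn H U =ᶠ[𝓝[≠] z] H := fun z hz =>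
    hmer.toMeromorphicNFOn_eq_self_on_nhdsNE hz
  -- the pointwise multiplier law for `H`
  have hHmult : ∀ γ : Gamma0 N, ∀ w ∈ U,
      H (mob (γ : SL(2, ℤ)) w) = ((heckeChar N ℓ χ γ : ℂˣ) : ℂ) * H w := by
    intro γ w hw
    set τ : ℍ := ⟨w, hw⟩ with hτ
    have hmob : mob (γ : SL(2, ℤ)) w = (((γ : SL(2, ℤ)) • τ : ℍ) : ℂ) := mob_coe _ τ
    have key : ∀ x : OnePoint (ZMod ℓ), tRep ℓ x • ((γ : SL(2, ℤ)) • τ)
        = ((hT.coc γ x : Gamma0 N) : SL(2, ℤ)) • (tRep ℓ (hT.perm γ x) • τ) := by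
      intro x
      have hs := hT.spec γ x
      rw [jSub_apply, jSub_apply] at hs
      calc tRep ℓ x • ((γ : SL(2, ℤ)) • τ)
          = (tRep ℓ x * Matrix.SpecialLinearGroup.mapGL ℝ (γ : SL(2, ℤ))) • τ :=
            (mul_smul _ _ _).symm
        _ = (Matrix.SpecialLinearGroup.mapGL ℝ ((hT.coc γ x : Gamma0 N) : SL(2, ℤ)) *
              tRep ℓ (hT.perm γ x)) • τ := by rw [hs]
        _ = ((hT.coc γ x : Gamma0 N) : SL(2, ℤ)) • (tRep ℓ (hT.perm γ x) • τ) :=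
            mul_smul _ _ _
    have hterm : ∀ x : OnePoint (ZMod ℓ), h0 (actT ℓ x (mob (γ : SL(2, ℤ)) w))
        = ((χ (hT.coc γ x) : ℂˣ) : ℂ) * h0 (actT ℓ (hT.perm γ x) w) := by
      intro x
      rw [hmob, ← coe_tRep_smul ℓ.2.ne_zero, key x, ← mob_coe,
        hmult (hT.coc γ x) _ (coe_mem_U _), coe_tRep_smul ℓ.2.ne_zero]
    show (∏ x : OnePoint (ZMod ℓ), h0 (actT ℓ x (mob (γ : SL(2, ℤ)) w))) = _
    rw [Finset.prod_congr rfl (fun x _ => hterm x), Finset.prod_mul_distrib,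
      heckeChar_apply_T N ℓ hℓN χ γ, Units.coe_prod]
    congr 1
    exact Equiv.prod_comp (hT.permEquiv γ) (fun x => h0 (actT ℓ x w))
  refine ⟨toMeromorphicNFOn H U, ⟨hNF, fun z hz => ?_⟩, ?_⟩
  · -- the root equation
    have h2 : ∀ᶠ w in 𝓝[≠] z, ∀ x : OnePoint (ZMod ℓ),
        ((h0 ∘ actT ℓ x) ^ n) w = (merK iotaK N f ∘ actT ℓ x) w :=
      Filter.eventually_all.2 (fun x => (hfac x).2 z hz)
    have h3 := eventuallyEq_nhdsNE_of_codiscreteWithin_U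
      (merK_norm_eventuallyEq N ℓ ℓ.2 hℓN f) hz
    filter_upwards [hself z hz, h2, h3] with w hw1 hw2 hw3
    rw [Pi.pow_apply, hw1, hw3, ← prod_actT (merK iotaK N f) w]
    show (∏ x : OnePoint (ZMod ℓ), h0 (actT ℓ x w)) ^ n = _
    rw [← Finset.prod_pow]
    exact Finset.prod_congr rfl (fun x _ => hw2 x)
  · -- the multiplier
    intro γ z hz
    refine comp_mob_eq_of_eventuallyEq hNF (γ : SL(2, ℤ)) (Units.ne_zero _) (fun z hz => ?_) z hz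
    have e1 : ∀ᶠ w in 𝓝[≠] z, toMeromorphicNFOn H U (mob (γ : SL(2, ℤ)) w)
        = H (mob (γ : SL(2, ℤ)) w) :=
      (tendsto_mob_nhdsNE (γ : SL(2, ℤ)) hz).eventually (hself _ (mob_mem_U _ hz))
    have e3 : ∀ᶠ w in 𝓝[≠] z, w ∈ U := mem_nhdsWithin_of_mem_nhds (isOpen_U.mem_nhds hz)
    filter_upwards [e1, hself z hz, e3] with w hw1 hw2 hw3
    rw [Function.comp_apply, hw1, hw2, hHmult γ w hw3]

end Kummer

end Fermat.Agent.ESJ.Jac.HeckeMer
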