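/-
ESJ / JAC-TORS — task 177 (JAC-A, helper84): `Pic⁰[n]` = Kummer classes, pure algebra on the
Prelude objects `Place / Divisor / Pic0 / Pic0.torsion / HasPrincipalDivisors`, and the packaged
`AddEquiv` lemma used by the assembly.

Built on `Jac/KummerPair.lean` and `Jac/KummerElt.lean`.
-/
import Mathlib
import Fermat.Prelude.Def_AlgebraicCurve_DivisorClassGroup
import Fermat.Agent.ESJ.Jac.Defs
import Fermat.Agent.ESJ.Jac.KummerPair
import Fermat.Agent.ESJ.Jac.KummerElt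

set_option autoImplicit false

namespace Fermat.Agent.ESJ.Jac.KummerAlg

open AlgebraicCurve

variable {K F : Type*} [Field K] [Field F] [Algebra K F]

/-- Every `n`-torsion class is `[D]` with `n • D = div f`. -/
theorem exists_rep_of_mem_torsion {n : ℕ} {x : Pic0 K F} (hx : x ∈ Pic0.torsion K F n) :
    ∃ (D : Divisor.degZero (K := K) (F := F)) (f : F), Pic0.mk D = x ∧ f ≠ 0 ∧
      ∀ v : Place K F, (n : ℤ) * (D : Divisor K F) v = v.ord f := by
  obtain ⟨f, hf, D, hD, h⟩ := exists_isKummerPair hx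
  exact ⟨D, f, hD, hf, h⟩

/-- Conversely, `[D]` is `n`-torsion as soon as `n • D = div f`. -/
theorem mk_mem_torsion {n : ℕ} (D : Divisor.degZero (K := K) (F := F)) (f : F) (hf : f ≠ 0)
    (h : ∀ v : Place K F, (n : ℤ) * (D : Divisor K F) v = v.ord f) :
    Pic0.mk D ∈ Pic0.torsion K F n :=
  IsKummerPair.mem_torsion ⟨hf, D, rfl, h⟩

/-- A representative `(D, f)` has `f` in the Kummer group. -/
theorem isKummerElt_of_rep {n : ℕ} (D : Divisor.degZero (K := K) (F := F)) (f : F) (hf : f ≠ 0)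
    (h : ∀ v : Place K F, (n : ℤ) * (D : Divisor K F) v = v.ord f) : IsKummerElt K F n f :=
  ⟨hf, fun v => ⟨_, (h v).symm⟩⟩

/-- An element of the Kummer group is `div f = n • D` for a divisor `D` of degree zero. -/
theorem exists_divisor_of_isKummerElt [HasPrincipalDivisors K F] {n : ℕ} (hn : 0 < n) {f : F}
    (hf : IsKummerElt K F n f) :
    ∃ D : Divisor.degZero (K := K) (F := F),
      ∀ v : Place K F, (n : ℤ) * (D : Divisor K F) v = v.ord f := by
  obtain ⟨x, -, D, -, h⟩ := exists_isKummerPair_of_dvd hn.ne' hf.1 hf.2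
  exact ⟨D, h⟩

set_option linter.unusedVariables false in
/-- The class `[D]` with `n • D = div f` vanishes iff `div f = n • div g` for some `g`. -/
theorem mk_eq_zero_iff {n : ℕ} (hn : 0 < n) (D : Divisor.degZero (K := K) (F := F)) (f : F)
    (hf : f ≠ 0) (h : ∀ v : Place K F, (n : ℤ) * (D : Divisor K F) v = v.ord f) :
    Pic0.mk D = 0 ↔ ∃ g : F, g ≠ 0 ∧ ∀ v : Place K F, v.ord f = (n : ℤ) * v.ord g := by
  have hn' : (n : ℤ) ≠ 0 := Int.natCast_ne_zero.mpr hn.ne'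
  rw [pic0_mk_eq_zero_iff]
  constructor
  · rintro ⟨g, hg, hD⟩
    exact ⟨g, hg, fun v => by rw [← h v, hD v]⟩
  · rintro ⟨g, hg, hfg⟩
    exact ⟨g, hg, fun v => mul_left_cancel₀ hn' ((h v).trans (hfg v))⟩

/-- Independence of the representative. -/
theorem rep_unique {n : ℕ} {C : Type*} [CommGroup C] (R : F → C → Prop)
    (huniq : ∀ f χ χ', IsKummerElt K F n f → R f χ → R f χ' → χ = χ')
    (hmul : ∀ f f' χ χ', IsKummerElt K F n f → IsKummerElt K F n f' → R f χ → R f' χ' →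
      R (f * f') (χ * χ'))
    (hpow : ∀ f g : F, f ≠ 0 → g ≠ 0 → (∀ v : Place K F, v.ord f = (n : ℤ) * v.ord g) → R f 1)
    (D D' : Divisor.degZero (K := K) (F := F)) (f f' : F) (χ χ' : C)
    (hDD : Pic0.mk D = Pic0.mk D') (hf : f ≠ 0) (hf' : f' ≠ 0)
    (h : ∀ v : Place K F, (n : ℤ) * (D : Divisor K F) v = v.ord f)
    (h' : ∀ v : Place K F, (n : ℤ) * (D' : Divisor K F) v = v.ord f')
    (hR : R f χ) (hR' : R f' χ') : χ = χ' := by
  obtain ⟨g, hg, hgD⟩ := (pic0_mk_eq_mk_iff D D').mp hDD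
  have hu : f' * f⁻¹ ≠ 0 := mul_ne_zero hf' (inv_ne_zero hf)
  have hord : ∀ v : Place K F, v.ord (f' * f⁻¹) = (n : ℤ) * v.ord g := by
    intro v
    rw [v.ord_mul hf' (inv_ne_zero hf), v.ord_inv, ← h v, ← h' v, ← hgD v, Finsupp.sub_apply]
    ring
  have hRu : R (f' * f⁻¹) 1 := hpow _ g hu hg hord
  have hKu : IsKummerElt K F n (f' * f⁻¹) := ⟨hu, fun v => ⟨_, hord v⟩⟩
  have hRf' : R (f * (f' * f⁻¹)) (χ * 1) :=
    hmul f (f' * f⁻¹) χ 1 (isKummerElt_of_rep D f hf h) hKu hR hRu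
  have e : f * (f' * f⁻¹) = f' := by field_simp
  rw [e, mul_one] at hRf'
  exact huniq f' χ χ' (isKummerElt_of_rep D' f' hf' h') hRf' hR'

/-- The Kummer map on `Pic⁰[n]` attached to a "Kummer character" relation `R`, injective form. -/
theorem exists_addMonoidHom_of_kummer {n : ℕ} (hn : 0 < n) {C : Type*} [CommGroup C]
    (R : F → C → Prop)
    (hex : ∀ f, IsKummerElt K F n f → ∃ χ, R f χ)
    (huniq : ∀ f χ χ', IsKummerElt K F n f → R f χ → R f χ' → χ = χ')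
    (hmul : ∀ f f' χ χ', IsKummerElt K F n f → IsKummerElt K F n f' → R f χ → R f' χ' →
      R (f * f') (χ * χ'))
    (hinj : ∀ f, IsKummerElt K F n f → R f 1 →
      ∃ g : F, g ≠ 0 ∧ ∀ v : Place K F, v.ord f = (n : ℤ) * v.ord g)
    (hpow : ∀ f g : F, f ≠ 0 → g ≠ 0 → (∀ v : Place K F, v.ord f = (n : ℤ) * v.ord g) → R f 1) :
    ∃ κ : Pic0.torsion K F n →+ Additive C, Function.Injective κ ∧
      ∀ (x : Pic0.torsion K F n) (D : Divisor.degZero (K := K) (F := F)) (f : F) (χ : C),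
        Pic0.mk D = (x : Pic0 K F) → f ≠ 0 →
        (∀ v : Place K F, (n : ℤ) * (D : Divisor K F) v = v.ord f) → R f χ →
        κ x = Additive.ofMul χ := by
  have hrep : ∀ x : Pic0.torsion K F n, ∃ χ : C, ∃ (D : Divisor.degZero (K := K) (F := F))
      (f : F), Pic0.mk D = (x : Pic0 K F) ∧ f ≠ 0 ∧
      (∀ v : Place K F, (n : ℤ) * (D : Divisor K F) v = v.ord f) ∧ R f χ := by
    intro x
    obtain ⟨D, f, hD, hf, h⟩ := exists_rep_of_mem_torsion x.2
    obtain ⟨χ, hχ⟩ := hex f (isKummerElt_of_rep D f hf h)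
    exact ⟨χ, D, f, hD, hf, h, hχ⟩
  choose κ₀ hκ₀ using hrep
  have hformula : ∀ (x : Pic0.torsion K F n) (D : Divisor.degZero (K := K) (F := F)) (f : F)
      (χ : C), Pic0.mk D = (x : Pic0 K F) → f ≠ 0 →
      (∀ v : Place K F, (n : ℤ) * (D : Divisor K F) v = v.ord f) → R f χ → κ₀ x = χ := by
    intro x D f χ hD hf h hR
    obtain ⟨D₀, f₀, hD₀, hf₀, h₀, hR₀⟩ := hκ₀ x
    exact rep_unique R huniq hmul hpow D₀ D f₀ f (κ₀ x) χ (hD₀.trans hD.symm) hf₀ hf h₀ h hR₀ hR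
  have hadd : ∀ x y : Pic0.torsion K F n, κ₀ (x + y) = κ₀ x * κ₀ y := by
    intro x y
    obtain ⟨D, f, hD, hf, h, hR⟩ := hκ₀ x
    obtain ⟨D', f', hD', hf', h', hR'⟩ := hκ₀ y
    refine hformula (x + y) (D + D') (f * f') _ ?_ (mul_ne_zero hf hf') ?_
      (hmul f f' _ _ (isKummerElt_of_rep D f hf h) (isKummerElt_of_rep D' f' hf' h') hR hR')
    · rw [Pic0.mk_add, hD, hD']
      rfl
    · intro v
      rw [v.ord_mul hf hf', ← h v, ← h' v, AddSubgroup.coe_add, Finsupp.add_apply, mul_add]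
  let κ : Pic0.torsion K F n →+ Additive C :=
    AddMonoidHom.mk' (fun x => Additive.ofMul (κ₀ x)) (fun x y => by
      show Additive.ofMul (κ₀ (x + y)) = Additive.ofMul (κ₀ x) + Additive.ofMul (κ₀ y)
      rw [hadd, ofMul_mul])
  refine ⟨κ, ?_, fun x D f χ hD hf h hR => congrArg Additive.ofMul (hformula x D f χ hD hf h hR)⟩
  rw [injective_iff_map_eq_zero]
  intro x hx
  have hx1 : κ₀ x = 1 := by
    have : Additive.ofMul (κ₀ x) = 0 := hx
    exact this
  obtain ⟨D, f, hD, hf, h, hR⟩ := hκ₀ x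
  rw [hx1] at hR
  have h0 : Pic0.mk D = 0 :=
    (mk_eq_zero_iff hn D f hf h).mpr (hinj f (isKummerElt_of_rep D f hf h) hR)
  exact Subtype.ext (hD.symm.trans h0)

/-- THE PACKAGED FORM used by the assembly (`R f χ` = "`χ` is the Kummer character of `f`"):
the Kummer isomorphism `Pic⁰[n] ≃ C`. -/
theorem exists_addEquiv_of_kummer [HasPrincipalDivisors K F] {n : ℕ} (hn : 0 < n)
    {C : Type*} [CommGroup C] (R : F → C → Prop)
    (hex : ∀ f, IsKummerElt K F n f → ∃ χ, R f χ)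
    (huniq : ∀ f χ χ', IsKummerElt K F n f → R f χ → R f χ' → χ = χ')
    (hmul : ∀ f f' χ χ', IsKummerElt K F n f → IsKummerElt K F n f' → R f χ → R f' χ' →
      R (f * f') (χ * χ'))
    (hinj : ∀ f, IsKummerElt K F n f → R f 1 →
      ∃ g : F, g ≠ 0 ∧ ∀ v : Place K F, v.ord f = (n : ℤ) * v.ord g)
    (hpow : ∀ f g : F, f ≠ 0 → g ≠ 0 → (∀ v : Place K F, v.ord f = (n : ℤ) * v.ord g) → R f 1)
    (hsurj : ∀ χ : C, ∃ f, IsKummerElt K F n f ∧ R f χ) :
    ∃ κ : Pic0.torsion K F n ≃+ Additive C,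
      ∀ (x : Pic0.torsion K F n) (D : Divisor.degZero (K := K) (F := F)) (f : F) (χ : C),
        Pic0.mk D = (x : Pic0 K F) → f ≠ 0 →
        (∀ v : Place K F, (n : ℤ) * (D : Divisor K F) v = v.ord f) → R f χ →
        κ x = Additive.ofMul χ := by
  obtain ⟨κ, hκinj, hκ⟩ := exists_addMonoidHom_of_kummer hn R hex huniq hmul hinj hpow
  have hκsurj : Function.Surjective κ := by
    intro c
    obtain ⟨f, hKf, hR⟩ := hsurj c.toMul
    obtain ⟨D, h⟩ := exists_divisor_of_isKummerElt hn hKf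
    exact ⟨⟨Pic0.mk D, mk_mem_torsion D f hKf.1 h⟩, hκ _ D f c.toMul rfl hKf.1 h hR⟩
  exact ⟨AddEquiv.ofBijective κ ⟨hκinj, hκsurj⟩, hκ⟩

end Fermat.Agent.ESJ.Jac.KummerAlg
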