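/-
ESJ / JAC-TORS (helper92) — the FINAL ASSEMBLY, abstract in the "Kummer character" relation.

`R n f χ` stands for "`χ : Γ₀(N) → ℂˣ` is the Kummer character of exponent `n` of the function
`f ∈ F = ℚ̄(X₀(N))`" (the multiplier of an `n`-th root of `f` on the upper half plane).  The
assembly only uses the formal properties listed in `KummerInj` / `KummerSystem`; they are proved
elsewhere for `R n f χ := IsKummerChar iotaK N n f χ` (meromorphic form) or for the pair form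
`S24.Kum.KumRel N n f χ`.

Exports:
* `torsionFinite_of_kummerInj` : `J₀(N)[n]` is finite (`TorsionFinite N n`);
* `kummerCmp_of_kummerSystem`  : `Rep.KummerCmp N p` — the compatible, Hecke-equivariant family
  of Kummer isomorphisms `J₀(N)[pᵏ] ≃ Hom_pe(Γ₀(N), ℤ/pᵏ)`.
-/
import Mathlib
import Fermat.Agent.ESJ.Interfaces
import Fermat.Agent.ESJ.HeckeInputs
import Fermat.Agent.ESJ.Jac.Defs
import Fermat.Agent.ESJ.Jac.KummerPair
import Fermat.Agent.ESJ.Jac.KummerElt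
import Fermat.Agent.ESJ.Jac.KummerAlg
import Fermat.Agent.ESJ.Jac.HeckeKummer
import Fermat.Agent.ESJ.ParHom.Torsion
import Fermat.Agent.ESJ.Rep.TateCore

set_option autoImplicit false
set_option linter.style.haveILetI false

open CongruenceSubgroup ModularCurve AlgebraicCurve
open scoped MatrixGroups

noncomputable section

namespace Fermat.Agent.ESJ.Jac

open Fermat.Agent.S24 Fermat.Agent.ESJ.ParHom

/-- The formal properties of the Kummer-character relation of exponent `n` which give an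
INJECTIVE homomorphism `J₀(N)[n] → {PE characters of exponent n}`. -/
structure KummerInj (N : ℕ) [NeZero N] (n : ℕ) (R : FN N → (Gamma0 N →* ℂˣ) → Prop) : Prop where
  ex : ∀ f, IsKummerElt KQ (FN N) n f → ∃ χ, R f χ
  uniq : ∀ f χ χ', IsKummerElt KQ (FN N) n f → R f χ → R f χ' → χ = χ'
  mul : ∀ f f' χ χ', IsKummerElt KQ (FN N) n f → IsKummerElt KQ (FN N) n f' → R f χ → R f' χ' →
    R (f * f') (χ * χ')
  isPE : ∀ f χ, IsKummerElt KQ (FN N) n f → R f χ → IsPEChar (Gamma0 N) n χ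
  inj : ∀ f, IsKummerElt KQ (FN N) n f → R f 1 →
    ∃ g : FN N, g ≠ 0 ∧ ∀ v : Place KQ (FN N), v.ord f = (n : ℤ) * v.ord g
  pow : ∀ f g : FN N, f ≠ 0 → g ≠ 0 → (∀ v : Place KQ (FN N), v.ord f = (n : ℤ) * v.ord g) →
    R f 1

/-- The formal properties of the family of Kummer-character relations which give the compatible,
Hecke-equivariant family of Kummer isomorphisms. -/
structure KummerSystem (N : ℕ) [NeZero N] (R : ℕ → FN N → (Gamma0 N →* ℂˣ) → Prop) : Prop where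
  core : ∀ n, 0 < n → KummerInj N n (R n)
  surj : ∀ n, 0 < n → ∀ χ, IsPEChar (Gamma0 N) n χ → ∃ f, IsKummerElt KQ (FN N) n f ∧ R n f χ
  level : ∀ n m, 0 < n → 0 < m → ∀ f χ, IsKummerElt KQ (FN N) (n * m) f → R (n * m) f χ →
    R n f (χ ^ m)
  hecke : ∀ n, 0 < n → ∀ ℓ : Nat.Primes, ¬ (ℓ : ℕ) ∣ N → ∀ f χ χ',
    IsKummerElt KQ (FN N) n f → R n f χ →
    MonoidHom.toAdditive χ' = heckeCoh N ℓ (MonoidHom.toAdditive χ) →
    haveI : NeZero (ℓ : ℕ) := ⟨ℓ.2.ne_zero⟩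
    R n (HeckeKummer.normAlong (heckeAlphaBar (AlgebraicClosure ℚ) N ℓ)
      (heckeBetaBar (AlgebraicClosure ℚ) N ℓ f)) χ'

variable {N : ℕ} [NeZero N]

section Inj

variable {n : ℕ} {R : FN N → (Gamma0 N →* ℂˣ) → Prop}

/-- The injective Kummer homomorphism, with values in `Hom_pe(Γ₀(N), ℤ/n)`, characterised by:
the character of `κ x` is the `R`-character of any Kummer function of `x`. -/
theorem exists_kummerHom (h : KummerInj N n R) (hn : 0 < n) :
    haveI : NeZero n := ⟨hn.ne'⟩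
    ∃ κ : Pic0.torsion KQ (FN N) n →+ peHoms (Gamma0 N) ℤ (ZMod n), Function.Injective κ ∧
      ∀ (x : Pic0.torsion KQ (FN N) n) (f : FN N) (χ : Gamma0 N →* ℂˣ),
        IsKummerPair n (x : Pic0 KQ (FN N)) f → R f χ →
        peChar (Gamma0 N) n (κ x : Additive (Gamma0 N) →+ ZMod n) = χ := by
  haveI : NeZero n := ⟨hn.ne'⟩
  obtain ⟨κ, hκinj, hκ⟩ := KummerAlg.exists_addMonoidHom_of_kummer (K := KQ) (F := FN N) hn
    (C := peCharSub (Gamma0 N) n) (fun f c => R f (c : Gamma0 N →* ℂˣ))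
    (fun f hf => by
      obtain ⟨χ, hχ⟩ := h.ex f hf
      exact ⟨⟨χ, h.isPE f χ hf hχ⟩, hχ⟩)
    (fun f c c' hf hc hc' => Subtype.ext (h.uniq f _ _ hf hc hc'))
    (fun f f' c c' hf hf' hc hc' => h.mul f f' _ _ hf hf' hc hc')
    (fun f hf h1 => h.inj f hf h1)
    (fun f g hf hg hfg => h.pow f g hf hg hfg)
  refine ⟨(peCharEquiv (Gamma0 N) n).symm.toAddMonoidHom.comp κ,
    (peCharEquiv (Gamma0 N) n).symm.injective.comp hκinj, ?_⟩
  intro x f χ hpair hR
  obtain ⟨hf, D, hD, hDf⟩ := hpair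
  have hel : IsKummerElt KQ (FN N) n f := ⟨hf, fun v => ⟨_, (hDf v).symm⟩⟩
  have h1 := hκ x D f ⟨χ, h.isPE f χ hel hR⟩ hD hf hDf hR
  have h2 : peCharEquiv (Gamma0 N) n ((peCharEquiv (Gamma0 N) n).symm (κ x)) = κ x :=
    AddEquiv.apply_symm_apply _ _
  have h3 := coe_peCharEquiv_apply (Gamma0 N) n ((peCharEquiv (Gamma0 N) n).symm (κ x))
  rw [h2] at h3
  show peChar (Gamma0 N) n (((peCharEquiv (Gamma0 N) n).symm (κ x) :
    peHoms (Gamma0 N) ℤ (ZMod n)) : Additive (Gamma0 N) →+ ZMod n) = χ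
  rw [← h3, h1]
  rfl

/-- **J1**: the `n`-torsion of `J₀(N)` is finite. -/
theorem torsionFinite_of_kummerInj (h : KummerInj N n R) (hn : 0 < n) : TorsionFinite N n := by
  haveI : NeZero n := ⟨hn.ne'⟩
  obtain ⟨κ, hκ, -⟩ := exists_kummerHom h hn
  haveI : Finite (peHoms (Gamma0 N) ℤ (ZMod n)) := by
    apply Nat.finite_of_card_ne_zero
    rw [card_peHoms_zmod']
    exact pow_ne_zero _ hn.ne'
  haveI : Finite (Pic0.torsion KQ (FN N) n) := Finite.of_injective κ hκ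
  exact Set.toFinite _

end Inj

section Equiv

variable {R : ℕ → FN N → (Gamma0 N →* ℂˣ) → Prop}

/-- The Kummer isomorphism of exponent `n`. -/
theorem exists_kummerEquiv (h : KummerSystem N R) {n : ℕ} (hn : 0 < n) :
    haveI : NeZero n := ⟨hn.ne'⟩
    ∃ κ : Pic0.torsion KQ (FN N) n ≃+ peHoms (Gamma0 N) ℤ (ZMod n),
      ∀ (x : Pic0.torsion KQ (FN N) n) (f : FN N) (χ : Gamma0 N →* ℂˣ),
        IsKummerPair n (x : Pic0 KQ (FN N)) f → R n f χ →
        peChar (Gamma0 N) n (κ x : Additive (Gamma0 N) →+ ZMod n) = χ := by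
  haveI : NeZero n := ⟨hn.ne'⟩
  haveI : HasPrincipalDivisors KQ (FN N) :=
    Fermat.Agent.ESJ.HeckeInputs.hasPrincipalDivisors_bar N
  obtain ⟨κ, hκinj, hκ⟩ := exists_kummerHom (h.core n hn) hn
  have hsurj : Function.Surjective κ := by
    intro φ
    obtain ⟨f, hf, hR⟩ := h.surj n hn (peChar (Gamma0 N) n (φ : Additive (Gamma0 N) →+ ZMod n))
      (isPEChar_peChar (Gamma0 N) n φ.2)
    obtain ⟨x, hx⟩ := exists_isKummerPair_of_dvd hn.ne' hf.1 hf.2
    refine ⟨⟨x, hx.mem_torsion⟩, ?_⟩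
    apply Subtype.ext
    apply peChar_injective (Gamma0 N) n
    exact hκ ⟨x, hx.mem_torsion⟩ f _ hx hR
  exact ⟨AddEquiv.ofBijective κ ⟨hκinj, hsurj⟩, hκ⟩

/-- **JAC-H**: the compatible, Hecke-equivariant family of Kummer isomorphisms
`J₀(N)[pᵏ] ≃ Hom_pe(Γ₀(N), ℤ/pᵏ)`. -/
theorem kummerCmp_of_kummerSystem (h : KummerSystem N R) {p : ℕ} (hp : 0 < p) :
    Rep.KummerCmp N p := by
  have hpn : ∀ n : ℕ, 0 < p ^ n := fun n => pow_pos hp n
  haveI : ∀ n : ℕ, NeZero (p ^ n) := fun n => ⟨(hpn n).ne'⟩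
  choose κ hκ using fun n : ℕ => exists_kummerEquiv h (hpn n)
  refine ⟨κ, ?_, ?_⟩
  · intro n x hx hx' γ
    obtain ⟨f, hf⟩ := exists_isKummerPair hx
    obtain ⟨χ, hχ⟩ := (h.core _ (hpn (n + 1))).ex f hf.isKummerElt
    have h1 := hκ (n + 1) ⟨x, hx⟩ f χ hf hχ
    have hf' : IsKummerPair (p ^ n * p) x f := by
      rw [← pow_succ]
      exact hf
    have hχ' : R (p ^ n * p) f χ := by
      rw [← pow_succ]
      exact hχ
    have h2 := hκ n ⟨p • x, hx'⟩ f (χ ^ p) hf'.of_mul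
      (h.level (p ^ n) p (hpn n) hp f χ hf'.isKummerElt hχ')
    have hdiv : p ^ (n + 1) / p ^ n = p := by
      rw [pow_succ]
      exact Nat.mul_div_cancel_left p (hpn n)
    have h3 := peChar_castHom (Gamma0 N) (pow_dvd_pow p n.le_succ)
      (κ (n + 1) ⟨x, hx⟩ : Additive (Gamma0 N) →+ ZMod (p ^ (n + 1)))
    rw [h1, hdiv, ← h2] at h3
    have h4 := peChar_injective (Gamma0 N) (p ^ n) h3
    exact (DFunLike.congr_fun h4 γ).symm
  · intro n ℓ hℓN x hx hx'
    haveI : NeZero (ℓ : ℕ) := ⟨ℓ.2.ne_zero⟩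
    obtain ⟨f, hf⟩ := exists_isKummerPair hx
    obtain ⟨χ, hχ⟩ := (h.core _ (hpn n)).ex f hf.isKummerElt
    have h1 := hκ n ⟨x, hx⟩ f χ hf hχ
    have hT := HeckeKummer.isKummerPair_heckeOperatorBar N ℓ hf
    have hχ' := h.hecke (p ^ n) (hpn n) ℓ hℓN f χ
      (MonoidHom.toAdditive.symm (heckeCoh N ℓ (MonoidHom.toAdditive χ))) hf.isKummerElt hχ
      (Equiv.apply_symm_apply _ _)
    have h2 := hκ n ⟨heckeOperatorBar N ℓ x, hx'⟩ _ _ hT hχ'
    apply Subtype.ext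
    apply peChar_injective (Gamma0 N) (p ^ n)
    rw [h2, coe_heckePE_apply]
    apply MonoidHom.toAdditive.injective
    rw [Equiv.apply_symm_apply, toAdditive_peChar_heckeCoh, h1]

end Equiv

end Fermat.Agent.ESJ.Jac
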