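/-
ESJ / JAC-TORS (helper92) — the Kummer system for the meromorphic Kummer-character relation
`R n f χ := IsKummerChar iotaK N n f χ`.

Fields and their sources:
* `ex / uniq / mul / isPE` : `Jac/Kummer.lean` (helper38) with the dictionary over `ℚ̄`;
* `inj`                    : `Jac/Gal.lean` (helper45, helper79, helper76, helper93);
* `level`                  : `Jac/Multiplier.lean` (helper79);
* `hecke`                  : `Jac/HeckeMer.lean` (helper14);
* `pow`                    : `Jac/Const.lean` (helper35);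
* `surj`                   : a hypothesis here (`Jac/Surj.lean`).

Compiled, fixed and extended by helper73 (task 248): `kummerInj` (hypothesis-free),
`kummerSystem_of_surj`, `kummerCmp_of_surj`.
-/
import Mathlib
import Fermat.Agent.ESJ.Jac.System
import Fermat.Agent.ESJ.Jac.Kummer
import Fermat.Agent.ESJ.Jac.Gal
import Fermat.Agent.ESJ.Jac.HeckeMer
import Fermat.Agent.ESJ.Jac.Const
import Fermat.Agent.ESJ.Dict.Main

set_option autoImplicit false

open CongruenceSubgroup ModularCurve AlgebraicCurve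
open scoped MatrixGroups

noncomputable section

namespace Fermat.Agent.ESJ.Jac

open Fermat.Agent.S24 Fermat.Agent.ESJ.ParHom Fermat.Agent.ESJ.Dict

variable (N : ℕ) [NeZero N]

/-- Compatibility in the exponent: the character of exponent `n` is the `m`-th power of the
character of exponent `n * m`. -/
theorem IsKummerChar.of_mul_level {K : Type} [Field K] [Algebra ℚ K] {ι : K →+* ℂ} {N : ℕ}
    [NeZero N] {n m : ℕ} {f : FNK K N} {χ : Gamma0 N →* ℂˣ}
    (h : IsKummerChar ι N (n * m) f χ) : IsKummerChar ι N n f (χ ^ m) := by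
  obtain ⟨h₁, hr, hm⟩ := h
  exact ⟨h₁ ^ m, isRootOn_pow_root hr, hm.pow_root m⟩

/-- The injective part of the Kummer system, given the field `pow`. -/
theorem kummerInj_isKummerChar {n : ℕ} (hn : 0 < n)
    (hpow : ∀ f g : FN N, f ≠ 0 → g ≠ 0 →
      (∀ v : Place KQ (FN N), v.ord f = (n : ℤ) * v.ord g) → IsKummerChar iotaK N n f 1) :
    KummerInj N n (fun f χ => IsKummerChar iotaK N n f χ) where
  ex f hf := exists_isKummerChar (isDict_Qbar N) hn hf
  uniq f χ χ' hf h h' := IsKummerChar.unique (isDict_Qbar N) hn hf.1 h h'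
  mul f f' χ χ' _ _ h h' := IsKummerChar.mul (isDict_Qbar N) hn h h'
  isPE f χ hf h := IsKummerChar.isPEChar (isDict_Qbar N) hn hf h
  inj f hf h := by
    obtain ⟨g, rfl⟩ := exists_pow_eq_of_isKummerChar_one_of_isDict (isDict_C N) hn h
    have hg : g ≠ 0 := by
      rintro rfl
      exact hf.1 (zero_pow hn.ne')
    exact ⟨g, hg, fun v => ord_pow v g n⟩
  pow := hpow

/-- The Kummer system for `IsKummerChar`, given the fields `pow` and `surj`. -/
theorem kummerSystem_isKummerChar
    (hpow : ∀ n : ℕ, 0 < n → ∀ f g : FN N, f ≠ 0 → g ≠ 0 →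
      (∀ v : Place KQ (FN N), v.ord f = (n : ℤ) * v.ord g) → IsKummerChar iotaK N n f 1)
    (hsurj : ∀ n : ℕ, 0 < n → ∀ χ : Gamma0 N →* ℂˣ, IsPEChar (Gamma0 N) n χ →
      ∃ f : FN N, IsKummerElt KQ (FN N) n f ∧ IsKummerChar iotaK N n f χ) :
    KummerSystem N (fun n f χ => IsKummerChar iotaK N n f χ) where
  core n hn := kummerInj_isKummerChar N hn (hpow n hn)
  surj := hsurj
  level n m _ _ f χ _ h := h.of_mul_level
  hecke n _ ℓ hℓN f χ χ' _ h hχ' := by
    have e : χ' = HeckeMer.heckeChar N ℓ χ := by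
      apply MonoidHom.toAdditive.injective
      rw [hχ', HeckeMer.toAdditive_heckeChar]
    rw [e]
    exact HeckeMer.isKummerChar_norm N ℓ hℓN h

/-- The field `pow` (helper35's `Jac/Const.lean`). -/
theorem isKummerChar_one_of_ord_eq_Qbar {n : ℕ} (hn : 0 < n) (f g : FN N) (hf : f ≠ 0)
    (hg : g ≠ 0) (h : ∀ v : Place KQ (FN N), v.ord f = (n : ℤ) * v.ord g) :
    IsKummerChar iotaK N n f 1 :=
  isKummerChar_one_of_ord_eq (isDict_Qbar N) hn hf hg h

/-- The injective part of the Kummer system for `IsKummerChar`, hypothesis-free. -/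
theorem kummerInj {n : ℕ} (hn : 0 < n) :
    KummerInj N n (fun f χ => IsKummerChar iotaK N n f χ) :=
  kummerInj_isKummerChar N hn (isKummerChar_one_of_ord_eq_Qbar N hn)

/-- The Kummer system for `IsKummerChar`, given only the field `surj`. -/
theorem kummerSystem_of_surj
    (hsurj : ∀ n : ℕ, 0 < n → ∀ χ : Gamma0 N →* ℂˣ, IsPEChar (Gamma0 N) n χ →
      ∃ f : FN N, IsKummerElt KQ (FN N) n f ∧ IsKummerChar iotaK N n f χ) :
    KummerSystem N (fun n f χ => IsKummerChar iotaK N n f χ) :=
  kummerSystem_isKummerChar N (fun _ hn => isKummerChar_one_of_ord_eq_Qbar N hn) hsurj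

/-- **JAC-H** given only the field `surj`. -/
theorem kummerCmp_of_surj
    (hsurj : ∀ n : ℕ, 0 < n → ∀ χ : Gamma0 N →* ℂˣ, IsPEChar (Gamma0 N) n χ →
      ∃ f : FN N, IsKummerElt KQ (FN N) n f ∧ IsKummerChar iotaK N n f χ)
    {p : ℕ} (hp : 0 < p) : Rep.KummerCmp N p :=
  kummerCmp_of_kummerSystem (kummerSystem_of_surj N hsurj) hp

end Fermat.Agent.ESJ.Jac
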