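/-
ESJ / JAC-TORS — the interface theorems of the layer (helper99's `ESJ/Interfaces.lean`),
assembled by helper73 (task 248) from helper92's `Jac/System.lean`, `Jac/SystemMer.lean`,
helper27's `Jac/Surj.lean`, helper35's `Jac/FiniteLevel.lean`, `Jac/OfKummerCmp.lean`,
`Jac/EigenFunctionalPE.lean`.  ALL HYPOTHESIS-FREE:

* `torsionFinite`       (J1) : `J₀(N)[n]` is finite, for every `n > 0`;
* `torsionFiniteLevel`  (J2) : the Galois action on `J₀(N)[n]` has finite level;
* `kummerSystem`             : the Kummer system for `IsKummerChar`;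
* `kummerCmp`        (JAC-H) : `Rep.KummerCmp N p` — the compatible, Hecke-equivariant family
                               of Kummer isomorphisms `J₀(N)[pᵏ] ≃ Hom_pe(Γ₀(N), ℤ/pᵏ)`;
* `eigenFunctionalModP` (J3) : `EigenFunctionalModP N p`.
-/
import Mathlib
import Fermat.Agent.ESJ.Jac.SystemMer
import Fermat.Agent.ESJ.Jac.OfKummerCmp
import Fermat.Agent.ESJ.Jac.Surj

set_option autoImplicit false

open CongruenceSubgroup ModularCurve AlgebraicCurve
open scoped MatrixGroups

namespace Fermat.Agent.ESJ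

open Fermat.Agent.S24 Fermat.Agent.ESJ.ParHom Fermat.Agent.ESJ.Jac

/-- **J1**: the `n`-torsion of `J₀(N)` is finite. -/
theorem torsionFinite (N n : ℕ) [NeZero N] (hn : 0 < n) : TorsionFinite N n :=
  Jac.torsionFinite_of_kummerInj (Jac.kummerInj N hn) hn

/-- **J2**: the Galois action on the `n`-torsion of `J₀(N)` factors through a finite
extension of `ℚ`. -/
theorem torsionFiniteLevel (N n : ℕ) [NeZero N] (hn : 0 < n) : TorsionFiniteLevel N n :=
  Jac.FiniteLevel.torsionFiniteLevel_of_torsionFinite N n (torsionFinite N n hn)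

/-- **JAC-H** given the surjectivity of the Kummer map. -/
theorem kummerCmp_of_surj (N : ℕ) [NeZero N]
    (hsurj : ∀ n : ℕ, 0 < n → ∀ χ : Gamma0 N →* ℂˣ, IsPEChar (Gamma0 N) n χ →
      ∃ f : FN N, IsKummerElt KQ (FN N) n f ∧ IsKummerChar iotaK N n f χ)
    {p : ℕ} (hp : 0 < p) : Rep.KummerCmp N p :=
  Jac.kummerCmp_of_surj N hsurj hp

/-- **J3** given the surjectivity of the Kummer map. -/
theorem eigenFunctionalModP_of_surj (N : ℕ) [NeZero N]
    (hsurj : ∀ n : ℕ, 0 < n → ∀ χ : Gamma0 N →* ℂˣ, IsPEChar (Gamma0 N) n χ →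
      ∃ f : FN N, IsKummerElt KQ (FN N) n f ∧ IsKummerChar iotaK N n f χ)
    {p : ℕ} (hp : 0 < p) : EigenFunctionalModP N p :=
  eigenFunctionalModP_of_kummerCmp N p (kummerCmp_of_surj N hsurj hp)

/-- The Kummer system for the meromorphic Kummer-character relation, hypothesis-free. -/
theorem kummerSystem (N : ℕ) [NeZero N] :
    Jac.KummerSystem N (fun n f χ => IsKummerChar iotaK N n f χ) :=
  Jac.kummerSystem_of_surj N (fun _ hn χ hχ => Jac.exists_isKummerChar_of_isPEChar N hn χ hχ)

/-- **JAC-H**: the compatible, Hecke-equivariant family of Kummer isomorphisms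
`J₀(N)[pᵏ] ≃ Hom_pe(Γ₀(N), ℤ/pᵏ)`. -/
theorem kummerCmp (N p : ℕ) [NeZero N] (hp : 0 < p) : Rep.KummerCmp N p :=
  Jac.kummerCmp_of_kummerSystem (kummerSystem N) hp

/-- **J3**: every normalized eigenform has a nonzero eigen-functional on `J₀(N)[p]`. -/
theorem eigenFunctionalModP (N p : ℕ) [NeZero N] (hp : p.Prime) : EigenFunctionalModP N p :=
  eigenFunctionalModP_of_kummerCmp N p (kummerCmp N p hp.pos)

end Fermat.Agent.ESJ
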