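import Mathlib
import Fermat.Agent.S24.ModDefs
import Fermat.Agent.S24C.ModDefs
import Fermat.Agent.Lib.Descent.Laurent

/-!
# JAC-BRIDGE, base part: the base change `ℚ̄ → ℂ` of the modular function field

`bc N : S24.FN N →+* S24C.FN N`, `x ↦ coeffMap iotaK x` (coefficientwise embedding of Laurent
series), its compatibility with the formal and the analytic evaluation of polynomials in the
generators, and the two descent statements

* `exists_bc_eq` : an element of `F_ℂ` whose Laurent coefficients are algebraic comes from `F`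
  (linear disjointness);
* `exists_bc_eq_of_pow_eq` : an `n`-th root in `F_ℂ` of an element of `F` comes from `F`.
-/

set_option autoImplicit false

open UpperHalfPlane
open scoped MatrixGroups

noncomputable section

namespace Fermat.Agent.ESJ.Jac.Bridge

open ModularCurve Fermat.Agent Fermat.Agent.Lib.Descent

/-- The embedding `ℚ̄ → ℂ` as an algebra structure (local to this file's proofs). -/
@[reducible] def algKQ : Algebra S24.KQ ℂ := S24.iotaK.toAlgebra

theorem coeffMap_iotaK_mem {N : ℕ} {x : LaurentSeries S24.KQ}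
    (hx : x ∈ modularFunctionFieldBar N) :
    coeffMap S24.iotaK x ∈ S24C.modularFunctionFieldC N := by
  let _ : Algebra S24.KQ ℂ := algKQ
  exact coeffMap_mem_laurentBaseChange_of_mem (K := S24.KQ) (Ω := ℂ) _ hx

theorem mem_of_coeffMap_iotaK_mem {N : ℕ} {x : LaurentSeries S24.KQ}
    (hx : coeffMap S24.iotaK x ∈ S24C.modularFunctionFieldC N) :
    x ∈ modularFunctionFieldBar N := by
  let _ : Algebra S24.KQ ℂ := algKQ
  exact mem_laurentBaseChange_of_coeffMap_mem (K := S24.KQ) (Ω := ℂ) _ hx

/-- The base change `F = ℚ̄(j(q^d)) → F_ℂ = ℂ(j(q^d))`: coefficientwise embedding. -/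
def bc (N : ℕ) [NeZero N] : S24.FN N →+* S24C.FN N where
  toFun x := ⟨coeffMap S24.iotaK (x : LaurentSeries S24.KQ), coeffMap_iotaK_mem x.2⟩
  map_one' := Subtype.ext (by simp)
  map_mul' x y := Subtype.ext (by simp)
  map_zero' := Subtype.ext (by simp)
  map_add' x y := Subtype.ext (by simp)

variable {N : ℕ} [NeZero N]

theorem bc_coe (f : S24.FN N) :
    ((bc N f : S24C.FN N) : LaurentSeries ℂ) = coeffMap S24.iotaK (f : LaurentSeries S24.KQ) :=
  rfl

theorem bc_injective : Function.Injective (bc N) := (bc N).injective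

theorem bc_eq_zero_iff (f : S24.FN N) : bc N f = 0 ↔ f = 0 :=
  map_eq_zero_iff _ bc_injective

theorem bc_algebraMap (c : S24.KQ) :
    bc N (algebraMap S24.KQ (S24.FN N) c) = algebraMap ℂ (S24C.FN N) (S24.iotaK c) := by
  apply Subtype.ext
  rw [bc_coe]
  show coeffMap S24.iotaK (algebraMap S24.KQ (LaurentSeries S24.KQ) c)
    = algebraMap ℂ (LaurentSeries ℂ) (S24.iotaK c)
  rw [LaurentSeries.algebraMap_apply, coeffMap_C, ← LaurentSeries.algebraMap_apply]

theorem bc_jFormal (d : S24.Dv N) : bc N (S24.jFormal N d) = S24C.jFormal N d := by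
  let _ : Algebra S24.KQ ℂ := algKQ
  apply Subtype.ext
  rw [bc_coe]
  exact coeffMap_coeffEmb_eq (K := S24.KQ) (Ω := ℂ) _

/-- Base change commutes with the formal evaluation of polynomials in the generators. -/
theorem bc_fm (P : MvPolynomial (S24.Dv N) S24.KQ) :
    bc N (S24.fm N P) = S24C.fm N (P.map S24.iotaK) := by
  have h : (bc N).comp (S24.fm N : MvPolynomial (S24.Dv N) S24.KQ →+* S24.FN N)
      = (S24C.fm N : MvPolynomial (S24.Dv N) ℂ →+* S24C.FN N).comp
          (MvPolynomial.map S24.iotaK) := by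
    apply MvPolynomial.ringHom_ext
    · intro c
      simp only [RingHom.comp_apply, RingHom.coe_coe, MvPolynomial.map_C]
      rw [S24.fm, S24C.fm, MvPolynomial.aeval_C, MvPolynomial.aeval_C]
      exact bc_algebraMap c
    · intro d
      simp only [RingHom.comp_apply, RingHom.coe_coe, MvPolynomial.map_X]
      rw [S24.fm, S24C.fm, MvPolynomial.aeval_X, MvPolynomial.aeval_X]
      exact bc_jFormal d
  exact congrArg (fun φ : MvPolynomial (S24.Dv N) S24.KQ →+* S24C.FN N => φ P) h

omit [NeZero N] in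
/-- The analytic evaluation does not see the base change. -/
theorem ev_map (P : MvPolynomial (S24.Dv N) S24.KQ) :
    S24C.ev N (P.map S24.iotaK) = S24.ev N P := by
  rw [S24C.ev, S24.ev, MvPolynomial.coe_eval₂Hom, MvPolynomial.coe_eval₂Hom,
    MvPolynomial.eval₂_map]
  rfl

/-- Representatives base-change. -/
theorem isRep_bc {f : S24.FN N} {P Q : MvPolynomial (S24.Dv N) S24.KQ} (h : S24.IsRep N f P Q) :
    S24C.IsRep N (bc N f) (P.map S24.iotaK) (Q.map S24.iotaK) := by
  refine ⟨?_, ?_⟩
  · rw [← bc_fm]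
    exact fun h0 => h.1 ((bc_eq_zero_iff _).mp h0)
  · rw [← bc_fm, ← bc_fm, ← map_div₀, ← h.2]

/-- An element of `F_ℂ` with algebraic Laurent coefficients comes from `F`. -/
theorem exists_bc_eq (y : S24C.FN N)
    (h : (y : LaurentSeries ℂ) ∈ Set.range (coeffMap S24.iotaK)) :
    ∃ f : S24.FN N, bc N f = y := by
  obtain ⟨x, hx⟩ := h
  have hmem : x ∈ modularFunctionFieldBar N := by
    apply mem_of_coeffMap_iotaK_mem
    rw [hx]
    exact y.2
  exact ⟨⟨x, hmem⟩, Subtype.ext hx⟩

/-- An `n`-th root in `F_ℂ` of (the base change of) an element of `F` comes from `F`. -/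
theorem exists_bc_eq_of_pow_eq {n : ℕ} (hn : 0 < n) (f : S24.FN N) (g' : S24C.FN N)
    (h : bc N f = g' ^ n) : ∃ g : S24.FN N, bc N g = g' ∧ f = g ^ n := by
  let _ : Algebra S24.KQ ℂ := algKQ
  have h1 : (g' : LaurentSeries ℂ) ^ n = coeffMap S24.iotaK (f : LaurentSeries S24.KQ) := by
    have := congrArg (fun y : S24C.FN N => (y : LaurentSeries ℂ)) h
    simpa [bc_coe] using this.symm
  have hnK : ((n : ℕ) : S24.KQ) ≠ 0 := Nat.cast_ne_zero.mpr hn.ne'
  have h2 : (g' : LaurentSeries ℂ) ∈ Set.range (coeffMap S24.iotaK) :=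
    mem_range_coeffMap_of_pow_eq (K := S24.KQ) (Ω := ℂ) hn.ne' hnK h1
  obtain ⟨g, hg⟩ := exists_bc_eq g' h2
  refine ⟨g, hg, bc_injective ?_⟩
  rw [map_pow, hg, h]

end Fermat.Agent.ESJ.Jac.Bridge
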