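import Mathlib
import Fermat.Agent.ESJ.Jac.BridgeBase
import Fermat.Agent.S24.Rep
import Fermat.Agent.S24.KumDefs
import Fermat.Agent.S24C.KumDefs
import Fermat.Agent.S24C.KumAlg

/-!
# JAC-BRIDGE: base change `ℚ̄ → ℂ` of the Kummer relation

With `bc N : S24.FN N →+* S24C.FN N` (`BridgeBase`):

* `kumRel_bc_iff` : `KumRel` over `ℂ` for `bc f` ⇔ `KumRel` over `ℚ̄` for `f` (same character);
* `exists_pow_eq_of_complex` : injectivity of the Kummer map over `ℚ̄` from injectivity over `ℂ`.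
-/

set_option autoImplicit false

open UpperHalfPlane CongruenceSubgroup
open scoped MatrixGroups Manifold

noncomputable section

namespace Fermat.Agent.ESJ.Jac.Bridge

open ModularCurve Fermat.Agent

variable {N : ℕ} [NeZero N]

/-- `ℚ̄ ⇒ ℂ`: the same root works for the base-changed representative. -/
theorem kumRel_bc {n : ℕ} {f : S24.FN N} {χ : Gamma0 N →* ℂˣ}
    (h : S24.Kum.KumRel N n f χ) : S24C.Kum.KumRel N n (bc N f) χ := by
  obtain ⟨P, Q, a, hrep, hf, ha, ha0, hrel, hmult⟩ := h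
  refine ⟨P.map S24.iotaK, Q.map S24.iotaK, a, isRep_bc hrep,
    fun h0 => hf ((bc_eq_zero_iff f).mp h0), ha, ha0, ?_, ?_⟩
  · intro z
    rw [ev_map, ev_map]
    exact hrel z
  · intro γ
    rw [ev_map]
    exact hmult γ

/-- `ℂ ⇒ ℚ̄`: transport the root to a base-changed representative (independence of the
representative over `ℂ`). -/
theorem kumRel_of_bc {n : ℕ} (hn : 0 < n) {f : S24.FN N} {χ : Gamma0 N →* ℂˣ}
    (h : S24C.Kum.KumRel N n (bc N f) χ) : S24.Kum.KumRel N n f χ := by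
  obtain ⟨P, Q, hPQ⟩ := S24.Rep.exists_isRep (N := N) f
  obtain ⟨a, ha, ha0, hrel, hmult⟩ := S24C.Kum.KumRel.of_isRep hn h (isRep_bc hPQ)
  have hf : f ≠ 0 := by
    obtain ⟨_, _, _, _, hbf, _⟩ := h
    exact fun h0 => hbf (by rw [h0, map_zero])
  refine ⟨P, Q, a, hPQ, hf, ha, ha0, ?_, ?_⟩
  · intro z
    have := hrel z
    rwa [ev_map, ev_map] at this
  · intro γ
    have := hmult γ
    rwa [ev_map] at this

theorem kumRel_bc_iff {n : ℕ} (hn : 0 < n) (f : S24.FN N) (χ : Gamma0 N →* ℂˣ) :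
    S24C.Kum.KumRel N n (bc N f) χ ↔ S24.Kum.KumRel N n f χ :=
  ⟨kumRel_of_bc hn, kumRel_bc⟩

/-- Injectivity of the Kummer map over `ℚ̄` from injectivity over `ℂ`. -/
theorem exists_pow_eq_of_complex {n : ℕ} (hn : 0 < n)
    (hC : ∀ G : S24C.FN N, S24C.Kum.KumRel N n G 1 → ∃ g : S24C.FN N, G = g ^ n)
    (f : S24.FN N) (h : S24.Kum.KumRel N n f 1) : ∃ g : S24.FN N, f = g ^ n := by
  obtain ⟨g', hg'⟩ := hC (bc N f) (kumRel_bc h)
  obtain ⟨g, -, hg⟩ := exists_bc_eq_of_pow_eq hn f g' hg'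
  exact ⟨g, hg⟩

end Fermat.Agent.ESJ.Jac.Bridge
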