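import Mathlib
import Fermat.Agent.ESJ.Jac.DescentGen
import Fermat.Agent.S24.ResidueTrivial
import Fermat.Agent.S24.ModDefs
import Fermat.Agent.Lib.FF.ExtPrincipal
import Fermat.Agent.Lib.LaurentDescent

/-!
# JAC-DESC for an arbitrary field of `q`-expansions

The descent theorem of `Jac/Descent.lean` (torsion classes of `Pic⁰(ℂ·F₀)` are defined over
`ℚ̄`) for an ARBITRARY field `F₀ ⊆ ℚ((q))` of rational `q`-expansions (e.g. the function field
of `X₁(M)`): if the coefficientwise `Aut(ℂ/ℚ)`-translates of `G ∈ (ℂ·F₀)^×` lie in finitely many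
classes modulo `n`-th powers, then `x ^ n * G` is the coefficientwise image of an element of
`ℚ̄·F₀` for some `x ≠ 0`.

Inputs: one rational function `j₀ ∈ F₀` of non-zero `q`-order (e.g. `j`), and
`ℂ·F₀` finite over `ℂ(j₀)`.
-/

set_option autoImplicit false

namespace Fermat.Agent.ESJ.Jac

open AlgebraicCurve ModularCurve
open Fermat.Agent.S24

section

variable (F₀ : IntermediateField ℚ (LaurentSeries ℚ))

/-- The base change to `L·F₀` of an element of `F₀`. -/
noncomputable def baseElt (L : Type) [Field L] [Algebra ℚ L] (j₀ : F₀) : laurentBaseChange L F₀ :=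
  ⟨coeffEmb L (j₀ : LaurentSeries ℚ), coeffEmb_mem_laurentBaseChange L j₀.2⟩

theorem baseElt_coe (L : Type) [Field L] [Algebra ℚ L] (j₀ : F₀) :
    ((baseElt F₀ L j₀ : laurentBaseChange L F₀) : LaurentSeries L)
      = coeffEmb L (j₀ : LaurentSeries ℚ) := rfl

/-- The `q`-order of the base change is the `q`-order. -/
theorem order_baseElt (L : Type) [Field L] [Algebra ℚ L] (j₀ : F₀) :
    ((baseElt F₀ L j₀ : laurentBaseChange L F₀) : LaurentSeries L).order
      = (j₀ : LaurentSeries ℚ).order :=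
  DescentCore.order_coeffMap (algebraMap ℚ L) (j₀ : LaurentSeries ℚ)

/-- The base change of a rational function is fixed by the coefficientwise Galois action. -/
theorem arithmeticGalois_smul_baseElt {L : Type} [Field L] [Algebra ℚ L] (j₀ : F₀)
    (σ : L ≃ₐ[ℚ] L) : arithmeticGalois F₀ σ • baseElt F₀ L j₀ = baseElt F₀ L j₀ := by
  apply Subtype.ext
  show coeffMap (σ : L →+* L) (coeffEmb L (j₀ : LaurentSeries ℚ))
    = coeffEmb L (j₀ : LaurentSeries ℚ)
  exact coeffMap_coeffEmb σ _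

set_option maxHeartbeats 1000000 in
/-- **JAC-DESC for a general field, hypothesis form** (principal divisors, trivial residue
fields, an element `j` of non-zero `q`-order fixed by the coefficientwise Galois action). -/
theorem descent_field_of [HasPrincipalDivisors ℂ (laurentBaseChange ℂ F₀)]
    (hres : ∀ v : Place ℂ (laurentBaseChange ℂ F₀), Diff.ResidueTrivial v)
    (j : laurentBaseChange ℂ F₀) (hjord : (j : LaurentSeries ℂ).order ≠ 0)
    (hjfix : ∀ σ : ℂ ≃ₐ[ℚ] ℂ, arithmeticGalois F₀ σ • j = j)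
    {n : ℕ} (hn : 0 < n) (G : laurentBaseChange ℂ F₀) (hG : G ≠ 0)
    (hfin : ∃ S : Finset (laurentBaseChange ℂ F₀), ∀ σ : ℂ ≃ₐ[ℚ] ℂ, ∃ s ∈ S,
      ∃ c : laurentBaseChange ℂ F₀, c ≠ 0 ∧ arithmeticGalois F₀ σ • G = c ^ n * s) :
    ∃ x : laurentBaseChange ℂ F₀, x ≠ 0 ∧ ∃ f : laurentBaseChange KQ F₀,
      ((x ^ n * G : laurentBaseChange ℂ F₀) : LaurentSeries ℂ)
        = coeffMap iotaK (f : LaurentSeries KQ) := by
  obtain ⟨x, hx0, halg⟩ := DescentCore.exists_pow_mul_isAlgebraic (L := ℂ) F₀ hres j hjord hjfix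
    hn G hG hfin
  refine ⟨x, hx0, ?_⟩
  obtain ⟨y₀, hy₀⟩ := Fermat.Agent.Lib.Descent.exists_coeffMap_eq iotaK
    ((x ^ n * G : laurentBaseChange ℂ F₀) : LaurentSeries ℂ)
    (fun k => Fermat.Agent.Lib.Descent.mem_range_of_isAlgebraic iotaK _
      (DescentCore.isAlgebraic_rat_congr _ _ _ (halg k)))
  have hmem : y₀ ∈ laurentBaseChange KQ F₀ := by
    apply Fermat.Agent.Lib.LaurentDescent.mem_laurentBaseChange_of_coeffMap_mem iotaK F₀ y₀
    rw [hy₀]
    exact (x ^ n * G : laurentBaseChange ℂ F₀).2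
  exact ⟨⟨y₀, hmem⟩, hy₀.symm⟩

/-- **JAC-DESC for a general field of `q`-expansions.**  `F₀ ⊆ ℚ((q))` any field, `j₀ ∈ F₀` of
non-zero `q`-order with `ℂ·F₀` finite over `ℂ(j₀)`: if the coefficientwise
`Aut(ℂ/ℚ)`-translates of `G ≠ 0` lie in finitely many classes modulo `n`-th powers, then some
`x ^ n * G` is the coefficientwise image of an element of `ℚ̄·F₀`. -/
theorem descent_field (j₀ : F₀) (hj₀ : (j₀ : LaurentSeries ℚ).order ≠ 0)
    [FiniteDimensional (IntermediateField.adjoin ℂ {baseElt F₀ ℂ j₀}) (laurentBaseChange ℂ F₀)]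
    {n : ℕ} (hn : 0 < n) (G : laurentBaseChange ℂ F₀) (hG : G ≠ 0)
    (hfin : ∃ S : Finset (laurentBaseChange ℂ F₀), ∀ σ : ℂ ≃ₐ[ℚ] ℂ, ∃ s ∈ S,
      ∃ c : laurentBaseChange ℂ F₀, c ≠ 0 ∧ arithmeticGalois F₀ σ • G = c ^ n * s) :
    ∃ x : laurentBaseChange ℂ F₀, x ≠ 0 ∧ ∃ f : laurentBaseChange KQ F₀,
      ((x ^ n * G : laurentBaseChange ℂ F₀) : LaurentSeries ℂ)
        = coeffMap iotaK (f : LaurentSeries KQ) := by
  have hPD : HasPrincipalDivisors ℂ (laurentBaseChange ℂ F₀) :=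
    Fermat.Agent.Lib.FF.Ext.hasPrincipalDivisors (baseElt F₀ ℂ j₀)
  have halg : Algebra.IsAlgebraic (IntermediateField.adjoin ℂ {baseElt F₀ ℂ j₀})
      (laurentBaseChange ℂ F₀) := Algebra.IsAlgebraic.of_finite _ _
  exact descent_field_of F₀ (fun v => Diff.residueTrivial_of_isAlgClosed (baseElt F₀ ℂ j₀) v)
    (baseElt F₀ ℂ j₀) (by rw [order_baseElt]; exact hj₀)
    (arithmeticGalois_smul_baseElt F₀ j₀) hn G hG hfin

end

end Fermat.Agent.ESJ.Jac
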