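import Fermat.Agent.ESJ.Jac.Invariant
import Fermat.Agent.S24C.KumDefs
import Fermat.Agent.S24C.ValPt
import Fermat.Agent.Lib.Analysis.EisensteinChar
import Fermat.Agent.S20.RankCore
import Fermat.Agent.S20.RegSeq

/-!
# ESJ / JAC-B-GAL: `Γ₀(N)`-invariant functions and Kummer relations over `ℂ` (S24C vocabulary)

Over `K = ℂ`, `F = ℂ(j(q^d) : d ∣ N)` (`Fermat.Agent.S24C.FN N`), with the analytic evaluation
`S24C.ev N` and the formal evaluation `S24C.fm N` of polynomials in the generators: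

* `exists_rep_of_slash_invariant`, `exists_rep_of_invariant` : "the quotient of two holomorphic
  functions of the same weight for `Γ₀(N)` (of moderate growth at the cusps) is a rational
  function of the `j(d z)`" — `Jac/Invariant` restated with `S24C.ev`;
* `exists_pow_eq_of_kumRel_one` : an element of `F` whose `n`-th root on `ℍ` has the trivial
  multiplier is an `n`-th power in `F`;
* `exists_kumRel_of_isPEChar` : every character of `Γ₀(N)` of exponent `n` which is trivial on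
  the parabolic and elliptic elements is the multiplier of an `n`-th root of an element of `F`
  (Eisenstein series with character).
-/

set_option autoImplicit false

open UpperHalfPlane ModularForm CongruenceSubgroup
open scoped MatrixGroups Manifold

noncomputable section

namespace Fermat.Agent.ESJ.Jac.GalC

open Fermat.Agent.S24 Fermat.Agent.S20 Fermat.Agent.Lib.UHP Fermat.Agent.S24.OrdH

/-- The analytic evaluation of `S24C` is the evaluation `evC` of `Jac/Invariant`. -/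
theorem ev_eq_evC (N : ℕ) : S24C.ev N = Inv.evC N := rfl

theorem mdiff_ev (N : ℕ) [NeZero N] (P : MvPolynomial (Dv N) ℂ) : MDiff (S24C.ev N P) :=
  (Inv.evC_mem_R0 N P).1

theorem ev_mem_R0 (N : ℕ) [NeZero N] (P : MvPolynomial (Dv N) ℂ) : S24C.ev N P ∈ Inv.R0 :=
  Inv.evC_mem_R0 N P

theorem ev_smul (N : ℕ) [NeZero N] (P : MvPolynomial (Dv N) ℂ) (γ : SL(2, ℤ))
    (hγ : γ ∈ Gamma0 N) (z : ℍ) : S24C.ev N P (γ • z) = S24C.ev N P z :=
  Inv.isInv_evC N P γ hγ z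

/-! ### (B) invariant functions are rational functions of the `j(d z)` -/

/-- **Weight `k`.** Two holomorphic functions `a`, `b ≠ 0` on `ℍ` of weight `k` for `Γ₀(N)`, of
moderate growth at all cusps, satisfy `a * ev Q = b * ev P` for polynomials `P`, `Q` in the
functions `z ↦ J(d z)`, `d ∣ N`, with `ev Q ≠ 0`:  `a / b = ev P / ev Q`. -/
theorem exists_rep_of_slash_invariant (N : ℕ) [NeZero N] (k : ℤ) (a b : ℍ → ℂ) (ha : MDiff a)
    (hb : MDiff b) (hb0 : b ≠ 0)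
    (hak : ∀ γ ∈ Gamma0 N, a ∣[k] γ = a) (hbk : ∀ γ ∈ Gamma0 N, b ∣[k] γ = b)
    (hac : ∀ g : SL(2, ℤ), ∃ m : ℕ, IsBoundedAtImInfty (Δf ^ m * a ∣[k] g))
    (hbc : ∀ g : SL(2, ℤ), ∃ m : ℕ, IsBoundedAtImInfty (Δf ^ m * b ∣[k] g)) :
    ∃ P Q : MvPolynomial (Dv N) ℂ, S24C.ev N Q ≠ 0 ∧
      ∀ z : ℍ, a z * S24C.ev N Q z = b z * S24C.ev N P z := by
  obtain ⟨P, Q, hQ, h⟩ := Inv.exists_poly_of_slash_invariant N k a b ha hb hb0 hak hbk hac hbc
  refine ⟨P, Q, hQ, fun z => ?_⟩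
  show a z * Inv.evC N Q z = b z * Inv.evC N P z
  linear_combination -(h z)

/-- **Weight `0`.** Two `Γ₀(N)`-invariant holomorphic functions `A`, `B ≠ 0` on `ℍ` of moderate
growth at all cusps satisfy `A * ev Q = B * ev P` for polynomials `P`, `Q` in the functions
`z ↦ J(d z)`, `d ∣ N`, with `ev Q ≠ 0`. -/
theorem exists_rep_of_invariant (N : ℕ) [NeZero N] (A B : ℍ → ℂ) (hA : MDiff A) (hB : MDiff B)
    (hB0 : B ≠ 0)
    (hAinv : ∀ γ ∈ Gamma0 N, ∀ z : ℍ, A (γ • z) = A z)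
    (hBinv : ∀ γ ∈ Gamma0 N, ∀ z : ℍ, B (γ • z) = B z)
    (hAc : ∀ g : SL(2, ℤ), ∃ m : ℕ, IsBoundedAtImInfty (Δf ^ m * trans g A))
    (hBc : ∀ g : SL(2, ℤ), ∃ m : ℕ, IsBoundedAtImInfty (Δf ^ m * trans g B)) :
    ∃ P Q : MvPolynomial (Dv N) ℂ, S24C.ev N Q ≠ 0 ∧
      ∀ z : ℍ, A z * S24C.ev N Q z = B z * S24C.ev N P z := by
  obtain ⟨P, Q, hQ, h⟩ := Inv.exists_poly_of_invariant_Gamma0 (N := N) A B hA hB hB0 hAinv hBinv
    hAc hBc
  refine ⟨P, Q, hQ, fun z => ?_⟩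
  show A z * Inv.evC N Q z = B z * Inv.evC N P z
  linear_combination -(h z)

/-- The quotient of two modular forms of the same weight for `Γ₀(N)` (in the `IsMF` form). -/
theorem exists_rep_of_isMF (N : ℕ) [NeZero N] (k : ℤ) (a b : ℍ → ℂ)
    (ha : IsMF (Gamma0 N) k a) (hb : IsMF (Gamma0 N) k b) (hb0 : b ≠ 0) :
    ∃ P Q : MvPolynomial (Dv N) ℂ, S24C.ev N Q ≠ 0 ∧
      ∀ z : ℍ, a z * S24C.ev N Q z = b z * S24C.ev N P z :=
  exists_rep_of_slash_invariant N k a b ha.1 hb.1 hb0 ha.2.1 hb.2.1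
    (fun g => ⟨0, by simpa using ha.2.2 g⟩) (fun g => ⟨0, by simpa using hb.2.2 g⟩)

variable {N : ℕ} [NeZero N]

/-! ### (K4) trivial multiplier ⇒ `n`-th power in `F` -/

/-- Cancellation of a non-zero holomorphic factor. -/
theorem eq_of_mul_eq_mul_right' {f g h : ℍ → ℂ} (hf : MDiff f) (hg : MDiff g) (hh : MDiff h)
    (hh0 : h ≠ 0) (e : ∀ z, f z * h z = g z * h z) : f = g := by
  have h2 : (f - g) * h = 0 := by
    funext z
    simp only [Pi.mul_apply, Pi.sub_apply, Pi.zero_apply]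
    linear_combination e z
  rcases eq_zero_or_eq_zero_of_mul_eq_zero (hf.sub hg) hh h2 with h3 | h3
  · exact sub_eq_zero.1 h3
  · exact absurd h3 hh0

/-- **(K4)** If the Kummer character of exponent `n` of `G ∈ F` is trivial, then `G` is an
`n`-th power in `F`. -/
theorem exists_pow_eq_of_kumRel_one {n : ℕ} (hn : 0 < n) (G : S24C.FN N)
    (h : S24C.Kum.KumRel N n G 1) : ∃ g : S24C.FN N, G = g ^ n := by
  obtain ⟨P, Q, a, ⟨hQ0, hGeq⟩, -, ha, -, hroot, hmult⟩ := h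
  have hevQ0 : S24C.ev N Q ≠ 0 := (S24C.ValPt.ev_ne_zero_iff N Q).2 hQ0
  have hQmd : MDiff (S24C.ev N Q) := mdiff_ev N Q
  have hPmd : MDiff (S24C.ev N P) := mdiff_ev N P
  -- `a` is `Γ₀(N)`-invariant
  have hainv : ∀ γ ∈ Gamma0 N, ∀ z : ℍ, a (γ • z) = a z := by
    intro γ hγ
    have h1 := hmult ⟨γ, hγ⟩
    have h2 : (fun z : ℍ => a (γ • z)) = a := by
      refine eq_of_mul_eq_mul_right' (mdifferentiable_comp_smul ha γ) ha hQmd hevQ0 fun z => ?_
      have e := h1 z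
      simp only [MonoidHom.one_apply, Units.val_one, one_mul] at e
      rw [ev_smul N Q γ hγ z] at e
      exact e
    exact fun z => congrFun h2 z
  obtain ⟨m, rfl⟩ : ∃ m, n = m + 1 := ⟨n - 1, by omega⟩
  -- `a ^ n = ev P * ev Q ^ (n - 1)`
  have hpow : a ^ (m + 1) = S24C.ev N P * S24C.ev N Q ^ m := by
    refine eq_of_mul_eq_mul_right' (ha.pow (m + 1)) (hPmd.mul (hQmd.pow m)) hQmd hevQ0
      fun z => ?_
    have e := hroot z
    simp only [Pi.mul_apply, Pi.pow_apply]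
    linear_combination -e
  have haR : a ∈ Inv.R0 := by
    apply Inv.mem_R0_of_pow_mem ha (Nat.succ_ne_zero m)
    rw [hpow]
    exact Inv.R0.mul_mem (ev_mem_R0 N P) (Inv.R0.pow_mem (ev_mem_R0 N Q) m)
  obtain ⟨P', Q', hQ'0, hrel⟩ := exists_rep_of_invariant N a (S24C.ev N Q) ha hQmd hevQ0 hainv
    (fun γ hγ z => ev_smul N Q γ hγ z) haR.2 (ev_mem_R0 N Q).2
  have hfQ' : S24C.fm N Q' ≠ 0 := (S24C.ValPt.ev_ne_zero_iff N Q').1 hQ'0
  refine ⟨S24C.fm N P' / S24C.fm N Q', ?_⟩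
  rw [hGeq, div_pow, div_eq_div_iff hQ0 (pow_ne_zero _ hfQ'), ← map_pow, ← map_pow, ← map_mul,
    ← map_mul, ← sub_eq_zero, ← map_sub, S24C.ValPt.fm_eq_zero_iff]
  have hX : MDiff (S24C.ev N (P * Q' ^ (m + 1) - P' ^ (m + 1) * Q)) := mdiff_ev N _
  have h2 : S24C.ev N (P * Q' ^ (m + 1) - P' ^ (m + 1) * Q) * S24C.ev N Q ^ (m + 1) = 0 := by
    funext z
    have e1 := hroot z
    have e2 := hrel z
    simp only [map_sub, map_mul, map_pow, Pi.mul_apply, Pi.sub_apply, Pi.pow_apply,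
      Pi.zero_apply]
    have e3 : (S24C.ev N P z * S24C.ev N Q' z ^ (m + 1)
        - S24C.ev N P' z ^ (m + 1) * S24C.ev N Q z) * S24C.ev N Q z ^ (m + 1)
        = (S24C.ev N P z * S24C.ev N Q z ^ (m + 1)) * S24C.ev N Q' z ^ (m + 1)
          - (S24C.ev N Q z * S24C.ev N P' z) ^ (m + 1) * S24C.ev N Q z := by ring
    rw [e3, e1, ← e2]
    ring
  rcases eq_zero_or_eq_zero_of_mul_eq_zero hX (hQmd.pow (m + 1)) h2 with h3 | h3
  · exact h3
  · exact absurd h3 (pow_ne_zero' hQmd hevQ0 (m + 1))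

/-! ### (K6) every parabolic-elliptic character is a Kummer character -/

/-- **(K6)** Every character of `Γ₀(N)` of exponent `n` which is trivial on the parabolic and
elliptic elements is the Kummer character of exponent `n` of some `G ∈ F`. -/
theorem exists_kumRel_of_isPEChar {n : ℕ} (hn : 0 < n) (χ : Gamma0 N →* ℂˣ)
    (hχ : IsPEChar (Gamma0 N) n χ) : ∃ G : S24C.FN N, S24C.Kum.KumRel N n G χ := by
  obtain ⟨hχn, hχpe⟩ := hχ
  have hT : χ ⟨ModularGroup.T, Fermat.Agent.Lib.Analysis.EisensteinChar.T_mem_Gamma0 N⟩ = 1 := by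
    apply hχpe
    simp [Matrix.trace_fin_two, ModularGroup.T]
  have hneg : χ ⟨-1, Fermat.Agent.Lib.Analysis.EisensteinChar.neg_one_mem_Gamma0 N⟩ = 1 := by
    apply hχpe
    simp
  obtain ⟨E, hE, hE0, hEsm, -, hEb⟩ :=
    Fermat.Agent.Lib.Analysis.EisensteinChar.exists_char_form χ hn.ne' hχn hT hneg
  have h4md : MDiff E4f := isMF_E4f.1
  have h4n : IsMF ⊤ (4 * (n : ℤ)) (E4f ^ n) := Rank.isMF_pow isMF_E4f n
  have hχpow : ∀ γ : Gamma0 N, ((χ γ : ℂˣ) : ℂ) ^ n = 1 := fun γ => by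
    rw [← Units.val_pow_eq_pow_val, hχn γ]
    rfl
  -- the slash of `E`
  have hEslash : ∀ γ : Gamma0 N, E ∣[(4 : ℤ)] (γ : SL(2, ℤ)) = fun z => ((χ γ : ℂˣ) : ℂ) * E z := by
    intro γ
    funext z
    have hd : denom (γ : SL(2, ℤ)) z ≠ 0 := denom_ne_zero _ z
    rw [SL_slash_apply, hEsm γ z]
    field_simp
  obtain ⟨P, Q, hevQ0, hPQ⟩ := exists_rep_of_slash_invariant N (4 * (n : ℤ)) (E ^ n) (E4f ^ n)
    (hE.pow n) (h4md.pow n) (pow_ne_zero' h4md E4f_ne_zero n)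
    (fun γ hγ => by
      rw [Rank.pow_slash, hEslash ⟨γ, hγ⟩]
      funext z
      simp only [Pi.pow_apply]
      rw [mul_pow, hχpow ⟨γ, hγ⟩, one_mul])
    (fun γ _ => h4n.2.1 γ (Subgroup.mem_top γ))
    (fun g => ⟨0, by
      rw [Rank.pow_slash, pow_zero, one_mul]
      exact Inv.isBounded_pow (hEb g) n⟩)
    (fun g => ⟨0, by
      rw [pow_zero, one_mul]
      exact h4n.2.2 g⟩)
  simp only [Pi.pow_apply] at hPQ
  -- hPQ : E z ^ n * ev Q z = E4f z ^ n * ev P z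
  have hQmd : MDiff (S24C.ev N Q) := mdiff_ev N Q
  have hPmd : MDiff (S24C.ev N P) := mdiff_ev N P
  have hEn0 : E ^ n ≠ 0 := pow_ne_zero' hE hE0 n
  have h4n0 : E4f ^ n ≠ 0 := pow_ne_zero' h4md E4f_ne_zero n
  have hfun : E ^ n * S24C.ev N Q = E4f ^ n * S24C.ev N P := funext fun z => hPQ z
  have hevP0 : S24C.ev N P ≠ 0 := by
    intro h0
    rw [h0, mul_zero] at hfun
    exact mul_ne_zero' (hE.pow n) hQmd hEn0 hevQ0 hfun
  have hfQ : S24C.fm N Q ≠ 0 := (S24C.ValPt.ev_ne_zero_iff N Q).1 hevQ0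
  have hfP : S24C.fm N P ≠ 0 := (S24C.ValPt.ev_ne_zero_iff N P).1 hevP0
  -- divisibility of the orders
  have hdiv : ∀ τ : ℍ, (n : ℤ) ∣ ordFrac (S24C.ev N P) (S24C.ev N Q) τ := by
    intro τ
    have e : OrdH.ordAt (E ^ n * S24C.ev N Q) τ = OrdH.ordAt (E4f ^ n * S24C.ev N P) τ := by
      rw [hfun]
    rw [ordAt_mul (hE.pow n) hQmd hEn0 hevQ0 τ, ordAt_mul (h4md.pow n) hPmd h4n0 hevP0 τ,
      ordAt_pow hE hE0 n τ, ordAt_pow h4md E4f_ne_zero n τ] at e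
    refine ⟨(OrdH.ordAt E τ : ℤ) - (OrdH.ordAt E4f τ : ℤ), ?_⟩
    unfold ordFrac
    have e' : ((n * OrdH.ordAt E τ + OrdH.ordAt (S24C.ev N Q) τ : ℕ) : ℤ)
        = ((n * OrdH.ordAt E4f τ + OrdH.ordAt (S24C.ev N P) τ : ℕ) : ℤ) := by rw [e]
    push_cast at e'
    linear_combination -e'
  obtain ⟨a, ha, ha0, hroot, -⟩ := exists_nth_root_frac hPmd hQmd hevP0 hevQ0 hn hdiv
  -- `(a * E₄) ^ n = (E * ev Q) ^ n`
  have hpow : ∀ z, (a z * E4f z) ^ n = (E z * S24C.ev N Q z) ^ n := by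
    have h1 : (fun z => (a z * E4f z) ^ n) = fun z => (E z * S24C.ev N Q z) ^ n := by
      refine eq_of_mul_eq_mul_right' ((ha.mul h4md).pow n) ((hE.mul hQmd).pow n) hQmd hevQ0
        fun z => ?_
      have e1 := hroot z
      have e2 := hPQ z
      rw [mul_pow, mul_pow]
      linear_combination (-(E4f z ^ n)) * e1 - (S24C.ev N Q z ^ n) * e2
    exact fun z => congrFun h1 z
  obtain ⟨ζ, hζ, hζeq⟩ := exists_root_of_unity_of_pow_eq_H (h₁ := fun z => a z * E4f z)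
    (h₂ := fun z => E z * S24C.ev N Q z) (ha.mul h4md) (hE.mul hQmd) hn hpow
  have hζ0 : ζ ≠ 0 := by
    rintro rfl
    rw [zero_pow hn.ne'] at hζ
    exact zero_ne_one hζ
  have hζinv : ζ⁻¹ ^ n = 1 := by rw [inv_pow, hζ, inv_one]
  have ha' : MDiff (fun z => ζ⁻¹ * a z) := mdifferentiable_const.mul ha
  have ha'0 : (fun z => ζ⁻¹ * a z) ≠ 0 := by
    intro h0
    apply ha0
    funext z
    have h1 := congrFun h0 z
    simp only [Pi.zero_apply] at h1
    rcases mul_eq_zero.1 h1 with h2 | h2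
    · exact absurd h2 (inv_ne_zero hζ0)
    · exact h2
  refine ⟨S24C.fm N P / S24C.fm N Q, P, Q, fun z => ζ⁻¹ * a z, ⟨hfQ, rfl⟩,
    div_ne_zero hfP hfQ, ha', ha'0, fun z => ?_, fun γ => ?_⟩
  · rw [mul_pow, hζinv, one_mul]
    exact hroot z
  · have hEmult : HasMult E E4f (γ : SL(2, ℤ)) ((χ γ : ℂˣ) : ℂ) := by
      intro z
      have h4 : E4f ((γ : SL(2, ℤ)) • z) = denom (γ : SL(2, ℤ)) z ^ 4 * E4f z :=
        JOrd.E₄_smul (γ : SL(2, ℤ)) z
      rw [hEsm γ z, h4]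
      have : denom (γ : SL(2, ℤ)) z ^ (4 : ℤ) = denom (γ : SL(2, ℤ)) z ^ 4 := by norm_cast
      rw [this]
      ring
    refine HasMult.congr (a := E) (b := E4f) ha' h4md hQmd E4f_ne_zero (κ := 1) (fun z => ?_)
      hEmult
    have e := hζeq z
    rw [one_mul, mul_assoc, e, ← mul_assoc, inv_mul_cancel₀ hζ0, one_mul]

end Fermat.Agent.ESJ.Jac.GalC
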