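import Fermat.Agent.ESJ.Jac.GalCore
import Fermat.Agent.ESJ.Jac.MultCusp
import Fermat.Agent.ESJ.Dict.Defs
import Fermat.Agent.S24.Mer
import Fermat.Agent.Lib.LaurentDescent

/-!
# ESJ / JAC-GAL: invariant meromorphic functions are in `F_ℂ`; injectivity of the Kummer map

Conditional forms (against the analytic dictionary `Dict.IsDict (RingHom.id ℂ) N`, the level-one
statement `GalCore.LevelOneStatement` and the base change `ℚ̄ → ℂ`) of the three statements of
JAC-GAL:

* `exists_merK_eq_of`: every `Γ₀(N)`-invariant meromorphic function on `U` which is meromorphic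
  at the cusps is the function of an element of `F_ℂ`;
* `exists_pow_eq_of_isKummerChar_one_complex_of`: an element of `F_ℂ` with trivial Kummer
  character of exponent `n` is an `n`-th power;
* `exists_pow_eq_of_isKummerChar_one_of`: the same over `ℚ̄`.

The hypothesis-free versions are in `Jac/Gal.lean`.
-/

set_option autoImplicit false
set_option linter.unusedSectionVars false

open UpperHalfPlane ModularForm CongruenceSubgroup Filter
open scoped MatrixGroups Manifold Topology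

noncomputable section

namespace Fermat.Agent.ESJ.Jac.GalOf

open Fermat.Agent.S24 Fermat.Agent.ESJ.Jac Fermat.Agent.ESJ.Dict
open Fermat.Agent.Lib.Analysis.NthRoot ModularCurve

/-! ### Codiscrete equality on `U` versus equality on punctured neighbourhoods -/

theorem eventuallyEq_nhdsNE_of_codiscreteWithin {f g : ℂ → ℂ}
    (h : f =ᶠ[codiscreteWithin U] g) {z : ℂ} (hz : z ∈ U) : f =ᶠ[𝓝[≠] z] g := by
  have h1 := (mem_codiscreteWithin_iff_forall_mem_nhdsNE.1 h) z hz
  have h2 : U ∈ 𝓝[≠] z := mem_nhdsWithin_of_mem_nhds (isOpen_U.mem_nhds hz)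
  filter_upwards [h1, h2] with w hw hwU
  rcases hw with hw | hw
  · exact hw
  · exact absurd hwU hw

theorem codiscreteWithin_of_eventuallyEq_nhdsNE {f g : ℂ → ℂ}
    (h : ∀ z ∈ U, f =ᶠ[𝓝[≠] z] g) : f =ᶠ[codiscreteWithin U] g := by
  refine mem_codiscreteWithin_iff_forall_mem_nhdsNE.2 fun z hz => ?_
  filter_upwards [h z hz] with w hw
  exact Or.inl hw

/-! ### Calculus with `merK` from the dictionary -/

section DictCalc

variable {K : Type} [Field K] [Algebra ℚ K] {ι : K →+* ℂ} {N : ℕ} [NeZero N]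

theorem merK_one (hD : IsDict ι N) :
    merK ι N (1 : FNK K N) =ᶠ[codiscreteWithin U] fun _ => (1 : ℂ) := by
  have h := hD.merK_algebraMap 1
  rwa [map_one, map_one] at h

theorem merK_pow (hD : IsDict ι N) (f : FNK K N) (n : ℕ) :
    merK ι N (f ^ n) =ᶠ[codiscreteWithin U] fun z => merK ι N f z ^ n := by
  induction n with
  | zero => simpa using merK_one hD
  | succ n ih =>
    rw [pow_succ]
    refine (hD.merK_mul (f ^ n) f).trans ?_
    filter_upwards [ih] with z hz
    rw [hz, pow_succ]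

theorem merK_neg (hD : IsDict ι N) (f : FNK K N) :
    merK ι N (-f) =ᶠ[codiscreteWithin U] fun z => -merK ι N f z := by
  have e : -f = algebraMap K (FNK K N) (-1) * f := by rw [map_neg, map_one, neg_one_mul]
  rw [e]
  refine (hD.merK_mul _ f).trans ?_
  filter_upwards [hD.merK_algebraMap (-1)] with z hz
  rw [hz, map_neg, map_one, neg_one_mul]

/-- `merK` is injective up to equality off a discrete set. -/
theorem merK_injective (hD : IsDict ι N) {f g : FNK K N}
    (h : merK ι N f =ᶠ[codiscreteWithin U] merK ι N g) : f = g := by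
  rw [← sub_eq_zero, ← hD.merK_eq_zero_iff, sub_eq_add_neg]
  refine (hD.merK_add f (-g)).trans ?_
  filter_upwards [merK_neg hD g, h] with z hz1 hz2
  rw [hz1, hz2, add_neg_cancel]

end DictCalc

/-! ### The three statements -/

variable (N : ℕ) [NeZero N]

/-- **(Gal), conditional form.** -/
theorem exists_merK_eq_of (hD : IsDict (RingHom.id ℂ) N) (L1 : GalCore.LevelOneStatement)
    (φ : ℂ → ℂ) (hφ : MeromorphicOn φ U)
    (hinv : ∀ γ ∈ Gamma0 N, ∀ z ∈ U, φ (mob γ z) = φ z) (hc : MerAtCusps φ) :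
    ∃ G : FNK ℂ N, merK (RingHom.id ℂ) N G =ᶠ[codiscreteWithin U] φ := by
  obtain ⟨P, Q, hQ, hPQ⟩ := GalCore.exists_ev_eq N L1 φ hφ hinv hc
  have hfQ : fmK ℂ N Q ≠ 0 := fun h => hQ ((hD.fmK_eq_zero_iff Q).1 h)
  refine ⟨fmK ℂ N P / fmK ℂ N Q, ?_⟩
  have h1 := hD.merK_eq_div_ae (fmK ℂ N P / fmK ℂ N Q) P Q ⟨hfQ, rfl⟩
  have h2 := Mer.ne_zero_mem_codiscreteWithin (hD.mdiff_evK Q) hQ
  filter_upwards [h1, h2, hPQ] with z hz1 hz2 hz3
  rw [hz1, eq_comm, eq_div_iff hz2]
  exact hz3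

variable {N}

/-- **Injectivity of the Kummer map over `ℂ`, conditional form.** -/
theorem exists_pow_eq_of_isKummerChar_one_complex_of (hD : IsDict (RingHom.id ℂ) N)
    (L1 : GalCore.LevelOneStatement) {n : ℕ} (hn : 0 < n) {G : FNK ℂ N}
    (h : IsKummerChar (RingHom.id ℂ) N n G 1) : ∃ g : FNK ℂ N, G = g ^ n := by
  obtain ⟨r, hr, hmult⟩ := h
  have hn0 : n ≠ 0 := hn.ne'
  -- the root is invariant
  have hinv : ∀ γ ∈ Gamma0 N, ∀ z ∈ U, r (mob γ z) = r z := by
    intro γ hγ z hz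
    have := hmult ⟨γ, hγ⟩ z hz
    simpa using this
  -- the root is meromorphic at the cusps
  have hc : MerAtCusps r := by
    intro g
    obtain ⟨Y, M, -, hY0, -, hYM⟩ := GalCore.merAtCusps_exists_ge (hD.merAtCusps_merK G) g 0 0
    have hsub : ∀ z : ℂ, Y < z.im → z ∈ U := fun z hz => lt_of_le_of_lt hY0 hz
    have hroot : IsRootOn n (fun w => merK (RingHom.id ℂ) N G (mob g w)) (fun w => r (mob g w))
        {z : ℂ | Y < z.im} := by
      refine ⟨fun z hz => ?_, fun z hz => ?_⟩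
      · exact (hr.1 (mob_mem_U g (hsub z hz))).comp_analyticAt (analyticAt_mob g (hsub z hz))
      · exact (tendsto_mob_nhdsNE g (hsub z hz)).eventually (hr.2 _ (mob_mem_U g (hsub z hz)))
    exact ⟨Y, M / n, Fermat.Agent.ESJ.Jac.IsRootOn.exp_growth hn0 hroot
      (fun z hz => (hYM z hz).1) (fun z hz => (hYM z hz).2)⟩
  obtain ⟨g₀, hg₀⟩ := exists_merK_eq_of N hD L1 r hr.1.meromorphicOn hinv hc
  refine ⟨g₀, ?_⟩
  apply merK_injective hD
  refine EventuallyEq.trans ?_ (merK_pow hD g₀ n).symm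
  have h1 : (r ^ n) =ᶠ[codiscreteWithin U] merK (RingHom.id ℂ) N G :=
    codiscreteWithin_of_eventuallyEq_nhdsNE hr.2
  filter_upwards [h1, hg₀] with z hz1 hz2
  rw [hz2, ← hz1]
  rfl

/-- **Injectivity of the Kummer map over `ℚ̄`, conditional form.** -/
theorem exists_pow_eq_of_isKummerChar_one_of (hD : IsDict (RingHom.id ℂ) N)
    (L1 : GalCore.LevelOneStatement)
    (hbc : ∀ f : FNK KQ N, ∃ f' : FNK ℂ N,
      ((f' : FNK ℂ N) : LaurentSeries ℂ) = coeffMap iotaK ((f : FNK KQ N) : LaurentSeries KQ) ∧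
      merK (RingHom.id ℂ) N f' =ᶠ[codiscreteWithin U] merK iotaK N f)
    {n : ℕ} (hn : 0 < n) {f : FN N} (h : IsKummerChar iotaK N n f 1) :
    ∃ g : FN N, f = g ^ n := by
  obtain ⟨f', hf'coe, hf'mer⟩ := hbc f
  obtain ⟨r, hr, hmult⟩ := h
  have hK : IsKummerChar (RingHom.id ℂ) N n f' 1 :=
    ⟨r, hr.congr (fun z hz => (eventuallyEq_nhdsNE_of_codiscreteWithin hf'mer hz).symm), hmult⟩
  obtain ⟨g', hg'⟩ := exists_pow_eq_of_isKummerChar_one_complex_of hD L1 hn hK
  have h5 : ((g' : FNK ℂ N) : LaurentSeries ℂ) ^ n =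
      coeffMap iotaK ((f : FN N) : LaurentSeries KQ) := by
    rw [← hf'coe, hg']
    rfl
  obtain ⟨y₀, hy₀⟩ := Fermat.Agent.Lib.LaurentDescent.exists_coeffMap_eq_of_pow iotaK hn _ _ h5
  have hmem : y₀ ∈ laurentBaseChange KQ (modularFunctionFieldFull N) :=
    Fermat.Agent.Lib.LaurentDescent.mem_laurentBaseChange_of_coeffMap_mem iotaK _ y₀
      (by rw [hy₀]; exact g'.2)
  refine ⟨⟨y₀, hmem⟩, ?_⟩
  apply Subtype.ext
  apply LevelOneInv.coeffMap_injective iotaK
  show coeffMap iotaK (f : LaurentSeries KQ) = coeffMap iotaK (y₀ ^ n)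
  rw [map_pow, hy₀, h5]

end Fermat.Agent.ESJ.Jac.GalOf
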