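import Fermat.Agent.ESJ.Jac.HeckeMer

/-!
# JAC-G (b), corollary form

`isKummerChar_norm_of_toAdditive` : the statement of `HeckeMer.isKummerChar_norm` for every
character `χ'` whose additive form is `ParHom.heckeCoh N ℓ` of the additive form of `χ`.
-/

set_option autoImplicit false

open UpperHalfPlane Filter Topology
open scoped MatrixGroups Manifold

noncomputable section

namespace Fermat.Agent.ESJ.Jac.HeckeMer

open ModularCurve Fermat.Agent.S24 Fermat.Agent.S24.QExp Fermat.Agent.S28.Chain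
open Fermat.Agent.ESJ.Cong.ConjAnalytic Fermat.Agent.ESJ.Jac Fermat.Agent.ESJ.Jac.HeckeKummer
open Fermat.Agent.Lib.Analysis.NthRoot Fermat.Agent.ESJ.ParHom CongruenceSubgroup

/-- A character is determined by its additive form: `χ' = heckeChar N ℓ χ`. -/
theorem eq_heckeChar_of_toAdditive (N : ℕ) (ℓ : Nat.Primes) {χ χ' : Gamma0 N →* ℂˣ}
    (hχ' : MonoidHom.toAdditive χ' = heckeCoh N ℓ (MonoidHom.toAdditive χ)) :
    χ' = heckeChar N ℓ χ := by
  apply MonoidHom.toAdditive.injective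
  rw [hχ', toAdditive_heckeChar]

/-- **JAC-G (b2), relational form.**  For `ℓ ∤ N`: if `χ` is a Kummer character of `f` and the
additive form of `χ'` is `T_ℓ` (`ParHom.heckeCoh`) of the additive form of `χ`, then `χ'` is a
Kummer character of the Hecke norm `Nm_α (β f)`. -/
theorem isKummerChar_norm_of_toAdditive (N : ℕ) [NeZero N] (ℓ : Nat.Primes)
    (hℓN : ¬ (ℓ : ℕ) ∣ N) {n : ℕ} {f : FN N} {χ χ' : Gamma0 N →* ℂˣ}
    (h : IsKummerChar iotaK N n f χ)
    (hχ' : MonoidHom.toAdditive χ' = heckeCoh N ℓ (MonoidHom.toAdditive χ)) :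
    haveI : NeZero (ℓ : ℕ) := ⟨ℓ.2.ne_zero⟩
    IsKummerChar iotaK N n
      (normAlong (heckeAlphaBar KQ N ℓ) (heckeBetaBar KQ N ℓ f)) χ' := by
  rw [eq_heckeChar_of_toAdditive N ℓ hχ']
  exact isKummerChar_norm N ℓ hℓN h

end Fermat.Agent.ESJ.Jac.HeckeMer
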