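import Fermat.Agent.S24.DegTop
import Fermat.Agent.ESJ.Jac.Defs

/-!
# ESJ / JAC-D: `Γ₀(N)`-invariant meromorphic functions are rational functions of the `j(d z)`

"`M(Γ₀(N)) = ℂ(j(d z) : d ∣ N)`", in pair form and purely analytically (over `ℂ`):

* `R0` : the ring of holomorphic functions on `ℍ` of moderate growth at all cusps
  (`∀ g, ∃ m, Δ ^ m * (G ∘ g⁻¹)` bounded at `i∞`); a domain, stable under translation.
* `exists_poly_of_invariant_Gamma0` (weight `0`): if `A, B ∈ R0` are `Γ₀(N)`-invariant, `B ≠ 0`,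
  then `ev P * B = ev Q * A` for polynomials `P, Q` in the functions `z ↦ J(d z)`, `ev Q ≠ 0`.
* `exists_poly_of_slash_invariant` (weight `k`): the same for two holomorphic functions of weight
  `k` for `Γ₀(N)` of moderate growth at the cusps (e.g. two modular forms of weight `k`).

Proof: Lagrange interpolation over the cosets of `Γ₀(N)` with the function `t = J(N z)`, whose
translates are pairwise distinct (`S24/HNFMod`), and "level one invariants are polynomials in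
`J`" (`S24/LevelOneInv`).
-/

set_option autoImplicit false
set_option linter.unusedSectionVars false

open UpperHalfPlane ModularForm CongruenceSubgroup
open scoped MatrixGroups Manifold

noncomputable section

namespace Fermat.Agent.ESJ.Jac.Inv

open Fermat.Agent.S24 Fermat.Agent.S20 Polynomial

/-- Analytic evaluation over `ℂ` of a polynomial in the generators: `X_d ↦ (z ↦ J(d z))`. -/
abbrev evC (N : ℕ) : MvPolynomial (Dv N) ℂ →+* (ℍ → ℂ) := evK (RingHom.id ℂ) N

/-! ### Translation -/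

theorem trans_mul (g : SL(2, ℤ)) (a b : ℍ → ℂ) : trans g (a * b) = trans g a * trans g b := rfl

theorem trans_add (g : SL(2, ℤ)) (a b : ℍ → ℂ) : trans g (a + b) = trans g a + trans g b := rfl

theorem trans_neg (g : SL(2, ℤ)) (a : ℍ → ℂ) : trans g (-a) = -trans g a := rfl

theorem trans_const (g : SL(2, ℤ)) (c : ℂ) : trans g (fun _ => c) = fun _ => c := rfl

theorem trans_pow (g : SL(2, ℤ)) (a : ℍ → ℂ) (n : ℕ) : trans g (a ^ n) = trans g a ^ n := rfl

/-- `Δ ^ m` is bounded at `i∞`. -/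
theorem isBounded_Δf_pow (m : ℕ) : IsBoundedAtImInfty (Δf ^ m) := by
  have h := (LevelOneInv.isMF_Δf_pow m).2.2 1
  rwa [SlashAction.slash_one] at h

/-- Raising the exponent of `Δ` keeps boundedness. -/
theorem isBounded_Δf_pow_mul_of_le {m n : ℕ} (hmn : m ≤ n) {G : ℍ → ℂ}
    (h : IsBoundedAtImInfty (Δf ^ m * G)) : IsBoundedAtImInfty (Δf ^ n * G) := by
  have e : Δf ^ n * G = Δf ^ (n - m) * (Δf ^ m * G) := by
    rw [← mul_assoc, ← pow_add, Nat.sub_add_cancel hmn]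
  rw [e]
  exact (isBounded_Δf_pow (n - m)).mul h

/-- Powers of a bounded function are bounded. -/
theorem isBounded_pow {G : ℍ → ℂ} (h : IsBoundedAtImInfty G) (n : ℕ) :
    IsBoundedAtImInfty (G ^ n) := by
  induction n with
  | zero =>
    rw [pow_zero]
    exact Filter.const_boundedAtFilter _ (1 : ℂ)
  | succ n ih =>
    rw [pow_succ]
    exact ih.mul h

/-! ### The ring `R0` -/

/-- Holomorphic functions on `ℍ` of moderate growth at all cusps. -/
def R0 : Subring (ℍ → ℂ) where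
  carrier := {G | MDiff G ∧ ∀ g : SL(2, ℤ), ∃ m : ℕ, IsBoundedAtImInfty (Δf ^ m * trans g G)}
  mul_mem' := by
    rintro a b ⟨ha, ha'⟩ ⟨hb, hb'⟩
    refine ⟨ha.mul hb, fun g => ?_⟩
    obtain ⟨m, hm⟩ := ha' g
    obtain ⟨n, hn⟩ := hb' g
    refine ⟨m + n, ?_⟩
    have e : Δf ^ (m + n) * trans g (a * b) = (Δf ^ m * trans g a) * (Δf ^ n * trans g b) := by
      rw [trans_mul, pow_add]; ring
    rw [e]
    exact hm.mul hn
  one_mem' := ⟨mdifferentiable_const, fun g => ⟨0, by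
    have e : Δf ^ 0 * trans g (1 : ℍ → ℂ) = Δf ^ 0 := by
      funext z; simp [S24.trans]
    rw [e]
    exact isBounded_Δf_pow 0⟩⟩
  add_mem' := by
    rintro a b ⟨ha, ha'⟩ ⟨hb, hb'⟩
    refine ⟨ha.add hb, fun g => ?_⟩
    obtain ⟨m, hm⟩ := ha' g
    obtain ⟨n, hn⟩ := hb' g
    refine ⟨m + n, ?_⟩
    have e : Δf ^ (m + n) * trans g (a + b) = Δf ^ (m + n) * trans g a + Δf ^ (m + n) * trans g b := by
      rw [trans_add, mul_add]
    rw [e]
    exact (isBounded_Δf_pow_mul_of_le (Nat.le_add_right m n) hm).add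
      (isBounded_Δf_pow_mul_of_le (Nat.le_add_left n m) hn)
  zero_mem' := ⟨mdifferentiable_const, fun g => ⟨0, by
    have e : Δf ^ 0 * trans g (0 : ℍ → ℂ) = fun _ : ℍ => (0 : ℂ) := by
      funext z; simp [S24.trans]
    rw [e]
    exact Filter.const_boundedAtFilter _ 0⟩⟩
  neg_mem' := by
    rintro a ⟨ha, ha'⟩
    refine ⟨ha.neg, fun g => ?_⟩
    obtain ⟨m, hm⟩ := ha' g
    refine ⟨m, ?_⟩
    have e : Δf ^ m * trans g (-a) = -(Δf ^ m * trans g a) := by
      rw [trans_neg, mul_neg]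
    rw [e]
    exact hm.neg

theorem mem_R0 {G : ℍ → ℂ} : G ∈ R0 ↔ MDiff G ∧ ∀ g : SL(2, ℤ), ∃ m : ℕ,
    IsBoundedAtImInfty (Δf ^ m * trans g G) := Iff.rfl

instance : IsDomain R0 := by
  have : NoZeroDivisors R0 := ⟨fun {a b} hab => by
    have h' : (a : ℍ → ℂ) * (b : ℍ → ℂ) = 0 := congrArg Subtype.val hab
    rcases (UpperHalfPlane.mul_eq_zero_iff a.2.1 b.2.1).1 h' with h1 | h1
    · left; exact Subtype.ext h1
    · right; exact Subtype.ext h1⟩
  exact NoZeroDivisors.to_isDomain _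

/-- Constants are in `R0`. -/
theorem const_mem_R0 (c : ℂ) : (fun _ : ℍ => c) ∈ R0 := by
  refine ⟨mdifferentiable_const, fun g => ⟨0, ?_⟩⟩
  have e : Δf ^ 0 * trans g (fun _ : ℍ => c) = fun _ : ℍ => c := by
    funext z; simp [S24.trans]
  rw [e]
  exact Filter.const_boundedAtFilter _ c

/-- Translation by `g` as a ring endomorphism of `R0`. -/
def transR (g : SL(2, ℤ)) : R0 →+* R0 where
  toFun G := ⟨trans g G.1, OrdAt.mdifferentiable_trans G.2.1 g, fun g' => by
    obtain ⟨m, hm⟩ := G.2.2 (g' * g)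
    exact ⟨m, by rw [Deg.trans_trans]; exact hm⟩⟩
  map_one' := Subtype.ext rfl
  map_mul' _ _ := Subtype.ext rfl
  map_zero' := Subtype.ext rfl
  map_add' _ _ := Subtype.ext rfl

theorem transR_coe (g : SL(2, ℤ)) (G : R0) : ((transR g G : R0) : ℍ → ℂ) = trans g G.1 := rfl

theorem transR_injective (g : SL(2, ℤ)) : Function.Injective (transR g) := by
  intro G H h
  apply Subtype.ext
  funext z
  have h1 := congrFun (congrArg Subtype.val h) (g • z)
  simp only [transR_coe] at h1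
  have e : ∀ F : ℍ → ℂ, trans g F (g • z) = F z := fun F => by
    show F (g⁻¹ • g • z) = F z
    rw [inv_smul_smul]
  rwa [e, e] at h1

theorem transR_transR (g' g : SL(2, ℤ)) (G : R0) : transR g' (transR g G) = transR (g' * g) G :=
  Subtype.ext (Deg.trans_trans g' g G.1)

/-- The generators `z ↦ J(d z)`, `d ∣ N`, are in `R0`. -/
theorem Jabd_mem_R0 (N : ℕ) [NeZero N] (d : Dv N) : Jabd d.1 0 1 ∈ R0 := by
  rw [← HNFMod.ev_X N d]
  refine ⟨PtInv.mdiff_ev N _, fun g => ?_⟩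
  have hq := QExp.hasQExp_trans_ev' N g (MvPolynomial.X d)
  have hmem := QLaurent.mem_MerInf_of_hasSum hq
  obtain ⟨-, -, m, hm⟩ := QLaurent.mem_MerInf_iff_discriminant.1 hmem
  exact ⟨m, hm⟩

/-! ### Evaluation of polynomials over `ℂ` -/

theorem evC_X (N : ℕ) (d : Dv N) : evC N (MvPolynomial.X d) = Jabd d.1 0 1 := by
  funext z
  simp [evK]

theorem evC_C (N : ℕ) (c : ℂ) (z : ℍ) : evC N (MvPolynomial.C c) z = c := by
  simp [evK]

theorem Jabd_one (z : ℍ) : Jabd 1 0 1 z = Jfun z := by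
  simp [Jabd]

/-- `evC` of a polynomial in the generator `X_1`. -/
theorem evC_aeval_d1 (N : ℕ) (p : ℂ[X]) (z : ℍ) :
    evC N (Polynomial.aeval (MvPolynomial.X (JPt.d1 N)) p) z = p.eval (Jfun z) := by
  induction p using Polynomial.induction_on' with
  | add p q hp hq =>
    rw [map_add, map_add, Pi.add_apply, hp, hq, Polynomial.eval_add]
  | monomial n c =>
    rw [Polynomial.aeval_monomial, map_mul, map_pow, evC_X, Polynomial.eval_monomial,
      MvPolynomial.algebraMap_eq, Pi.mul_apply, evC_C, Pi.pow_apply, Jabd_one]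

/-- Every `evC N P` is in `R0`. -/
theorem evC_mem_R0 (N : ℕ) [NeZero N] (P : MvPolynomial (Dv N) ℂ) : evC N P ∈ R0 := by
  induction P using MvPolynomial.induction_on with
  | C c =>
    have h : evC N (MvPolynomial.C c) = fun _ : ℍ => c := funext fun z => evC_C N c z
    rw [h]
    exact const_mem_R0 c
  | add p q hp hq =>
    rw [map_add]
    exact R0.add_mem hp hq
  | mul_X p i hp =>
    rw [map_mul, evC_X]
    exact R0.mul_mem hp (Jabd_mem_R0 N i)

/-! ### Invariant elements of `R0` are polynomials in `J` -/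

/-- An element of `R0` fixed by all translations is a polynomial in `J`. -/
theorem exists_poly_of_transR_fixed (c : R0) (hc : ∀ γ : SL(2, ℤ), transR γ c = c) :
    ∃ p : ℂ[X], ∀ z : ℍ, (c : ℍ → ℂ) z = p.eval (Jfun z) := by
  have hinv : ∀ (γ : SL(2, ℤ)) (z : ℍ), (c : ℍ → ℂ) (γ • z) = (c : ℍ → ℂ) z := by
    intro γ z
    have h1 := congrFun (congrArg Subtype.val (hc γ⁻¹)) z
    rw [transR_coe] at h1
    have h2 : trans γ⁻¹ (c : ℍ → ℂ) z = (c : ℍ → ℂ) (γ • z) := by
      show (c : ℍ → ℂ) (γ⁻¹⁻¹ • z) = _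
      rw [inv_inv]
    rw [← h2]
    exact h1
  obtain ⟨m, hm⟩ := c.2.2 1
  rw [Deg.trans_one] at hm
  obtain ⟨p, -, hp⟩ := LevelOneInv.exists_poly_of_invariant (c : ℍ → ℂ) c.2.1 hinv m hm
  exact ⟨p, hp⟩

section Lagrange

variable (N : ℕ) [NeZero N]

attribute [local instance] Deg.fintypeXN

/-- `Γ₀(N)`-invariance of a function on `ℍ`. -/
def IsInv (G : ℍ → ℂ) : Prop := ∀ γ ∈ Gamma0 N, ∀ z : ℍ, G (γ • z) = G z

variable {N}

theorem IsInv.trans_eq_of_coset_eq {G : ℍ → ℂ} (hG : IsInv N G) (g h : SL(2, ℤ))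
    (hgh : (g : XN N) = h) : trans g G = trans h G := by
  rw [QuotientGroup.eq] at hgh
  funext z
  show G (g⁻¹ • z) = G (h⁻¹ • z)
  have e : h⁻¹ • z = (g⁻¹ * h)⁻¹ • g⁻¹ • z := by
    rw [← mul_smul]
    congr 1
    group
  rw [e, hG _ (inv_mem hgh)]

theorem IsInv.transR_transR_out {G : R0} (hG : IsInv N (G : ℍ → ℂ)) (γ : SL(2, ℤ)) (q : XN N) :
    transR γ (transR q.out G) = transR (γ • q).out G := by
  rw [transR_transR]
  apply Subtype.ext
  show trans (γ * q.out) (G : ℍ → ℂ) = trans (γ • q).out (G : ℍ → ℂ)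
  refine hG.trans_eq_of_coset_eq _ _ ?_
  rw [QuotientGroup.out_eq']
  conv_rhs => rw [← QuotientGroup.out_eq' q]
  rfl

theorem IsInv.transR_out_one {G : R0} (hG : IsInv N (G : ℍ → ℂ)) :
    transR ((1 : SL(2, ℤ)) : XN N).out G = G := by
  apply Subtype.ext
  show trans ((1 : SL(2, ℤ)) : XN N).out (G : ℍ → ℂ) = (G : ℍ → ℂ)
  rw [hG.trans_eq_of_coset_eq _ 1 (QuotientGroup.out_eq' _), Deg.trans_one]

theorem prod_erase_smul {M : Type*} [CommMonoid M] [DecidableEq (XN N)] (γ : SL(2, ℤ))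
    (i : XN N) (f : XN N → M) :
    ∏ k ∈ Finset.univ.erase i, f (γ • k) = ∏ k ∈ Finset.univ.erase (γ • i), f k := by
  refine Finset.prod_equiv (MulAction.toPerm γ) (fun k => ?_) (fun k _ => rfl)
  simp

open scoped Classical in
/-- The Lagrange numerator `∑ i, A_i ∏_{k ≠ i} B_k ∏_{k ≠ i} (X - t_k)`. -/
def numPoly (N : ℕ) [NeZero N] (A B t : R0) : R0[X] :=
  ∑ i : XN N, C (transR i.out A * ∏ k ∈ Finset.univ.erase i, transR k.out B) *
    ∏ k ∈ Finset.univ.erase i, (X - C (transR k.out t))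

open scoped Classical in
/-- The Lagrange denominator `∏ k, B_k * ∑ i, ∏_{k ≠ i} (X - t_k)`. -/
def denPoly (N : ℕ) [NeZero N] (B t : R0) : R0[X] :=
  ∑ i : XN N, C (∏ k : XN N, transR k.out B) *
    ∏ k ∈ Finset.univ.erase i, (X - C (transR k.out t))

theorem map_numPoly {A B t : R0} (hA : IsInv N (A : ℍ → ℂ)) (hB : IsInv N (B : ℍ → ℂ))
    (ht : IsInv N (t : ℍ → ℂ)) (γ : SL(2, ℤ)) :
    (numPoly N A B t).map (transR γ) = numPoly N A B t := by
  classical
  unfold numPoly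
  rw [Polynomial.map_sum]
  simp only [Polynomial.map_mul, Polynomial.map_C, Polynomial.map_prod, Polynomial.map_sub,
    Polynomial.map_X, map_mul, map_prod, hA.transR_transR_out, hB.transR_transR_out,
    ht.transR_transR_out]
  refine Fintype.sum_equiv (MulAction.toPerm γ) _ _ (fun i => ?_)
  rw [prod_erase_smul γ i (fun k => (C (transR k.out B) : R0[X])),
    prod_erase_smul γ i (fun k => X - C (transR k.out t))]
  rfl

theorem map_denPoly {B t : R0} (hB : IsInv N (B : ℍ → ℂ))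
    (ht : IsInv N (t : ℍ → ℂ)) (γ : SL(2, ℤ)) :
    (denPoly N B t).map (transR γ) = denPoly N B t := by
  classical
  unfold denPoly
  rw [Polynomial.map_sum]
  simp only [Polynomial.map_mul, Polynomial.map_C, Polynomial.map_prod, Polynomial.map_sub,
    Polynomial.map_X, map_prod, hB.transR_transR_out, ht.transR_transR_out]
  have hprod : ∏ k : XN N, (C (transR (γ • k).out B) : R0[X]) = ∏ k : XN N, C (transR k.out B) :=
    Fintype.prod_equiv (MulAction.toPerm γ) _ _ (fun k => rfl)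
  rw [hprod]
  refine Fintype.sum_equiv (MulAction.toPerm γ) _ _ (fun i => ?_)
  rw [prod_erase_smul γ i (fun k => X - C (transR k.out t))]
  rfl

/-- The function `t = J(N z)` as an element of `R0`. -/
def tN (N : ℕ) [NeZero N] : R0 := ⟨Jabd N 0 1, Jabd_mem_R0 N ⟨N, dvd_rfl⟩⟩

theorem tN_coe (N : ℕ) [NeZero N] : ((tN N : R0) : ℍ → ℂ) = Jabd N 0 1 := rfl

theorem isInv_tN (N : ℕ) [NeZero N] : IsInv N ((tN N : R0) : ℍ → ℂ) := fun γ hγ z =>
  HNFMod.Jabd_smul_of_mem_Gamma0 N ⟨N, dvd_rfl⟩ γ hγ z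

/-- The value at `t = J(N z)` of a polynomial over `R0` with translation-invariant coefficients
is `evC` of a polynomial in `X_1` and `X_N`. -/
theorem exists_mv_of_invariant_poly (W : R0[X]) (hW : ∀ γ : SL(2, ℤ), W.map (transR γ) = W) :
    ∃ P : MvPolynomial (Dv N) ℂ, ∀ z : ℍ, evC N P z = ((W.eval (tN N) : R0) : ℍ → ℂ) z := by
  have hc : ∀ k : ℕ, ∃ p : ℂ[X], ∀ z : ℍ, ((W.coeff k : R0) : ℍ → ℂ) z = p.eval (Jfun z) :=
    fun k => exists_poly_of_transR_fixed _ (fun γ => by rw [← Polynomial.coeff_map, hW])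
  choose p hp using hc
  refine ⟨∑ k ∈ Finset.range (W.natDegree + 1),
    Polynomial.aeval (MvPolynomial.X (JPt.d1 N)) (p k) *
      MvPolynomial.X (⟨N, dvd_rfl⟩ : Dv N) ^ k, fun z => ?_⟩
  rw [Polynomial.eval_eq_sum_range, map_sum]
  have h1 : ((∑ k ∈ Finset.range (W.natDegree + 1), W.coeff k * tN N ^ k : R0) : ℍ → ℂ) =
      ∑ k ∈ Finset.range (W.natDegree + 1), ((W.coeff k : R0) : ℍ → ℂ) * (Jabd N 0 1) ^ k := by
    rw [← Subring.coe_subtype, map_sum]
    rfl
  rw [h1, Finset.sum_apply, Finset.sum_apply]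
  refine Finset.sum_congr rfl fun k _ => ?_
  rw [map_mul, map_pow, evC_X, Pi.mul_apply, evC_aeval_d1, Pi.mul_apply, hp k]

/-- Value of the Lagrange numerator at the base conjugate. -/
theorem eval_numPoly (A B t : R0) :
    (numPoly N A B t).eval (transR ((1 : SL(2, ℤ)) : XN N).out t) =
      open scoped Classical in
      transR ((1 : SL(2, ℤ)) : XN N).out A *
        (∏ k ∈ Finset.univ.erase (((1 : SL(2, ℤ)) : XN N)), transR k.out B) *
        ∏ k ∈ Finset.univ.erase (((1 : SL(2, ℤ)) : XN N)),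
          (transR ((1 : SL(2, ℤ)) : XN N).out t - transR k.out t) := by
  classical
  unfold numPoly
  rw [Polynomial.eval_finsetSum, Finset.sum_eq_single (((1 : SL(2, ℤ)) : XN N))]
  · rw [Polynomial.eval_mul, Polynomial.eval_C, Polynomial.eval_prod]
    simp only [Polynomial.eval_sub, Polynomial.eval_X, Polynomial.eval_C]
  · intro i _ hi
    rw [Polynomial.eval_mul, Polynomial.eval_prod]
    have h0 : ∏ k ∈ Finset.univ.erase i,
        (X - C (transR k.out t)).eval (transR ((1 : SL(2, ℤ)) : XN N).out t) = 0 := by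
      refine Finset.prod_eq_zero (i := ((1 : SL(2, ℤ)) : XN N)) ?_ ?_
      · exact Finset.mem_erase.2 ⟨fun h => hi h.symm, Finset.mem_univ _⟩
      · simp
    rw [h0, mul_zero]
  · intro h
    exact absurd (Finset.mem_univ _) h

/-- Value of the Lagrange denominator at the base conjugate. -/
theorem eval_denPoly (B t : R0) :
    (denPoly N B t).eval (transR ((1 : SL(2, ℤ)) : XN N).out t) =
      open scoped Classical in
      (∏ k : XN N, transR k.out B) *
        ∏ k ∈ Finset.univ.erase (((1 : SL(2, ℤ)) : XN N)),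
          (transR ((1 : SL(2, ℤ)) : XN N).out t - transR k.out t) := by
  classical
  unfold denPoly
  rw [Polynomial.eval_finsetSum, Finset.sum_eq_single (((1 : SL(2, ℤ)) : XN N))]
  · rw [Polynomial.eval_mul, Polynomial.eval_C, Polynomial.eval_prod]
    simp only [Polynomial.eval_sub, Polynomial.eval_X, Polynomial.eval_C]
  · intro i _ hi
    rw [Polynomial.eval_mul, Polynomial.eval_prod]
    have h0 : ∏ k ∈ Finset.univ.erase i,
        (X - C (transR k.out t)).eval (transR ((1 : SL(2, ℤ)) : XN N).out t) = 0 := by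
      refine Finset.prod_eq_zero (i := ((1 : SL(2, ℤ)) : XN N)) ?_ ?_
      · exact Finset.mem_erase.2 ⟨fun h => hi h.symm, Finset.mem_univ _⟩
      · simp
    rw [h0, mul_zero]
  · intro h
    exact absurd (Finset.mem_univ _) h

/-- **JAC-D, weight `0`, in `R0`.** -/
theorem exists_poly_of_mem_R0 (A B : R0) (hB0 : B ≠ 0) (hA : IsInv N (A : ℍ → ℂ))
    (hB : IsInv N (B : ℍ → ℂ)) :
    ∃ P Q : MvPolynomial (Dv N) ℂ, evC N Q ≠ 0 ∧
      ∀ z : ℍ, evC N P z * (B : ℍ → ℂ) z = evC N Q z * (A : ℍ → ℂ) z := by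
  classical
  have ht := isInv_tN N
  obtain ⟨P, hP⟩ := exists_mv_of_invariant_poly (N := N) (numPoly N A B (tN N))
    (map_numPoly hA hB ht)
  obtain ⟨Q, hQ⟩ := exists_mv_of_invariant_poly (N := N) (denPoly N B (tN N))
    (map_denPoly hB ht)
  have ht1 : transR ((1 : SL(2, ℤ)) : XN N).out (tN N) = tN N := ht.transR_out_one
  have hA1 : transR ((1 : SL(2, ℤ)) : XN N).out A = A := hA.transR_out_one
  have hB1 : transR ((1 : SL(2, ℤ)) : XN N).out B = B := hB.transR_out_one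
  have hnum := eval_numPoly (N := N) A B (tN N)
  have hden := eval_denPoly (N := N) B (tN N)
  rw [ht1] at hnum hden
  rw [hA1] at hnum
  rw [← Finset.mul_prod_erase Finset.univ (fun k : XN N => transR k.out B)
    (Finset.mem_univ (((1 : SL(2, ℤ)) : XN N))), hB1] at hden
  set E : R0 := ∏ k ∈ Finset.univ.erase (((1 : SL(2, ℤ)) : XN N)), transR k.out B with hE
  set D : R0 := ∏ k ∈ Finset.univ.erase (((1 : SL(2, ℤ)) : XN N)),
    (tN N - transR k.out (tN N)) with hD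
  have hE0 : E ≠ 0 := by
    rw [hE]
    refine Finset.prod_ne_zero_iff.2 fun k _ h => hB0 ?_
    exact transR_injective k.out (h.trans (map_zero _).symm)
  have hD0 : D ≠ 0 := by
    rw [hD]
    refine Finset.prod_ne_zero_iff.2 fun k hk h => ?_
    have hk' : k ≠ ((1 : SL(2, ℤ)) : XN N) := (Finset.mem_erase.1 hk).1
    apply hk'
    have h1 : transR k.out (tN N) = transR ((1 : SL(2, ℤ)) : XN N).out (tN N) := by
      rw [ht1]
      exact (sub_eq_zero.1 h).symm
    exact HNFMod.injective_trans_out N (congrArg Subtype.val h1)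
  refine ⟨P, Q, fun h0 => ?_, fun z => ?_⟩
  · have h1 : ((denPoly N B (tN N)).eval (tN N) : R0) = 0 := by
      apply Subtype.ext
      funext z
      rw [← hQ z, h0]
      rfl
    rw [hden] at h1
    exact mul_ne_zero (mul_ne_zero hB0 hE0) hD0 h1
  · rw [hP z, hQ z, hnum, hden]
    show (A : ℍ → ℂ) z * (E : ℍ → ℂ) z * (D : ℍ → ℂ) z * (B : ℍ → ℂ) z =
      (B : ℍ → ℂ) z * (E : ℍ → ℂ) z * (D : ℍ → ℂ) z * (A : ℍ → ℂ) z
    ring

/-- **JAC-D, weight `0`.** Two `Γ₀(N)`-invariant holomorphic functions `A`, `B ≠ 0` on `ℍ` of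
moderate growth at all cusps satisfy `ev P * B = ev Q * A` for polynomials `P`, `Q` in the
functions `z ↦ J(d z)`, `d ∣ N`, with `ev Q ≠ 0`: "`A / B ∈ ℂ(j(d z) : d ∣ N)`". -/
theorem exists_poly_of_invariant_Gamma0 (A B : ℍ → ℂ) (hA : MDiff A) (hB : MDiff B)
    (hB0 : B ≠ 0)
    (hAinv : ∀ γ ∈ Gamma0 N, ∀ z : ℍ, A (γ • z) = A z)
    (hBinv : ∀ γ ∈ Gamma0 N, ∀ z : ℍ, B (γ • z) = B z)
    (hAc : ∀ g : SL(2, ℤ), ∃ m : ℕ, IsBoundedAtImInfty (Δf ^ m * trans g A))
    (hBc : ∀ g : SL(2, ℤ), ∃ m : ℕ, IsBoundedAtImInfty (Δf ^ m * trans g B)) :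
    ∃ P Q : MvPolynomial (Dv N) ℂ, evC N Q ≠ 0 ∧
      ∀ z : ℍ, evC N P z * B z = evC N Q z * A z :=
  exists_poly_of_mem_R0 (N := N) ⟨A, hA, hAc⟩ ⟨B, hB, hBc⟩
    (fun h => hB0 (congrArg Subtype.val h)) hAinv hBinv

end Lagrange

/-! ### Weight `k` -/

section Weight

/-- The weight-zero function `a * b ^ 11 * Δ ^ n / Δ ^ m` attached to two functions of weight
`k = m - n`. -/
def wz (m n : ℕ) (a b : ℍ → ℂ) : ℍ → ℂ := a * b ^ 11 * Δf ^ n / Δf ^ m

theorem wz_apply (m n : ℕ) (a b : ℍ → ℂ) (z : ℍ) :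
    wz m n a b z = a z * b z ^ 11 * Δf z ^ n / Δf z ^ m := rfl

theorem mdiff_Δf : MDiff Δf := CuspForm.discriminant.holo'

theorem mdiff_wz (m n : ℕ) {a b : ℍ → ℂ} (ha : MDiff a) (hb : MDiff b) : MDiff (wz m n a b) :=
  ((ha.mul (hb.pow 11)).mul (mdiff_Δf.pow n)).div (mdiff_Δf.pow m)
    (fun z => pow_ne_zero m (Δf_ne_zero z))

/-- The basic transformation formula. -/
theorem wz_smul {k : ℤ} {m n : ℕ} (hk : (m : ℤ) - n = k) (a b : ℍ → ℂ) (γ : SL(2, ℤ)) (z : ℍ) :
    wz m n a b (γ • z) = wz m n (a ∣[k] γ) (b ∣[k] γ) z := by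
  have hd : denom (Matrix.SpecialLinearGroup.toGL
      ((Matrix.SpecialLinearGroup.map (Int.castRingHom ℝ)) γ)) (z : ℂ) ≠ 0 := denom_ne_zero _ z
  set d := denom (Matrix.SpecialLinearGroup.toGL
      ((Matrix.SpecialLinearGroup.map (Int.castRingHom ℝ)) γ)) (z : ℂ) with hd_def
  have hΔ : Δf (γ • z) = d ^ 12 * Δf z := JOrd.discriminant_smul γ z
  have hΔ0 : Δf z ≠ 0 := Δf_ne_zero z
  have hdk : d ^ (-k) = d ^ n / d ^ m := by
    rw [← hk, neg_sub, zpow_sub₀ hd, zpow_natCast, zpow_natCast]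
  rw [wz_apply, wz_apply, SL_slash_apply, SL_slash_apply, ← hd_def, hΔ, hdk]
  field_simp
  ring

/-- **JAC-D, weight `k`.** Two holomorphic functions `a`, `b ≠ 0` on `ℍ` of weight `k` for
`Γ₀(N)`, of moderate growth at all cusps, satisfy `ev P * b = ev Q * a` for polynomials `P`, `Q`
in the functions `z ↦ J(d z)`, `d ∣ N`, with `ev Q ≠ 0`. -/
theorem exists_poly_of_slash_invariant (N : ℕ) [NeZero N] (k : ℤ) (a b : ℍ → ℂ) (ha : MDiff a)
    (hb : MDiff b) (hb0 : b ≠ 0)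
    (hak : ∀ γ ∈ Gamma0 N, a ∣[k] γ = a) (hbk : ∀ γ ∈ Gamma0 N, b ∣[k] γ = b)
    (hac : ∀ g : SL(2, ℤ), ∃ m : ℕ, IsBoundedAtImInfty (Δf ^ m * a ∣[k] g))
    (hbc : ∀ g : SL(2, ℤ), ∃ m : ℕ, IsBoundedAtImInfty (Δf ^ m * b ∣[k] g)) :
    ∃ P Q : MvPolynomial (Dv N) ℂ, evC N Q ≠ 0 ∧
      ∀ z : ℍ, evC N P z * b z = evC N Q z * a z := by
  set m : ℕ := k.toNat with hm
  set n : ℕ := (-k).toNat with hn
  have hk : (m : ℤ) - n = k := by omega
  -- invariance
  have hinv : ∀ u : ℍ → ℂ, (∀ γ ∈ Gamma0 N, u ∣[k] γ = u) →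
      ∀ γ ∈ Gamma0 N, ∀ z : ℍ, wz m n u b (γ • z) = wz m n u b z := by
    intro u hu γ hγ z
    rw [wz_smul hk, hu γ hγ, hbk γ hγ]
  -- growth
  have hgrow : ∀ u : ℍ → ℂ, (∀ g : SL(2, ℤ), ∃ r : ℕ, IsBoundedAtImInfty (Δf ^ r * u ∣[k] g)) →
      ∀ g : SL(2, ℤ), ∃ r : ℕ, IsBoundedAtImInfty (Δf ^ r * trans g (wz m n u b)) := by
    intro u hu g
    obtain ⟨r, hr⟩ := hu g⁻¹
    obtain ⟨r', hr'⟩ := hbc g⁻¹
    refine ⟨r + 11 * r' + m, ?_⟩
    have e : Δf ^ (r + 11 * r' + m) * trans g (wz m n u b) =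
        (Δf ^ r * u ∣[k] g⁻¹) * (Δf ^ r' * b ∣[k] g⁻¹) ^ 11 * Δf ^ n := by
      funext z
      have hΔ0 : Δf z ≠ 0 := Δf_ne_zero z
      show Δf z ^ (r + 11 * r' + m) * wz m n u b (g⁻¹ • z) =
        (Δf z ^ r * (u ∣[k] g⁻¹) z) * (Δf z ^ r' * (b ∣[k] g⁻¹) z) ^ 11 * Δf z ^ n
      rw [wz_smul hk, wz_apply]
      field_simp
      ring
    rw [e]
    exact (hr.mul (isBounded_pow hr' 11)).mul (isBounded_Δf_pow n)
  have hB0 : wz m n b b ≠ 0 := by
    intro h0
    apply hb0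
    funext z
    have h1 := congrFun h0 z
    rw [wz_apply] at h1
    have hΔ0 : Δf z ≠ 0 := Δf_ne_zero z
    have h2 : b z * b z ^ 11 * Δf z ^ n = 0 := by
      rcases div_eq_zero_iff.1 h1 with h | h
      · exact h
      · exact absurd h (pow_ne_zero m hΔ0)
    have h3 : b z * b z ^ 11 = 0 := by
      rcases mul_eq_zero.1 h2 with h | h
      · exact h
      · exact absurd h (pow_ne_zero n hΔ0)
    rcases mul_eq_zero.1 h3 with h | h
    · exact h
    · exact pow_eq_zero_iff (by norm_num) |>.1 h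
  obtain ⟨P, Q, hQ, hPQ⟩ := exists_poly_of_invariant_Gamma0 (N := N) (wz m n a b) (wz m n b b)
    (mdiff_wz m n ha hb) (mdiff_wz m n hb hb) hB0 (hinv a hak) (hinv b hbk)
    (hgrow a hac) (hgrow b hbc)
  refine ⟨P, Q, hQ, ?_⟩
  -- cancel the common factor
  set F : ℍ → ℂ := evC N P * b - evC N Q * a with hF
  have hFd : MDiff F :=
    ((evC_mem_R0 N P).1.mul hb).sub ((evC_mem_R0 N Q).1.mul ha)
  have hFb : F * b = 0 := by
    funext z
    have h1 := hPQ z
    rw [wz_apply, wz_apply] at h1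
    have hΔ0 : Δf z ≠ 0 := Δf_ne_zero z
    by_cases hbz : b z = 0
    · simp [hbz]
    · have h2 : evC N P z * b z = evC N Q z * a z := by
        field_simp at h1
        exact h1
      show (evC N P z * b z - evC N Q z * a z) * b z = 0
      rw [h2, sub_self, zero_mul]
  have hF0 : F = 0 := by
    rcases (UpperHalfPlane.mul_eq_zero_iff hFd hb).1 hFb with h | h
    · exact h
    · exact absurd h hb0
  intro z
  have := congrFun hF0 z
  exact sub_eq_zero.1 this

/-- **JAC-D for modular forms** (in the `IsMF` form of S20): the quotient of two modular forms of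
the same weight for `Γ₀(N)` is a rational function of the `J(d z)`, `d ∣ N`. -/
theorem exists_poly_of_isMF (N : ℕ) [NeZero N] (k : ℤ) (a b : ℍ → ℂ)
    (ha : IsMF (Gamma0 N) k a) (hb : IsMF (Gamma0 N) k b) (hb0 : b ≠ 0) :
    ∃ P Q : MvPolynomial (Dv N) ℂ, evC N Q ≠ 0 ∧
      ∀ z : ℍ, evC N P z * b z = evC N Q z * a z :=
  exists_poly_of_slash_invariant N k a b ha.1 hb.1 hb0 ha.2.1 hb.2.1
    (fun g => ⟨0, by simpa using ha.2.2 g⟩) (fun g => ⟨0, by simpa using hb.2.2 g⟩)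

end Weight

/-! ### Extras for consumers -/

section Extras

/-- Every `ev N P` (coefficients in `ℚ̄`) is in `R0`. -/
theorem ev_mem_R0 (N : ℕ) [NeZero N] (P : MvPolynomial (Dv N) KQ) : ev N P ∈ R0 := by
  refine ⟨PtInv.mdiff_ev N _, fun g => ?_⟩
  have hq := QExp.hasQExp_trans_ev' N g P
  have hmem := QLaurent.mem_MerInf_of_hasSum hq
  obtain ⟨-, -, m, hm⟩ := QLaurent.mem_MerInf_iff_discriminant.1 hmem
  exact ⟨m, hm⟩

/-- `evC N P` is `Γ₀(N)`-invariant. -/
theorem isInv_evC (N : ℕ) [NeZero N] (P : MvPolynomial (Dv N) ℂ) : IsInv N (evC N P) := by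
  intro γ hγ z
  induction P using MvPolynomial.induction_on with
  | C c => rw [evC_C, evC_C]
  | add p q hp hq => rw [map_add, Pi.add_apply, Pi.add_apply, hp, hq]
  | mul_X p i hp =>
    rw [map_mul, Pi.mul_apply, Pi.mul_apply, hp, evC_X,
      HNFMod.Jabd_smul_of_mem_Gamma0 N i γ hγ z]

/-- `evC` of a polynomial with coefficients in `ℚ̄` is `ev`. -/
theorem evC_map (N : ℕ) (P : MvPolynomial (Dv N) KQ) :
    evC N (MvPolynomial.map iotaK P) = ev N P := by
  funext z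
  induction P using MvPolynomial.induction_on with
  | C c =>
    rw [MvPolynomial.map_C, evC_C]
    simp [ev]
  | add p q hp hq =>
    rw [map_add, map_add, map_add, Pi.add_apply, Pi.add_apply, hp, hq]
  | mul_X p i hp =>
    rw [map_mul, map_mul, map_mul, Pi.mul_apply, Pi.mul_apply, hp, MvPolynomial.map_X, evC_X,
      HNFMod.ev_X]

/-- A holomorphic function some positive power of which is of moderate growth at all cusps is
of moderate growth at all cusps. -/
theorem mem_R0_of_pow_mem {A : ℍ → ℂ} (hA : MDiff A) {n : ℕ} (hn : n ≠ 0) (h : A ^ n ∈ R0) :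
    A ∈ R0 := by
  refine ⟨hA, fun g => ?_⟩
  obtain ⟨m, hm⟩ := h.2 g
  refine ⟨m, ?_⟩
  have hb : IsBoundedAtImInfty ((Δf ^ m * trans g A) ^ n) := by
    have e : (Δf ^ m * trans g A) ^ n = Δf ^ (m * (n - 1)) * (Δf ^ m * trans g (A ^ n)) := by
      rw [trans_pow, mul_pow, ← pow_mul, ← mul_assoc, ← pow_add]
      congr 2
      have : n = n - 1 + 1 := by omega
      conv_lhs => rw [this]
      ring
    rw [e]
    exact (isBounded_Δf_pow _).mul hm
  rw [isBoundedAtImInfty_iff] at hb ⊢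
  obtain ⟨M, Y, hMY⟩ := hb
  refine ⟨max M 1, Y, fun z hz => ?_⟩
  have h1 := hMY z hz
  rw [Pi.pow_apply, norm_pow] at h1
  by_contra hcon
  push Not at hcon
  have h2 : (1 : ℝ) < ‖(Δf ^ m * trans g A) z‖ := lt_of_le_of_lt (le_max_right _ _) hcon
  have h3 : ‖(Δf ^ m * trans g A) z‖ ≤ ‖(Δf ^ m * trans g A) z‖ ^ n :=
    le_self_pow₀ h2.le hn
  have h4 : M < ‖(Δf ^ m * trans g A) z‖ := lt_of_le_of_lt (le_max_left _ _) hcon
  linarith

end Extras

end Fermat.Agent.ESJ.Jac.Inv
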