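import Fermat.Agent.ESJ.Jac.Defs
import Fermat.Agent.ESJ.Jac.KummerPair

/-!
# JAC-A, bridge: Kummer pairs and the Kummer group `IsKummerElt` of `Jac/Defs.lean`
-/

set_option autoImplicit false

namespace Fermat.Agent.ESJ.Jac

open AlgebraicCurve

variable {K F : Type*} [Field K] [Field F] [Algebra K F]

/-- The Kummer function of a class lies in the Kummer group. -/
theorem IsKummerPair.isKummerElt {n : ℕ} {x : Pic0 K F} {f : F} (h : IsKummerPair n x f) :
    IsKummerElt K F n f := by
  obtain ⟨hf, D, -, hD⟩ := h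
  exact ⟨hf, fun v => ⟨_, (hD v).symm⟩⟩

/-- The Kummer group consists exactly of the Kummer functions of classes. -/
theorem isKummerElt_iff_exists_isKummerPair [HasPrincipalDivisors K F] {n : ℕ} (hn : n ≠ 0)
    {f : F} : IsKummerElt K F n f ↔ ∃ x : Pic0 K F, IsKummerPair n x f :=
  ⟨fun h => exists_isKummerPair_of_dvd hn h.1 h.2, fun ⟨_, h⟩ => h.isKummerElt⟩

/-- Every `n`-torsion class has a Kummer function in the Kummer group. -/
theorem exists_isKummerElt_of_mem_torsion {n : ℕ} {x : Pic0 K F}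
    (hx : x ∈ Pic0.torsion K F n) : ∃ f : F, IsKummerElt K F n f ∧ IsKummerPair n x f := by
  obtain ⟨f, hf⟩ := exists_isKummerPair hx
  exact ⟨f, hf.isKummerElt, hf⟩

end Fermat.Agent.ESJ.Jac
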