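/-
ESJ / JAC-TORS, package JAC-G(c) (helper61): the period map of S21 intertwines the Hecke
operators on `S₂(Γ₀(N))` with the transfer ("Hecke") operator on `Hom(Γ₀(N), ℂ)`.

Data-agnostic form: for any finite family `α i ∈ GL₂(ℝ)⁺`, any `Tf` with
`⇑Tf = ∑ i, ⇑f ∣[2] α i`, and any `γ`, `σ`, `γ' i` with `α i ∘ γ = γ' i ∘ α (σ i)` on `ℍ`:
`periodMap N Tf γ = ∑ i, periodMap N f (γ' i)`.
-/
import Mathlib
import Fermat.Prelude.Def_ModularCurve_PeriodHomPair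
import Fermat.Prelude.Def_ModularForm_HeckeOperatorForms
import Fermat.Prelude.Sol.S_ModularForm_heckeT_slash_eq_self_of_mem_Gamma0
import Fermat.Agent.S21.Primitive
import Fermat.Agent.S24.OrdH

set_option autoImplicit false

open UpperHalfPlane hiding I
open Complex Filter Function Topology
open scoped MatrixGroups Manifold ModularForm Real
open CongruenceSubgroup ModularCurve ModularCurve.Period

namespace Fermat.Agent.ESJ.Jac.PeriodHecke

open Fermat.Agent.S24.OrdH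

/-- Weight-2 slash by `g ∈ GL₂(ℝ)⁺`, evaluated. -/
theorem slash_two_apply (f : ℍ → ℂ) {g : GL (Fin 2) ℝ} (hg : 0 < g.det.val) (τ : ℍ) :
    (f ∣[(2 : ℤ)] g) τ = f (g • τ) * ((g.det.val : ℂ) / denom g τ ^ 2) := by
  rw [ModularForm.slash_apply, UpperHalfPlane.σ, if_pos hg]
  simp only [ContinuousAlgEquiv.refl_apply]
  rw [abs_of_pos hg]
  have hd : denom g τ ≠ 0 := denom_ne_zero g τ
  rw [show (2 : ℤ) - 1 = 1 by norm_num, zpow_one, zpow_neg]
  rw [show (denom g τ) ^ (2 : ℤ) = denom g τ ^ 2 by norm_cast]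
  ring

/-- **Chain rule for primitives.** If `F` is a primitive of `f` on `ℍ` then `z ↦ F (g • z)` is a
primitive of `f ∣[2] g`, for `g ∈ GL₂(ℝ)⁺`. -/
theorem hasDerivAt_comp_smul {F f : ℍ → ℂ}
    (hF : ∀ τ : ℍ, HasDerivAt (F ∘ ofComplex) (f τ) ↑τ)
    {g : GL (Fin 2) ℝ} (hg : 0 < g.det.val) (τ : ℍ) :
    HasDerivAt ((fun z : ℍ => F (g • z)) ∘ ofComplex) ((f ∣[(2 : ℤ)] g) τ) ↑τ := by
  have h1 : HasDerivAt (moeb g) ((g.det.val : ℂ) / (denom g (τ : ℂ)) ^ 2) (τ : ℂ) :=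
    hasDerivAt_moeb g τ.im_pos
  have h2 : HasDerivAt (F ∘ ofComplex) (f (g • τ)) (moeb g (τ : ℂ)) := by
    rw [← coe_smul_eq_moeb hg τ]
    exact hF (g • τ)
  have h3 := h2.comp (τ : ℂ) h1
  rw [slash_two_apply f hg τ]
  exact h3.congr_of_eventuallyEq (comp_smul_eventuallyEq F hg τ)

/-- Finite sums of primitives. -/
theorem hasDerivAt_sum_comp_smul {F f : ℍ → ℂ}
    (hF : ∀ τ : ℍ, HasDerivAt (F ∘ ofComplex) (f τ) ↑τ)
    {ι : Type*} [Fintype ι] (α : ι → GL (Fin 2) ℝ) (hα : ∀ i, 0 < (α i).det.val) (τ : ℍ) :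
    HasDerivAt ((fun z : ℍ => ∑ i, F (α i • z)) ∘ ofComplex)
      ((∑ i, f ∣[(2 : ℤ)] α i) τ) ↑τ := by
  have h := HasDerivAt.sum (u := Finset.univ)
    (fun i _ => hasDerivAt_comp_smul hF (hα i) τ)
  rw [Finset.sum_apply]
  have heq : ((fun z : ℍ => ∑ i, F (α i • z)) ∘ ofComplex)
      = ∑ i, ((fun z : ℍ => F (α i • z)) ∘ ofComplex) := by
    funext w
    simp only [Function.comp_apply, Finset.sum_apply]
  rw [heq]
  exact h

/-- **JAC-G(c), abstract form.** The period map intertwines a "Hecke operator"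
`f ↦ ∑ i, f ∣[2] α i` with the transfer `φ ↦ (γ ↦ ∑ i, φ (γ' i))`, where
`α i ∘ γ = γ' i ∘ α (σ i)`. -/
theorem periodMap_apply_of_sum_slash (N : ℕ) [NeZero N] {ι : Type*} [Fintype ι]
    (α : ι → GL (Fin 2) ℝ) (hα : ∀ i, 0 < (α i).det.val)
    (f Tf : CuspForm (Gamma0 N) 2) (hT : (⇑Tf : ℍ → ℂ) = ∑ i, (⇑f : ℍ → ℂ) ∣[(2 : ℤ)] α i)
    (γ : Gamma0 N) (σ : Equiv.Perm ι) (γ' : ι → Gamma0 N)
    (hrel : ∀ (i : ι) (z : ℍ),
      α i • ((γ : SL(2, ℤ)) • z) = ((γ' i : Gamma0 N) : SL(2, ℤ)) • (α (σ i) • z)) :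
    periodMap N Tf (Additive.ofMul γ) = ∑ i, periodMap N f (Additive.ofMul (γ' i)) := by
  obtain ⟨F, hF, -⟩ := Fermat.Agent.S21.exists_hasEquivariantPrimitive N f
  obtain ⟨G, hG, -⟩ := Fermat.Agent.S21.exists_hasEquivariantPrimitive N Tf
  have hder : ∀ τ : ℍ, HasDerivAt ((fun z : ℍ => ∑ i, F (α i • z)) ∘ ofComplex) (Tf τ) ↑τ := by
    intro τ
    have h := hasDerivAt_sum_comp_smul hF.1 α hα τ
    rw [← hT] at h
    exact h
  obtain ⟨c, hc⟩ := Fermat.Agent.S21.exists_const_of_hasDerivAt hG.1 hder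
  rw [Fermat.Agent.S21.periodMap_apply hG γ UpperHalfPlane.I]
  have a := hc ((γ : SL(2, ℤ)) • UpperHalfPlane.I)
  have b := hc UpperHalfPlane.I
  have key : ∑ i, F (α i • ((γ : SL(2, ℤ)) • UpperHalfPlane.I)) - ∑ i, F (α i • UpperHalfPlane.I)
      = ∑ i, periodMap N f (Additive.ofMul (γ' i)) := by
    have h1 : ∑ i, F (α i • UpperHalfPlane.I) = ∑ i, F (α (σ i) • UpperHalfPlane.I) :=
      (Equiv.sum_comp σ (fun i => F (α i • UpperHalfPlane.I))).symm
    rw [h1, ← Finset.sum_sub_distrib]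
    refine Finset.sum_congr rfl (fun i _ => ?_)
    rw [hrel i, Fermat.Agent.S21.periodMap_apply hF (γ' i) (α (σ i) • UpperHalfPlane.I)]
  rw [← key]
  linear_combination a - b

/-! ### Hecke data and the transfer relation -/

open Matrix.SpecialLinearGroup
open P2MW.S_ModularForm_heckeT_slash_eq_self_of_mem_Gamma0.ModularForm.HeckeSlashInvariance

/-- `(σ, γ')` is valid Hecke data for `γ` with respect to the representatives `α`:
`α i * γ = γ' i * α (σ i)` in `GL₂(ℝ)`. -/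
def IsHeckeData {N : ℕ} {ι : Type*} (α : ι → GL (Fin 2) ℝ) (γ : Gamma0 N) (σ : Equiv.Perm ι)
    (γ' : ι → Gamma0 N) : Prop :=
  ∀ i, α i * mapGL ℝ (γ : SL(2, ℤ)) = mapGL ℝ ((γ' i : Gamma0 N) : SL(2, ℤ)) * α (σ i)

/-- `ψ'` is the transfer (Hecke translate) of `ψ` along the representatives `α`:
`ψ' γ = ∑ i, ψ (γ' i)` for all valid Hecke data `(σ, γ')` for `γ`. -/
def IsTransfer {N : ℕ} {ι : Type*} [Fintype ι] {A : Type*} [AddCommGroup A]
    (α : ι → GL (Fin 2) ℝ) (ψ ψ' : Additive (Gamma0 N) →+ A) : Prop :=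
  ∀ (γ : Gamma0 N) (σ : Equiv.Perm ι) (γ' : ι → Gamma0 N), IsHeckeData α γ σ γ' →
    ψ' (Additive.ofMul γ) = ∑ i, ψ (Additive.ofMul (γ' i))

theorem IsHeckeData.smul_eq {N : ℕ} {ι : Type*} {α : ι → GL (Fin 2) ℝ} {γ : Gamma0 N}
    {σ : Equiv.Perm ι} {γ' : ι → Gamma0 N} (h : IsHeckeData α γ σ γ') (i : ι) (z : ℍ) :
    α i • ((γ : SL(2, ℤ)) • z) = ((γ' i : Gamma0 N) : SL(2, ℤ)) • (α (σ i) • z) := by
  show α i • (mapGL ℝ (γ : SL(2, ℤ)) • z) = mapGL ℝ ((γ' i : Gamma0 N) : SL(2, ℤ)) • (α (σ i) • z)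
  rw [← mul_smul, ← mul_smul, h i]

theorem IsTransfer.add {N : ℕ} {ι : Type*} [Fintype ι] {A : Type*} [AddCommGroup A]
    {α : ι → GL (Fin 2) ℝ} {ψ₁ ψ₁' ψ₂ ψ₂' : Additive (Gamma0 N) →+ A}
    (h₁ : IsTransfer α ψ₁ ψ₁') (h₂ : IsTransfer α ψ₂ ψ₂') :
    IsTransfer α (ψ₁ + ψ₂) (ψ₁' + ψ₂') := by
  intro γ σ γ' hd
  rw [AddMonoidHom.add_apply, h₁ γ σ γ' hd, h₂ γ σ γ' hd, ← Finset.sum_add_distrib]
  rfl

theorem IsTransfer.smul {N : ℕ} {ι : Type*} [Fintype ι] {A : Type*} [AddCommGroup A]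
    {R : Type*} [Semiring R] [Module R A]
    {α : ι → GL (Fin 2) ℝ} {ψ ψ' : Additive (Gamma0 N) →+ A} (c : R)
    (h : IsTransfer α ψ ψ') : IsTransfer α (c • ψ) (c • ψ') := by
  intro γ σ γ' hd
  rw [AddMonoidHom.smul_apply, h γ σ γ' hd, Finset.smul_sum]
  rfl

theorem isTransfer_zero {N : ℕ} {ι : Type*} [Fintype ι] {A : Type*} [AddCommGroup A]
    (α : ι → GL (Fin 2) ℝ) : IsTransfer α (0 : Additive (Gamma0 N) →+ A) 0 := by
  intro γ σ γ' _
  simp

/-- **JAC-G(c), transfer form.** -/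
theorem isTransfer_periodMap_of_sum_slash (N : ℕ) [NeZero N] {ι : Type*} [Fintype ι]
    (α : ι → GL (Fin 2) ℝ) (hα : ∀ i, 0 < (α i).det.val)
    (f Tf : CuspForm (Gamma0 N) 2) (hT : (⇑Tf : ℍ → ℂ) = ∑ i, (⇑f : ℍ → ℂ) ∣[(2 : ℤ)] α i) :
    IsTransfer α (periodMap N f) (periodMap N Tf) := fun γ σ γ' hd =>
  periodMap_apply_of_sum_slash N α hα f Tf hT γ σ γ' (fun i z => hd.smul_eq i z)

/-! ### The Prelude operators `T_p` (`p ∤ N`) and `U_p` (`p ∣ N`) -/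

theorem heckeRep_det_pos (p : ℕ) (x : OnePoint (ZMod p)) : 0 < (heckeRep p x).det.val := by
  induction x using OnePoint.rec with
  | infty => exact ModularForm.det_heckeDiagMatrix_pos p
  | coe j => exact ModularForm.det_heckeMatrix_pos p j.val

/-- Existence of Hecke data for `T_p`: representatives `heckeRep p x`, `x ∈ ℙ¹(𝔽_p)`, permuted by
the reduction of `γ`. -/
theorem exists_isHeckeData_heckeRep (N : ℕ) {p : ℕ} [Fact p.Prime] (hpN : ¬ p ∣ N)
    (γ : Gamma0 N) :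
    ∃ γ' : OnePoint (ZMod p) → Gamma0 N,
      IsHeckeData (heckeRep p) γ (MulAction.toPerm (redMatrix p (γ : SL(2, ℤ)))) γ' := by
  have hγN : (N : ℤ) ∣ (γ : SL(2, ℤ)) 1 0 :=
    (ZMod.intCast_zmod_eq_zero_iff_dvd _ _).mp (Gamma0_mem.mp γ.2)
  choose g' hg' hmul using fun x => heckeRep_mul hpN (γ : SL(2, ℤ)) hγN x
  exact ⟨fun x => ⟨g' x, Gamma0_mem.mpr ((ZMod.intCast_zmod_eq_zero_iff_dvd _ _).mpr (hg' x))⟩,
    fun x => hmul x⟩

/-- Existence of Hecke data for `U_p`: representatives `heckeMatrix p x.val`, `x ∈ 𝔽_p`. -/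
theorem exists_isHeckeData_heckeMatrix (N : ℕ) {p : ℕ} [NeZero p] (hpN : p ∣ N)
    (γ : Gamma0 N) :
    ∃ (σ : Equiv.Perm (ZMod p)) (γ' : ZMod p → Gamma0 N),
      IsHeckeData (fun x : ZMod p => ModularForm.heckeMatrix p x.val) γ σ γ' := by
  have hγN : (N : ℤ) ∣ (γ : SL(2, ℤ)) 1 0 :=
    (ZMod.intCast_zmod_eq_zero_iff_dvd _ _).mp (Gamma0_mem.mp γ.2)
  have hc : (p : ℤ) ∣ (γ : SL(2, ℤ)) 1 0 := (Int.natCast_dvd_natCast.mpr hpN).trans hγN
  choose g' hg' hmul using fun x => heckeMatrix_mul_of_dvd (γ : SL(2, ℤ)) hc x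
  refine ⟨affinePerm (γ : SL(2, ℤ)) ((ZMod.intCast_zmod_eq_zero_iff_dvd _ _).mpr hc),
    fun x => ⟨g' x, ?_⟩, fun x => hmul x⟩
  rw [Gamma0_mem, hg' x]
  push_cast
  rw [Gamma0_mem.mp γ.2, mul_zero]

/-- **JAC-G(c) for `T_p`, `p ∤ N`.** -/
theorem isTransfer_periodMap_heckeT (N : ℕ) [NeZero N] {p : ℕ} [Fact p.Prime] (hpN : ¬ p ∣ N)
    (f : CuspForm (Gamma0 N) 2) :
    IsTransfer (heckeRep p) (periodMap N f)
      (periodMap N (CuspForm.heckeTLin 2 (Fact.out : p.Prime) hpN f)) := by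
  have hT : (⇑(CuspForm.heckeTLin 2 (Fact.out : p.Prime) hpN f) : ℍ → ℂ)
      = ∑ x : OnePoint (ZMod p), (⇑f : ℍ → ℂ) ∣[(2 : ℤ)] heckeRep p x := by
    rw [CuspForm.coe_heckeTLin_apply]
    exact heckeT_eq_sum_onePoint 2 _
  exact isTransfer_periodMap_of_sum_slash N (heckeRep p) (heckeRep_det_pos p) f _ hT

/-- **JAC-G(c) for `U_p`, `p ∣ N`.** -/
theorem isTransfer_periodMap_heckeU (N : ℕ) [NeZero N] {p : ℕ} [NeZero p] (hpN : p ∣ N)
    (f : CuspForm (Gamma0 N) 2) :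
    IsTransfer (fun x : ZMod p => ModularForm.heckeMatrix p x.val) (periodMap N f)
      (periodMap N (CuspForm.heckeULin 2 hpN f)) := by
  have hT : (⇑(CuspForm.heckeULin 2 hpN f) : ℍ → ℂ)
      = ∑ x : ZMod p, (⇑f : ℍ → ℂ) ∣[(2 : ℤ)] ModularForm.heckeMatrix p x.val := by
    rw [CuspForm.coe_heckeULin_apply]
    exact heckeU_eq_sum_zmod 2 _
  exact isTransfer_periodMap_of_sum_slash N (fun x : ZMod p => ModularForm.heckeMatrix p x.val)
    (fun x => ModularForm.det_heckeMatrix_pos p x.val) f _ hT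

/-! ### Compatibility with the involution `γ ↦ J γ J`, `J = diag(1, -1)` -/

noncomputable def jGL : GL (Fin 2) ℝ :=
  Matrix.GeneralLinearGroup.mkOfDetNeZero !![1, 0; 0, -1] (by simp)

theorem val_jGL : ((jGL : GL (Fin 2) ℝ) : Matrix (Fin 2) (Fin 2) ℝ) = !![1, 0; 0, -1] := rfl

theorem jGL_apply (i j : Fin 2) : (jGL : GL (Fin 2) ℝ) i j = (!![1, 0; 0, -1] : Matrix (Fin 2) (Fin 2) ℝ) i j := rfl

theorem jGL_mul_mapGL_mul_jGL (g : SL(2, ℤ)) :
    jGL * mapGL ℝ g * jGL = mapGL ℝ (jConjSL g) := by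
  ext i j
  rw [Matrix.GeneralLinearGroup.coe_mul, Matrix.GeneralLinearGroup.coe_mul, Matrix.mul_apply]
  simp only [Matrix.mul_apply, Fin.sum_univ_two, jGL_apply, mapGL_apply, jConjSL_coe]
  fin_cases i <;> fin_cases j <;> simp [jConjMat]

/-- The unipotent element `[[1, -e], [0, 1]]` of `Γ₀(N)`. -/
def unipSL (e : ℤ) : SL(2, ℤ) := ⟨!![1, -e; 0, 1], by simp [Matrix.det_fin_two_of]⟩

theorem unipSL_mem (N : ℕ) (e : ℤ) : unipSL e ∈ Gamma0 N := by
  rw [Gamma0_mem]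
  simp [unipSL]

def unipGamma0 (N : ℕ) (e : ℤ) : Gamma0 N := ⟨unipSL e, unipSL_mem N e⟩

theorem val_mapGL_unipSL (e : ℤ) :
    ((mapGL ℝ (unipSL e) : GL (Fin 2) ℝ) : Matrix (Fin 2) (Fin 2) ℝ) = !![1, -(e : ℝ); 0, 1] := by
  ext i j
  have h := mapGL_apply (unipSL e) i j
  rw [show ((mapGL ℝ (unipSL e) : GL (Fin 2) ℝ) : Matrix (Fin 2) (Fin 2) ℝ) i j
    = (mapGL ℝ (unipSL e) : GL (Fin 2) ℝ) i j from rfl, h]
  fin_cases i <;> fin_cases j <;> simp [unipSL]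

theorem jGL_heckeMatrix (N : ℕ) {p : ℕ} (hp : p ≠ 0) (a b : ℕ) (e : ℤ)
    (he : (a : ℤ) + b = p * e) :
    jGL * ModularForm.heckeMatrix p a * jGL
      = mapGL ℝ ((unipGamma0 N e : Gamma0 N) : SL(2, ℤ)) * ModularForm.heckeMatrix p b := by
  have he' : (a : ℝ) + b = p * e := by exact_mod_cast he
  show jGL * ModularForm.heckeMatrix p a * jGL
      = mapGL ℝ (unipSL e) * ModularForm.heckeMatrix p b
  ext i j
  rw [Matrix.GeneralLinearGroup.coe_mul, Matrix.GeneralLinearGroup.coe_mul,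
    Matrix.GeneralLinearGroup.coe_mul, Matrix.mul_apply, Matrix.mul_apply]
  simp only [Matrix.mul_apply, Fin.sum_univ_two, jGL_apply, val_mapGL_unipSL,
    ModularForm.val_heckeMatrix hp]
  fin_cases i <;> fin_cases j <;> simp
  linear_combination -he'

theorem jGL_heckeDiagMatrix {p : ℕ} (hp : p ≠ 0) :
    jGL * ModularForm.heckeDiagMatrix p * jGL = ModularForm.heckeDiagMatrix p := by
  ext i j
  rw [Matrix.GeneralLinearGroup.coe_mul, Matrix.GeneralLinearGroup.coe_mul, Matrix.mul_apply]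
  simp only [Matrix.mul_apply, Fin.sum_univ_two, jGL_apply, ModularForm.val_heckeDiagMatrix hp]
  fin_cases i <;> fin_cases j <;> simp

theorem jGL_mul_jGL : jGL * jGL = 1 := by
  ext i j
  rw [Matrix.GeneralLinearGroup.coe_mul, Matrix.mul_apply]
  simp only [Fin.sum_univ_two, jGL_apply]
  fin_cases i <;> fin_cases j <;> simp

theorem jGL_conj_mul (a b : GL (Fin 2) ℝ) :
    jGL * (a * b) * jGL = (jGL * a * jGL) * (jGL * b * jGL) := by
  have h : (jGL * a * jGL) * (jGL * b * jGL) = jGL * a * (jGL * jGL) * b * jGL := by group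
  rw [h, jGL_mul_jGL]
  group

/-- Hecke data for `γ` gives Hecke data for `J γ J`, provided the representatives are stable under
conjugation by `J` up to left multiplication by `Γ₀(N)` and a permutation. -/
theorem IsHeckeData.jConj {N : ℕ} {ι : Type*} {α : ι → GL (Fin 2) ℝ}
    (ν : Equiv.Perm ι) (τ : ι → Gamma0 N)
    (hJ : ∀ x, jGL * α x * jGL = mapGL ℝ ((τ x : Gamma0 N) : SL(2, ℤ)) * α (ν x))
    {γ : Gamma0 N} {σ : Equiv.Perm ι} {γ' : ι → Gamma0 N} (hd : IsHeckeData α γ σ γ') :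
    IsHeckeData α (jConjGamma0 N γ) (ν.symm.trans (σ.trans ν))
      (fun y => (τ (ν.symm y))⁻¹ * jConjGamma0 N (γ' (ν.symm y)) * τ (σ (ν.symm y))) := by
  intro y
  obtain ⟨x, rfl⟩ := ν.surjective y
  simp only [Equiv.symm_apply_apply, Equiv.trans_apply]
  have h1 := congrArg (fun M => jGL * M * jGL) (hd x)
  simp only [jGL_conj_mul, jGL_mul_mapGL_mul_jGL, hJ] at h1
  apply mul_left_cancel (a := mapGL ℝ ((τ x : Gamma0 N) : SL(2, ℤ)))
  rw [← mul_assoc, jConjGamma0_coe, h1]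
  simp only [Subgroup.coe_mul, Subgroup.coe_inv, jConjGamma0_coe, map_mul, map_inv]
  group

theorem IsTransfer.charInv {N : ℕ} {ι : Type*} [Fintype ι] {A : Type*} [AddCommGroup A]
    (R : Type*) [Semiring R] [Module R A]
    {α : ι → GL (Fin 2) ℝ} (ν : Equiv.Perm ι) (τ : ι → Gamma0 N)
    (hJ : ∀ x, jGL * α x * jGL = mapGL ℝ ((τ x : Gamma0 N) : SL(2, ℤ)) * α (ν x))
    {ψ ψ' : Additive (Gamma0 N) →+ A} (h : IsTransfer α ψ ψ') :
    IsTransfer α (ModularCurve.Period.charInvolution N R A ψ) (ModularCurve.Period.charInvolution N R A ψ') := by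
  intro γ σ γ' hd
  have h2 := h _ _ _ (hd.jConj ν τ hJ)
  rw [charInvolution_apply, toMul_ofMul, h2]
  simp only [ofMul_mul, ofMul_inv, map_add, map_neg, charInvolution_apply, toMul_ofMul]
  rw [Finset.sum_add_distrib, Finset.sum_add_distrib, Finset.sum_neg_distrib]
  rw [Equiv.sum_comp ν.symm (fun x => ψ (Additive.ofMul (τ x))),
    Equiv.sum_comp ν.symm (fun x => ψ (Additive.ofMul (jConjGamma0 N (γ' x)))),
    Equiv.sum_comp ν.symm (fun x => ψ (Additive.ofMul (τ (σ x)))),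
    Equiv.sum_comp σ (fun x => ψ (Additive.ofMul (τ x)))]
  abel

open scoped OnePoint

/-- `x ↦ -x` on `ℙ¹(𝔽_p)`. -/
def negOnePoint (p : ℕ) : Equiv.Perm (OnePoint (ZMod p)) where
  toFun x := x.elim ∞ (fun j => ((-j : ZMod p) : OnePoint (ZMod p)))
  invFun x := x.elim ∞ (fun j => ((-j : ZMod p) : OnePoint (ZMod p)))
  left_inv x := by induction x using OnePoint.rec <;> simp
  right_inv x := by induction x using OnePoint.rec <;> simp

theorem exists_unip_heckeMatrix (N : ℕ) (p : ℕ) [NeZero p] (j : ZMod p) :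
    ∃ t : Gamma0 N, jGL * ModularForm.heckeMatrix p j.val * jGL
      = mapGL ℝ ((t : Gamma0 N) : SL(2, ℤ)) * ModularForm.heckeMatrix p (-j).val := by
  obtain ⟨e, he⟩ : (p : ℤ) ∣ (j.val : ℤ) + ((-j).val : ℤ) := by
    rw [← ZMod.intCast_zmod_eq_zero_iff_dvd]
    push_cast
    rw [ZMod.natCast_zmod_val, ZMod.natCast_zmod_val]
    ring
  exact ⟨unipGamma0 N e, jGL_heckeMatrix N (NeZero.ne p) _ _ e he⟩

theorem exists_jConj_heckeRep (N : ℕ) (p : ℕ) [NeZero p] :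
    ∃ (ν : Equiv.Perm (OnePoint (ZMod p))) (τ : OnePoint (ZMod p) → Gamma0 N),
      ∀ x, jGL * heckeRep p x * jGL
        = mapGL ℝ ((τ x : Gamma0 N) : SL(2, ℤ)) * heckeRep p (ν x) := by
  have key : ∀ x : OnePoint (ZMod p), ∃ t : Gamma0 N, jGL * heckeRep p x * jGL
        = mapGL ℝ ((t : Gamma0 N) : SL(2, ℤ)) * heckeRep p (negOnePoint p x) := by
    intro x
    induction x using OnePoint.rec with
    | infty =>
      refine ⟨1, ?_⟩
      show jGL * ModularForm.heckeDiagMatrix p * jGL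
        = mapGL ℝ (1 : SL(2, ℤ)) * ModularForm.heckeDiagMatrix p
      rw [jGL_heckeDiagMatrix (NeZero.ne p), map_one, one_mul]
    | coe j => exact exists_unip_heckeMatrix N p j
  choose τ hτ using key
  exact ⟨negOnePoint p, τ, hτ⟩

theorem exists_jConj_heckeMatrix (N : ℕ) (p : ℕ) [NeZero p] :
    ∃ (ν : Equiv.Perm (ZMod p)) (τ : ZMod p → Gamma0 N),
      ∀ x, jGL * ModularForm.heckeMatrix p x.val * jGL
        = mapGL ℝ ((τ x : Gamma0 N) : SL(2, ℤ)) * ModularForm.heckeMatrix p (ν x).val := by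
  choose τ hτ using exists_unip_heckeMatrix N p
  exact ⟨Equiv.neg (ZMod p), τ, hτ⟩

theorem IsTransfer.charInv_heckeRep {N : ℕ} {p : ℕ} [NeZero p] {A : Type*}
    [AddCommGroup A] (R : Type*) [Semiring R] [Module R A]
    {ψ ψ' : Additive (Gamma0 N) →+ A} (h : IsTransfer (heckeRep p) ψ ψ') :
    IsTransfer (heckeRep p) (ModularCurve.Period.charInvolution N R A ψ) (ModularCurve.Period.charInvolution N R A ψ') := by
  obtain ⟨ν, τ, hJ⟩ := exists_jConj_heckeRep N p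
  exact IsTransfer.charInv R ν τ hJ h

theorem IsTransfer.charInv_heckeMatrix {N : ℕ} {p : ℕ} [NeZero p] {A : Type*}
    [AddCommGroup A] (R : Type*) [Semiring R] [Module R A]
    {ψ ψ' : Additive (Gamma0 N) →+ A}
    (h : IsTransfer (fun x : ZMod p => ModularForm.heckeMatrix p x.val) ψ ψ') :
    IsTransfer (fun x : ZMod p => ModularForm.heckeMatrix p x.val)
      (ModularCurve.Period.charInvolution N R A ψ) (ModularCurve.Period.charInvolution N R A ψ') := by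
  obtain ⟨ν, τ, hJ⟩ := exists_jConj_heckeMatrix N p
  exact IsTransfer.charInv R ν τ hJ h

/-! ### The Eichler–Shimura pairing `periodHomPair` of S21 -/

/-- **JAC-G(c) for `periodHomPair`, `T_p` (`p ∤ N`).** -/
theorem isTransfer_periodHomPair_heckeT (N : ℕ) [NeZero N] {p : ℕ} [Fact p.Prime]
    (hpN : ¬ p ∣ N) (f g : CuspForm (Gamma0 N) 2) :
    IsTransfer (heckeRep p) (periodHomPair N (f, g))
      (periodHomPair N (CuspForm.heckeTLin 2 (Fact.out : p.Prime) hpN f,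
        CuspForm.heckeTLin 2 (Fact.out : p.Prime) hpN g)) := by
  rw [Fermat.Agent.S21.periodHomPair_apply, Fermat.Agent.S21.periodHomPair_apply,
    ← map_add, ← map_sub]
  exact IsTransfer.add (isTransfer_periodMap_heckeT N hpN (f + g))
    (IsTransfer.charInv_heckeRep ℂ (isTransfer_periodMap_heckeT N hpN (f - g)))

/-- **JAC-G(c) for `periodHomPair`, `U_p` (`p ∣ N`).** -/
theorem isTransfer_periodHomPair_heckeU (N : ℕ) [NeZero N] {p : ℕ} [NeZero p]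
    (hpN : p ∣ N) (f g : CuspForm (Gamma0 N) 2) :
    IsTransfer (fun x : ZMod p => ModularForm.heckeMatrix p x.val) (periodHomPair N (f, g))
      (periodHomPair N (CuspForm.heckeULin 2 hpN f, CuspForm.heckeULin 2 hpN g)) := by
  rw [Fermat.Agent.S21.periodHomPair_apply, Fermat.Agent.S21.periodHomPair_apply,
    ← map_add, ← map_sub]
  exact IsTransfer.add (isTransfer_periodMap_heckeU N hpN (f + g))
    (IsTransfer.charInv_heckeMatrix ℂ (isTransfer_periodMap_heckeU N hpN (f - g)))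

end Fermat.Agent.ESJ.Jac.PeriodHecke
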