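import Mathlib
import Fermat.Agent.ESJ.Dict.Defs
import Fermat.Agent.ESJ.Jac.Multiplier
import Fermat.Agent.ESJ.Jac.Kummer
import Fermat.Agent.S24.Mer
import Fermat.Agent.S24.KumDefs
import Fermat.Agent.S24.DictFull

/-!
# ESJ / JAC-REL: the two forms of the Kummer relation agree

* `IsKummerChar ι N n f χ` (Jac/Defs): `χ` is the multiplier of a meromorphic `n`-th root
  `h : ℂ → ℂ` (in normal form on `U`) of the meromorphic function `merK ι N f`;
* `KumRelK ι N n f χ` (pair form, here for a general coefficient field; for `K = ℚ̄` it is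
  `S24.Kum.KumRel` by definition): `f = fm P / fm Q ≠ 0` and a holomorphic `a ≠ 0` on `ℍ` with
  `ev P * ev Q ^ n = ev Q * a ^ n`, such that `a / ev Q` has multiplier `χ`.

`kumRelK_iff_isKummerChar` : for `f ≠ 0` the two relations are equivalent (given the analytic
dictionary `IsDict ι N`).
-/

set_option autoImplicit false

open UpperHalfPlane Complex Filter Topology CongruenceSubgroup
open scoped MatrixGroups Manifold

noncomputable section

namespace Fermat.Agent.ESJ.Jac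

open Fermat.Agent.S24 Fermat.Agent.Lib.Analysis.NthRoot Fermat.Agent.ESJ.Dict
open Fermat.Agent.Lib.UHP

/-- The Kummer relation in pair form, for a coefficient field `K` with embedding `ι : K →+* ℂ`. -/
def KumRelK {K : Type} [Field K] [Algebra ℚ K] (ι : K →+* ℂ) (N n : ℕ) [NeZero N] (f : FNK K N)
    (χ : Gamma0 N →* ℂˣ) : Prop :=
  ∃ (P Q : MvPolynomial (Dv N) K) (a : ℍ → ℂ), IsRepK N f P Q ∧ f ≠ 0 ∧ MDiff a ∧ a ≠ 0 ∧
    (∀ z : ℍ, evK ι N P z * evK ι N Q z ^ n = evK ι N Q z * a z ^ n) ∧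
    ∀ γ : Gamma0 N, HasMult a (evK ι N Q) (γ : SL(2, ℤ)) ((χ γ : ℂˣ) : ℂ)

namespace RelAux

/-- A set which is codiscrete within `U` is a punctured neighbourhood of every point of `U`. -/
theorem mem_nhdsNE_of_mem_codiscreteWithin {s : Set ℂ} (hs : s ∈ codiscreteWithin U) {z : ℂ}
    (hz : z ∈ U) : s ∈ 𝓝[≠] z := by
  rw [mem_codiscreteWithin] at hs
  have h2 := hs z hz
  rw [Filter.disjoint_principal_right] at h2
  have h3 : U ∈ 𝓝[≠] z := mem_nhdsWithin_of_mem_nhds (isOpen_U.mem_nhds hz)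
  filter_upwards [h2, h3] with y hy hyU
  by_contra hne
  exact hy ⟨hyU, hne⟩

/-- A nonzero holomorphic function on `ℍ` is nonzero on punctured neighbourhoods. -/
theorem eventually_ne_zero {G : ℍ → ℂ} (hG : MDiff G) (h0 : G ≠ 0) {z : ℂ} (hz : z ∈ U) :
    ∀ᶠ w in 𝓝[≠] z, G (ofComplex w) ≠ 0 :=
  mem_nhdsNE_of_mem_codiscreteWithin (Mer.ne_zero_mem_codiscreteWithin hG h0) hz

end RelAux

open RelAux

section Main

variable {K : Type} [Field K] [Algebra ℚ K] {ι : K →+* ℂ} {N : ℕ} [NeZero N]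

/-- From the pair form to the meromorphic form. -/
theorem isKummerChar_of_kumRelK (hD : IsDict ι N) {n : ℕ} {f : FNK K N}
    {χ : Gamma0 N →* ℂˣ} (h : KumRelK ι N n f χ) : IsKummerChar ι N n f χ := by
  obtain ⟨P, Q, a, hrep, -, ha, -, hpow, hmult⟩ := h
  have hQ0 : evK ι N Q ≠ 0 := fun h0 => hrep.1 ((hD.fmK_eq_zero_iff Q).2 h0)
  set A : ℂ → ℂ := fun z => a (ofComplex z) with hAdef
  set B : ℂ → ℂ := fun z => evK ι N Q (ofComplex z) with hBdef
  set h₀ : ℂ → ℂ := fun z => A z / B z with hh₀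
  have hA : ∀ z ∈ U, AnalyticAt ℂ A z := fun z hz => Mer.analyticAt_comp_ofComplex ha hz
  have hB : ∀ z ∈ U, AnalyticAt ℂ B z := fun z hz =>
    Mer.analyticAt_comp_ofComplex (hD.mdiff_evK Q) hz
  have hmer : MeromorphicOn h₀ U := fun z hz =>
    (hA z hz).meromorphicAt.div (hB z hz).meromorphicAt
  have hNF : MeromorphicNFOn (toMeromorphicNFOn h₀ U) U := meromorphicNFOn_toMeromorphicNFOn _ _
  refine ⟨toMeromorphicNFOn h₀ U, ⟨hNF, fun z hz => ?_⟩, ?_⟩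
  · have e0 := hmer.toMeromorphicNFOn_eq_self_on_nhdsNE hz
    have e1 := Kummer.eventuallyEq_nhdsNE_of_codiscreteWithin (hD.merK_eq_div_ae f P Q hrep) hz
    have e2 : ∀ᶠ w in 𝓝[≠] z, B w ≠ 0 := eventually_ne_zero (hD.mdiff_evK Q) hQ0 hz
    filter_upwards [e0, e1, e2] with w hw0 hw1 hw2
    simp only [Pi.pow_apply]
    rw [hw0, hw1]
    have h3 := hpow (ofComplex w)
    show (a (ofComplex w) / evK ι N Q (ofComplex w)) ^ n
      = evK ι N P (ofComplex w) / evK ι N Q (ofComplex w)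
    have hw2' : evK ι N Q (ofComplex w) ≠ 0 := hw2
    rw [div_pow, div_eq_div_iff (pow_ne_zero n hw2') hw2']
    linear_combination -h3
  · intro γ
    have hc : ((χ γ : ℂˣ) : ℂ) ≠ 0 := Units.ne_zero _
    have hpt : ∀ w ∈ U, h₀ (mob (γ : SL(2, ℤ)) w) = ((χ γ : ℂˣ) : ℂ) * h₀ w := by
      intro w hw
      show a (ofComplex (mob (γ : SL(2, ℤ)) w)) / evK ι N Q (ofComplex (mob (γ : SL(2, ℤ)) w))
        = ((χ γ : ℂˣ) : ℂ) * (a (ofComplex w) / evK ι N Q (ofComplex w))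
      rw [Mer.ofComplex_mob _ hw, hD.evK_smul_Gamma0 Q γ γ.2]
      by_cases hq : evK ι N Q (ofComplex w) = 0
      · rw [hq]
        simp
      · have h3 := hmult γ (ofComplex w)
        rw [hD.evK_smul_Gamma0 Q γ γ.2] at h3
        have h4 : a ((γ : SL(2, ℤ)) • ofComplex w) = ((χ γ : ℂˣ) : ℂ) * a (ofComplex w) := by
          apply mul_right_cancel₀ hq
          rw [h3]
          ring
        rw [h4, mul_div_assoc]
    exact comp_mob_eq_of_eventuallyEq hNF (γ : SL(2, ℤ)) hc (fun z hz => by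
      have e0 := hmer.toMeromorphicNFOn_eq_self_on_nhdsNE hz
      have e1 := (tendsto_mob_nhdsNE (γ : SL(2, ℤ)) hz).eventually
        (hmer.toMeromorphicNFOn_eq_self_on_nhdsNE (mob_mem_U (γ : SL(2, ℤ)) hz))
      filter_upwards [e0, e1, eventually_nhdsWithin_of_eventually_nhds (isOpen_U.mem_nhds hz)]
        with w hw0 hw1 hwU
      simp only [Function.comp_apply] at hw0 hw1 ⊢
      rw [hw1, hw0, hpt w hwU])

/-- From the meromorphic form to the pair form. -/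
theorem kumRelK_of_isKummerChar (hD : IsDict ι N) {n : ℕ} (hn : 0 < n) {f : FNK K N}
    (hf : f ≠ 0) {χ : Gamma0 N →* ℂˣ} (h : IsKummerChar ι N n f χ) : KumRelK ι N n f χ := by
  obtain ⟨h₁, hroot, hmult⟩ := h
  obtain ⟨P, Q, hrep⟩ := hD.exists_isRepK f
  have hQ0 : evK ι N Q ≠ 0 := fun h0 => hrep.1 ((hD.fmK_eq_zero_iff Q).2 h0)
  have hP0 : evK ι N P ≠ 0 := by
    intro h0
    have h1 : fmK K N P = 0 := (hD.fmK_eq_zero_iff P).2 h0
    apply hf
    rw [hrep.2, h1, zero_div]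
  set B : ℂ → ℂ := fun z => evK ι N Q (ofComplex z) with hBdef
  set P' : ℂ → ℂ := fun z => evK ι N P (ofComplex z) with hP'def
  have hB : ∀ z ∈ U, AnalyticAt ℂ B z := fun z hz =>
    Mer.analyticAt_comp_ofComplex (hD.mdiff_evK Q) hz
  have hP' : ∀ z ∈ U, AnalyticAt ℂ P' z := fun z hz =>
    Mer.analyticAt_comp_ofComplex (hD.mdiff_evK P) hz
  set a₀ : ℂ → ℂ := fun z => h₁ z * B z with ha₀
  have hmer : MeromorphicOn a₀ U := fun z hz =>
    (hroot.1 hz).meromorphicAt.mul (hB z hz).meromorphicAt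
  set a₁ : ℂ → ℂ := toMeromorphicNFOn a₀ U with ha₁
  have hNF : MeromorphicNFOn a₁ U := meromorphicNFOn_toMeromorphicNFOn _ _
  obtain ⟨k, rfl⟩ : ∃ k, n = k + 1 := ⟨n - 1, by omega⟩
  set G : ℂ → ℂ := fun z => P' z * B z ^ k with hGdef
  have hG : ∀ z ∈ U, AnalyticAt ℂ G z := fun z hz => (hP' z hz).mul ((hB z hz).pow _)
  have hrootG : IsRootOn (k + 1) G a₁ U := by
    refine ⟨hNF, fun z hz => ?_⟩
    have e0 : a₁ =ᶠ[𝓝[≠] z] a₀ := hmer.toMeromorphicNFOn_eq_self_on_nhdsNE hz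
    have e1 := hroot.2 z hz
    have e2 := Kummer.eventuallyEq_nhdsNE_of_codiscreteWithin (hD.merK_eq_div_ae f P Q hrep) hz
    have e3 : ∀ᶠ w in 𝓝[≠] z, B w ≠ 0 := eventually_ne_zero (hD.mdiff_evK Q) hQ0 hz
    filter_upwards [e0, e1, e2, e3] with w hw0 hw1 hw2 hw3
    simp only [Pi.pow_apply] at hw1 ⊢
    rw [hw0]
    show (h₁ w * B w) ^ (k + 1) = P' w * B w ^ k
    rw [mul_pow, hw1, hw2]
    show P' w / B w * B w ^ (k + 1) = P' w * B w ^ k
    field_simp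
    ring
  have han : ∀ z ∈ U, AnalyticAt ℂ a₁ z := fun z hz => hrootG.analyticAt hn.ne' hz (hG z hz)
  have hpw : ∀ τ : ℍ, a₁ (τ : ℂ) ^ (k + 1) = evK ι N P τ * evK ι N Q τ ^ k := by
    intro τ
    have h1 := hrootG.pow_eq hn.ne' (coe_mem_U τ) (hG _ (coe_mem_U τ))
    rw [h1]
    show evK ι N P (ofComplex (τ : ℂ)) * evK ι N Q (ofComplex (τ : ℂ)) ^ k = _
    rw [ofComplex_apply]
  refine ⟨P, Q, fun τ => a₁ (τ : ℂ), hrep, hf, ?_, ?_, ?_, ?_⟩
  · rw [UpperHalfPlane.mdifferentiable_iff]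
    have hd : DifferentiableOn ℂ a₁ {z : ℂ | 0 < z.im} := fun z hz =>
      (han z hz).differentiableAt.differentiableWithinAt
    refine hd.congr (fun z hz => ?_)
    simp only [Function.comp_apply]
    rw [ofComplex_apply_of_im_pos hz]
  · obtain ⟨τ, hτ⟩ := exists_mul_ne_zero (hD.mdiff_evK P) (hD.mdiff_evK Q) hP0 hQ0
    intro h0
    have h1 := hpw τ
    have h2 : a₁ (τ : ℂ) = 0 := congrFun h0 τ
    rw [h2, zero_pow (Nat.succ_ne_zero k)] at h1
    have h3 : evK ι N P τ ≠ 0 := left_ne_zero_of_mul hτ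
    have h4 : evK ι N Q τ ≠ 0 := right_ne_zero_of_mul hτ
    exact mul_ne_zero h3 (pow_ne_zero k h4) h1.symm
  · intro τ
    show evK ι N P τ * evK ι N Q τ ^ (k + 1) = evK ι N Q τ * a₁ (τ : ℂ) ^ (k + 1)
    rw [hpw τ]
    ring
  · intro γ τ
    have hc : ((χ γ : ℂˣ) : ℂ) ≠ 0 := Units.ne_zero _
    have key := comp_mob_eq_of_eventuallyEq hNF (γ : SL(2, ℤ)) hc (fun z hz => by
      have e0 : a₁ =ᶠ[𝓝[≠] z] a₀ := hmer.toMeromorphicNFOn_eq_self_on_nhdsNE hz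
      have e1 : ∀ᶠ w in 𝓝[≠] z, a₁ (mob (γ : SL(2, ℤ)) w) = a₀ (mob (γ : SL(2, ℤ)) w) :=
        (tendsto_mob_nhdsNE (γ : SL(2, ℤ)) hz).eventually
          (hmer.toMeromorphicNFOn_eq_self_on_nhdsNE (mob_mem_U (γ : SL(2, ℤ)) hz))
      filter_upwards [e0, e1, eventually_nhdsWithin_of_eventually_nhds (isOpen_U.mem_nhds hz)]
        with w hw0 hw1 hwU
      simp only [Function.comp_apply] at hw0 hw1 ⊢
      rw [hw1, hw0]
      show h₁ (mob (γ : SL(2, ℤ)) w) * evK ι N Q (ofComplex (mob (γ : SL(2, ℤ)) w))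
        = ((χ γ : ℂˣ) : ℂ) * (h₁ w * evK ι N Q (ofComplex w))
      rw [hmult γ w hwU, Mer.ofComplex_mob _ hwU, hD.evK_smul_Gamma0 Q γ γ.2]
      ring)
    show a₁ ((((γ : SL(2, ℤ)) • τ : ℍ) : ℂ)) * evK ι N Q τ
      = ((χ γ : ℂˣ) : ℂ) * (a₁ (τ : ℂ) * evK ι N Q ((γ : SL(2, ℤ)) • τ))
    rw [← mob_coe, key _ (coe_mem_U τ), hD.evK_smul_Gamma0 Q γ γ.2]
    ring

/-- **The two forms of the Kummer relation agree.** -/
theorem kumRelK_iff_isKummerChar (hD : IsDict ι N) {n : ℕ} (hn : 0 < n) {f : FNK K N}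
    {χ : Gamma0 N →* ℂˣ} : KumRelK ι N n f χ ↔ f ≠ 0 ∧ IsKummerChar ι N n f χ :=
  ⟨fun h => ⟨h.choose_spec.choose_spec.choose_spec.2.1, isKummerChar_of_kumRelK hD h⟩,
    fun h => kumRelK_of_isKummerChar hD hn h.1 h.2⟩

end Main

/-! ### The coefficient field `ℚ̄` (S24 vocabulary) -/

/-- For `K = ℚ̄` the generic pair form is S24's `KumRel`, by definition. -/
theorem kumRelK_iff_kumRel {N : ℕ} [NeZero N] {n : ℕ} {f : FN N} {χ : Gamma0 N →* ℂˣ} :
    KumRelK iotaK N n f χ ↔ Kum.KumRel N n f χ := Iff.rfl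

/-- **JAC-REL over `ℚ̄`**: the pair-form Kummer relation of S24 is the meromorphic one. -/
theorem kumRel_iff_isKummerChar {N : ℕ} [NeZero N] {n : ℕ} (hn : 0 < n) {f : FN N}
    {χ : Gamma0 N →* ℂˣ} : Kum.KumRel N n f χ ↔ f ≠ 0 ∧ IsKummerChar iotaK N n f χ :=
  kumRelK_iff_kumRel.symm.trans (kumRelK_iff_isKummerChar (DictInst.isDict N) hn)

end Fermat.Agent.ESJ.Jac
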