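import Mathlib
import Fermat.Agent.ESJ.Jac.Rel
import Fermat.Agent.S24C.KumDefs
import Fermat.Agent.S24C.DictFull

/-!
# ESJ / JAC-REL over `ℂ`: the two forms of the Kummer relation agree

The `ℂ`-instance of `kumRelK_iff_isKummerChar` (Jac/Rel.lean): the pair-form relation
`S24C.Kum.KumRel` is the meromorphic relation `IsKummerChar (RingHom.id ℂ)`.
-/

set_option autoImplicit false

open UpperHalfPlane CongruenceSubgroup
open scoped MatrixGroups

noncomputable section

namespace Fermat.Agent.ESJ.Jac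

/-- For `K = ℂ` the generic pair form is S24C's `KumRel`, by definition. -/
theorem kumRelK_iff_kumRelC {N : ℕ} [NeZero N] {n : ℕ} {f : S24C.FN N}
    {χ : Gamma0 N →* ℂˣ} : KumRelK (RingHom.id ℂ) N n f χ ↔ S24C.Kum.KumRel N n f χ := Iff.rfl

/-- **JAC-REL over `ℂ`**: the pair-form Kummer relation of S24C is the meromorphic one. -/
theorem kumRelC_iff_isKummerChar {N : ℕ} [NeZero N] {n : ℕ} (hn : 0 < n) {f : S24C.FN N}
    {χ : Gamma0 N →* ℂˣ} :
    S24C.Kum.KumRel N n f χ ↔ f ≠ 0 ∧ IsKummerChar (RingHom.id ℂ) N n f χ :=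
  kumRelK_iff_kumRelC.symm.trans (kumRelK_iff_isKummerChar (S24C.DictInst.isDict N) hn)

end Fermat.Agent.ESJ.Jac
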