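import Mathlib

/-!
# JAC-TORS: bookkeeping in `SL(2, ℤ)` (K-independent)

* `exists_fixed_or_parabolic`: an element `γ` with `tr(γ)² ≤ 4` is `±1`, fixes a point of `ℍ`,
  or is `±` a conjugate `g⁻¹ T^k g` of a power of `T`;
* `exists_width`: for every `g` the set `{k | g⁻¹ T^k g ∈ Γ₀(N)}` is `w ℤ` with `0 < w ∣ N`.
-/

set_option autoImplicit false

open UpperHalfPlane CongruenceSubgroup ModularGroup
open scoped MatrixGroups

noncomputable section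

namespace Fermat.Agent.ESJ.Jac

namespace SL2Class

theorem det_eq (γ : SL(2, ℤ)) : γ 0 0 * γ 1 1 - γ 0 1 * γ 1 0 = 1 := by
  have := γ.det_coe
  rw [Matrix.det_fin_two] at this
  exact this

/-- Two elements of `SL(2, ℤ)` with the same bottom row differ by a power of `T` on the left. -/
theorem exists_T_zpow_mul (δ δ' : SL(2, ℤ)) (hc : δ' 1 0 = δ 1 0) (hd : δ' 1 1 = δ 1 1) :
    ∃ m : ℤ, δ' = T ^ m * δ := by
  have hdet := det_eq δ
  have hdet' := det_eq δ'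
  rw [hc, hd] at hdet'
  refine ⟨δ 0 0 * δ' 0 1 - δ' 0 0 * δ 0 1, ?_⟩
  ext i j
  fin_cases i <;> fin_cases j
  · simp only [Fin.zero_eta, Matrix.SpecialLinearGroup.coe_mul, ModularGroup.coe_T_zpow,
      Matrix.mul_apply, Fin.sum_univ_two, Matrix.of_apply, Matrix.cons_val_zero,
      Matrix.cons_val_one]
    linear_combination (δ 0 0) * hdet' - (δ' 0 0) * hdet
  · simp only [Fin.zero_eta, Fin.mk_one, Matrix.SpecialLinearGroup.coe_mul,
      ModularGroup.coe_T_zpow, Matrix.mul_apply, Fin.sum_univ_two, Matrix.of_apply,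
      Matrix.cons_val_zero, Matrix.cons_val_one]
    linear_combination (δ 0 1) * hdet' - (δ' 0 1) * hdet
  · simp only [Fin.zero_eta, Fin.mk_one, Matrix.SpecialLinearGroup.coe_mul,
      ModularGroup.coe_T_zpow, Matrix.mul_apply, Fin.sum_univ_two, Matrix.of_apply,
      Matrix.cons_val_zero, Matrix.cons_val_one]
    linear_combination hc
  · simp only [Fin.mk_one, Matrix.SpecialLinearGroup.coe_mul,
      ModularGroup.coe_T_zpow, Matrix.mul_apply, Fin.sum_univ_two, Matrix.of_apply,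
      Matrix.cons_val_zero, Matrix.cons_val_one]
    linear_combination hd

/-- An element of trace `2` is conjugate to a power of `T`. -/
theorem exists_conj_of_trace_two (γ : SL(2, ℤ)) (ht : γ 0 0 + γ 1 1 = 2) :
    ∃ (g : SL(2, ℤ)) (k : ℤ), γ = g⁻¹ * T ^ k * g := by
  have hdet := det_eq γ
  by_cases h0 : γ 1 0 = 0 ∧ γ 0 0 = 1
  · obtain ⟨hc, ha⟩ := h0
    have hd : γ 1 1 = 1 := by linarith
    obtain ⟨m, hm⟩ := exists_T_zpow_mul 1 γ (by simpa using hc) (by simpa using hd)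
    exact ⟨1, m, by rw [hm]; simp⟩
  · set d₀ : ℕ := Int.gcd (γ 1 0) (1 - γ 0 0) with hd₀
    have hd₀ne : d₀ ≠ 0 := by
      intro h
      rw [hd₀, Int.gcd_eq_zero_iff] at h
      exact h0 ⟨h.1, by linarith [h.2]⟩
    have hd₀Z : (d₀ : ℤ) ≠ 0 := by exact_mod_cast hd₀ne
    obtain ⟨c', hc'⟩ : (d₀ : ℤ) ∣ γ 1 0 := Int.gcd_dvd_left _ _
    obtain ⟨a', ha'⟩ : (d₀ : ℤ) ∣ 1 - γ 0 0 := Int.gcd_dvd_right _ _
    have hcop : IsCoprime c' a' := by
      rw [Int.isCoprime_iff_gcd_eq_one]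
      have h1 : d₀ = d₀ * Int.gcd c' a' := by
        conv_lhs => rw [hd₀, hc', ha', Int.gcd_mul_left]
        simp
      have h2 : d₀ * Int.gcd c' a' = d₀ * 1 := by rw [mul_one]; exact h1.symm
      exact Nat.eq_of_mul_eq_mul_left (Nat.pos_of_ne_zero hd₀ne) h2
    obtain ⟨g, -, hg⟩ := bottom_row_surj (R := ℤ)
      (show ![c', a'] ∈ {cd : Fin 2 → ℤ | IsCoprime (cd 0) (cd 1)} by simpa using hcop)
    have hg0 : g 1 0 = c' := by
      have := congrFun hg 0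
      simpa using this
    have hg1 : g 1 1 = a' := by
      have := congrFun hg 1
      simpa using this
    have hr0 : (g * γ) 1 0 = g 1 0 := by
      rw [Matrix.SpecialLinearGroup.coe_mul, Matrix.mul_apply, Fin.sum_univ_two, hg0, hg1]
      apply mul_left_cancel₀ hd₀Z
      linear_combination (-(d₀ : ℤ) * c') * ha' + ((d₀ : ℤ) * a') * hc'
    have hr1 : (g * γ) 1 1 = g 1 1 := by
      rw [Matrix.SpecialLinearGroup.coe_mul, Matrix.mul_apply, Fin.sum_univ_two, hg0, hg1]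
      apply mul_left_cancel₀ hd₀Z
      linear_combination (-γ 0 1) * hc' + (1 - γ 1 1) * ha' - hdet + ht
    obtain ⟨m, hm⟩ := exists_T_zpow_mul g (g * γ) hr0 hr1
    exact ⟨g, m, by rw [mul_assoc, ← hm, inv_mul_cancel_left]⟩

/-- An element of trace `0` or `±1` has a fixed point in `ℍ`. -/
theorem exists_fixed_of_abs_trace_le_one (γ : SL(2, ℤ)) (h1 : -1 ≤ γ 0 0 + γ 1 1)
    (h2 : γ 0 0 + γ 1 1 ≤ 1) : ∃ τ : ℍ, γ • τ = τ := by
  have hdet := det_eq γ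
  have hc : γ 1 0 ≠ 0 := by
    intro hc0
    rw [hc0, mul_zero, sub_zero] at hdet
    nlinarith [sq_nonneg (γ 0 0 - γ 1 1)]
  have hcR : (γ 1 0 : ℝ) ≠ 0 := by exact_mod_cast hc
  have hD : (0 : ℝ) < 4 - ((γ 0 0 : ℝ) + γ 1 1) ^ 2 := by
    have h3 : ((γ 0 0 : ℝ) + γ 1 1) ^ 2 ≤ 1 := by
      have h4 : (γ 0 0 + γ 1 1) ^ 2 ≤ 1 := by nlinarith
      exact_mod_cast h4
    linarith
  set x : ℝ := ((γ 0 0 : ℝ) - γ 1 1) / (2 * γ 1 0) with hx
  set y : ℝ := Real.sqrt (4 - ((γ 0 0 : ℝ) + γ 1 1) ^ 2) / (2 * |(γ 1 0 : ℝ)|) with hy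
  have hypos : 0 < y := by
    rw [hy]
    exact div_pos (Real.sqrt_pos.mpr hD) (by positivity)
  have E1 : 2 * (γ 1 0 : ℝ) * x = γ 0 0 - γ 1 1 := by
    rw [hx]
    field_simp
  have E2 : 4 * (γ 1 0 : ℝ) ^ 2 * y ^ 2 = 4 - ((γ 0 0 : ℝ) + γ 1 1) ^ 2 := by
    rw [hy, div_pow, Real.sq_sqrt hD.le, mul_pow, sq_abs]
    field_simp
    norm_num
  have E4 : (γ 0 0 : ℝ) * γ 1 1 - γ 0 1 * γ 1 0 = 1 := by exact_mod_cast hdet
  have E1' : 2 * (γ 1 0 : ℂ) * x = γ 0 0 - γ 1 1 := by exact_mod_cast E1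
  have E2' : 4 * (γ 1 0 : ℂ) ^ 2 * (y : ℂ) ^ 2 = 4 - ((γ 0 0 : ℂ) + γ 1 1) ^ 2 := by
    exact_mod_cast E2
  have E4' : (γ 0 0 : ℂ) * γ 1 1 - γ 0 1 * γ 1 0 = 1 := by exact_mod_cast E4
  have E3 : Complex.I ^ 2 = -1 := Complex.I_sq
  have him : 0 < ((x : ℂ) + (y : ℂ) * Complex.I).im := by simpa using hypos
  refine ⟨⟨(x : ℂ) + (y : ℂ) * Complex.I, him⟩, UpperHalfPlane.ext ?_⟩
  rw [coe_specialLinearGroup_apply]
  simp only [eq_intCast, Complex.ofReal_intCast]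
  have hden : (γ 1 0 : ℂ) * ((x : ℂ) + (y : ℂ) * Complex.I) + (γ 1 1 : ℂ) ≠ 0 := by
    intro h
    have h3 := congrArg Complex.im h
    simp at h3
    rcases h3 with h3 | h3
    · exact hc h3
    · exact hypos.ne' h3
  change ((γ 0 0 : ℂ) * ((x : ℂ) + (y : ℂ) * Complex.I) + (γ 0 1 : ℂ)) /
    ((γ 1 0 : ℂ) * ((x : ℂ) + (y : ℂ) * Complex.I) + (γ 1 1 : ℂ)) =
    (x : ℂ) + (y : ℂ) * Complex.I
  rw [div_eq_iff hden]
  have h4c : (4 * (γ 1 0 : ℂ)) ≠ 0 := by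
    have : (γ 1 0 : ℂ) ≠ 0 := by exact_mod_cast hc
    exact mul_ne_zero (by norm_num) this
  apply mul_left_cancel₀ h4c
  linear_combination (-(2 * (γ 1 0 : ℂ) * x - ((γ 0 0 : ℂ) - γ 1 1) +
    4 * (γ 1 0 : ℂ) * y * Complex.I)) * E1' + E2' - 4 * (γ 1 0 : ℂ) ^ 2 * (y : ℂ) ^ 2 * E3 -
    4 * E4'

/-- The lower left entry of `g⁻¹ T^k g`. -/
theorem conj_T_zpow_apply (g : SL(2, ℤ)) (k : ℤ) :
    (g⁻¹ * T ^ k * g) 1 0 = -(g 1 0 ^ 2 * k) := by
  simp only [Matrix.SpecialLinearGroup.coe_mul, Matrix.SpecialLinearGroup.coe_inv,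
    Matrix.adjugate_fin_two, ModularGroup.coe_T_zpow, Matrix.mul_apply,
    Fin.sum_univ_two, Matrix.of_apply, Matrix.cons_val_zero, Matrix.cons_val_one,
    Matrix.cons_val', Matrix.cons_val_fin_one]
  ring

end SL2Class

/-- **Classification of the elements with `tr² ≤ 4`.** -/
theorem exists_fixed_or_parabolic (γ : SL(2, ℤ))
    (h : (γ : Matrix (Fin 2) (Fin 2) ℤ).trace ^ 2 ≤ 4) :
    γ = 1 ∨ γ = -1 ∨ (∃ τ : ℍ, γ • τ = τ) ∨
      ∃ (g : SL(2, ℤ)) (k : ℤ), γ = g⁻¹ * T ^ k * g ∨ γ = -(g⁻¹ * T ^ k * g) := by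
  rw [Matrix.trace_fin_two] at h
  have h1 : -2 ≤ γ 0 0 + γ 1 1 := by nlinarith
  have h2 : γ 0 0 + γ 1 1 ≤ 2 := by nlinarith
  rcases eq_or_lt_of_le h2 with h3 | h3
  · obtain ⟨g, k, hk⟩ := SL2Class.exists_conj_of_trace_two γ h3
    exact Or.inr (Or.inr (Or.inr ⟨g, k, Or.inl hk⟩))
  rcases eq_or_lt_of_le h1 with h4 | h4
  · obtain ⟨g, k, hk⟩ := SL2Class.exists_conj_of_trace_two (-γ) (by
      simp only [Matrix.SpecialLinearGroup.coe_neg, Matrix.neg_apply]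
      linarith)
    exact Or.inr (Or.inr (Or.inr ⟨g, k, Or.inr (neg_eq_iff_eq_neg.mp hk)⟩))
  · exact Or.inr (Or.inr (Or.inl
      (SL2Class.exists_fixed_of_abs_trace_le_one γ (by omega) (by omega))))

/-- **The width of a cusp.** -/
theorem exists_width (N : ℕ) [NeZero N] (g : SL(2, ℤ)) :
    ∃ w : ℕ, 0 < w ∧ w ∣ N ∧ g⁻¹ * T ^ w * g ∈ Gamma0 N ∧
      ∀ k : ℤ, g⁻¹ * T ^ k * g ∈ Gamma0 N → (w : ℤ) ∣ k := by
  have hN : N ≠ 0 := NeZero.ne N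
  set d : ℕ := Int.gcd (N : ℤ) (g 1 0 ^ 2) with hd
  have hdne : d ≠ 0 := by
    intro h
    rw [hd, Int.gcd_eq_zero_iff] at h
    exact hN (by exact_mod_cast h.1)
  have hdZ : (d : ℤ) ≠ 0 := by exact_mod_cast hdne
  obtain ⟨w, hw⟩ : (d : ℤ) ∣ (N : ℤ) := Int.gcd_dvd_left _ _
  obtain ⟨c₂, hc₂⟩ : (d : ℤ) ∣ g 1 0 ^ 2 := Int.gcd_dvd_right _ _
  have hcop : Int.gcd w c₂ = 1 := by
    have h1 : d = d * Int.gcd w c₂ := by
      conv_lhs => rw [hd, hw, hc₂, Int.gcd_mul_left]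
      simp
    have h2 : d * Int.gcd w c₂ = d * 1 := by rw [mul_one]; exact h1.symm
    exact Nat.eq_of_mul_eq_mul_left (Nat.pos_of_ne_zero hdne) h2
  have hwpos : 0 < w := by
    have h1 : (0 : ℤ) < d * w := by rw [← hw]; exact_mod_cast Nat.pos_of_ne_zero hN
    have h2 : (0 : ℤ) < d := by exact_mod_cast Nat.pos_of_ne_zero hdne
    by_contra hneg
    push Not at hneg
    nlinarith
  obtain ⟨w', rfl⟩ := Int.eq_ofNat_of_zero_le hwpos.le
  have hmem : ∀ k : ℤ, g⁻¹ * T ^ k * g ∈ Gamma0 N ↔ ((w' : ℕ) : ℤ) ∣ k := by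
    intro k
    rw [Gamma0_mem, SL2Class.conj_T_zpow_apply, ZMod.intCast_zmod_eq_zero_iff_dvd, dvd_neg, hw,
      hc₂, mul_assoc, mul_dvd_mul_iff_left hdZ]
    constructor
    · intro h
      exact Int.dvd_of_dvd_mul_right_of_gcd_one h hcop
    · intro h
      exact h.mul_left c₂
  refine ⟨w', by exact_mod_cast hwpos, ?_, ?_, fun k hk => (hmem k).mp hk⟩
  · exact Int.natCast_dvd_natCast.mp ⟨d, by rw [hw]; ring⟩
  · have := (hmem (w' : ℤ)).mpr dvd_rfl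
    rwa [zpow_natCast] at this

end Fermat.Agent.ESJ.Jac

end
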